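import Mathlib
import Fermat.Prelude.Def_GaloisRep_LocalConditions

/-!
# S33, step (A): the algebra

`isOrdinaryAt_of_pointwise`: a `GaloisRepAdic A` over a local ring `A` is ordinary at `p`
(in the prelude's sense) as soon as

* its residual representation is ordinary at `p`,
* for every place `P ∣ p` some element of the inertia group `I_P` acts non-trivially on the
  residual representation (true when `p` is odd and the determinant is cyclotomic),
* (POINTWISE) for every place `P ∣ p` and every `t ≠ 0` in `A` there are a field `Ω`, a ring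
  homomorphism `x : A → Ω` with `x t ≠ 0` and a nonzero `x`-semilinear `I_P`-invariant
  functional `V → Ω`.

Proof. `M :=` the `A`-span of `(σ − 1)V`, `σ ∈ I_P`. It is `D_P`-stable as `I_P` is normal in
`D_P`. Its image in `V̄` is the line `L̄`, so there is a basis `(m₀, v₁)` of `V` with `m₀ ∈ M`
(Nakayama). If `m = a m₀ + c v₁ ∈ M` then `c V ⊆ M`, so `c = 0` by (POINTWISE): `M = A m₀`.
-/

set_option autoImplicit false

namespace Fermat.Agent.S33

open scoped TensorProduct

section core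

variable {A : Type*} [CommRing A] [IsLocalRing A] {V : Type*} [AddCommGroup V] [Module A V]
  [Module.Finite A V]

/-- The abstract core: a submodule `M` of a free module of rank 2 over a local ring, whose image
in `k ⊗ V` is a nonzero part of a line spanned by a basis vector, and such that `V / M` is
faithful, is spanned by the first vector of a basis. -/
theorem exists_basis_span_eq (hV : Module.finrank A V = 2) (M : Submodule A V)
    (bbar : Module.Basis (Fin 2) (IsLocalRing.ResidueField A) (IsLocalRing.ResidueField A ⊗[A] V))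
    (hM : ∀ m ∈ M, (1 : IsLocalRing.ResidueField A) ⊗ₜ[A] m ∈
      Submodule.span (IsLocalRing.ResidueField A) {bbar 0})
    (m₀ : V) (hm₀mem : m₀ ∈ M) (hv₀ : (1 : IsLocalRing.ResidueField A) ⊗ₜ[A] m₀ ≠ 0)
    (hfaith : ∀ c : A, (∀ v : V, c • v ∈ M) → c = 0) :
    ∃ b : Module.Basis (Fin 2) A V, M = Submodule.span A {b 0} := by
  have hsurj : Function.Surjective
      (TensorProduct.mk A (IsLocalRing.ResidueField A) V 1) :=
    TensorProduct.mk_surjective A V (IsLocalRing.ResidueField A)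
      Ideal.Quotient.mk_surjective
  have hm₀L := hM m₀ hm₀mem
  rw [Submodule.mem_span_singleton] at hm₀L
  obtain ⟨c, hc⟩ := hm₀L
  have hc0 : c ≠ 0 := by
    rintro rfl
    rw [zero_smul] at hc
    exact hv₀ hc.symm
  obtain ⟨v₁, hv₁⟩ := hsurj (bbar 1)
  rw [TensorProduct.mk_apply] at hv₁
  -- the basis `(c • b̄₀, b̄₁)` of the residual representation
  let w : Fin 2 → IsLocalRing.ResidueField A := ![c, 1]
  have hw : ∀ i, IsUnit (w i) := by
    intro i
    fin_cases i
    · exact IsUnit.mk0 c hc0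
    · exact isUnit_one
  let b' : Module.Basis (Fin 2) (IsLocalRing.ResidueField A)
      (IsLocalRing.ResidueField A ⊗[A] V) := bbar.isUnitSMul hw
  let f : Fin 2 → V := ![m₀, v₁]
  have hfb : ∀ i, (1 : IsLocalRing.ResidueField A) ⊗ₜ[A] f i = b' i := by
    intro i
    rw [Module.Basis.isUnitSMul_apply]
    fin_cases i
    · exact hc.symm
    · simpa [f, w] using hv₁
  have hspan : Submodule.span A (Set.range f) = ⊤ :=
    IsLocalRing.span_eq_top_of_tmul_eq_basis f b' hfb
  let b : Module.Basis (Fin 2) A V :=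
    basisOfTopLeSpanOfCardEqFinrank f hspan.ge (by rw [Fintype.card_fin, hV])
  have hb0 : b 0 = m₀ := by
    rw [coe_basisOfTopLeSpanOfCardEqFinrank]; rfl
  have hsum : ∀ v : V, v = b.repr v 0 • b 0 + b.repr v 1 • b 1 := by
    intro v
    conv_lhs => rw [← b.sum_repr v, Fin.sum_univ_two]
  refine ⟨b, le_antisymm ?_ ?_⟩
  · intro m hm
    have hc1 : ∀ v : V, b.repr m 1 • v ∈ M := by
      have h1 : b.repr m 1 • b 1 ∈ M := by
        have e : b.repr m 1 • b 1 = m - b.repr m 0 • b 0 := by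
          rw [eq_sub_iff_add_eq']
          exact (hsum m).symm
        rw [e, hb0]
        exact Submodule.sub_mem _ hm (Submodule.smul_mem _ _ hm₀mem)
      intro v
      have e : b.repr m 1 • v =
          (b.repr m 1 * b.repr v 0) • b 0 + b.repr v 1 • (b.repr m 1 • b 1) := by
        conv_lhs => rw [hsum v]
        rw [smul_add, smul_smul, smul_smul, smul_smul, mul_comm (b.repr v 1)]
      rw [e, hb0]
      exact Submodule.add_mem _ (Submodule.smul_mem _ _ hm₀mem) (Submodule.smul_mem _ _ h1)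
    have hzero := hfaith _ hc1
    rw [Submodule.mem_span_singleton]
    refine ⟨b.repr m 0, ?_⟩
    have h := hsum m
    rw [hzero, zero_smul, add_zero] at h
    exact h.symm
  · rw [Submodule.span_singleton_le_iff_mem, hb0]
    exact hm₀mem

end core

variable {A : Type} [CommRing A] [IsLocalRing A]

/-- the submodule generated by `(σ − 1)V`, `σ` in the inertia group of `P` -/
def inertiaSpan (ρ : GaloisRepAdic A) (P : ValuationSubring (AlgebraicClosure ℚ)) :
    Submodule A ρ.V :=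
  Submodule.span A {w | ∃ σ ∈ P.inertiaSubgroupIn ℚ, ∃ v : ρ.V, w = ρ.ρ σ v - v}

theorem sub_mem_inertiaSpan (ρ : GaloisRepAdic A) (P : ValuationSubring (AlgebraicClosure ℚ))
    {σ : AlgebraicClosure ℚ ≃ₐ[ℚ] AlgebraicClosure ℚ} (hσ : σ ∈ P.inertiaSubgroupIn ℚ)
    (v : ρ.V) : ρ.ρ σ v - v ∈ inertiaSpan ρ P :=
  Submodule.subset_span ⟨σ, hσ, v, rfl⟩

theorem inertiaSubgroup_normal (P : ValuationSubring (AlgebraicClosure ℚ)) :
    (P.inertiaSubgroup ℚ).Normal :=
  MonoidHom.normal_ker _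

/-- the inertia group is normalised by the decomposition group -/
theorem conj_mem_inertiaSubgroupIn (P : ValuationSubring (AlgebraicClosure ℚ))
    {τ σ : AlgebraicClosure ℚ ≃ₐ[ℚ] AlgebraicClosure ℚ} (hτ : τ ∈ P.decompositionSubgroup ℚ)
    (hσ : σ ∈ P.inertiaSubgroupIn ℚ) : τ * σ * τ⁻¹ ∈ P.inertiaSubgroupIn ℚ := by
  rw [ValuationSubring.inertiaSubgroupIn, Subgroup.mem_map] at hσ ⊢
  obtain ⟨σ', hσ', rfl⟩ := hσ
  have hn : (P.inertiaSubgroup ℚ).Normal := inertiaSubgroup_normal P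
  let τ' : P.decompositionSubgroup ℚ := ⟨τ, hτ⟩
  refine ⟨τ' * σ' * τ'⁻¹, hn.conj_mem σ' hσ' τ', ?_⟩
  simp only [map_mul, map_inv, Subgroup.subtype_apply]
  rfl

/-- the inertia span is stable under the decomposition group -/
theorem map_mem_inertiaSpan (ρ : GaloisRepAdic A) (P : ValuationSubring (AlgebraicClosure ℚ))
    {τ : AlgebraicClosure ℚ ≃ₐ[ℚ] AlgebraicClosure ℚ} (hτ : τ ∈ P.decompositionSubgroup ℚ)
    {w : ρ.V} (hw : w ∈ inertiaSpan ρ P) : ρ.ρ τ w ∈ inertiaSpan ρ P := by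
  induction hw using Submodule.span_induction with
  | mem w hw =>
    obtain ⟨σ, hσ, v, rfl⟩ := hw
    have h1 : ρ.ρ τ (ρ.ρ σ v - v) = ρ.ρ (τ * σ * τ⁻¹) (ρ.ρ τ v) - ρ.ρ τ v := by
      rw [map_sub, ← Module.End.mul_apply, ← Module.End.mul_apply, ← map_mul, ← map_mul,
        inv_mul_cancel_right]
    rw [h1]
    exact sub_mem_inertiaSpan ρ P (conj_mem_inertiaSubgroupIn P hτ hσ) _
  | zero => rw [map_zero]; exact Submodule.zero_mem _
  | add x y _ _ hx hy => rw [map_add]; exact Submodule.add_mem _ hx hy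
  | smul a x _ hx => rw [map_smul]; exact Submodule.smul_mem _ _ hx

/-- (POINTWISE) at the place `P`: the points `x` of `A` at which `ρ_x` has a nonzero
`I_P`-coinvariant are dense. -/
def PointwiseAt (ρ : GaloisRepAdic A) (P : ValuationSubring (AlgebraicClosure ℚ)) : Prop :=
  ∀ t : A, t ≠ 0 → ∃ (Ω : Type) (_ : Field Ω) (x : A →+* Ω) (φ : ρ.V →+ Ω),
    x t ≠ 0 ∧ (∀ (a : A) (v : ρ.V), φ (a • v) = x a * φ v) ∧ (∃ v, φ v ≠ 0) ∧
      ∀ σ ∈ P.inertiaSubgroupIn ℚ, ∀ v : ρ.V, φ (ρ.ρ σ v) = φ v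

/-- under (POINTWISE) the quotient `V / inertiaSpan` is a faithful module -/
theorem eq_zero_of_smul_mem (ρ : GaloisRepAdic A) (P : ValuationSubring (AlgebraicClosure ℚ))
    (h : PointwiseAt ρ P) (c : A) (hc : ∀ v : ρ.V, c • v ∈ inertiaSpan ρ P) : c = 0 := by
  by_contra hc0
  obtain ⟨Ω, _, x, φ, hx, hsl, ⟨v, hv⟩, hinv⟩ := h c hc0
  have hvan : ∀ w ∈ inertiaSpan ρ P, φ w = 0 := by
    intro w hw
    induction hw using Submodule.span_induction with
    | mem w hw =>
      obtain ⟨σ, hσ, v, rfl⟩ := hw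
      rw [map_sub, hinv σ hσ, sub_self]
    | zero => exact map_zero φ
    | add x y _ _ hx hy => rw [map_add, hx, hy, add_zero]
    | smul a x _ hx => rw [hsl, hx, mul_zero]
  have h0 := hvan _ (hc v)
  rw [hsl] at h0
  exact (mul_ne_zero hx hv) h0

/-- **Step (A) of S33.** -/
theorem isOrdinaryAt_of_pointwise (ρ : GaloisRepAdic A) (p : ℕ)
    (hne : ∀ P : ValuationSubring (AlgebraicClosure ℚ), P.LiesOverPrime p →
      ∃ σ ∈ P.inertiaSubgroupIn ℚ, ρ.residual.ρ σ ≠ 1)
    (hres : (GaloisRepAdic.ofResidualGaloisRep ρ.residual).IsOrdinaryAt p)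
    (hpt : ∀ P : ValuationSubring (AlgebraicClosure ℚ), P.LiesOverPrime p → PointwiseAt ρ P) :
    ρ.IsOrdinaryAt p := by
  intro P hP
  have hres' : ∃ bbar : Module.Basis (Fin 2) (IsLocalRing.ResidueField A)
      (IsLocalRing.ResidueField A ⊗[A] ρ.V),
      ∀ σ ∈ P.inertiaSubgroupIn ℚ, ∀ w : IsLocalRing.ResidueField A ⊗[A] ρ.V,
        (ρ.ρ σ).baseChange (IsLocalRing.ResidueField A) w - w ∈
          Submodule.span (IsLocalRing.ResidueField A) {bbar 0} := by
    obtain ⟨Lbar, ⟨bbar, hLbar⟩, -, hI⟩ := hres P hP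
    exact ⟨bbar, fun σ hσ w => hLbar ▸ hI σ hσ w⟩
  obtain ⟨bbar, hI⟩ := hres'
  have hne' : ∃ σ₀ ∈ P.inertiaSubgroupIn ℚ,
      (ρ.ρ σ₀).baseChange (IsLocalRing.ResidueField A) ≠ LinearMap.id := by
    obtain ⟨σ₀, hσ₀, hσ₀ne⟩ := hne P hP
    exact ⟨σ₀, hσ₀, hσ₀ne⟩
  obtain ⟨σ₀, hσ₀, hσ₀ne⟩ := hne'
  have hsurj : Function.Surjective
      (TensorProduct.mk A (IsLocalRing.ResidueField A) ρ.V 1) :=
    TensorProduct.mk_surjective A ρ.V (IsLocalRing.ResidueField A)
      Ideal.Quotient.mk_surjective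
  -- an element of the inertia span that is nonzero in the residual representation
  have hex : ∃ v₀ : ρ.V, (1 : IsLocalRing.ResidueField A) ⊗ₜ[A] (ρ.ρ σ₀ v₀ - v₀) ≠ 0 := by
    by_contra hcon
    push Not at hcon
    apply hσ₀ne
    refine LinearMap.ext fun w => ?_
    obtain ⟨v, rfl⟩ := hsurj w
    have := hcon v
    rw [TensorProduct.tmul_sub, sub_eq_zero] at this
    rw [TensorProduct.mk_apply, LinearMap.baseChange_tmul, this, LinearMap.id_apply]
  obtain ⟨v₀, hv₀⟩ := hex
  have hM : ∀ m ∈ inertiaSpan ρ P, (1 : IsLocalRing.ResidueField A) ⊗ₜ[A] m ∈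
      Submodule.span (IsLocalRing.ResidueField A) {bbar 0} := by
    intro m hm
    induction hm using Submodule.span_induction with
    | mem w hw =>
      obtain ⟨σ, hσ, v, rfl⟩ := hw
      have := hI σ hσ ((1 : IsLocalRing.ResidueField A) ⊗ₜ[A] v)
      rw [LinearMap.baseChange_tmul, ← TensorProduct.tmul_sub] at this
      exact this
    | zero => rw [TensorProduct.tmul_zero]; exact Submodule.zero_mem _
    | add x y _ _ hx hy => rw [TensorProduct.tmul_add]; exact Submodule.add_mem _ hx hy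
    | smul a x _ hx =>
      rw [TensorProduct.tmul_smul]
      exact Submodule.smul_of_tower_mem _ a hx
  obtain ⟨b, hb⟩ := exists_basis_span_eq ρ.finrank_eq (inertiaSpan ρ P) bbar hM
    (ρ.ρ σ₀ v₀ - v₀) (sub_mem_inertiaSpan ρ P hσ₀ v₀) hv₀
    (eq_zero_of_smul_mem ρ P (hpt P hP))
  exact ⟨inertiaSpan ρ P, ⟨b, hb⟩, fun σ hσ v hv => map_mem_inertiaSpan ρ P hσ hv,
    fun σ hσ v => sub_mem_inertiaSpan ρ P hσ v⟩

end Fermat.Agent.S33
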