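import Mathlib
import Fermat.Agent.S33.Reduction
import Fermat.Agent.S34.Reduction
import Fermat.Agent.Cheb.Final
import Fermat.Agent.Common.InertiaLift
import Fermat.Agent.S30.Cyclo

/-!
# S33, steps (A1), (A2): the determinant of a Hecke–Galois datum is cyclotomic

* `detIsCyclotomic_of_datum`: for a `HeckeGaloisRepDatum` with `p ∈ 𝔪_𝒪`, `H.ρ.DetIsCyclotomic p`
  (weak Chebotarev + `charpoly_frob` + continuity + Krull's intersection theorem);
* `exists_inertia_inv_root`: for a place `P ∣ p` some `σ` in the inertia group of `P` inverts the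
  `p`-th roots of unity (`ℚ(ζ_p)` is totally ramified at `p`);
* `exists_inertia_residual_ne_one`: hence for `p` odd some `σ ∈ I_P` acts non-trivially on the
  residual representation of a representation with cyclotomic determinant;
* `isOrdinaryAt_of_datum_of_pointwise`: the statement of S33 under (POINTWISE).
-/

set_option autoImplicit false

namespace Fermat.Agent.S33

open Fermat.Agent.S31 Fermat.Agent.S34 Polynomial

/-- Krull: an ideal of a noetherian local ring is closed. -/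
theorem mem_of_forall_exists_sub_mem {T : Type*} [CommRing T] [IsLocalRing T] [IsNoetherianRing T]
    (I : Ideal T) (d : T)
    (h : ∀ k : ℕ, ∃ d₁ ∈ IsLocalRing.maximalIdeal T ^ k, d - d₁ ∈ I) : d ∈ I := by
  have hbot : (⨅ i : ℕ, (IsLocalRing.maximalIdeal T ^ i) • (⊤ : Submodule T (T ⧸ I))) = ⊥ :=
    Ideal.iInf_pow_smul_eq_bot_of_isLocalRing _ (Ideal.IsMaximal.ne_top inferInstance)
  have hmem : (Ideal.Quotient.mk I d : T ⧸ I) ∈
      (⨅ i : ℕ, (IsLocalRing.maximalIdeal T ^ i) • (⊤ : Submodule T (T ⧸ I))) := by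
    rw [Submodule.mem_iInf]
    intro k
    obtain ⟨d₁, hd₁, hd⟩ := h k
    have e : (Ideal.Quotient.mk I d : T ⧸ I) = d₁ • (1 : T ⧸ I) := by
      rw [Algebra.smul_def, mul_one]
      exact Ideal.Quotient.eq.mpr hd
    rw [e]
    exact Submodule.smul_mem_smul hd₁ Submodule.mem_top
  rw [hbot, Submodule.mem_bot] at hmem
  exact Ideal.Quotient.eq_zero_iff_mem.mp hmem

section datum

variable {p : ℕ} {N : ℕ} [NeZero N] {S : Finset ℕ}
  {𝒪 : Type} [CommRing 𝒪] [IsDomain 𝒪] [IsDiscreteValuationRing 𝒪]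
  [IsAdicComplete (IsLocalRing.maximalIdeal 𝒪) 𝒪]
  {θ : CuspForm.heckeAlgebra N 2 (↑S : Set ℕ) →+* IsLocalRing.ResidueField 𝒪}
  {T : Type} [CommRing T] [IsLocalRing T] [IsNoetherianRing T]
  [IsAdicComplete (IsLocalRing.maximalIdeal T) T] [Algebra 𝒪 T] [IsLocalHom (algebraMap 𝒪 T)]
  [Module.Finite 𝒪 T] [Module.Free 𝒪 T]

/-- **(A1)** the determinant of the representation of a Hecke–Galois datum is the `p`-adic
cyclotomic character. -/
theorem detIsCyclotomic_of_datum (hp : p.Prime)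
    (hp𝒪 : (p : 𝒪) ∈ IsLocalRing.maximalIdeal 𝒪)
    (H : CuspForm.HeckeGaloisRepDatum N (↑S : Set ℕ) 𝒪 θ T) : H.ρ.DetIsCyclotomic p := by
  have hpT : (p : T) ∈ IsLocalRing.maximalIdeal T := natCast_mem_maximalIdeal hp𝒪
  refine ⟨hpT, fun n σ a hσ => ?_⟩
  apply mem_of_forall_exists_sub_mem
  intro k
  obtain ⟨L, hLfin, hL⟩ := H.ρ.isAdicContinuous k
  have hM0 : p ^ n ≠ 0 := pow_ne_zero n hp.ne_zero
  have : NeZero ((p ^ n : ℕ) : AlgebraicClosure ℚ) := ⟨Nat.cast_ne_zero.mpr hM0⟩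
  obtain ⟨ζ, hζ⟩ := HasEnoughRootsOfUnity.exists_primitiveRoot (AlgebraicClosure ℚ) (p ^ n)
  have hζfin : FiniteDimensional ℚ (IntermediateField.adjoin ℚ {ζ}) :=
    IntermediateField.adjoin.finiteDimensional
      ((hζ.isIntegral (Nat.pos_of_ne_zero hM0)).tower_top)
  obtain ⟨F, hFfin, hFgal, -, hLF, hζF⟩ :=
    exists_galois_hull L L (IntermediateField.adjoin ℚ {ζ})
  have hζF' : ζ ∈ F := hζF (IntermediateField.mem_adjoin_simple_self ℚ ζ)
  obtain ⟨ℓ, A, τ, m, hℓ, hℓS, hA, hτ, hg⟩ :=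
    Cheb.exists_frobenius_pow_eq F (S ∪ N.primeFactors ∪ {p}) σ
  have hℓS' : ℓ ∉ (↑S : Set ℕ) := fun h => hℓS (by
    simp only [Finset.mem_union, Finset.mem_singleton]
    exact Or.inl (Or.inl h))
  have hℓN : ¬ ℓ ∣ N := fun h => hℓS (by
    simp only [Finset.mem_union, Finset.mem_singleton]
    exact Or.inl (Or.inr (Nat.mem_primeFactors.mpr ⟨hℓ, h, NeZero.ne N⟩)))
  have hℓp : ℓ ≠ p := fun h => hℓS (by
    simp only [Finset.mem_union, Finset.mem_singleton]
    exact Or.inr h)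
  -- `ℓᵐ ≡ a mod pⁿ`
  have hζ1 : ζ ^ (p ^ n) = 1 := hζ.pow_eq_one
  have h1 : (τ ^ m) ζ = ζ ^ (ℓ ^ m) :=
    frob_pow_rootOfUnity A (natCast_pow_not_mem_nonunits A hp hℓ hℓp hA n) hM0 hτ hζ1 m
  have h3 : ζ ^ (ℓ ^ m) = ζ ^ a := by
    rw [← h1, hg ζ hζF', hσ ζ hζ1]
  have h4 := (hζ.isOfFinOrder hM0).pow_eq_pow_iff_modEq.mp h3
  rw [← hζ.eq_orderOf] at h4
  have h5 : ((p ^ n : ℕ) : ℤ) ∣ ((ℓ ^ m : ℕ) : ℤ) - ((a : ℕ) : ℤ) :=
    (Nat.modEq_iff_dvd.mp h4.symm)
  obtain ⟨c, hc⟩ := h5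
  have h6 : (ℓ : T) ^ m - (a : T) = ((p ^ n : ℕ) : T) * (c : T) := by
    have := congrArg (fun z : ℤ => (z : T)) hc
    simpa using this
  -- the determinant
  have h7 := det_congr_of_agree H.ρ k L hL (τ ^ m) σ fun a ha => hg a (hLF ha)
  rw [map_pow, map_pow, det_of_charpoly H.ρ.finrank_eq (H.ρ.ρ τ) _ _
    (H.charpoly_frob ℓ hℓ hℓN hℓS' A hA τ hτ)] at h7
  refine ⟨LinearMap.det (H.ρ.ρ σ) - (ℓ : T) ^ m, h7, ?_⟩
  have e : LinearMap.det (H.ρ.ρ σ) - (a : T) - (LinearMap.det (H.ρ.ρ σ) - (ℓ : T) ^ m) =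
      (ℓ : T) ^ m - (a : T) := by ring
  rw [e, h6]
  exact Ideal.mul_mem_right _ _ (Ideal.subset_span rfl)

end datum

/-- a `p`-th root of unity is congruent to `1` at a place over `p` -/
theorem sub_one_mem_nonunits_of_pow_eq_one {p : ℕ} (hp : p.Prime)
    (P : ValuationSubring (AlgebraicClosure ℚ)) (hP : P.LiesOverPrime p)
    {μ : AlgebraicClosure ℚ} (hμ : μ ^ p = 1) : μ - 1 ∈ P.nonunits := by
  have hμP : μ ∈ P := rootOfUnity_mem P hp.ne_zero hμ
  have : Fact p.Prime := ⟨hp⟩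
  have hp0 : ((p : ℕ) : IsLocalRing.ResidueField P) = 0 := by
    have h1 : ((p : P) : AlgebraicClosure ℚ) ∈ P.nonunits := by
      have : ((p : P) : AlgebraicClosure ℚ) = (p : AlgebraicClosure ℚ) := by simp
      rw [this]; exact hP
    rw [ValuationSubring.coe_mem_nonunits_iff, ← IsLocalRing.residue_eq_zero_iff] at h1
    rw [← h1, map_natCast]
  have : CharP (IsLocalRing.ResidueField P) p := (CharP.charP_iff_prime_eq_zero hp).mpr hp0
  set z : P := ⟨μ, hμP⟩ with hz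
  have hz1 : z ^ p = 1 := by
    apply Subtype.ext
    simpa using hμ
  have h2 : (IsLocalRing.residue P z - 1) ^ p = 0 := by
    rw [sub_pow_char, one_pow, ← map_pow, hz1, map_one, sub_self]
  have h3 : IsLocalRing.residue P (z - 1) = 0 := by
    rw [map_sub, map_one]
    exact pow_eq_zero_iff (hp.ne_zero) |>.mp h2
  rw [IsLocalRing.residue_eq_zero_iff, ← ValuationSubring.coe_mem_nonunits_iff] at h3
  simpa using h3

/-- **(A2)** `ℚ(ζ_p)` is totally ramified at `p`: some element of the inertia group of a place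
over `p` inverts the `p`-th roots of unity. -/
theorem exists_inertia_inv_root {p : ℕ} (hp : p.Prime)
    (P : ValuationSubring (AlgebraicClosure ℚ)) (hP : P.LiesOverPrime p) :
    ∃ σ ∈ P.inertiaSubgroupIn ℚ, ∀ μ : AlgebraicClosure ℚ, μ ^ p = 1 → σ μ = μ⁻¹ := by
  have : Fact p.Prime := ⟨hp⟩
  have : NeZero ((p : ℕ) : AlgebraicClosure ℚ) := ⟨Nat.cast_ne_zero.mpr hp.ne_zero⟩
  obtain ⟨ζ, hζ⟩ := HasEnoughRootsOfUnity.exists_primitiveRoot (AlgebraicClosure ℚ) p
  set F : IntermediateField ℚ (AlgebraicClosure ℚ) := IntermediateField.adjoin ℚ {ζ} with hF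
  have hζF : ζ ∈ F := IntermediateField.mem_adjoin_simple_self ℚ ζ
  have : NeZero p := ⟨hp.ne_zero⟩
  have hn := qbar_normal
  have : Algebra.IsAlgebraic ℚ (AlgebraicClosure ℚ) := hn.toIsAlgebraic
  have : Algebra.IsIntegral ℚ (AlgebraicClosure ℚ) :=
    Algebra.IsAlgebraic.isIntegral
  have hcyc : IsCyclotomicExtension {p} ℚ F :=
    hζ.intermediateField_adjoin_isCyclotomicExtension ℚ
  have : IsGalois ℚ F := IsCyclotomicExtension.isGalois {p} ℚ F
  set c : AlgebraicClosure ℚ ≃ₐ[ℚ] AlgebraicClosure ℚ := complexConjugation with hc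
  have hcroot : ∀ μ : AlgebraicClosure ℚ, μ ^ p = 1 → c μ = μ⁻¹ := fun μ hμ =>
    Fermat.Agent.S30.complexConj_root p μ hp.ne_zero hμ
  have hval : ∀ x : AlgebraicClosure ℚ, x ∈ P.nonunits ↔ P.valuation x < 1 := fun x =>
    P.mem_nonunits_iff
  have hle : ∀ x : AlgebraicClosure ℚ, x ∈ P ↔ P.valuation x ≤ 1 := fun x =>
    (P.valuation_le_one_iff x).symm
  -- the induction over `ℤ[ζ]`
  have hind : ∀ x ∈ Algebra.adjoin ℤ ({ζ} : Set (AlgebraicClosure ℚ)),
      x ∈ P ∧ c x ∈ P ∧ c x - x ∈ P.nonunits := by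
    intro x hx
    induction hx using Algebra.adjoin_induction with
    | mem x hx =>
      rw [Set.mem_singleton_iff] at hx
      subst hx
      have hζp : x ^ p = 1 := hζ.pow_eq_one
      have hinv : (x⁻¹) ^ p = 1 := by rw [inv_pow, hζp, inv_one]
      refine ⟨rootOfUnity_mem P hp.ne_zero hζp, ?_, ?_⟩
      · rw [hcroot x hζp]
        exact rootOfUnity_mem P hp.ne_zero hinv
      · rw [hcroot x hζp]
        have h1 := sub_one_mem_nonunits_of_pow_eq_one hp P hP hζp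
        have h2 := sub_one_mem_nonunits_of_pow_eq_one hp P hP hinv
        rw [hval] at h1 h2 ⊢
        have e : x⁻¹ - x = (x⁻¹ - 1) - (x - 1) := by ring
        rw [e]
        exact Valuation.map_sub_lt _ h2 h1
    | algebraMap r =>
      have h1 : (algebraMap ℤ (AlgebraicClosure ℚ) r) = (r : AlgebraicClosure ℚ) := rfl
      rw [h1, map_intCast, sub_self]
      refine ⟨intCast_mem P r, intCast_mem P r, ?_⟩
      rw [hval, map_zero]
      exact zero_lt_one
    | add x y _ _ hx hy =>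
      obtain ⟨hx1, hx2, hx3⟩ := hx
      obtain ⟨hy1, hy2, hy3⟩ := hy
      refine ⟨P.add_mem _ _ hx1 hy1, ?_, ?_⟩
      · rw [map_add]; exact P.add_mem _ _ hx2 hy2
      · rw [hval] at hx3 hy3 ⊢
        have e : c (x + y) - (x + y) = (c x - x) + (c y - y) := by rw [map_add]; ring
        rw [e]
        exact Valuation.map_add_lt _ hx3 hy3
    | mul x y _ _ hx hy =>
      obtain ⟨hx1, hx2, hx3⟩ := hx
      obtain ⟨hy1, hy2, hy3⟩ := hy
      refine ⟨P.mul_mem _ _ hx1 hy1, ?_, ?_⟩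
      · rw [map_mul]; exact P.mul_mem _ _ hx2 hy2
      · rw [hval] at hx3 hy3 ⊢
        rw [hle] at hx1 hy2
        have e : c (x * y) - x * y = (c x - x) * c y + x * (c y - y) := by rw [map_mul]; ring
        rw [e]
        apply Valuation.map_add_lt
        · rw [map_mul]
          calc P.valuation (c x - x) * P.valuation (c y)
              ≤ P.valuation (c x - x) * 1 := mul_le_mul_right hy2 _
            _ = P.valuation (c x - x) := mul_one _
            _ < 1 := hx3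
        · rw [map_mul]
          calc P.valuation x * P.valuation (c y - y)
              ≤ 1 * P.valuation (c y - y) := mul_le_mul_left hx1 _
            _ = P.valuation (c y - y) := one_mul _
            _ < 1 := hy3
  -- integral elements of `ℚ(ζ)` lie in `ℤ[ζ]`
  have hint : ∀ x ∈ F, IsIntegral ℤ x → x ∈ Algebra.adjoin ℤ ({ζ} : Set (AlgebraicClosure ℚ)) := by
    intro x hx hxi
    set ζ' : F := ⟨ζ, hζF⟩ with hζ'
    have hζ'prim : IsPrimitiveRoot ζ' p :=
      IsPrimitiveRoot.of_map_of_injective (f := algebraMap F (AlgebraicClosure ℚ))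
        (by exact hζ) (algebraMap F (AlgebraicClosure ℚ)).injective
    have hcl := IsCyclotomicExtension.Rat.isIntegralClosure_adjoin_singleton_of_prime
      (p := p) (K := F) hζ'prim
    have hxi' : IsIntegral ℤ (⟨x, hx⟩ : F) := by
      have h1 : IsIntegral ℤ (algebraMap F (AlgebraicClosure ℚ) ⟨x, hx⟩) := hxi
      exact (isIntegral_algebraMap_iff (algebraMap F (AlgebraicClosure ℚ)).injective).mp h1
    obtain ⟨y, hy⟩ := hcl.isIntegral_iff.mp hxi'
    have hy' : (⟨x, hx⟩ : F) ∈ Algebra.adjoin ℤ ({ζ'} : Set F) := by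
      rw [← hy]; exact y.2
    have hmap : (Algebra.adjoin ℤ ({ζ'} : Set F)).map
        ((IsScalarTower.toAlgHom ℤ F (AlgebraicClosure ℚ))) =
        Algebra.adjoin ℤ ({ζ} : Set (AlgebraicClosure ℚ)) := by
      rw [AlgHom.map_adjoin, Set.image_singleton]
      rfl
    rw [← hmap]
    exact ⟨⟨x, hx⟩, hy', rfl⟩
  obtain ⟨σ', hσ', hagree⟩ := Fermat.Agent.Common.exists_mem_inertiaSubgroupIn_of_congr F p hp P hP
    c (fun x hx hxi => (hind x (hint x hx hxi)).2.2)
  refine ⟨σ', hσ', fun μ hμ => ?_⟩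
  obtain ⟨i, -, rfl⟩ := hζ.eq_pow_of_pow_eq_one hμ
  rw [hagree _ (pow_mem hζF i), hcroot _ hμ]

variable {A : Type} [CommRing A] [IsLocalRing A]

/-- for `p` odd, some element of the inertia group of a place over `p` acts non-trivially on the
residual representation of a representation with cyclotomic determinant -/
theorem exists_inertia_residual_ne_one {p : ℕ} (hp : p.Prime) (hp2 : p ≠ 2) (ρ : GaloisRepAdic A)
    (hdet : ρ.DetIsCyclotomic p)
    (P : ValuationSubring (AlgebraicClosure ℚ)) (hP : P.LiesOverPrime p) :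
    ∃ σ ∈ P.inertiaSubgroupIn ℚ, ρ.residual.ρ σ ≠ 1 := by
  obtain ⟨σ, hσ, hinv⟩ := exists_inertia_inv_root hp P hP
  refine ⟨σ, hσ, fun h1 => ?_⟩
  obtain ⟨hpA, hcyc⟩ := hdet
  have hpos : 0 < p := hp.pos
  have h2 := hcyc 1 σ (p - 1) (fun μ hμ => by
    rw [pow_one] at hμ
    rw [hinv μ hμ]
    apply inv_eq_of_mul_eq_one_right
    rw [← pow_succ', Nat.sub_add_cancel hpos, hμ])
  -- `det ρ(σ) ≡ p − 1 ≡ −1` modulo the maximal ideal
  have h3 : LinearMap.det (ρ.ρ σ) + 1 ∈ IsLocalRing.maximalIdeal A := by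
    have h4 : LinearMap.det (ρ.ρ σ) - ((p - 1 : ℕ) : A) ∈ IsLocalRing.maximalIdeal A := by
      refine (Ideal.span_le.mpr ?_) h2
      intro x hx
      rw [Set.mem_singleton_iff] at hx
      rw [hx, pow_one]
      exact hpA
    have e : LinearMap.det (ρ.ρ σ) + 1 =
        (LinearMap.det (ρ.ρ σ) - ((p - 1 : ℕ) : A)) + (p : A) := by
      rw [Nat.cast_sub hpos, Nat.cast_one]; ring
    rw [e]
    exact Ideal.add_mem _ h4 hpA
  -- `det ρ̄(σ) = 1`
  have h5 : LinearMap.det ((ρ.ρ σ).baseChange (IsLocalRing.ResidueField A)) = 1 := by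
    have : (ρ.ρ σ).baseChange (IsLocalRing.ResidueField A) = LinearMap.id := h1
    rw [this, LinearMap.det_id]
  rw [LinearMap.det_baseChange] at h5
  have h6 : LinearMap.det (ρ.ρ σ) - 1 ∈ IsLocalRing.maximalIdeal A := by
    rw [← IsLocalRing.residue_eq_zero_iff, map_sub, map_one, sub_eq_zero]
    exact h5
  -- so `2 ∈ 𝔪`, and `p ∈ 𝔪`: contradiction as `p` is odd
  have h7 : (2 : A) ∈ IsLocalRing.maximalIdeal A := by
    have e : (2 : A) = (LinearMap.det (ρ.ρ σ) + 1) - (LinearMap.det (ρ.ρ σ) - 1) := by ring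
    rw [e]
    exact Ideal.sub_mem _ h3 h6
  have hcop : Nat.Coprime 2 p := (Nat.coprime_primes Nat.prime_two hp).mpr (Ne.symm hp2)
  obtain ⟨u, v, huv⟩ := Nat.Coprime.isCoprime hcop
  have h8 : (1 : A) = (u : A) * 2 + (v : A) * (p : A) := by
    have := congrArg (fun z : ℤ => (z : A)) huv
    simpa using this.symm
  have h9 : (1 : A) ∈ IsLocalRing.maximalIdeal A := by
    rw [h8]
    exact Ideal.add_mem _ (Ideal.mul_mem_left _ _ h7) (Ideal.mul_mem_left _ _ hpA)
  exact (Ideal.ne_top_iff_one _).mp (Ideal.IsMaximal.ne_top inferInstance) h9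

section datum2

variable {p : ℕ} {N : ℕ} [NeZero N] {S : Finset ℕ}
  {𝒪 : Type} [CommRing 𝒪] [IsDomain 𝒪] [IsDiscreteValuationRing 𝒪]
  [IsAdicComplete (IsLocalRing.maximalIdeal 𝒪) 𝒪]
  {θ : CuspForm.heckeAlgebra N 2 (↑S : Set ℕ) →+* IsLocalRing.ResidueField 𝒪}
  {T : Type} [CommRing T] [IsLocalRing T] [IsNoetherianRing T]
  [IsAdicComplete (IsLocalRing.maximalIdeal T) T] [Algebra 𝒪 T] [IsLocalHom (algebraMap 𝒪 T)]
  [Module.Finite 𝒪 T] [Module.Free 𝒪 T]

/-- **S33 under (POINTWISE).** -/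
theorem isOrdinaryAt_of_datum_of_pointwise (hp : p.Prime) (hp2 : p ≠ 2)
    (hp𝒪 : (p : 𝒪) ∈ IsLocalRing.maximalIdeal 𝒪)
    (H : CuspForm.HeckeGaloisRepDatum N (↑S : Set ℕ) 𝒪 θ T)
    (hres : (GaloisRepAdic.ofResidualGaloisRep H.ρ.residual).IsOrdinaryAt p)
    (hpt : ∀ P : ValuationSubring (AlgebraicClosure ℚ), P.LiesOverPrime p →
      PointwiseAt H.ρ P) :
    H.ρ.IsOrdinaryAt p :=
  isOrdinaryAt_of_pointwise H.ρ p
    (fun P hP => exists_inertia_residual_ne_one hp hp2 H.ρ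
      (detIsCyclotomic_of_datum hp hp𝒪 H) P hP) hres hpt

end datum2

end Fermat.Agent.S33
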