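import Fermat.Agent.S33.C2

/-!
# S33, route v2: interface of the final assembly (block C5)

* `KeyAt N p P` : (KEY) at level `N` and the place `P`: for every `n` the inertia span of
  `J₀(N)[pⁿ]` has no trivial sub-quotient.
* `StmtKeyGood` : (KEY) at levels prime to `p` (block B4: S19 + `StmtNTSOfLattice`).
* `StmtWildT` : (C3) + (C4): for `p ∤ M`, `p` odd, `σ` in the inertia group at `P ∣ p` acting on
  `μ_p` through `ζ ↦ ζ ^ a`, every class `x` of the new part of exponent `p`
  (`c2New M p I n`, `S33/C2.lean`) satisfies `σ x = a x`.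

`Assembly.lean` : `StmtKeyGood → StmtWildT →` the frozen statement S33.
-/

set_option autoImplicit false

namespace Fermat.Agent.S33

open ModularCurve Fermat.Agent.ES

/-- (KEY) at level `N`, prime `p`, place `P` -/
def KeyAt (N p : ℕ) [NeZero N] (P : ValuationSubring (AlgebraicClosure ℚ)) : Prop :=
  ∀ n : ℕ, NTS (P.inertiaSubgroupIn ℚ) (jAct N)
    (ntsSpan (P.inertiaSubgroupIn ℚ) (jAct N) (ntsTors (JZero N) (p ^ n)))

/-- **B4**: (KEY) at levels prime to `p` -/
def StmtKeyGood : Prop :=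
  ∀ (M p : ℕ) [NeZero M], p.Prime → p ≠ 2 → ¬ p ∣ M →
    ∀ P : ValuationSubring (AlgebraicClosure ℚ), P.LiesOverPrime p → KeyAt M p P

/-- **C3 + C4**: the inertia group acts on the new part of exponent `p` through the cyclotomic
character -/
def StmtWildT : Prop :=
  ∀ (M p : ℕ) [NeZero M] [NeZero p], p.Prime → p ≠ 2 → ¬ p ∣ M →
    ∀ P : ValuationSubring (AlgebraicClosure ℚ), P.LiesOverPrime p →
      ∀ σ ∈ P.inertiaSubgroupIn ℚ, ∀ a : ℕ,
        (∀ ζ : AlgebraicClosure ℚ, ζ ^ p = 1 → σ ζ = ζ ^ a) →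
          ∀ (n : ℕ) (x : JZero (M * p)), x ∈ c2New M p (P.inertiaSubgroupIn ℚ) n →
            jAct (M * p) σ x = a • x

end Fermat.Agent.S33
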