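import Fermat.Agent.S33.WildPhiDeg
import Fermat.Agent.UNIP.MGVloc

/-!
# S33 v2 / C4 / T5f (e) — the element `e = j(Q^p) / j^p` at the cusps (helper61)

Setting of `UNIP/MGConcrete.lean` + `UNIP/MGVertInertia.lean` with `q := p`: `E′ = mgcE A K₁`,
`A′ = mgcA A K₁` (a discrete valuation ring, uniformizer `π`), `F′ = mgcF A K₁ (M * p)`,
`t = mgcT A K₁ (M * p)` (`= j`), `V = mgvV hπ ιC hp hpM` (`true ↦ V_∞`, `false ↦ V_0`).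

* `wfeE A K₁ M p = Jp · (t⁻¹) ^ p`;
* `wfe_integral` : `e` is integral over `A′[t⁻¹]` (`wpd_e_integral`);
* `wfe_sub_one_mem` : `e − 1 = (Jp − j^p) / j^p ∈ 𝔪(V_∞)` (Kronecker's congruence, `mgvl_hsep`);
* `wfe_pow_sub_mem` : `e^p − (t⁻¹)^(p² − 1) = (Jp^p − j) / j^(p²) ∈ 𝔪(V_0)` (`mgvl_hsep'`);
* `wfe_exists` : the three together (input `(e)` of `wcp_ptData_inv`).
-/

set_option autoImplicit false
set_option linter.unusedSectionVars false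

noncomputable section

namespace Fermat.Agent.S33

open ModularCurve Fermat.Agent.UNIP Fermat.Agent.AL Fermat.Agent.ES Fermat.Agent.ES.G2 Fermat.Agent.INJ

section Concrete

variable (A : ValuationSubring Qb) (K₁ : IntermediateField ℚ Qb) (M p : ℕ)
  [NeZero M] [NeZero p] [NeZero (M * p)]

/-- `t = j` is `nodesFrobJ`. -/
theorem wfe_T_eq : mgcT A K₁ (M * p) = nodesFrobJ ↥(mgcE A K₁) M p := Subtype.ext rfl

/-- `e = j(Q^p) · (1 / j) ^ p ∈ F′` -/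
def wfeE : ↥(mgcF A K₁ (M * p)) :=
  nodesFrobJq ↥(mgcE A K₁) M p * (mgcT A K₁ (M * p))⁻¹ ^ p

theorem wfe_T_ne_zero : mgcT A K₁ (M * p) ≠ 0 := by
  rw [wfe_T_eq]
  exact wpd_J_ne_zero p ↥(mgcE A K₁) M

variable {A K₁ M p}

/-- `e` is integral over `A′[1 / j]`. -/
theorem wfe_integral (hp : p.Prime) :
    IsIntegral ↥(Algebra.adjoin ↥(mgcA A K₁)
      ({(mgcT A K₁ (M * p))⁻¹} : Set ↥(mgcF A K₁ (M * p)))) (wfeE A K₁ M p) := by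
  rw [wfeE, wfe_T_eq]
  exact wpd_e_integral p ↥(mgcE A K₁) M hp

/-- `e − 1 = c / j^p`, `c = j(Q^p) − j^p`. -/
theorem wfe_sub_one_eq :
    wfeE A K₁ M p - 1 = (mgcT A K₁ (M * p))⁻¹ ^ p * nodesFrobC ↥(mgcE A K₁) M p := by
  have h0 := wfe_T_ne_zero A K₁ M p
  have h1 : (mgcT A K₁ (M * p))⁻¹ ^ p * mgcT A K₁ (M * p) ^ p = 1 := by
    rw [← mul_pow, inv_mul_cancel₀ h0, one_pow]
  rw [wfeE, nodesFrobC, ← wfe_T_eq]
  linear_combination h1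

/-- `e^p − (1/j)^(p² − 1) = −(1/j)^(p²) · w c`, `w c = j − j(Q^p)^p`. -/
theorem wfe_pow_sub_eq (hp1 : 1 ≤ p) :
    wfeE A K₁ M p ^ p - (mgcT A K₁ (M * p))⁻¹ ^ (p ^ 2 - 1) =
      -((mgcT A K₁ (M * p))⁻¹ ^ (p ^ 2)) *
        (nodesFrobJ ↥(mgcE A K₁) M p - nodesFrobJq ↥(mgcE A K₁) M p ^ p) := by
  have h0 := wfe_T_ne_zero A K₁ M p
  have hp2 : p ^ 2 = (p ^ 2 - 1) + 1 := (Nat.sub_add_cancel (Nat.one_le_pow _ _ hp1)).symm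
  have h1 : (mgcT A K₁ (M * p))⁻¹ ^ (p ^ 2 - 1) =
      (mgcT A K₁ (M * p))⁻¹ ^ (p ^ 2) * mgcT A K₁ (M * p) := by
    conv_rhs => rw [hp2, pow_succ, mul_assoc, inv_mul_cancel₀ h0, mul_one]
  rw [h1, wfeE, ← wfe_T_eq, mul_pow, ← pow_mul, ← sq]
  ring

variable [IsDiscreteValuationRing ↥(mgcA A K₁)] {π : ↥(mgcA A K₁)} (hπ : Irreducible π)
  (ιC : ↥(mgcE A K₁) →+* ℂ) (hp : p.Prime) (hpM : ¬ p ∣ M)

/-- `1 / j ∈ V c` -/
theorem wfe_T_inv_mem (c : Bool) : (mgcT A K₁ (M * p))⁻¹ ∈ mgvV hπ ιC hp hpM c :=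
  mgv_T_inv_mem hπ ιC hp hpM c

/-- **`e − 1 ∈ 𝔪(V_∞)`** -/
theorem wfe_sub_one_mem (hA : A.LiesOverPrime p) :
    wfeE A K₁ M p - 1 ∈ (mgvV hπ ιC hp hpM true).nonunits := by
  rw [wfe_sub_one_eq]
  exact vt_mul_mem_nonunits _ (pow_mem (wfe_T_inv_mem hπ ιC hp hpM true) p)
    (mgvl_hsep hπ ιC hp hpM hA).1

/-- **`e^p − (1/j)^(p² − 1) ∈ 𝔪(V_0)`** -/
theorem wfe_pow_sub_mem (hA : A.LiesOverPrime p) :
    wfeE A K₁ M p ^ p - (mgcT A K₁ (M * p))⁻¹ ^ (p ^ 2 - 1) ∈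
      (mgvV hπ ιC hp hpM false).nonunits := by
  rw [wfe_pow_sub_eq hp.one_le]
  have h1 := (mgvl_hsep' hπ ιC hp hpM hA).1
  rw [nodesFrob_atkinLehner_C] at h1
  exact vt_mul_mem_nonunits _ (neg_mem (pow_mem (wfe_T_inv_mem hπ ιC hp hpM false) (p ^ 2))) h1

/-- **(e)**: the element `e` of `wcp_ptData_inv` in the modular setting. -/
theorem wfe_exists (hA : A.LiesOverPrime p) :
    ∃ e : ↥(mgcF A K₁ (M * p)),
      IsIntegral ↥(Algebra.adjoin ↥(mgcA A K₁)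
        ({(mgcT A K₁ (M * p))⁻¹} : Set ↥(mgcF A K₁ (M * p)))) e ∧
      e - 1 ∈ (mgvV hπ ιC hp hpM true).nonunits ∧
      e ^ p - (mgcT A K₁ (M * p))⁻¹ ^ (p ^ 2 - 1) ∈ (mgvV hπ ιC hp hpM false).nonunits :=
  ⟨wfeE A K₁ M p, wfe_integral hp, wfe_sub_one_mem hπ ιC hp hpM hA,
    wfe_pow_sub_mem hπ ιC hp hpM hA⟩

/-- the exponent `m = p² − 1` is not zero -/
theorem wfe_exp_ne_zero (hp : p.Prime) : p ^ 2 - 1 ≠ 0 := by
  have h2 := hp.two_le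
  have : 4 ≤ p ^ 2 := by nlinarith
  omega

end Concrete

end Fermat.Agent.S33
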