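import Fermat.Agent.S36.ThinUnit
import Fermat.Agent.UNIP.MGVloc
import Fermat.Agent.UNIP.MGConcrete

/-!
# S33 v2, C4 (WILD), piece T5f-U: the modular unit `U = q¹² Δ(Q^q)/Δ(Q)` and the vertical
valuation rings `V_∞ = mgvV … true`, `V_0 = mgvV … false`

`U = S36.s36tuU`, `V' = S36.s36tuV`, `U V' = q¹²`, `w_q U = V'`.

* generic base `hB : VtBase (algebraMap A E) r π`, `char k = q`:
  `wun_U_mem_true : U ∈ 𝔪(V_∞)`, `wun_U_not_mem_false : U ∉ 𝔪(V_0)`,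
  `wun_V_mem_false : V' ∈ 𝔪(V_0)`, `wun_V_not_mem_true : V' ∉ 𝔪(V_∞)`,
  `wun_U_mem`, `wun_V_mem` (`U, V' ∈ V c` for both `c`).
* concrete setting (`A ∩ K₀` a DVR, `A` over `q`), `V = mgvV hπ ιC hq hqM`:
  `wun_mgv_U`, `wun_mgv_V`, `wun_mgv_U_mem`, `wun_mgv_V_mem`,
  `wun_mgv_isIntegral_U`, `wun_mgv_isIntegral_V` (integral over `A′[bgJ]`),
  `wun_mgv_U_mul_V : U * V' = algebraMap A′ F q ^ 12`, `wun_mgv_q_ne_zero`, `wun_mgv_pi_dvd_q`,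
  `wun_mgv_sep_true : j_q − j^q ∈ 𝔪(V_∞)`, `wun_mgv_sep_false : j_q^q − j ∈ 𝔪(V_0)`,
  `wun_mgv_e_sub_one : j_q (j⁻¹)^q − 1 ∈ 𝔪(V_∞)`,
  `wun_mgv_e_pow_sub : (j_q (j⁻¹)^q)^q − (j⁻¹)^(q²−1) ∈ 𝔪(V_0)`.
-/

set_option autoImplicit false
set_option linter.unusedSectionVars false
set_option linter.unusedVariables false
set_option linter.style.haveILetI false

noncomputable section

namespace Fermat.Agent.S33

open ModularCurve Fermat.Agent.INJ Fermat.Agent.ES Fermat.Agent.ES.G2 Fermat.Agent.UNIP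
  Fermat.Agent.AL Fermat.Agent.S36 Fermat.Agent.S28

section Gen

variable {A E k : Type*} [CommRing A] [IsDomain A] [Field E] [CharZero E] [Algebra A E]
  [IsFractionRing A E] [Field k] {r : A →+* k} {π : A} (hB : VtBase (algebraMap A E) r π)
  (ιC : E →+* ℂ) {q M : ℕ} [NeZero q] [NeZero M] [NeZero (M * q)] (hq : q.Prime)
  (hqM : ¬ q ∣ M)

/-- `P = Δ̄ (Δ̄⁻¹)^q ≠ 0` -/
theorem wun_P_ne_zero (k : Type*) [Field k] (q : ℕ) : deltaS k * deltaInvS k ^ q ≠ 0 :=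
  mul_ne_zero (deltaS_ne_zero k) (pow_ne_zero _ (deltaInvS_ne_zero k))

/-- the `Q`-expansion of `U` at the cusp `0` is the `Q`-expansion of `V'` at `∞` -/
theorem wun_emb_false_U :
    vtEmbFam ιC hq hqM false (s36tuU E ιC) =
      ((s36tuV E ιC : modularFunctionFieldFullC E (M * q)) : LaurentSeries E) := by
  show ((atkinLehner E ιC hq hqM (s36tuU E ιC) : modularFunctionFieldFullC E (M * q)) :
    LaurentSeries E) = _
  rw [s36tu_w_U]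

/-- the `Q`-expansion of `V'` at the cusp `0` is the `Q`-expansion of `U` at `∞` -/
theorem wun_emb_false_V :
    vtEmbFam ιC hq hqM false (s36tuV E ιC) =
      ((s36tuU E ιC : modularFunctionFieldFullC E (M * q)) : LaurentSeries E) := by
  show ((atkinLehner E ιC hq hqM (s36tuV E ιC) : modularFunctionFieldFullC E (M * q)) :
    LaurentSeries E) = _
  rw [s36tu_w_V]

/-- `U ∈ V c` for both `c` -/
theorem wun_U_mem (c : Bool) : s36tuU E ιC ∈ vtFam hB ιC hq hqM c := by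
  rw [mem_vtFam]
  cases c
  · rw [wun_emb_false_U]; exact s36tu_V_mem_gauss r ιC
  · exact s36tu_U_mem_gauss r ιC

/-- `V' ∈ V c` for both `c` -/
theorem wun_V_mem (c : Bool) : s36tuV E ιC ∈ vtFam hB ιC hq hqM c := by
  rw [mem_vtFam]
  cases c
  · rw [wun_emb_false_V]; exact s36tu_U_mem_gauss r ιC
  · exact s36tu_V_mem_gauss r ιC

variable [Fact q.Prime] [CharP k q]

/-- **`U ∈ 𝔪(V_∞)`** -/
theorem wun_U_mem_true : s36tuU E ιC ∈ (vtFam hB ιC hq hqM true).nonunits := by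
  rw [vtFam_mem_nonunits_iff]
  exact ⟨s36tu_U_mem_gauss r ιC, s36tu_gaussRed_U r ιC _⟩

/-- **`V' ∉ 𝔪(V_∞)`** -/
theorem wun_V_not_mem_true : s36tuV E ιC ∉ (vtFam hB ιC hq hqM true).nonunits := by
  rw [vtFam_mem_nonunits_iff]
  rintro ⟨h, h0⟩
  exact wun_P_ne_zero k q ((s36tu_gaussRed_V r ιC h).symm.trans h0)

/-- **`U ∉ 𝔪(V_0)`** -/
theorem wun_U_not_mem_false : s36tuU E ιC ∉ (vtFam hB ιC hq hqM false).nonunits := by
  rw [vtFam_mem_nonunits_iff]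
  rintro ⟨h, h0⟩
  have e2 : (⟨_, h⟩ : gaussRing (algebraMap A E) r) =
      ⟨_, s36tu_V_mem_gauss (E := E) (M := M) (q := q) r ιC⟩ :=
    Subtype.ext (wun_emb_false_U ιC hq hqM)
  rw [e2] at h0
  exact wun_P_ne_zero k q ((s36tu_gaussRed_V r ιC _).symm.trans h0)

/-- **`V' ∈ 𝔪(V_0)`** -/
theorem wun_V_mem_false : s36tuV E ιC ∈ (vtFam hB ιC hq hqM false).nonunits := by
  rw [vtFam_mem_nonunits_iff]
  have hmem : vtEmbFam ιC hq hqM false (s36tuV E ιC) ∈ gaussRing (algebraMap A E) r := by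
    rw [wun_emb_false_V]; exact s36tu_U_mem_gauss r ιC
  refine ⟨hmem, ?_⟩
  have e2 : (⟨_, hmem⟩ : gaussRing (algebraMap A E) r) =
      ⟨_, s36tu_U_mem_gauss (E := E) (M := M) (q := q) r ιC⟩ :=
    Subtype.ext (wun_emb_false_V ιC hq hqM)
  rw [e2]
  exact s36tu_gaussRed_U r ιC _

end Gen

section Abs

variable {F : Type*} [Field F]

/-- the negative of a non-unit is a non-unit -/
theorem wun_neg_mem_nonunits (V : ValuationSubring F) {a : F} (ha : a ∈ V.nonunits) :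
    -a ∈ V.nonunits := by
  rw [ValuationSubring.mem_nonunits_iff] at ha ⊢
  rwa [Valuation.map_neg]

/-- a member of `V` outside `𝔪(V)` has valuation `1` -/
theorem wun_valuation_eq_one (V : ValuationSubring F) {a : F} (ha : a ∈ V)
    (ha' : a ∉ V.nonunits) : V.valuation a = 1 := by
  refine le_antisymm ((V.valuation_le_one_iff a).2 ha) ?_
  rw [ValuationSubring.mem_nonunits_iff, not_lt] at ha'
  exact ha'

end Abs

section Mgv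

variable {A : ValuationSubring Qb} {K₀ : IntermediateField ℚ Qb}
  [IsDiscreteValuationRing ↥(beta0Ring A K₀)] {π : ↥(beta0Ring A K₀)} (hπ : Irreducible π)
  (ιC : ↥K₀ →+* ℂ) {q M : ℕ} [NeZero q] [NeZero M] [NeZero (M * q)]
  (hq : q.Prime) (hqM : ¬ q ∣ M)

/-- `U, V' ∈ V c` for both `c` -/
theorem wun_mgv_U_mem (c : Bool) : s36tuU ↥K₀ ιC ∈ mgvV hπ ιC hq hqM c :=
  wun_U_mem (vtBase_residue hπ) ιC hq hqM c

theorem wun_mgv_V_mem (c : Bool) : s36tuV ↥K₀ ιC ∈ mgvV hπ ιC hq hqM c :=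
  wun_V_mem (vtBase_residue hπ) ιC hq hqM c

/-- **(a)** `U ∈ 𝔪(V_∞)`, `U ∉ 𝔪(V_0)`: in `wthc_final`/`wthc_of_nodes` take `c₁ = true`,
`c₂ = false`. -/
theorem wun_mgv_U (hA : A.LiesOverPrime q) :
    s36tuU ↥K₀ ιC ∈ (mgvV hπ ιC hq hqM true).nonunits ∧
      s36tuU ↥K₀ ιC ∉ (mgvV hπ ιC hq hqM false).nonunits := by
  haveI : Fact q.Prime := ⟨hq⟩
  haveI : CharP (IsLocalRing.ResidueField ↥(beta0Ring A K₀)) q := mgvl_charP hq hA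
  exact ⟨wun_U_mem_true (vtBase_residue hπ) ιC hq hqM,
    wun_U_not_mem_false (vtBase_residue hπ) ιC hq hqM⟩

/-- **(a′)** `V' ∈ 𝔪(V_0)`, `V' ∉ 𝔪(V_∞)`. -/
theorem wun_mgv_V (hA : A.LiesOverPrime q) :
    s36tuV ↥K₀ ιC ∈ (mgvV hπ ιC hq hqM false).nonunits ∧
      s36tuV ↥K₀ ιC ∉ (mgvV hπ ιC hq hqM true).nonunits := by
  haveI : Fact q.Prime := ⟨hq⟩
  haveI : CharP (IsLocalRing.ResidueField ↥(beta0Ring A K₀)) q := mgvl_charP hq hA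
  exact ⟨wun_V_mem_false (vtBase_residue hπ) ιC hq hqM,
    wun_V_not_mem_true (vtBase_residue hπ) ιC hq hqM⟩

/-- `v_0(U) = 1` -/
theorem wun_mgv_U_valuation_false (hA : A.LiesOverPrime q) :
    (mgvV hπ ιC hq hqM false).valuation (s36tuU ↥K₀ ιC) = 1 :=
  wun_valuation_eq_one _ (wun_mgv_U_mem hπ ιC hq hqM false) (wun_mgv_U hπ ιC hq hqM hA).2

/-- `v_∞(V') = 1` -/
theorem wun_mgv_V_valuation_true (hA : A.LiesOverPrime q) :
    (mgvV hπ ιC hq hqM true).valuation (s36tuV ↥K₀ ιC) = 1 :=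
  wun_valuation_eq_one _ (wun_mgv_V_mem hπ ιC hq hqM true) (wun_mgv_V hπ ιC hq hqM hA).2

omit [IsDiscreteValuationRing ↥(beta0Ring A K₀)] in
include hq in
/-- **(b)** `U` is integral over `A′[j]` -/
theorem wun_mgv_isIntegral_U :
    IsIntegral (Algebra.adjoin ↥(beta0Ring A K₀) {bgJ ↥K₀ (M * q)})
      (s36tuU ↥K₀ ιC (q := q) (M := M)) :=
  s36tu_isIntegral_U (A := ↥(beta0Ring A K₀)) (E := ↥K₀) (M := M) ιC hq

omit [IsDiscreteValuationRing ↥(beta0Ring A K₀)] in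
include hq in
/-- **(b)** `V'` is integral over `A′[j]` -/
theorem wun_mgv_isIntegral_V :
    IsIntegral (Algebra.adjoin ↥(beta0Ring A K₀) {bgJ ↥K₀ (M * q)})
      (s36tuV ↥K₀ ιC (q := q) (M := M)) :=
  s36tu_isIntegral_V (A := ↥(beta0Ring A K₀)) (E := ↥K₀) (M := M) ιC hq

omit [IsDiscreteValuationRing ↥(beta0Ring A K₀)] in
/-- `U V' = q¹²` (`hUV` of `wthc_final`, `q := (q : A′)`, `N = 12`) -/
theorem wun_mgv_U_mul_V :
    s36tuU ↥K₀ ιC (q := q) (M := M) * s36tuV ↥K₀ ιC =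
      algebraMap ↥(beta0Ring A K₀) ↥(modularFunctionFieldFullC ↥K₀ (M * q))
        ((q : ℕ) : ↥(beta0Ring A K₀)) ^ 12 := by
  rw [s36tuU_mul_V, map_pow, map_natCast, map_natCast]

omit [IsDiscreteValuationRing ↥(beta0Ring A K₀)] in
/-- `q ≠ 0` in `A′` -/
theorem wun_mgv_q_ne_zero : ((q : ℕ) : ↥(beta0Ring A K₀)) ≠ 0 :=
  Nat.cast_ne_zero.mpr (NeZero.ne q)

include hπ hq in
/-- `π ∣ q` in `A′` -/
theorem wun_mgv_pi_dvd_q (hA : A.LiesOverPrime q) : π ∣ ((q : ℕ) : ↥(beta0Ring A K₀)) := by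
  have hqm : ((q : ℕ) : ↥(beta0Ring A K₀)) ∈ IsLocalRing.maximalIdeal ↥(beta0Ring A K₀) := by
    rw [IsLocalRing.mem_maximalIdeal, mem_nonunits_iff]
    intro hu
    haveI := mgvl_charP (K₀ := K₀) hq hA
    have h1 := (IsLocalRing.residue ↥(beta0Ring A K₀)).isUnit_map hu
    rw [map_natCast, CharP.cast_eq_zero] at h1
    exact not_isUnit_zero h1
  rw [(IsDiscreteValuationRing.irreducible_iff_uniformizer π).mp hπ,
    Ideal.mem_span_singleton] at hqm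
  exact hqm

/-- **(c)** `j_q − j^q ∈ 𝔪(V_∞)` (Kronecker) -/
theorem wun_mgv_sep_true (hA : A.LiesOverPrime q) :
    nodesFrobJq ↥K₀ M q - bgJ ↥K₀ (M * q) ^ q ∈ (mgvV hπ ιC hq hqM true).nonunits :=
  (mgvl_hsep hπ ιC hq hqM hA).1

/-- **(c)** `j_q^q − j ∈ 𝔪(V_0)` -/
theorem wun_mgv_sep_false (hA : A.LiesOverPrime q) :
    nodesFrobJq ↥K₀ M q ^ q - bgJ ↥K₀ (M * q) ∈ (mgvV hπ ιC hq hqM false).nonunits := by
  have h := (mgvl_hsep' hπ ιC hq hqM hA).1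
  rw [nodesFrob_atkinLehner_C] at h
  have h2 := wun_neg_mem_nonunits _ h
  rw [neg_sub] at h2
  exact h2

/-- step 2 of (A): `e − 1 ∈ 𝔪(V_∞)`, `e = j_q / j^q` -/
theorem wun_mgv_e_sub_one (hA : A.LiesOverPrime q) :
    nodesFrobJq ↥K₀ M q * (bgJ ↥K₀ (M * q))⁻¹ ^ q - 1 ∈ (mgvV hπ ιC hq hqM true).nonunits := by
  have hJ0 : bgJ ↥K₀ (M * q) ≠ 0 := by
    intro h0
    have h1 := mgv_T_valuation hπ ιC hq hqM true
    rw [h0, map_zero] at h1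
    exact zero_ne_one h1
  have e : nodesFrobJq ↥K₀ M q * (bgJ ↥K₀ (M * q))⁻¹ ^ q - 1 =
      (bgJ ↥K₀ (M * q))⁻¹ ^ q * (nodesFrobJq ↥K₀ M q - bgJ ↥K₀ (M * q) ^ q) := by
    rw [mul_sub, ← mul_pow, inv_mul_cancel₀ hJ0, one_pow,
      mul_comm ((bgJ ↥K₀ (M * q))⁻¹ ^ q)]
  rw [e]
  exact mgvl_mul_mem_nonunits _ ((mgvV hπ ιC hq hqM true).pow_mem
    (mgv_T_inv_mem hπ ιC hq hqM true) q) (wun_mgv_sep_true hπ ιC hq hqM hA)

/-- step 3 of (A): `e^q − x^(q²−1) ∈ 𝔪(V_0)`, `e = j_q / j^q`, `x = 1/j` -/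
theorem wun_mgv_e_pow_sub (hA : A.LiesOverPrime q) :
    (nodesFrobJq ↥K₀ M q * (bgJ ↥K₀ (M * q))⁻¹ ^ q) ^ q - (bgJ ↥K₀ (M * q))⁻¹ ^ (q ^ 2 - 1) ∈
      (mgvV hπ ιC hq hqM false).nonunits := by
  have hJ0 : bgJ ↥K₀ (M * q) ≠ 0 := by
    intro h0
    have h1 := mgv_T_valuation hπ ιC hq hqM true
    rw [h0, map_zero] at h1
    exact zero_ne_one h1
  have hq1 : 1 ≤ q ^ 2 := Nat.one_le_pow _ _ hq.pos
  have e : (nodesFrobJq ↥K₀ M q * (bgJ ↥K₀ (M * q))⁻¹ ^ q) ^ q -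
      (bgJ ↥K₀ (M * q))⁻¹ ^ (q ^ 2 - 1) =
      (bgJ ↥K₀ (M * q))⁻¹ ^ (q ^ 2) * (nodesFrobJq ↥K₀ M q ^ q - bgJ ↥K₀ (M * q)) := by
    have h1 : (bgJ ↥K₀ (M * q))⁻¹ ^ (q ^ 2 - 1) =
        (bgJ ↥K₀ (M * q))⁻¹ ^ (q ^ 2) * bgJ ↥K₀ (M * q) := by
      conv_rhs => rw [← Nat.sub_add_cancel hq1, pow_succ, mul_assoc, inv_mul_cancel₀ hJ0, mul_one]
    rw [h1, mul_pow, ← pow_mul, pow_two]
    ring
  rw [e]
  exact mgvl_mul_mem_nonunits _ ((mgvV hπ ιC hq hqM false).pow_mem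
    (mgv_T_inv_mem hπ ιC hq hqM false) _) (wun_mgv_sep_false hπ ιC hq hqM hA)

end Mgv

section Mgc

variable {A : ValuationSubring Qb} {K₁ : IntermediateField ℚ Qb}
  [IsDiscreteValuationRing ↥(mgcA A K₁)] {π : ↥(mgcA A K₁)} (hπ : Irreducible π)
  (ιC : ↥(mgcE A K₁) →+* ℂ) {p M : ℕ} [NeZero p] [NeZero M] [NeZero (M * p)]
  (hp : p.Prime) (hpM : ¬ p ∣ M)

/-- **(U)** the tube-unit in the `mgc` setting (`STB/MGData.lean`, `q := p`): `U = s36tuU`,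
`V' = s36tuV`, orientation `c₁ = true` (`V_∞`), `c₂ = false` (`V_0`). -/
theorem wun_exists (hA : A.LiesOverPrime p) :
    ∃ U V' : ↥(mgcF A K₁ (M * p)),
      IsIntegral ↥(Algebra.adjoin ↥(mgcA A K₁) {mgcT A K₁ (M * p)}) U ∧
      IsIntegral ↥(Algebra.adjoin ↥(mgcA A K₁) {mgcT A K₁ (M * p)}) V' ∧
      U * V' = algebraMap ↥(mgcA A K₁) ↥(mgcF A K₁ (M * p)) ((p : ℕ) : ↥(mgcA A K₁)) ^ 12 ∧
      U ∈ (mgvV hπ ιC hp hpM true).nonunits ∧ U ∉ (mgvV hπ ιC hp hpM false).nonunits :=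
  ⟨s36tuU ↥(mgcE A K₁) ιC, s36tuV ↥(mgcE A K₁) ιC,
    wun_mgv_isIntegral_U (K₀ := mgcE A K₁) ιC hp, wun_mgv_isIntegral_V (K₀ := mgcE A K₁) ιC hp,
    wun_mgv_U_mul_V (K₀ := mgcE A K₁) ιC, (wun_mgv_U hπ ιC hp hpM hA).1,
    (wun_mgv_U hπ ιC hp hpM hA).2⟩

/-- the mirrored form: `V' ∈ 𝔪(V_0)`, `V' ∉ 𝔪(V_∞)` -/
theorem wun_exists' (hA : A.LiesOverPrime p) :
    ∃ U V' : ↥(mgcF A K₁ (M * p)),
      IsIntegral ↥(Algebra.adjoin ↥(mgcA A K₁) {mgcT A K₁ (M * p)}) U ∧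
      IsIntegral ↥(Algebra.adjoin ↥(mgcA A K₁) {mgcT A K₁ (M * p)}) V' ∧
      U * V' = algebraMap ↥(mgcA A K₁) ↥(mgcF A K₁ (M * p)) ((p : ℕ) : ↥(mgcA A K₁)) ^ 12 ∧
      U ∈ (mgvV hπ ιC hp hpM true).nonunits ∧ U ∉ (mgvV hπ ιC hp hpM false).nonunits ∧
      V' ∈ (mgvV hπ ιC hp hpM false).nonunits ∧ V' ∉ (mgvV hπ ιC hp hpM true).nonunits :=
  ⟨s36tuU ↥(mgcE A K₁) ιC, s36tuV ↥(mgcE A K₁) ιC,
    wun_mgv_isIntegral_U (K₀ := mgcE A K₁) ιC hp, wun_mgv_isIntegral_V (K₀ := mgcE A K₁) ιC hp,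
    wun_mgv_U_mul_V (K₀ := mgcE A K₁) ιC, (wun_mgv_U hπ ιC hp hpM hA).1,
    (wun_mgv_U hπ ιC hp hpM hA).2, (wun_mgv_V hπ ιC hp hpM hA).1,
    (wun_mgv_V hπ ιC hp hpM hA).2⟩

/-- the two non-unit facts of **(e)** in the `mgc` setting, `e = j_p (j⁻¹)^p` -/
theorem wun_e_facts (hA : A.LiesOverPrime p) :
    nodesFrobJq ↥(mgcE A K₁) M p * (mgcT A K₁ (M * p))⁻¹ ^ p - 1 ∈
        (mgvV hπ ιC hp hpM true).nonunits ∧
      (nodesFrobJq ↥(mgcE A K₁) M p * (mgcT A K₁ (M * p))⁻¹ ^ p) ^ p -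
          (mgcT A K₁ (M * p))⁻¹ ^ (p ^ 2 - 1) ∈ (mgvV hπ ιC hp hpM false).nonunits :=
  ⟨wun_mgv_e_sub_one hπ ιC hp hpM hA, wun_mgv_e_pow_sub hπ ιC hp hpM hA⟩

end Mgc

end Fermat.Agent.S33
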