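import Fermat.Agent.S33.WildPts
import Fermat.Agent.S33.WildUnit
import Fermat.Agent.S33.WildFrobE

/-!
# S33 v2, C4 (WILD), T5f-mod: the point data of `wht_main`, UNCONDITIONAL

* `wpt_unit`  : `WptUnit hπ ιC hp hpM`  (helper28's `wun_exists`, `U = s36tuU`, `N = 12`);
* `wpt_frobE` : `WptFrobE hπ ιC hp hpM` (helper61's `wfe_exists`, `e = j_p / j ^ p`);
* `wpt_pts₁`, `wpt_pts₂` : `WhtPtData (mgvV hπ ιC hp hpM) true false 𝔫` at every closed point of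
  the charts `j`, `1 / j` = the hypotheses `hdat₁`, `hdat₂` of `wht_main` / `wtop_field`.
-/

set_option autoImplicit false
set_option linter.style.haveILetI false
set_option linter.unusedSectionVars false
set_option linter.unusedVariables false

noncomputable section

namespace Fermat.Agent.S33

open ModularCurve AlgebraicCurve Fermat.Agent.ES Fermat.Agent.ES.G2 Fermat.Agent.INJ
  Fermat.Agent.UNIP Fermat.Agent.STB Fermat.Agent.AL
open IntermediateField Polynomial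

section PtsFinal

variable {A : ValuationSubring Qb} (K₁ : IntermediateField ℚ Qb)
  {M p : ℕ} [NeZero M] [NeZero p] [NeZero (M * p)]
  [IsDiscreteValuationRing ↥(mgcA A K₁)]

/-- the modular tube-unit exists -/
theorem wpt_unit (hp : p.Prime) (hpM : ¬ p ∣ M) (hA : A.LiesOverPrime p)
    {π : ↥(mgcA A K₁)} (hπ : Irreducible π) (ιC : ↥(mgcE A K₁) →+* ℂ) :
    WptUnit hπ ιC hp hpM := by
  obtain ⟨U, V', h1, h2, h3, h4, h5⟩ := wun_exists (K₁ := K₁) hπ ιC hp hpM hA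
  exact ⟨U, V', 12, h1, h2, h3, h4, h5⟩

/-- the separating function at the cusps exists -/
theorem wpt_frobE (hp : p.Prime) (hpM : ¬ p ∣ M) (hA : A.LiesOverPrime p)
    {π : ↥(mgcA A K₁)} (hπ : Irreducible π) (ιC : ↥(mgcE A K₁) →+* ℂ) :
    WptFrobE hπ ιC hp hpM := by
  obtain ⟨e, h1, h2, h3⟩ := wfe_exists (K₁ := K₁) hπ ιC hp hpM hA
  exact ⟨e, p, p ^ 2 - 1, wfe_exp_ne_zero hp, h1, h2, h3⟩

variable [NumberField K₁] [IsGalois ℚ K₁]

/-- **`hdat₁` of `wht_main` / `wtop_field`, unconditional.** -/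
theorem wpt_pts₁ (hp : p.Prime) (hpM : ¬ p ∣ M) (hA : A.LiesOverPrime p)
    (h2 : p = 2 → 3 ∣ M) (h3 : p = 3 → 2 ∣ M)
    {π : ↥(mgcA A K₁)} (hπ : Irreducible π) (ιC : ↥(mgcE A K₁) →+* ℂ) :
    ∀ 𝔫 : AtPt (F := ↥(mgcF A K₁ (M * p))) π (mgcT A K₁ (M * p)),
      WhtPtData (mgvV hπ ιC hp hpM) true false 𝔫 :=
  wpt_hdat₁ K₁ hp hpM hA h2 h3 hπ ιC (wpt_unit K₁ hp hpM hA hπ ιC)

/-- **`hdat₂` of `wht_main` / `wtop_field`, unconditional.** -/
theorem wpt_pts₂ (hp : p.Prime) (hpM : ¬ p ∣ M) (hA : A.LiesOverPrime p)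
    (h2 : p = 2 → 3 ∣ M) (h3 : p = 3 → 2 ∣ M)
    {π : ↥(mgcA A K₁)} (hπ : Irreducible π) (ιC : ↥(mgcE A K₁) →+* ℂ) :
    ∀ 𝔫 : AtPt (F := ↥(mgcF A K₁ (M * p))) π (mgcT A K₁ (M * p))⁻¹,
      WhtPtData (mgvV hπ ιC hp hpM) true false 𝔫 :=
  wpt_hdat₂ K₁ hp hpM hA h2 h3 hπ ιC (wpt_unit K₁ hp hpM hA hπ ιC)
    (wpt_frobE K₁ hp hpM hA hπ ιC)

end PtsFinal

end Fermat.Agent.S33
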