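import Fermat.Agent.S33.PlanGeo
import Fermat.Agent.INJ.LocalSetup

/-!
# S33 v2, block C3: the start of the depth iteration  (helper61)

`stmtDepthStart (hp : p.Prime) : StmtDepthStart p` — a function of `F_N` which reduces to one at a
valuation ring `A ⊂ ℚ̄` over `p` is congruent to one modulo `ϖ A`, where `ϖ` is a uniformizer of
the discrete valuation ring `A ∩ K₀` of a number field `K₀` over which the two primitive series
`y₁`, `y₂` (`u = y₁ / y₂`) are defined; `ϖ ∣ p` and `p ∣ ϖ ^ e` in `A`.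

(`StmtDepthStart 0` is false, since `A.LiesOverPrime 0` always holds: the theorem carries `hp`.)
-/

set_option autoImplicit false

noncomputable section

namespace Fermat.Agent.S33

open ModularCurve AlgebraicCurve Fermat.Agent.ES Fermat.Agent.ES.G2 Fermat.Agent.INJ

/-- an element of `K₀` whose image lies in the maximal ideal of `A` is divisible by a uniformizer
of `A ∩ K₀` -/
theorem ds_dvd_of_mem_nonunits (A : ValuationSubring NfQb) (K₀ : IntermediateField ℚ NfQb)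
    [IsDiscreteValuationRing (nfSub A K₀)] {π : nfSub A K₀} (hπ : Irreducible π) (d : K₀)
    (hd : algebraMap K₀ NfQb d ∈ A.nonunits) :
    ∃ a ∈ A, algebraMap K₀ NfQb d = algebraMap K₀ NfQb (π : K₀) * a := by
  have hdA : algebraMap K₀ NfQb d ∈ A := ValuationSubring.nonunits_subset hd
  set d' : nfSub A K₀ := ⟨d, hdA⟩ with hd'
  have hres : nfRes A K₀ d' = 0 := by
    rw [nfRes_apply, IsLocalRing.residue_eq_zero_iff, ← ValuationSubring.coe_mem_nonunits_iff]
    exact hd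
  obtain ⟨a₀, ha₀⟩ := ls_dvd_of_res_eq_zero A K₀ hπ d' hres
  refine ⟨algebraMap K₀ NfQb (a₀ : K₀), a₀.2, ?_⟩
  have := congrArg (fun x : nfSub A K₀ => algebraMap K₀ NfQb (x : K₀)) ha₀
  simpa using this

/-- **C3, start.** -/
theorem stmtDepthStart {p : ℕ} (hp : p.Prime) : StmtDepthStart p := by
  intro A hA N _ u hu
  classical
  obtain ⟨y₁, y₂, hy₁, hy₂, hP₁, hP₂, hC, he⟩ := hu
  obtain ⟨K₀, hK₀, -, hK⟩ := nf_exists_descent_finset (N := N) ∅ {y₁, y₂} (by
    intro y hy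
    rcases Finset.mem_insert.1 hy with rfl | hy
    · exact hy₁
    · rw [Finset.mem_singleton.1 hy]; exact hy₂)
  obtain ⟨z₁, -, hz₁⟩ := hK K₀ le_rfl y₁ (Finset.mem_insert_self _ _)
  obtain ⟨z₂, -, hz₂⟩ := hK K₀ le_rfl y₂
    (Finset.mem_insert_of_mem (Finset.mem_singleton_self _))
  haveI := hK₀
  haveI : IsDiscreteValuationRing (nfSub A K₀) := ls_isDVR A K₀ hp hA
  obtain ⟨π, hπ⟩ := IsDiscreteValuationRing.exists_irreducible (nfSub A K₀)
  have hinj : Function.Injective (algebraMap K₀ NfQb) := (algebraMap K₀ NfQb).injective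
  have hπ0 : (π : K₀) ≠ 0 := fun h => hπ.ne_zero (Subtype.ext h)
  -- `p = ϖ a`
  have hpK : algebraMap K₀ NfQb ((p : ℕ) : K₀) ∈ A.nonunits := by
    rw [map_natCast]; exact hA
  obtain ⟨a, haA, hpa⟩ := ds_dvd_of_mem_nonunits A K₀ hπ ((p : ℕ) : K₀) hpK
  rw [map_natCast] at hpa
  -- `ϖ ^ e = p b`
  have hp0 : ((p : ℕ) : nfSub A K₀) ≠ 0 := by
    intro h
    have h1 := congrArg (fun x : nfSub A K₀ => (x : K₀)) h
    push_cast at h1
    exact (Nat.cast_ne_zero.2 hp.ne_zero) h1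
  obtain ⟨e, he'⟩ := IsDiscreteValuationRing.associated_pow_irreducible hp0 hπ
  obtain ⟨w, hw⟩ := he'
  have hpe : algebraMap K₀ NfQb (π : K₀) ^ e
      = (p : NfQb) * algebraMap K₀ NfQb ((w : nfSub A K₀) : K₀) := by
    have := congrArg (fun x : nfSub A K₀ => algebraMap K₀ NfQb (x : K₀)) hw
    push_cast at this
    exact this.symm
  refine ⟨algebraMap K₀ NfQb (π : K₀), a, algebraMap K₀ NfQb ((w : nfSub A K₀) : K₀), e, π.2,
    haA, (w : nfSub A K₀).2, (map_ne_zero_iff _ hinj).2 hπ0, hpa, hpe, ?_⟩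
  refine ⟨y₁, y₂, hy₁, hy₂, hP₁, hP₂, fun n => ?_, he⟩
  have h1 : y₁.coeff n - y₂.coeff n = algebraMap K₀ NfQb (z₁.coeff n - z₂.coeff n) := by
    rw [← hz₁, ← hz₂, coeffMap_coeff, coeffMap_coeff, map_sub]
  have h2 : algebraMap K₀ NfQb (z₁.coeff n - z₂.coeff n) ∈ A.nonunits := by
    rw [← h1]; exact hC n
  obtain ⟨b, hbA, hb⟩ := ds_dvd_of_mem_nonunits A K₀ hπ _ h2
  exact ⟨b, hbA, by rw [h1, hb]⟩

end Fermat.Agent.S33
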