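import Fermat.Agent.S33.NewSplitCls
import Fermat.Agent.S33.DepthStart

/-!
# S33, route v2, block C3 "NORM-DEPTH": final statements (helper90)

* `stmtNewSplit : StmtNewSplit hp hpM` — a function whose norms along `α`, `β` are constants times
  `p`-th powers and which is Gauss-constant at `v_∞` or at `v_0` is split;
* `s33_split_of_mem_new` — every Kummer function (level `p`) of a class of
  `c2New M p I_A n` (the new part of exponent `p` of the inertia span of `J₀(Mp)[pⁿ]`) is split.

Inputs: `STB.stmtNormQ` (helper60), `S33/NormAlg.lean`, `S33/DepthStart.lean` (helper61),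
`UNIP.cheap_infty` (helper20), `S33/C2.lean` (helper92).
-/

set_option autoImplicit false

noncomputable section

namespace Fermat.Agent.S33

open ModularCurve AlgebraicCurve Fermat.Agent.ES Fermat.Agent.ES.G2 Fermat.Agent.STB
  Fermat.Agent.UNIP

section

variable {p M : ℕ} [NeZero p] [NeZero M] [NeZero (M * p)] (hp : p.Prime) (hpM : ¬ p ∣ M)

/-- **C3.** -/
theorem stmtNewSplit : StmtNewSplit hp hpM :=
  stmtNewSplit_of_start hp hpM (stmtDepthStart hp)

/-- **C3 for classes**: every Kummer function of a class of the new part of exponent `p` of the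
inertia span of `J₀(Mp)[pⁿ]` is split. -/
theorem s33_split_of_mem_new (A : ValuationSubring Qb) (hA : A.LiesOverPrime p) (n : ℕ)
    {x : JZero (M * p)} (hx : x ∈ c2New M p (A.inertiaSubgroupIn ℚ) n)
    {u : modularFunctionFieldBar (M * p)} (hu : KummerRel p x u) : IsSplitFn hp hpM A u :=
  s33_split_of_mem_new_of_start hp hpM (stmtDepthStart hp) A hA n hx hu

end

end Fermat.Agent.S33
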