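import Fermat.Agent.S33.WildMGStmt
import Fermat.Agent.S33.NewSplitFinal
import Fermat.Agent.S33.PlanKey

/-!
# S33, route v2, block C4 (WILD), top: `StmtWildKummer → StmtWildT`

`x ∈ c2New M p I n` has a Kummer function `u` of exponent `p` (`c2_kummer_of_mem_new`), which is
split (`s33_split_of_mem_new`, C3).  `StmtWildKummer` gives `σ u / u ^ a = h ^ p`, and `σ u / u ^ a`
is a Kummer function of `σ x − a x`: hence `σ x = a x`.
-/

set_option autoImplicit false

noncomputable section

namespace Fermat.Agent.S33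

open ModularCurve AlgebraicCurve Fermat.Agent.ES Fermat.Agent.ES.G2

section Generic

variable {K F : Type*} [Field K] [Field F] [Algebra K F]

/-- multiples: `u ^ a` is a Kummer function of `a • x` -/
theorem wok_kummerRel_nsmul {n : ℕ} {x : Pic0 K F} {u : F} (h : KummerRel n x u) (a : ℕ) :
    KummerRel n (a • x) (u ^ a) := by
  induction a with
  | zero =>
    rw [zero_nsmul, pow_zero]
    exact KummerRel.zero
  | succ a ih =>
    rw [succ_nsmul, pow_succ]
    exact ih.add h

/-- the divisor of a Kummer function of exponent `n` is divisible by `n` -/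
theorem wok_dvd_ord {n : ℕ} {x : Pic0 K F} {u : F} (h : KummerRel n x u) (v : Place K F) :
    (n : ℤ) ∣ v.ord u := by
  obtain ⟨D, -, -, hD⟩ := h
  exact ⟨_, (hD v).symm⟩

/-- If `u` is a Kummer function of `x` of exponent `n ≠ 0` and `g u / u ^ a` is an `n`-th power,
then `g x = a x`. -/
theorem wok_smul_eq_nsmul (g : SemilinearAut K F) {n : ℕ} (hn : n ≠ 0) {x : Pic0 K F} {u : F}
    (hu : KummerRel n x u) (a : ℕ) {h : F} (hh : h ^ n = (g • u) / u ^ a) :
    g • x = a • x := by
  have h1 : KummerRel n (g • x - a • x) ((g • u) / u ^ a) :=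
    (hu.smul g).sub (wok_kummerRel_nsmul hu a)
  rw [← hh] at h1
  have h2 : KummerRel n (g • x - a • x) (1 * h ^ n) := by rwa [one_mul]
  exact sub_eq_zero.mp (KummerRel.eq_zero_of_pow hn (fun v => v.ord_one) h2)

end Generic

/-- **C4, top.**  The Kummer form of (C4) gives `StmtWildT`. -/
theorem stmtWildT_of_kummer (h : StmtWildKummer) : StmtWildT := by
  intro M p _ _ hp hp2 hpM P hP σ hσ a hζ n x hx
  obtain ⟨u, hu, -, -⟩ := c2_kummer_of_mem_new M p (P.inertiaSubgroupIn ℚ) n hx
  have hsplit : IsSplitFn hp hpM P u := s33_split_of_mem_new hp hpM P hP n hx hu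
  obtain ⟨k, hk⟩ := h p M hp hpM hp2 P hP σ hσ a hζ u hu.ne_zero (wok_dvd_ord hu) hsplit
  exact wok_smul_eq_nsmul (arithmeticGalois (modularFunctionFieldFull (M * p)) σ) hp.ne_zero
    hu a hk

end Fermat.Agent.S33
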