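import Fermat.Agent.S33.WildCube

/-!
# S33 v2 / C4 / T5j — cube descent, transport forms (helper61)

`wcu_cube_descent_eq` : the cube descent `F_{N'} → F_N` for any `N'` with `N' = N * 2` (e.g.
`N = M * 3`, `N' = M * 2 * 3`), `wcu_cube_descent_level3` : the instance `F_{(M·2)·3} → F_{M·3}`.
-/

set_option autoImplicit false

noncomputable section

namespace Fermat.Agent.S33

open ModularCurve Fermat.Agent.S24

/-- cube descent with the upper level given up to equality -/
theorem wcu_cube_descent_eq (N N' : ℕ) [NeZero N] (hN : ¬ 2 ∣ N) (hN' : N' = N * 2)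
    {w h : LaurentSeries Kb} (hw : w ∈ modularFunctionFieldBar N)
    (hh : h ∈ modularFunctionFieldBar N') (hwh : h ^ 3 = w) :
    ∃ g ∈ modularFunctionFieldBar N, g ^ 3 = w := by
  subst hN'
  exact wcu_cube_descent N hN hw hh hwh

/-- cube descent `F_{(M·2)·3} → F_{M·3}` for odd `M` -/
theorem wcu_cube_descent_level3 (M : ℕ) [NeZero M] (hM : ¬ 2 ∣ M)
    {w h : LaurentSeries Kb} (hw : w ∈ modularFunctionFieldBar (M * 3))
    (hh : h ∈ modularFunctionFieldBar (M * 2 * 3)) (hwh : h ^ 3 = w) :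
    ∃ g ∈ modularFunctionFieldBar (M * 3), g ^ 3 = w := by
  have : NeZero (M * 3) := ⟨Nat.mul_ne_zero (NeZero.ne M) (by norm_num)⟩
  have hN : ¬ 2 ∣ M * 3 := by
    intro h2
    rcases (Nat.Prime.dvd_mul Nat.prime_two).mp h2 with h3 | h3
    · exact hM h3
    · norm_num at h3
  exact wcu_cube_descent_eq (M * 3) (M * 2 * 3) hN (by ring) hw hh hwh

/-- cube descent `F_{(M·2)·p} → F_{M·p}` for odd `M`, `p = 3` as a variable -/
theorem wcu_cube_descent_levelp (M p : ℕ) [NeZero M] (hM : ¬ 2 ∣ M) (hp : p = 3)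
    {w h : LaurentSeries Kb} (hw : w ∈ modularFunctionFieldBar (M * p))
    (hh : h ∈ modularFunctionFieldBar (M * 2 * p)) (hwh : h ^ p = w) :
    ∃ g ∈ modularFunctionFieldBar (M * p), g ^ p = w := by
  subst hp
  exact wcu_cube_descent_level3 M hM hw hh hwh

end Fermat.Agent.S33
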