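import Fermat.Agent.S33.WildMGStmt
import Fermat.Agent.S33.WildCubeEq
import Fermat.Agent.UNIP.Descent
import Fermat.Agent.UNIP.Cheap

/-!
# S33 v2, C4 (WILD), piece T5-pull: the case `p = 3`, `2 ∤ M` (helper92)

UNIP's special-fibre data at the residue characteristic `3` exist only at the levels `N` with
`2 ∣ N`.  For the wild statement (C4) at the level `M * 3`, `M` odd, one passes to the level
`(M * 2) * 3` and comes back by the CUBE DESCENT `wcu_cube_descent_levelp` (helper61).

Everything except the cube descent is proved for a general prime `p` and a general auxiliary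
prime `r`, `p ∤ M * r`, `r ∤ M * p`:

* `wpl_bar_le` : `F_{M p} ≤ F_{(M r) p}` (subfields of `ℚ̄((q))`), `wplIncl` the inclusion;
* `wpl_al_fullC`, `wpl_al_bar` : the Atkin–Lehner involution `w_p` of the level `(M r) p`
  restricts to `w_p` of the level `M p`;
* `wpl_dvd_ord` : `m ∣ div u` pulls back;
* `wpl_depthInf`, `wpl_depthZero`, `wpl_isSplitFn` : `DepthInf`, `DepthZero`, `IsSplitFn` pull
  back;
* `wpl_coe_galois` : the `q`-expansion of `σ u / u ^ a` does not depend on the level;
* `wpl_pull` : **T5-pull** — (C4) in Kummer form at the level `(M * 2) * p` gives (C4) in Kummer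
  form at the level `M * p`, for `p = 3` and `M` odd (both statements spelled out; they are the
  bodies of `StmtWildKummerAt`).
-/

set_option autoImplicit false
set_option linter.unusedSectionVars false
set_option linter.unusedVariables false

noncomputable section

namespace Fermat.Agent.S33

open ModularCurve AlgebraicCurve Fermat.Agent.ES Fermat.Agent.ES.G2 Fermat.Agent.STB
open Fermat.Agent.S23 Fermat.Agent.S24 Fermat.Agent.S28

/-! ### The inclusion `F_{M p} ≤ F_{(M r) p}` -/

theorem wpl_bar_le (M r p : ℕ) :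
    modularFunctionFieldBar (M * p) ≤ modularFunctionFieldBar (M * r * p) := by
  have h := hdeg_bar_le (M * p) r
  rwa [Nat.mul_right_comm] at h

theorem wpl_fullC_le (K : Type*) [Field K] (M r p : ℕ) :
    modularFunctionFieldFullC K (M * p) ≤ modularFunctionFieldFullC K (M * r * p) :=
  Fermat.Agent.S28.UB.full_mono K ⟨r, by ring⟩

/-- the inclusion `F_{M p} → F_{(M r) p}` -/
def wplIncl (M r p : ℕ) :
    modularFunctionFieldBar (M * p) →ₐ[Qb] modularFunctionFieldBar (M * r * p) :=
  IntermediateField.inclusion (wpl_bar_le M r p)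

theorem wplIncl_coe (M r p : ℕ) (u : modularFunctionFieldBar (M * p)) :
    ((wplIncl M r p u : modularFunctionFieldBar (M * r * p)) : LaurentSeries Qb) =
      (u : LaurentSeries Qb) :=
  IntermediateField.coe_inclusion (wpl_bar_le M r p) u

theorem wplIncl_ne_zero (M r p : ℕ) {u : modularFunctionFieldBar (M * p)} (hu : u ≠ 0) :
    wplIncl M r p u ≠ 0 :=
  (map_ne_zero_iff _ (wplIncl M r p).toRingHom.injective).mpr hu

/-! ### Atkin–Lehner at the two levels -/

section AL

variable (K : Type*) [Field K] (ι : K →+* ℂ) {p M r : ℕ} [NeZero p] [NeZero M] [NeZero (M * p)]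
  [NeZero (M * r)] [NeZero (M * r * p)] (hp : p.Prime) (hpM : ¬ p ∣ M) (hpMr : ¬ p ∣ M * r)

/-- **`w_p` of the level `(M r) p` restricts to `w_p` of the level `M p`** (over any field `K`
with a complex embedding). -/
theorem wpl_al_fullC (f : modularFunctionFieldFullC K (M * p)) :
    ((Fermat.Agent.AL.atkinLehner K ι hp hpMr
        (IntermediateField.inclusion (wpl_fullC_le K M r p) f) :
        modularFunctionFieldFullC K (M * r * p)) : LaurentSeries K) =
      ((Fermat.Agent.AL.atkinLehner K ι hp hpM f : modularFunctionFieldFullC K (M * p)) :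
        LaurentSeries K) := by
  set φ₁ : modularFunctionFieldFullC K (M * p) →+* LaurentSeries K :=
    ((IntermediateField.val (modularFunctionFieldFullC K (M * r * p))).toRingHom.comp
      (Fermat.Agent.AL.atkinLehner K ι hp hpMr).toAlgHom.toRingHom).comp
      (IntermediateField.inclusion (wpl_fullC_le K M r p)).toRingHom with hφ₁
  set φ₂ : modularFunctionFieldFullC K (M * p) →+* LaurentSeries K :=
    (IntermediateField.val (modularFunctionFieldFullC K (M * p))).toRingHom.comp
      (Fermat.Agent.AL.atkinLehner K ι hp hpM).toAlgHom.toRingHom with hφ₂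
  have key : φ₁ = φ₂ := by
    refine Fermat.Agent.AL.al_ringHom_ext K (M * p) φ₁ φ₂ ?_ ?_
    · intro c
      simp only [hφ₁, hφ₂, RingHom.comp_apply, AlgHom.toRingHom_eq_coe, RingHom.coe_coe,
        AlgHom.commutes]
    · intro d hd0 hd
      have hp0 : p ≠ 0 := hp.ne_zero
      rcases Fermat.Agent.AL.al_divisor_cases hp hpM hd with hdM | ⟨d', hd'M, rfl⟩
      · -- `d ∣ M`
        have : NeZero (d * p) := ⟨Nat.mul_ne_zero (NeZero.ne d) hp0⟩
        have h2 := Fermat.Agent.AL.atkinLehner_low K ι hp hpM hdM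
        have h1 := Fermat.Agent.AL.atkinLehner_low K ι hp hpMr (hdM.mul_right r)
        have e1 : φ₁ ⟨qExpand K d (jqModC K), jqModCd_mem_full K (M * p) hd⟩ =
            qExpand K (d * p) (jqModC K) := by
          rw [← h1]
          rfl
        have e2 : φ₂ ⟨qExpand K d (jqModC K), jqModCd_mem_full K (M * p) hd⟩ =
            qExpand K (d * p) (jqModC K) := by
          rw [← h2]
          rfl
        rw [e1, e2]
      · -- `d = d' p`, `d' ∣ M`
        have hd'0 : d' ≠ 0 := fun h => NeZero.ne (d' * p) (by rw [h, zero_mul])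
        have : NeZero d' := ⟨hd'0⟩
        have h2 := Fermat.Agent.AL.atkinLehner_high K ι hp hpM hd'M
        have h1 := Fermat.Agent.AL.atkinLehner_high K ι hp hpMr (hd'M.mul_right r)
        have e1 : φ₁ ⟨qExpand K (d' * p) (jqModC K), jqModCd_mem_full K (M * p) hd⟩ =
            qExpand K d' (jqModC K) := by
          rw [← h1]
          rfl
        have e2 : φ₂ ⟨qExpand K (d' * p) (jqModC K), jqModCd_mem_full K (M * p) hd⟩ =
            qExpand K d' (jqModC K) := by
          rw [← h2]
          rfl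
        rw [e1, e2]
  exact congrArg (fun φ : modularFunctionFieldFullC K (M * p) →+* LaurentSeries K => φ f) key

end AL

section Pull

variable {p M r : ℕ} [NeZero p] [NeZero M] [NeZero (M * p)] [NeZero (M * r)]
  [NeZero (M * r * p)] (hp : p.Prime) (hpM : ¬ p ∣ M) (hpMr : ¬ p ∣ M * r)

/-- **`w_p` of the level `(M r) p` restricts to `w_p` of the level `M p`** (over `ℚ̄`). -/
theorem wpl_al_bar (u : modularFunctionFieldBar (M * p)) :
    ((Fermat.Agent.UNIP.atkinLehnerBar hp hpMr (wplIncl M r p u) :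
        modularFunctionFieldBar (M * r * p)) : LaurentSeries Qb) =
      ((Fermat.Agent.UNIP.atkinLehnerBar hp hpM u : modularFunctionFieldBar (M * p)) :
        LaurentSeries Qb) := by
  rw [Fermat.Agent.UNIP.atkinLehnerBar_coe, Fermat.Agent.UNIP.atkinLehnerBar_coe]
  have e : (⟨((wplIncl M r p u : modularFunctionFieldBar (M * r * p)) : LaurentSeries Qb),
      Fermat.Agent.UNIP.cheap_mem_fullC (wplIncl M r p u).2⟩ :
        modularFunctionFieldFullC Qb (M * r * p)) =
      IntermediateField.inclusion (wpl_fullC_le Qb M r p)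
        ⟨(u : LaurentSeries Qb), Fermat.Agent.UNIP.cheap_mem_fullC u.2⟩ := by
    apply Subtype.ext
    rw [IntermediateField.coe_inclusion]
    exact wplIncl_coe M r p u
  rw [e]
  exact wpl_al_fullC Qb Fermat.Agent.UNIP.cheapIota hp hpM hpMr _

end Pull

/-! ### `DepthInf` is monotone in the level -/

section Depth

/-- the `q`-expansion of `u / (c h ^ p)` -/
theorem wpl_coe_expr (N : ℕ) (p : ℕ) (c : Qb) (u h : modularFunctionFieldBar N) :
    ((u / (algebraMap Qb (modularFunctionFieldBar N) c * h ^ p) : modularFunctionFieldBar N) :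
      LaurentSeries Qb) =
      (u : LaurentSeries Qb) /
        (algebraMap Qb (LaurentSeries Qb) c * (h : LaurentSeries Qb) ^ p) := by
  rw [IntermediateField.coe_div, IntermediateField.coe_mul, IntermediateField.coe_pow]
  rfl

/-- `DepthInf` only depends on the `q`-expansion, and is monotone in the field. -/
theorem wpl_depthInf_of_coe (A : ValuationSubring Qb) {N N' : ℕ} [NeZero N] [NeZero N']
    (hle : modularFunctionFieldBar N ≤ modularFunctionFieldBar N') (p : ℕ) (ϖ : Qb)
    (u : modularFunctionFieldBar N) (u' : modularFunctionFieldBar N')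
    (huu' : (u' : LaurentSeries Qb) = (u : LaurentSeries Qb)) (h : DepthInf A N p ϖ u) :
    DepthInf A N' p ϖ u' := by
  obtain ⟨c, h, hc, hh, y₁, y₂, hy₁, hy₂, hk₁, hk₂, hcong, heq⟩ := h
  have hh' : (⟨(h : LaurentSeries Qb), hle h.2⟩ : modularFunctionFieldBar N') ≠ 0 := by
    intro h0
    apply hh
    have h1 : (h : LaurentSeries Qb) =
        ((0 : modularFunctionFieldBar N') : LaurentSeries Qb) := congrArg Subtype.val h0
    rw [ZeroMemClass.coe_zero] at h1
    apply Subtype.ext
    rw [ZeroMemClass.coe_zero]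
    exact h1
  refine ⟨c, ⟨(h : LaurentSeries Qb), hle h.2⟩, hc, hh', y₁, y₂, hle hy₁, hle hy₂, hk₁, hk₂,
    hcong, ?_⟩
  rw [wpl_coe_expr, huu']
  rw [wpl_coe_expr] at heq
  exact heq

end Depth

section Pull2

variable {p M r : ℕ} [NeZero p] [NeZero M] [NeZero (M * p)] [NeZero (M * r)]
  [NeZero (M * r * p)] (hp : p.Prime) (hpM : ¬ p ∣ M) (hpMr : ¬ p ∣ M * r)

/-- `DepthInf` pulls back to the level `(M r) p` -/
theorem wpl_depthInf (A : ValuationSubring Qb) (ϖ : Qb) (u : modularFunctionFieldBar (M * p))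
    (h : DepthInf A (M * p) p ϖ u) : DepthInf A (M * r * p) p ϖ (wplIncl M r p u) :=
  wpl_depthInf_of_coe A (wpl_bar_le M r p) p ϖ u _ (wplIncl_coe M r p u) h

/-- `DepthZero` pulls back to the level `(M r) p` -/
theorem wpl_depthZero (A : ValuationSubring Qb) (ϖ : Qb) (u : modularFunctionFieldBar (M * p))
    (h : DepthZero hp hpM A ϖ u) : DepthZero hp hpMr A ϖ (wplIncl M r p u) := by
  unfold DepthZero at h ⊢
  exact wpl_depthInf_of_coe A (wpl_bar_le M r p) p ϖ _ _ (wpl_al_bar hp hpM hpMr u) h

/-- `IsSplitFn` pulls back to the level `(M r) p` -/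
theorem wpl_isSplitFn (A : ValuationSubring Qb) (u : modularFunctionFieldBar (M * p))
    (h : IsSplitFn hp hpM A u) : IsSplitFn hp hpMr A (wplIncl M r p u) :=
  fun k => ⟨wpl_depthInf A _ u (h k).1, wpl_depthZero hp hpM hpMr A _ u (h k).2⟩

end Pull2

section Ord

/-- transport of "`m ∣ div u`" along an equality of levels -/
theorem wpl_dvd_ord_cast {N N' : ℕ} (hN : N = N') (m : ℕ) (u : modularFunctionFieldBar N)
    (u' : modularFunctionFieldBar N')
    (huu' : (u' : LaurentSeries Qb) = (u : LaurentSeries Qb))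
    (h : ∀ P : Place Qb (modularFunctionFieldBar N), (m : ℤ) ∣ P.ord u) :
    ∀ P : Place Qb (modularFunctionFieldBar N'), (m : ℤ) ∣ P.ord u' := by
  subst hN
  have e : u' = u := Subtype.ext huu'
  subst e
  exact h

/-- **`m ∣ div u` pulls back** to the level `(M r) p` -/
theorem wpl_dvd_ord {p M r : ℕ} [NeZero (M * p)] (hr : r.Prime) (hrN : ¬ r ∣ M * p) (m : ℕ)
    (u : modularFunctionFieldBar (M * p))
    (hdvd : ∀ P : Place Qb (modularFunctionFieldBar (M * p)), (m : ℤ) ∣ P.ord u) :
    ∀ P : Place Qb (modularFunctionFieldBar (M * r * p)), (m : ℤ) ∣ P.ord (wplIncl M r p u) := by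
  have : NeZero r := ⟨hr.ne_zero⟩
  have : NeZero (M * p * r) := ⟨Nat.mul_ne_zero (NeZero.ne (M * p)) hr.ne_zero⟩
  refine wpl_dvd_ord_cast (Nat.mul_right_comm M p r) m (heckeAlphaBar Qb (M * p) r u)
    (wplIncl M r p u) ?_ (Fermat.Agent.UNIP.unip_dvd_ord_pullback (M * p) r hr hrN m u hdvd)
  rw [wplIncl_coe, coe_heckeAlphaBar]

end Ord

section Galois

/-- the `q`-expansion of `σ u / u ^ a` -/
theorem wpl_coe_gal (N : ℕ) (σ : Qb ≃ₐ[ℚ] Qb) (a : ℕ) (u : modularFunctionFieldBar N) :
    (((arithmeticGalois (modularFunctionFieldFull N) σ • u) / u ^ a :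
        modularFunctionFieldBar N) : LaurentSeries Qb) =
      coeffMap (σ : Qb →+* Qb) (u : LaurentSeries Qb) / (u : LaurentSeries Qb) ^ a := rfl

/-- the `q`-expansion of `σ u / u ^ a` does not depend on the level -/
theorem wpl_coe_galois (M r p : ℕ) (σ : Qb ≃ₐ[ℚ] Qb) (a : ℕ)
    (u : modularFunctionFieldBar (M * p)) :
    (((arithmeticGalois (modularFunctionFieldFull (M * r * p)) σ • (wplIncl M r p u)) /
        (wplIncl M r p u) ^ a : modularFunctionFieldBar (M * r * p)) : LaurentSeries Qb) =
      (((arithmeticGalois (modularFunctionFieldFull (M * p)) σ • u) / u ^ a :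
        modularFunctionFieldBar (M * p)) : LaurentSeries Qb) := by
  rw [wpl_coe_gal, wpl_coe_gal, wplIncl_coe]

end Galois

/-! ### T5-pull -/

section Main

/-- **T5-pull.**  For `p = 3` and `M` odd, (C4) in Kummer form at the level `(M * 2) * p` gives
(C4) in Kummer form at the level `M * p`. -/
theorem wpl_pull {p M : ℕ} [NeZero p] [NeZero M] [NeZero (M * p)] [NeZero (M * 2)]
    [NeZero (M * 2 * p)] (hp : p.Prime) (hp3 : p = 3) (hpM : ¬ p ∣ M) (hpM2 : ¬ p ∣ M * 2)
    (hM2 : ¬ 2 ∣ M) (H : StmtWildKummerAt hp hpM2) : StmtWildKummerAt hp hpM := by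
  intro A hA σ hσ a hζ u hu hdvd hsplit
  have h2N : ¬ 2 ∣ M * p := by
    intro h2
    rcases (Nat.Prime.dvd_mul Nat.prime_two).mp h2 with h | h
    · exact hM2 h
    · rw [hp3] at h
      norm_num at h
  obtain ⟨h', hh'⟩ := H A hA σ hσ a hζ (wplIncl M 2 p u) (wplIncl_ne_zero M 2 p hu)
    (wpl_dvd_ord Nat.prime_two h2N p u hdvd) (wpl_isSplitFn hp hpM hpM2 A u hsplit)
  have hw : (((arithmeticGalois (modularFunctionFieldFull (M * p)) σ • u) / u ^ a :
      modularFunctionFieldBar (M * p)) : LaurentSeries Qb) ∈ modularFunctionFieldBar (M * p) :=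
    Subtype.property _
  have hwh : (h' : LaurentSeries Qb) ^ p =
      (((arithmeticGalois (modularFunctionFieldFull (M * p)) σ • u) / u ^ a :
        modularFunctionFieldBar (M * p)) : LaurentSeries Qb) := by
    rw [← wpl_coe_galois M 2 p σ a u, ← hh']
    exact (SubmonoidClass.coe_pow h' p).symm
  obtain ⟨g, hg, hg3⟩ := wcu_cube_descent_levelp M p hM2 hp3 hw h'.2 hwh
  refine ⟨⟨g, hg⟩, Subtype.ext ?_⟩
  rw [← hg3]
  exact SubmonoidClass.coe_pow (⟨g, hg⟩ : modularFunctionFieldBar (M * p)) p

/-- **T5-pull, final form**: `StmtWildKummerAux → StmtWildKummer`. -/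
theorem stmtWildKummer_of_aux (H : StmtWildKummerAux) : StmtWildKummer := by
  intro p M _ _ _ hp hpM hp2
  by_cases h3 : p = 3
  · by_cases hM2 : 2 ∣ M
    · exact H p M hp hpM hp2 (fun _ => hM2)
    · have hpM2 : ¬ p ∣ M * 2 := by
        intro h
        rcases (Nat.Prime.dvd_mul hp).mp h with h | h
        · exact hpM h
        · rw [h3] at h
          norm_num at h
      have : NeZero (M * 2) := ⟨Nat.mul_ne_zero (NeZero.ne M) two_ne_zero⟩
      have : NeZero (M * 2 * p) := ⟨Nat.mul_ne_zero (NeZero.ne (M * 2)) hp.ne_zero⟩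
      exact wpl_pull hp h3 hpM hpM2 hM2
        (H p (M * 2) hp hpM2 hp2 (fun _ => Dvd.intro_left M rfl))
  · exact H p M hp hpM hp2 (fun h => absurd h h3)

end Main

end Fermat.Agent.S33
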