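import Fermat.Agent.S33.WildMGDesc
import Fermat.Agent.S33.WildPull
import Fermat.Agent.S33.WildOfKummer

/-!
# S33 v2, C4 (WILD), piece T5: `StmtWildT` from the `E′`-level statement

The chain `StmtWildFieldAt` (at the levels `M p` with `p = 3 → 2 ∣ M`) `→ StmtWildKummerAux`
(`stmtWildKummerAt_of_field`, descent) `→ StmtWildKummer` (`stmtWildKummer_of_aux`, T5-pull,
helper92) `→ StmtWildT` (`stmtWildT_of_kummer`, helper33).

So what is left of S33 is exactly: `StmtWildFieldAt hp hpM` for every odd prime `p ∤ M` with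
`p = 3 → 2 ∣ M`  (= `wab_main_two` in the concrete setting + the point data at `q := p`).
-/

set_option autoImplicit false

noncomputable section

namespace Fermat.Agent.S33

/-- `StmtWildKummerAux` from the `E′`-level statements. -/
theorem stmtWildKummerAux_of_field
    (h : ∀ (p M : ℕ) [NeZero p] [NeZero M] [NeZero (M * p)] (hp : p.Prime) (hpM : ¬ p ∣ M),
      p ≠ 2 → (p = 3 → 2 ∣ M) → StmtWildFieldAt hp hpM) : StmtWildKummerAux := by
  intro p M _ _ _ hp hpM hp2 h3
  have hp3 : 3 ≤ p := by
    have := hp.two_le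
    omega
  exact stmtWildKummerAt_of_field hp hpM hp3 (h p M hp hpM hp2 h3)

/-- **`StmtWildT`** (C3 + C4 of S33 v2) from the `E′`-level statements at the levels with a base
line. -/
theorem stmtWildT_of_field
    (h : ∀ (p M : ℕ) [NeZero p] [NeZero M] [NeZero (M * p)] (hp : p.Prime) (hpM : ¬ p ∣ M),
      p ≠ 2 → (p = 3 → 2 ∣ M) → StmtWildFieldAt hp hpM) : StmtWildT :=
  stmtWildT_of_kummer (stmtWildKummer_of_aux (stmtWildKummerAux_of_field h))

end Fermat.Agent.S33
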