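import Fermat.Agent.S33.WildTop
import Fermat.Agent.S33.WildMGFinal

/-!
# S33 v2, C4 (WILD), T5-mid, part 2: `StmtWildFieldAt` from the point data (helper90)

* `StmtWildPtsAt hp hpM` : **the point data** (T5f-mod): at every closed point `𝔫` of the special
  fibre of the two charts `j`, `1 / j` of `F′ = mgcF A K₁ (M * p)` over `A′ = mgcA A K₁` (any `A`
  over `p`, any number field `K₁` Galois over `ℚ` with `A′` discrete, any uniformizer `π`), the
  datum `WhtPtData (mgvV hπ (mgdIota E′) hp hpM) true false 𝔫` (`S33/WildHT4.lean`: smooth point or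
  crossing of finite thickness of `V_∞`, `V_0`).
* `wtop_hlam` : `π ∣ ζ - 1` for every `ζ ∈ A′` with `ζ ^ p = 1`.
* `stmtWildFieldAt_of_pts : p ≠ 2 → (p = 3 → 2 ∣ M) → StmtWildPtsAt hp hpM → StmtWildFieldAt hp hpM`
  (`StmtWildFieldAt` = the hypothesis of `stmtWildKummerAt_of_field`, `S33/WildMGDesc.lean`).
* `stmtWildKummerAt_of_pts` : `… → StmtWildPtsAt hp hpM → StmtWildKummerAt hp hpM`.
* `stmtWildT_of_pts` : `StmtWildT` (C3 + C4 of S33 v2) from the point data at the levels with a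
  base line (`p ≠ 2`, `p = 3 → 2 ∣ M`).
-/

set_option autoImplicit false
set_option linter.style.haveILetI false
set_option linter.unusedSectionVars false
set_option linter.unusedVariables false

noncomputable section

namespace Fermat.Agent.S33

open ModularCurve AlgebraicCurve Fermat.Agent.ES Fermat.Agent.ES.G2 Fermat.Agent.INJ
open Fermat.Agent.UNIP Fermat.Agent.STB IntermediateField

section

variable {p M : ℕ} [NeZero p] [NeZero M] [NeZero (M * p)]

/-- **The point data** at the closed points of the special fibre of the two charts, level `M p`,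
residue characteristic `p`. -/
def StmtWildPtsAt (hp : p.Prime) (hpM : ¬ p ∣ M) : Prop :=
  ∀ (A : ValuationSubring Qb) (hA : A.LiesOverPrime p) (K₁ : IntermediateField ℚ Qb)
    [NumberField K₁] [IsGalois ℚ K₁] [IsDiscreteValuationRing ↥(mgcA A K₁)]
    (π : ↥(mgcA A K₁)) (hπ : Irreducible π),
    (∀ 𝔫 : AtPt (F := ↥(mgcF A K₁ (M * p))) π (mgcT A K₁ (M * p)),
      WhtPtData (mgvV hπ (mgdIota (mgcE A K₁)) hp hpM) true false 𝔫) ∧
    (∀ 𝔫 : AtPt (F := ↥(mgcF A K₁ (M * p))) π (mgcT A K₁ (M * p))⁻¹,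
      WhtPtData (mgvV hπ (mgdIota (mgcE A K₁)) hp hpM) true false 𝔫)

/-- `π ∣ ζ - 1` for a `p`-th root of unity `ζ` of `A′`, `A` over `p` -/
theorem wtop_hlam {A : ValuationSubring Qb} {K₀ : IntermediateField ℚ Qb}
    [IsDiscreteValuationRing ↥(beta0Ring A K₀)] {π : ↥(beta0Ring A K₀)} (hπ : Irreducible π)
    (hp : p.Prime) (hA : A.LiesOverPrime p) {ζ : ↥(beta0Ring A K₀)} (hζ : ζ ^ p = 1) :
    π ∣ ζ - 1 := by
  apply wmg_dvd_of_mem_nonunits hπ
  have e : ((((ζ - 1 : ↥(beta0Ring A K₀)) : ↥K₀)) : Qb) = (((ζ : ↥K₀)) : Qb) - 1 := by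
    push_cast
    rfl
  rw [e]
  refine wmg_zeta_sub_one_mem hp hA ?_
  have h1 := congrArg (fun x : ↥(beta0Ring A K₀) => (((x : ↥K₀)) : Qb)) hζ
  simpa using h1

/-- **T5-mid.**  The `E′`-level statement from the point data. -/
theorem stmtWildFieldAt_of_pts (hp : p.Prime) (hpM : ¬ p ∣ M) (hp2 : p ≠ 2)
    (h3 : p = 3 → 2 ∣ M) (h : StmtWildPtsAt hp hpM) : StmtWildFieldAt hp hpM := by
  intro A hA K₁ _ _ _ ζ hζ π hπ σ hσI hσ a hσζ u₀ hu₀ hdiv hR hsplit
  obtain ⟨hdat₁, hdat₂⟩ := h A hA K₁ π hπ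
  exact wtop_field hπ (mgdIota (mgcE A K₁)) hp hpM hA (fun h => absurd h hp2) h3 hdat₁ hdat₂ hζ
    (wtop_hlam hπ hp hA hζ.pow_eq_one) hσI hσ hσζ hu₀ hdiv hR hsplit

/-- **(T) in Kummer form at level `M p`** from the point data. -/
theorem stmtWildKummerAt_of_pts (hp : p.Prime) (hpM : ¬ p ∣ M) (hp2 : p ≠ 2)
    (h3 : p = 3 → 2 ∣ M) (h : StmtWildPtsAt hp hpM) : StmtWildKummerAt hp hpM :=
  stmtWildKummerAt_of_field hp hpM
    (lt_of_le_of_ne hp.two_le (Ne.symm hp2)) (stmtWildFieldAt_of_pts hp hpM hp2 h3 h)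

end

/-- **`StmtWildT`** from the point data at all levels `M p`, `p` odd, `p = 3 → 2 ∣ M`. -/
theorem stmtWildT_of_pts
    (h : ∀ (p M : ℕ) [NeZero p] [NeZero M] [NeZero (M * p)] (hp : p.Prime) (hpM : ¬ p ∣ M),
      p ≠ 2 → (p = 3 → 2 ∣ M) → StmtWildPtsAt hp hpM) : StmtWildT :=
  stmtWildT_of_field fun p M _ _ _ hp hpM hp2 h3 =>
    stmtWildFieldAt_of_pts hp hpM hp2 h3 (h p M hp hpM hp2 h3)

end Fermat.Agent.S33
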