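import Fermat.Agent.UNIP.MGVloc

/-!
# S33 v2, C4 / T5: small inputs of `wab_main_two` for the vertical valuations `mgvV`

* `wdb_vtSub_hunif`, `wdb_mgv_hunif` : `hunif` — every element of `𝔪(V c)` is `π · y`, `y ∈ V c`;
* `wdb_not_le_of_sep` (generic), `wdb_mgv_h12`, `wdb_mgv_h21` : `¬ V_∞ ≤ V_0`, `¬ V_0 ≤ V_∞`.
-/

set_option autoImplicit false
set_option linter.unusedSectionVars false
set_option linter.unusedVariables false
set_option linter.style.haveILetI false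

noncomputable section

namespace Fermat.Agent.S33

open ModularCurve Fermat.Agent.INJ Fermat.Agent.ES Fermat.Agent.ES.G2 Fermat.Agent.UNIP

section Gen

variable {A₀ E k : Type*} [CommRing A₀] [Field E] [Field k]
  {ι : A₀ →+* E} {r : A₀ →+* k} {π : A₀} {F : Type*} [Field F]
  (hB : VtBase ι r π) (e : F →+* LaurentSeries E) (hfrac : ∀ x : F, VtFrac ι (e x))

/-- **`hunif`** for a vertical valuation: the maximal ideal is generated by the constant `π`. -/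
theorem wdb_vtSub_hunif {c : F} (hc : e c = HahnSeries.C (ι π)) {x : F}
    (hx : x ∈ (vtSub hB e hfrac).nonunits) :
    ∃ y ∈ vtSub hB e hfrac, x = c * y := by
  obtain ⟨hmem, hred⟩ := (vtSub_mem_nonunits_iff hB e hfrac).mp hx
  obtain ⟨y, hy⟩ := (gaussRed_eq_zero_iff_dvd r hB.inj hB.rπ hB.ker ⟨e x, hmem⟩).mp hred
  have hy' : e x = HahnSeries.C (ι π) * (y : LaurentSeries E) := hy
  have hc0 : c ≠ 0 := by
    rintro rfl
    rw [map_zero] at hc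
    exact hB.Cιπ_ne hc.symm
  refine ⟨x / c, ?_, by field_simp⟩
  rw [mem_vtSub, map_div₀, hy', hc, mul_div_cancel_left₀ _ hB.Cιπ_ne]
  exact y.2

/-- a separating element: `s ∈ V₁` a unit of `V₁`, `s ∈ 𝔪(V₂)`  ⇒  `¬ V₁ ≤ V₂` -/
theorem wdb_not_le_of_sep (V₁ V₂ : ValuationSubring F) {s : F} (hs1 : s ∈ V₁)
    (hs1' : s ∉ V₁.nonunits) (hs2 : s ∈ V₂.nonunits) : ¬ V₁ ≤ V₂ := by
  intro hle
  have hv1 : V₁.valuation s = 1 := by
    refine le_antisymm ((V₁.valuation_le_one_iff s).2 hs1) ?_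
    rw [ValuationSubring.mem_nonunits_iff, not_lt] at hs1'
    exact hs1'
  have hs0 : s ≠ 0 := by
    rintro rfl
    rw [map_zero] at hv1
    exact zero_ne_one hv1
  have hinv : s⁻¹ ∈ V₁ := by
    rw [← V₁.valuation_le_one_iff, map_inv₀, hv1, inv_one]
  have hinv2 : s⁻¹ ∈ V₂ := hle hinv
  have h1 : V₂.valuation s⁻¹ ≤ 1 := (V₂.valuation_le_one_iff _).2 hinv2
  have h2 : V₂.valuation s < 1 := (ValuationSubring.mem_nonunits_iff V₂).1 hs2
  have h3 : V₂.valuation s * V₂.valuation s⁻¹ = 1 := by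
    rw [← map_mul, mul_inv_cancel₀ hs0, map_one]
  have h4 : V₂.valuation s * V₂.valuation s⁻¹ < 1 :=
    mul_lt_one_of_nonneg_of_lt_one_left zero_le h2 h1
  rw [h3] at h4
  exact lt_irrefl _ h4

end Gen

section Mgv

variable {A : ValuationSubring Qb} {K₀ : IntermediateField ℚ Qb}
  [IsDiscreteValuationRing ↥(beta0Ring A K₀)] {π : ↥(beta0Ring A K₀)} (hπ : Irreducible π)
  (ιC : ↥K₀ →+* ℂ) {q M : ℕ} [NeZero q] [NeZero M] [NeZero (M * q)]
  (hq : q.Prime) (hqM : ¬ q ∣ M)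

/-- **`hunif`** of `wab_main_two` for `mgvV` -/
theorem wdb_mgv_hunif (c : Bool) (x : ↥(modularFunctionFieldFullC ↥K₀ (M * q)))
    (hx : x ∈ (mgvV hπ ιC hq hqM c).nonunits) :
    ∃ y ∈ mgvV hπ ιC hq hqM c,
      x = algebraMap ↥(beta0Ring A K₀) ↥(modularFunctionFieldFullC ↥K₀ (M * q)) π * y :=
  wdb_vtSub_hunif (vtBase_residue hπ) (vtEmbFam ιC hq hqM c)
    (vt_frac_fam (vtBase_residue hπ) ιC hq hqM c)
    (vtEmbFam_const ιC hq hqM c (algebraMap ↥(beta0Ring A K₀) ↥K₀ π)) hx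

/-- `¬ V_∞ ≤ V_0` -/
theorem wdb_mgv_h12 (hA : A.LiesOverPrime q) :
    ¬ mgvV hπ ιC hq hqM true ≤ mgvV hπ ιC hq hqM false := by
  obtain ⟨h1, h2⟩ := mgvl_hsep' hπ ιC hq hqM hA
  refine wdb_not_le_of_sep _ _ ?_ h2 h1
  have e : nodesFrobJ ↥K₀ M q = bgJ ↥K₀ (M * q) := rfl
  have hint := mgvl_isIntegral_wC (A := ↥(beta0Ring A K₀)) (E := ↥K₀) (M := M) ιC hq hqM
  rw [e] at hint
  exact mgv_hBV₁ hπ ιC hq hqM true _ hint

/-- `¬ V_0 ≤ V_∞` -/
theorem wdb_mgv_h21 (hA : A.LiesOverPrime q) :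
    ¬ mgvV hπ ιC hq hqM false ≤ mgvV hπ ιC hq hqM true := by
  obtain ⟨h1, h2⟩ := mgvl_hsep hπ ιC hq hqM hA
  refine wdb_not_le_of_sep _ _ ?_ h2 h1
  have e : nodesFrobJ ↥K₀ M q = bgJ ↥K₀ (M * q) := rfl
  have hint := mgvl_isIntegral_C (A := ↥(beta0Ring A K₀)) (E := ↥K₀) (M := M) (q := q) hq
  rw [e] at hint
  exact mgv_hBV₁ hπ ιC hq hqM false _ hint

end Mgv

end Fermat.Agent.S33
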