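import Fermat.Agent.ES.Kronecker

/-!
# S33 v2, piece C3-alg: the norm estimate `N(x + c y) ≡ N(x) + c^p N(y) mod c p`  (helper61)

`R` a commutative domain, `p` a prime, `ζ ∈ Rˣ` a primitive `p`-th root of unity and
`N = kronRotProd p ζ : f ↦ ∏_{b<p} f(ζ^b q)` (the norm of `R((q)) / R((q^p))`).

* `nda_sum_mem_trace` : a sum over a finite set with a fixed-point-free action of `ℤ/p`
  (`f (τ x) = T (f x)`) is a trace `∑_{k<p} T^k g`;
* `nda_trace_eq` : `∑_{k<p} g(ζ^k q) = p · (the part of g with exponents divisible by p)`;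
* `nda_rotProd_add` : `N(x + c y) = N(x) + c^p N(y) + c p w` for some `w`;
* `nda_kronRotProd_congr`, `nda_kronNorm_congr` : the same for Laurent series over a field `L`
  with coefficients in a valuation subring `A` (`KronInt`): if `y₁ ≡ y₂ mod c A` then
  `N y₁ ≡ N y₂ mod (c p, c^p) A`.
-/

set_option autoImplicit false

noncomputable section

namespace Fermat.Agent.S33

open Fermat.Agent.ES ModularCurve HahnSeries

/-! ## 1. Sums over a set with a free action of `ℤ/p` -/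

/-- the orbit of a point under a permutation of order `p` without fixed point has `p`
elements -/
theorem nda_orbit_injOn {α : Type*} (p : ℕ) (hp : p.Prime) (τ : Equiv.Perm α) (hτ : τ ^ p = 1)
    (x : α) (hx : τ x ≠ x) :
    Set.InjOn (fun k : ℕ => (τ ^ k) x) (Finset.range p : Set ℕ) := by
  have key : ∀ a b : ℕ, a < b → b < p → (τ ^ a) x = (τ ^ b) x → False := by
    intro a b hab hb h
    have hd : (τ ^ (b - a)) x = x := by
      have h1 : (τ ^ b) x = (τ ^ a) ((τ ^ (b - a)) x) := by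
        rw [← Equiv.Perm.mul_apply, ← _root_.pow_add, Nat.add_sub_cancel' hab.le]
      rw [h1] at h
      exact ((τ ^ a).injective h).symm
    have hcop : Nat.Coprime (b - a) p := by
      rw [Nat.coprime_comm, Nat.Prime.coprime_iff_not_dvd hp]
      intro hdvd
      have := Nat.le_of_dvd (by omega) hdvd
      omega
    obtain ⟨u, -, hu⟩ := Nat.exists_mul_mod_eq_one_of_coprime hcop hp.one_lt
    have h2 : ∀ n : ℕ, ((τ ^ (b - a)) ^ n) x = x := by
      intro n
      induction n with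
      | zero => simp
      | succ n ih => rw [pow_succ, Equiv.Perm.mul_apply, hd, ih]
    have h3 : (τ ^ (b - a)) ^ u = τ := by
      rw [← pow_mul, pow_eq_pow_mod _ hτ, hu, pow_one]
    have := h2 u
    rw [h3] at this
    exact hx this
  intro a ha b hb h
  simp only [Finset.coe_range, Set.mem_Iio] at ha hb
  rcases lt_trichotomy a b with hab | hab | hab
  · exact (key a b hab hb h).elim
  · exact hab
  · exact (key b a hab ha h.symm).elim

/-- **orbit sums.**  `τ` a permutation of order `p` of `α`, `X` a finite `τ`-stable set without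
fixed point, `f (τ x) = T (f x)`: then `∑_{x ∈ X} f x` is a trace `∑_{k<p} T^k g`, with `g` in
any additive subgroup containing the values of `f` on `X`. -/
theorem nda_sum_mem_trace {α B : Type*} [AddCommGroup B] (p : ℕ) (hp : p.Prime)
    (τ : Equiv.Perm α) (hτ : τ ^ p = 1) (T : B →+ B) (P : AddSubgroup B)
    (f : α → B) (hf : ∀ x, f (τ x) = T (f x))
    (X : Finset α) (hX : ∀ x ∈ X, τ x ∈ X) (hfix : ∀ x ∈ X, τ x ≠ x) (hP : ∀ x ∈ X, f x ∈ P) :
    ∃ g ∈ P, ∑ x ∈ X, f x = ∑ k ∈ Finset.range p, (⇑T)^[k] g := by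
  classical
  induction X using Finset.strongInduction with
  | H X ih =>
    rcases X.eq_empty_or_nonempty with rfl | ⟨x, hx⟩
    · refine ⟨0, P.zero_mem, ?_⟩
      simp [iterate_map_zero]
    · set O := (Finset.range p).image (fun k : ℕ => (τ ^ k) x) with hO
      have hpowX : ∀ k : ℕ, (τ ^ k) x ∈ X := by
        intro k
        induction k with
        | zero => simpa using hx
        | succ k ih' =>
          rw [pow_succ', Equiv.Perm.mul_apply]
          exact hX _ ih'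
      have hOX : O ⊆ X := by
        intro y hy
        obtain ⟨k, -, rfl⟩ := Finset.mem_image.1 hy
        exact hpowX k
      have hxO : x ∈ O :=
        Finset.mem_image.2 ⟨0, Finset.mem_range.2 hp.pos, by simp⟩
      have hfpow : ∀ k : ℕ, f ((τ ^ k) x) = (⇑T)^[k] (f x) := by
        intro k
        induction k with
        | zero => simp
        | succ k ih' =>
          rw [pow_succ', Equiv.Perm.mul_apply, hf, ih', Function.iterate_succ_apply']
      have hsum : ∑ y ∈ O, f y = ∑ k ∈ Finset.range p, (⇑T)^[k] (f x) := by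
        rw [hO, Finset.sum_image (nda_orbit_injOn p hp τ hτ x (hfix x hx))]
        exact Finset.sum_congr rfl fun k _ => hfpow k
      have hpowO : ∀ k : ℕ, (τ ^ k) x ∈ O := by
        intro k
        refine Finset.mem_image.2 ⟨k % p, Finset.mem_range.2 (Nat.mod_lt _ hp.pos), ?_⟩
        show (τ ^ (k % p)) x = (τ ^ k) x
        rw [← pow_eq_pow_mod _ hτ]
      have hinv : ∀ y, τ y ∈ O → y ∈ O := by
        intro y hy
        obtain ⟨k, -, hk⟩ := Finset.mem_image.1 hy
        have h1 : y = (τ ^ (p - 1 + k)) x := by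
          have h2 : (τ ^ (p - 1)) (τ y) = y := by
            rw [← Equiv.Perm.mul_apply, ← pow_succ, Nat.sub_add_cancel hp.pos, hτ]
            rfl
          rw [_root_.pow_add, Equiv.Perm.mul_apply]
          show y = (τ ^ (p - 1)) ((τ ^ k) x)
          rw [hk, h2]
        rw [h1]
        exact hpowO _
      have hY : X \ O ⊂ X :=
        Finset.sdiff_ssubset hOX ⟨x, hxO⟩
      obtain ⟨g', hg'P, hg'⟩ := ih (X \ O) hY
        (fun y hy => by
          rw [Finset.mem_sdiff] at hy ⊢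
          exact ⟨hX y hy.1, fun h => hy.2 (hinv y h)⟩)
        (fun y hy => hfix y (Finset.mem_sdiff.1 hy).1)
        (fun y hy => hP y (Finset.mem_sdiff.1 hy).1)
      refine ⟨g' + f x, P.add_mem hg'P (hP x hx), ?_⟩
      rw [← Finset.sum_sdiff hOX, hg', hsum, ← Finset.sum_add_distrib]
      exact Finset.sum_congr rfl fun k _ => (iterate_map_add T k g' (f x)).symm

/-! ## 2. The trace of `R((q)) / R((q^p))` -/

section Trace

variable {R : Type*} [CommRing R]

/-- coefficient of `c • f` -/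
theorem nda_coeff_C_mul (c : R) (f : LaurentSeries R) (n : ℤ) :
    (HahnSeries.C c * f).coeff n = c * f.coeff n := by
  rw [HahnSeries.C_mul_eq_smul, HahnSeries.coeff_smul, smul_eq_mul]

theorem nda_kronRot_C (ζ : Rˣ) (c : R) :
    kronRot ζ (HahnSeries.C c : LaurentSeries R) = HahnSeries.C c := by
  ext n
  rw [kronRot_coeff, HahnSeries.C_apply, HahnSeries.coeff_single]
  split_ifs with h
  · subst h
    simp
  · simp

/-- `∑_{k<p} ζ^{kn} = p` if `p ∣ n`, and `0` otherwise -/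
theorem nda_geom_sum [IsDomain R] (p : ℕ) (ζ : Rˣ) (hζ : IsPrimitiveRoot ζ p) (n : ℤ) :
    ∑ k ∈ Finset.range p, (((ζ ^ k) ^ n : Rˣ) : R) = if (p : ℤ) ∣ n then (p : R) else 0 := by
  have hswap : ∀ k : ℕ, (((ζ ^ k) ^ n : Rˣ) : R) = ((ζ ^ n : Rˣ) : R) ^ k := by
    intro k
    rw [← Units.val_pow_eq_pow_val]
    congr 1
    rw [← zpow_natCast, ← zpow_mul, mul_comm, zpow_mul, zpow_natCast]
  simp only [hswap]
  split_ifs with h
  · rw [(hζ.zpow_eq_one_iff_dvd n).2 h]
    simp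
  · have h1 : ((ζ ^ n : Rˣ) : R) - 1 ≠ 0 := by
      intro h0
      apply h
      rw [← hζ.zpow_eq_one_iff_dvd]
      apply Units.ext
      rw [Units.val_one]
      exact sub_eq_zero.1 h0
    have h2 : (((ζ ^ n : Rˣ) : R) - 1) * ∑ k ∈ Finset.range p, ((ζ ^ n : Rˣ) : R) ^ k = 0 := by
      rw [mul_geom_sum, ← Units.val_pow_eq_pow_val, ← zpow_natCast, ← zpow_mul, mul_comm,
        zpow_mul, zpow_natCast, hζ.pow_eq_one, one_zpow, Units.val_one, sub_self]
    exact (mul_eq_zero.1 h2).resolve_left h1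

/-- the trace `∑_{k<p} g(ζ^k q)` is `p` times the part of `g` with exponents divisible by `p` -/
theorem nda_trace_eq [IsDomain R] (p : ℕ) [NeZero p] (ζ : Rˣ) (hζ : IsPrimitiveRoot ζ p)
    (g : LaurentSeries R) :
    ∑ k ∈ Finset.range p, kronRot (ζ ^ k) g
      = HahnSeries.C (p : R) * qExpand R p (kronCompress p g) := by
  ext n
  rw [nda_coeff_C_mul]
  have h1 : (∑ k ∈ Finset.range p, kronRot (ζ ^ k) g).coeff n
      = ∑ k ∈ Finset.range p, (kronRot (ζ ^ k) g).coeff n := by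
    rw [← HahnSeries.coeff.addMonoidHom_apply, map_sum]
    rfl
  rw [h1]
  simp only [kronRot_coeff]
  rw [← Finset.sum_mul, nda_geom_sum p ζ hζ n]
  split_ifs with h
  · obtain ⟨m, rfl⟩ := h
    rw [qExpand_coeff_mul, kronCompress_coeff]
  · rw [qExpand_coeff_of_not_dvd p _ h, zero_mul, mul_zero]

end Trace

/-! ## 3. The product over the rotations, indexed by `ℤ/p` -/

section Shift

variable {R : Type*} [CommRing R]

/-- `∏_{b<p} f(ζ^b q)` as a product over `ℤ/p` -/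
theorem nda_rotProd_eq_zmod (p : ℕ) [NeZero p] (ζ : Rˣ) (f : LaurentSeries R) :
    kronRotProd p ζ f = ∏ a : ZMod p, kronRot (ζ ^ a.val) f := by
  unfold kronRotProd
  refine Finset.prod_nbij' (fun b : ℕ => (b : ZMod p)) (fun a : ZMod p => a.val) ?_ ?_ ?_ ?_ ?_
  · intro b _
    exact Finset.mem_univ _
  · intro a _
    exact Finset.mem_range.2 (ZMod.val_lt a)
  · intro b hb
    exact ZMod.val_cast_of_lt (Finset.mem_range.1 hb)
  · intro a _
    exact ZMod.natCast_zmod_val a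
  · intro b hb
    rw [ZMod.val_cast_of_lt (Finset.mem_range.1 hb)]

/-- `ζ^{a+1} = ζ · ζ^a` for `a : ℤ/p` -/
theorem nda_pow_val_add_one (p : ℕ) [NeZero p] (ζ : Rˣ) (hζ : ζ ^ p = 1) (a : ZMod p) :
    ζ ^ (a + 1).val = ζ * ζ ^ a.val := by
  rw [ZMod.val_add, kron_pow_mod p ζ hζ, _root_.pow_add, ZMod.val_one_eq_one_mod,
    kron_pow_mod p ζ hζ, pow_one, mul_comm]

/-- the rotation by `ζ^{a+1}` -/
theorem nda_kronRot_val_add_one (p : ℕ) [NeZero p] (ζ : Rˣ) (hζ : ζ ^ p = 1) (a : ZMod p)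
    (f : LaurentSeries R) :
    kronRot (ζ ^ (a + 1).val) f = kronRot ζ (kronRot (ζ ^ a.val) f) := by
  rw [kronRot_kronRot, nda_pow_val_add_one p ζ hζ]

/-- the translation `S ↦ S + 1` on the subsets of `ℤ/p` -/
def ndaShift (p : ℕ) : Equiv.Perm (Finset (ZMod p)) :=
  (Equiv.addRight (1 : ZMod p)).finsetCongr

theorem nda_mem_shift (p : ℕ) (S : Finset (ZMod p)) (a : ZMod p) :
    a + 1 ∈ ndaShift p S ↔ a ∈ S := by
  unfold ndaShift
  rw [Equiv.finsetCongr_apply]
  constructor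
  · intro h
    obtain ⟨b, hb, hba⟩ := Finset.mem_map.1 h
    have : b = a := add_right_cancel (b := (1 : ZMod p)) hba
    exact this ▸ hb
  · intro h
    exact Finset.mem_map.2 ⟨a, h, rfl⟩

theorem nda_card_shift (p : ℕ) (S : Finset (ZMod p)) : (ndaShift p S).card = S.card := by
  unfold ndaShift
  rw [Equiv.finsetCongr_apply, Finset.card_map]

theorem nda_shift_pow (p : ℕ) (k : ℕ) (S : Finset (ZMod p)) (a : ZMod p) :
    a + (k : ZMod p) ∈ (ndaShift p ^ k) S ↔ a ∈ S := by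
  induction k generalizing a with
  | zero => simp
  | succ k ih =>
    rw [pow_succ', Equiv.Perm.mul_apply, Nat.cast_succ, ← add_assoc, nda_mem_shift, ih]

theorem nda_shift_pow_p (p : ℕ) : ndaShift p ^ p = 1 := by
  ext S a
  have := nda_shift_pow p p S a
  rw [ZMod.natCast_self, add_zero] at this
  rw [this]
  rfl

/-- a subset of `ℤ/p` stable under `+1` is empty or everything -/
theorem nda_shift_ne (p : ℕ) [NeZero p] (S : Finset (ZMod p)) (h0 : S.Nonempty)
    (h1 : S.card < p) : ndaShift p S ≠ S := by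
  intro h
  have hstep : ∀ a ∈ S, a + 1 ∈ S := by
    intro a ha
    rw [← h]
    exact (nda_mem_shift p S a).2 ha
  obtain ⟨a₀, ha₀⟩ := h0
  have hall : ∀ k : ℕ, a₀ + (k : ZMod p) ∈ S := by
    intro k
    induction k with
    | zero => simpa using ha₀
    | succ k ih =>
      rw [Nat.cast_succ, ← add_assoc]
      exact hstep _ ih
  have huniv : S = Finset.univ := by
    rw [Finset.eq_univ_iff_forall]
    intro b
    have := hall (b - a₀).val
    rwa [ZMod.natCast_zmod_val, add_sub_cancel] at this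
  rw [huniv, Finset.card_univ, ZMod.card] at h1
  exact lt_irrefl _ h1

/-- the monomial attached to a subset `S` of `ℤ/p` -/
def ndaMono (p : ℕ) [NeZero p] (ζ : Rˣ) (x y : LaurentSeries R) (S : Finset (ZMod p)) :
    LaurentSeries R :=
  ∏ a : ZMod p, if a ∈ S then kronRot (ζ ^ a.val) x else kronRot (ζ ^ a.val) y

theorem nda_mono_shift (p : ℕ) [NeZero p] (ζ : Rˣ) (hζ : ζ ^ p = 1) (x y : LaurentSeries R)
    (S : Finset (ZMod p)) :
    ndaMono p ζ x y (ndaShift p S) = kronRot ζ (ndaMono p ζ x y S) := by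
  unfold ndaMono
  rw [map_prod, ← Equiv.prod_comp (Equiv.addRight (1 : ZMod p))]
  refine Finset.prod_congr rfl fun a _ => ?_
  simp only [Equiv.coe_addRight, nda_mem_shift, nda_kronRot_val_add_one p ζ hζ]
  split_ifs <;> rfl

theorem nda_mono_eq (p : ℕ) [NeZero p] (ζ : Rˣ) (x y : LaurentSeries R)
    (S : Finset (ZMod p)) :
    ndaMono p ζ x y S
      = (∏ a ∈ S, kronRot (ζ ^ a.val) x) * ∏ a ∈ Finset.univ \ S, kronRot (ζ ^ a.val) y := by
  classical
  unfold ndaMono
  rw [Finset.prod_ite, Finset.filter_mem_eq_inter, Finset.univ_inter,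
    Finset.filter_notMem_eq_sdiff]

end Shift

/-! ## 4. The norm estimate -/

section Main

variable {R : Type*} [CommRing R] [IsDomain R]

omit [IsDomain R] in
/-- iterates of the rotation -/
theorem nda_iterate_kronRot (ζ : Rˣ) (k : ℕ) (g : LaurentSeries R) :
    (⇑(kronRot ζ).toAddMonoidHom)^[k] g = kronRot (ζ ^ k) g := by
  induction k with
  | zero => simp
  | succ k ih =>
    rw [Function.iterate_succ_apply', ih]
    show kronRot ζ (kronRot (ζ ^ k) g) = _
    rw [kronRot_kronRot, pow_succ']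

/-- the sum of the monomials of a given degree `0 < j < p` is divisible by `p` -/
theorem nda_sum_mono (p : ℕ) [NeZero p] (hp : p.Prime) (ζ : Rˣ) (hζ : IsPrimitiveRoot ζ p)
    (x y : LaurentSeries R) (j : ℕ) (hj0 : 0 < j) (hjp : j < p) :
    ∃ w : LaurentSeries R,
      ∑ S ∈ Finset.powersetCard j (Finset.univ : Finset (ZMod p)), ndaMono p ζ x y S
        = HahnSeries.C (p : R) * w := by
  obtain ⟨g, -, hg⟩ := nda_sum_mem_trace p hp (ndaShift p) (nda_shift_pow_p p)
    (kronRot ζ).toAddMonoidHom ⊤ (ndaMono p ζ x y)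
    (fun S => nda_mono_shift p ζ hζ.pow_eq_one x y S)
    (Finset.powersetCard j (Finset.univ : Finset (ZMod p)))
    (fun S hS => by
      rw [Finset.mem_powersetCard] at hS ⊢
      exact ⟨Finset.subset_univ _, by rw [nda_card_shift, hS.2]⟩)
    (fun S hS => by
      rw [Finset.mem_powersetCard] at hS
      refine nda_shift_ne p S ?_ (by rw [hS.2]; exact hjp)
      rw [← Finset.card_pos, hS.2]
      exact hj0)
    (fun _ _ => AddSubgroup.mem_top _)
  refine ⟨qExpand R p (kronCompress p g), ?_⟩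
  rw [hg, ← nda_trace_eq p ζ hζ g]
  exact Finset.sum_congr rfl fun k _ => nda_iterate_kronRot ζ k g

/-- **the norm estimate**: `N(x + c y) = N(x) + c^p N(y) + c p w`. -/
theorem nda_rotProd_add (p : ℕ) (hp : p.Prime) (ζ : Rˣ) (hζ : IsPrimitiveRoot ζ p) (c : R)
    (x y : LaurentSeries R) :
    ∃ w : LaurentSeries R,
      kronRotProd p ζ (x + HahnSeries.C c * y)
        = kronRotProd p ζ x + HahnSeries.C (c ^ p) * kronRotProd p ζ y
          + HahnSeries.C (c * (p : R)) * w := by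
  classical
  have : NeZero p := ⟨hp.ne_zero⟩
  -- the terms of degree `0 < j < p`
  have hmid : ∀ j : ℕ, ∃ w : LaurentSeries R, 0 < j → j < p →
      ∑ S ∈ Finset.powersetCard j (Finset.univ : Finset (ZMod p)), ndaMono p ζ x y S
        = HahnSeries.C (p : R) * w := by
    intro j
    by_cases h : 0 < j ∧ j < p
    · obtain ⟨w, hw⟩ := nda_sum_mono p hp ζ hζ x y j h.1 h.2
      exact ⟨w, fun _ _ => hw⟩
    · exact ⟨0, fun h0 h1 => (h ⟨h0, h1⟩).elim⟩
  choose w hw using hmid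
  -- expansion of the product
  have hexp : kronRotProd p ζ (x + HahnSeries.C c * y)
      = ∑ j ∈ Finset.range (p + 1),
          HahnSeries.C c ^ (p - j) *
            ∑ S ∈ Finset.powersetCard j (Finset.univ : Finset (ZMod p)), ndaMono p ζ x y S := by
    rw [nda_rotProd_eq_zmod]
    simp only [map_add, map_mul, nda_kronRot_C]
    rw [Finset.prod_add, Finset.sum_powerset, Finset.card_univ, ZMod.card]
    refine Finset.sum_congr rfl fun j _ => ?_
    rw [Finset.mul_sum]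
    refine Finset.sum_congr rfl fun S hS => ?_
    rw [nda_mono_eq, Finset.prod_mul_distrib, Finset.prod_const,
      Finset.card_sdiff_of_subset (Finset.subset_univ S), Finset.card_univ, ZMod.card,
      (Finset.mem_powersetCard.1 hS).2]
    ring
  obtain ⟨p', rfl⟩ : ∃ p', p = p' + 1 := ⟨p - 1, (Nat.succ_pred_eq_of_pos hp.pos).symm⟩
  refine ⟨∑ j ∈ Finset.range p', HahnSeries.C c ^ (p' + 1 - (j + 1) - 1) * w (j + 1), ?_⟩
  rw [hexp, Finset.sum_range_succ, Finset.sum_range_succ']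
  -- the three parts
  have h0 : HahnSeries.C c ^ (p' + 1 - 0) *
      ∑ S ∈ Finset.powersetCard 0 (Finset.univ : Finset (ZMod (p' + 1))),
        ndaMono (p' + 1) ζ x y S
      = HahnSeries.C (c ^ (p' + 1)) * kronRotProd (p' + 1) ζ y := by
    rw [Finset.powersetCard_zero, Finset.sum_singleton, nda_mono_eq, Finset.prod_empty, one_mul,
      Finset.sdiff_empty, ← nda_rotProd_eq_zmod, Nat.sub_zero, map_pow]
  have h1 : HahnSeries.C c ^ (p' + 1 - (p' + 1)) *
      ∑ S ∈ Finset.powersetCard (p' + 1) (Finset.univ : Finset (ZMod (p' + 1))),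
        ndaMono (p' + 1) ζ x y S
      = kronRotProd (p' + 1) ζ x := by
    have hc : (Finset.univ : Finset (ZMod (p' + 1))).card = p' + 1 := by
      rw [Finset.card_univ, ZMod.card]
    have := Finset.powersetCard_self (Finset.univ : Finset (ZMod (p' + 1)))
    rw [hc] at this
    rw [this, Finset.sum_singleton, nda_mono_eq, Finset.sdiff_self, Finset.prod_empty, mul_one,
      ← nda_rotProd_eq_zmod, Nat.sub_self, pow_zero, one_mul]
  have h2 : ∑ j ∈ Finset.range p', HahnSeries.C c ^ (p' + 1 - (j + 1)) *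
      ∑ S ∈ Finset.powersetCard (j + 1) (Finset.univ : Finset (ZMod (p' + 1))),
        ndaMono (p' + 1) ζ x y S
      = HahnSeries.C (c * ((p' + 1 : ℕ) : R)) *
          ∑ j ∈ Finset.range p', HahnSeries.C c ^ (p' + 1 - (j + 1) - 1) * w (j + 1) := by
    rw [Finset.mul_sum]
    refine Finset.sum_congr rfl fun j hj => ?_
    have hj' : j < p' := Finset.mem_range.1 hj
    rw [hw (j + 1) (Nat.succ_pos j) (by omega)]
    have he : p' + 1 - (j + 1) = (p' + 1 - (j + 1) - 1) + 1 := by omega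
    rw [he, pow_succ, map_mul]
    simp only [Nat.add_sub_cancel]
    ring
  rw [h0, h1, h2]
  ring

end Main

/-! ## 5. Series with coefficients in a valuation subring -/

section Valuation

variable {L : Type*} [Field L] (A : ValuationSubring L)

/-- `y₁ ≡ y₂` modulo `c A`, coefficientwise -/
def NdaCongr (c : L) (y₁ y₂ : LaurentSeries L) : Prop :=
  ∀ n : ℤ, ∃ a ∈ A, y₁.coeff n - y₂.coeff n = c * a

variable {A}

theorem NdaCongr.refl (c : L) (y : LaurentSeries L) : NdaCongr A c y y :=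
  fun n => ⟨0, A.zero_mem, by rw [sub_self, mul_zero]⟩

theorem NdaCongr.symm {c : L} {y₁ y₂ : LaurentSeries L} (h : NdaCongr A c y₁ y₂) :
    NdaCongr A c y₂ y₁ := fun n => by
  obtain ⟨a, ha, h1⟩ := h n
  exact ⟨-a, A.neg_mem _ ha, by rw [mul_neg, ← h1, neg_sub]⟩

theorem NdaCongr.trans {c : L} {y₁ y₂ y₃ : LaurentSeries L} (h : NdaCongr A c y₁ y₂)
    (h' : NdaCongr A c y₂ y₃) : NdaCongr A c y₁ y₃ := fun n => by
  obtain ⟨a, ha, h1⟩ := h n
  obtain ⟨b, hb, h2⟩ := h' n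
  exact ⟨a + b, A.add_mem _ _ ha hb, by rw [mul_add, ← h1, ← h2]; ring⟩

/-- change of the modulus: `d ∣ c` in `A` -/
theorem NdaCongr.of_dvd {c d e : L} (he : e ∈ A) (hc : c = d * e) {y₁ y₂ : LaurentSeries L}
    (h : NdaCongr A c y₁ y₂) : NdaCongr A d y₁ y₂ := fun n => by
  obtain ⟨a, ha, h1⟩ := h n
  exact ⟨e * a, A.mul_mem _ _ he ha, by rw [h1, hc, mul_assoc]⟩

/-- a congruence modulo a non-unit is a congruence modulo the maximal ideal -/
theorem NdaCongr.kronCongr {c : L} (hc : c ∈ A.nonunits) {y₁ y₂ : LaurentSeries L}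
    (h : NdaCongr A c y₁ y₂) : KronCongr A y₁ y₂ := fun n => by
  obtain ⟨a, ha, h1⟩ := h n
  rw [h1, ValuationSubring.mem_nonunits_iff, map_mul]
  exact mul_lt_one_of_nonneg_of_lt_one_left zero_le
    (A.mem_nonunits_iff.1 hc) ((A.valuation_le_one_iff a).2 ha)

/-- `y₁ = y₂ + c y₃` with `y₃` integral -/
theorem NdaCongr.exists_eq_add {c : L} {y₁ y₂ : LaurentSeries L} (h : NdaCongr A c y₁ y₂) :
    ∃ y₃ : LaurentSeries L, KronInt A y₃ ∧ y₁ = y₂ + HahnSeries.C c * y₃ := by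
  by_cases hc : c = 0
  · refine ⟨0, fun n => by simp [A.zero_mem], ?_⟩
    ext n
    obtain ⟨a, -, h1⟩ := h n
    rw [hc, zero_mul, sub_eq_zero] at h1
    rw [h1, mul_zero, add_zero]
  · refine ⟨HahnSeries.C c⁻¹ * (y₁ - y₂), fun n => ?_, ?_⟩
    · obtain ⟨a, ha, h1⟩ := h n
      rw [nda_coeff_C_mul, HahnSeries.coeff_sub, h1, ← mul_assoc, inv_mul_cancel₀ hc, one_mul]
      exact ha
    · rw [← mul_assoc, ← map_mul, mul_inv_cancel₀ hc, map_one, one_mul]
      ring

theorem nda_congr_of_eq_add {c : L} {y₁ y₂ y₃ : LaurentSeries L} (h₃ : KronInt A y₃)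
    (h : y₁ = y₂ + HahnSeries.C c * y₃) : NdaCongr A c y₁ y₂ := fun n =>
  ⟨y₃.coeff n, h₃ n, by rw [h, HahnSeries.coeff_add, nda_coeff_C_mul]; ring⟩

theorem nda_kronIncl_C (a : A) :
    kronIncl A (HahnSeries.C a) = HahnSeries.C (a : L) := by
  show coeffMap A.subtype (HahnSeries.single 0 a) = HahnSeries.single 0 (a : L)
  rw [coeffMap_single]
  rfl

/-- **the norm estimate over a valuation subring**: if `y₁ = y₂ + c y₃` with `y₂`, `y₃`
integral and `c ∈ A`, then `N y₁ = N y₂ + c p w₁ + c^p N y₃` with `w₁` integral. -/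
theorem nda_kronRotProd_eq (p : ℕ) (hp : p.Prime) (ζ : Lˣ) (hζ : IsPrimitiveRoot ζ p)
    {c : L} (hc : c ∈ A) {y₂ y₃ : LaurentSeries L} (h₂ : KronInt A y₂) (h₃ : KronInt A y₃) :
    ∃ w : LaurentSeries L, KronInt A w ∧
      kronRotProd p ζ (y₂ + HahnSeries.C c * y₃)
        = kronRotProd p ζ y₂ + HahnSeries.C (c ^ p) * kronRotProd p ζ y₃
          + HahnSeries.C (c * (p : L)) * w := by
  obtain ⟨Y₂, rfl⟩ := h₂.exists_lift
  obtain ⟨Y₃, rfl⟩ := h₃.exists_lift
  obtain ⟨ζA, rfl⟩ := kron_exists_unit_lift A hp.ne_zero ζ hζ.pow_eq_one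
  have hζA : IsPrimitiveRoot ζA p :=
    IsPrimitiveRoot.of_map_of_injective (f := Units.map (A.subtype : A →* L)) hζ
      (Units.map_injective (f := (A.subtype : A →* L)) Subtype.val_injective)
  obtain ⟨W, hW⟩ := nda_rotProd_add p hp ζA hζA ⟨c, hc⟩ Y₂ Y₃
  refine ⟨kronIncl A W, kronInt_kronIncl W, ?_⟩
  have h := congrArg (kronIncl A) hW
  rw [map_add, map_add, map_mul, map_mul, coeffMap_kronRotProd, coeffMap_kronRotProd,
    coeffMap_kronRotProd, map_add, map_mul, nda_kronIncl_C, nda_kronIncl_C,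
    nda_kronIncl_C] at h
  simpa using h

/-- **norm estimate, congruence form**: `y₁ ≡ y₂ mod c` (with `y₂` integral, `c ∈ A`) implies
`N y₁ = N y₂ + c p w₁ + c^p w₂` with `w₁`, `w₂` integral. -/
theorem nda_kronRotProd_congr (p : ℕ) (hp : p.Prime) (ζ : Lˣ) (hζ : IsPrimitiveRoot ζ p)
    {c : L} (hc : c ∈ A) {y₁ y₂ : LaurentSeries L} (h₂ : KronInt A y₂)
    (h : NdaCongr A c y₁ y₂) :
    ∃ w₁ w₂ : LaurentSeries L, KronInt A w₁ ∧ KronInt A w₂ ∧
      kronRotProd p ζ y₁ = kronRotProd p ζ y₂ + HahnSeries.C (c * (p : L)) * w₁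
        + HahnSeries.C (c ^ p) * w₂ := by
  have : NeZero p := ⟨hp.ne_zero⟩
  obtain ⟨y₃, h₃, rfl⟩ := h.exists_eq_add
  obtain ⟨w, hw, he⟩ := nda_kronRotProd_eq p hp ζ hζ hc h₂ h₃
  refine ⟨w, kronRotProd p ζ y₃, hw, ?_, ?_⟩
  · obtain ⟨Y₃, rfl⟩ := h₃.exists_lift
    obtain ⟨ζA, rfl⟩ := kron_exists_unit_lift A hp.ne_zero ζ hζ.pow_eq_one
    rw [← coeffMap_kronRotProd]
    exact kronInt_kronIncl _
  · rw [he]
    ring

/-- **norm estimate modulo `d`**, for every common divisor `d` of `c p` and `c^p` -/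
theorem NdaCongr.kronRotProd (p : ℕ) (hp : p.Prime) (ζ : Lˣ) (hζ : IsPrimitiveRoot ζ p)
    {c d e₁ e₂ : L} (hc : c ∈ A) (he₁ : e₁ ∈ A) (he₂ : e₂ ∈ A) (h₁ : c * (p : L) = d * e₁)
    (h₂ : c ^ p = d * e₂) {y₁ y₂ : LaurentSeries L} (hy₂ : KronInt A y₂)
    (h : NdaCongr A c y₁ y₂) :
    NdaCongr A d (Fermat.Agent.ES.kronRotProd p ζ y₁) (Fermat.Agent.ES.kronRotProd p ζ y₂) := by
  obtain ⟨w₁, w₂, hw₁, hw₂, he⟩ := nda_kronRotProd_congr p hp ζ hζ hc hy₂ h
  intro n
  refine ⟨e₁ * w₁.coeff n + e₂ * w₂.coeff n,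
    A.add_mem _ _ (A.mul_mem _ _ he₁ (hw₁ n)) (A.mul_mem _ _ he₂ (hw₂ n)), ?_⟩
  rw [he, HahnSeries.coeff_add, HahnSeries.coeff_add, nda_coeff_C_mul, nda_coeff_C_mul, h₁, h₂]
  ring

/-- **norm estimate for `kronNorm`** (`∏_b f(ζ^b q^{1/p})`), modulo `d` -/
theorem NdaCongr.kronNorm (p : ℕ) [NeZero p] (hp : p.Prime) (ζ : Lˣ) (hζ : IsPrimitiveRoot ζ p)
    {c d e₁ e₂ : L} (hc : c ∈ A) (he₁ : e₁ ∈ A) (he₂ : e₂ ∈ A) (h₁ : c * (p : L) = d * e₁)
    (h₂ : c ^ p = d * e₂) {y₁ y₂ : LaurentSeries L} (hy₂ : KronInt A y₂)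
    (h : NdaCongr A c y₁ y₂) :
    NdaCongr A d (Fermat.Agent.ES.kronNorm p ζ y₁) (Fermat.Agent.ES.kronNorm p ζ y₂) := by
  intro n
  exact NdaCongr.kronRotProd p hp ζ hζ hc he₁ he₂ h₁ h₂ hy₂ h ((p : ℤ) * n)

/-- in a valuation ring one of `c p`, `c^p` divides the other: the norm estimate modulo the
`gcd` -/
theorem nda_exists_gcd (p : ℕ) {c : L} (hc : c ∈ A) :
    ∃ d e₁ e₂ : L, d ∈ A ∧ e₁ ∈ A ∧ e₂ ∈ A ∧ c * (p : L) = d * e₁ ∧ c ^ p = d * e₂ ∧
      (d = c * (p : L) ∨ d = c ^ p) := by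
  have hpA : (p : L) ∈ A := natCast_mem A p
  by_cases h0 : c * (p : L) = 0
  · exact ⟨c ^ p, 0, 1, A.pow_mem hc p, A.zero_mem, A.one_mem, by rw [h0, mul_zero],
      by rw [mul_one], Or.inr rfl⟩
  rcases A.mem_or_inv_mem (c ^ p / (c * (p : L))) with h | h
  · exact ⟨c * (p : L), 1, c ^ p / (c * (p : L)), A.mul_mem _ _ hc hpA, A.one_mem, h,
      by rw [mul_one], by rw [mul_div_cancel₀ _ h0], Or.inl rfl⟩
  · have hcp : c ^ p ≠ 0 := by
      intro h1
      have hc0 : c = 0 := pow_eq_zero_iff (by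
        intro hp0
        rw [hp0, Nat.cast_zero, mul_zero] at h0
        exact h0 rfl) |>.1 h1
      exact h0 (by rw [hc0, zero_mul])
    rw [inv_div] at h
    exact ⟨c ^ p, c * (p : L) / c ^ p, 1, A.pow_mem hc p, h, A.one_mem,
      by rw [mul_div_cancel₀ _ hcp], by rw [mul_one], Or.inr rfl⟩

/-! ### primitive series -/

/-- rotation by a root of unity preserves integrality -/
theorem nda_kronInt_kronRot {ℓ : ℕ} (hℓ : ℓ ≠ 0) (ζ : Lˣ) (hζ : ζ ^ ℓ = 1)
    {f : LaurentSeries L} (hf : KronInt A f) : KronInt A (kronRot ζ f) := by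
  obtain ⟨F, rfl⟩ := hf.exists_lift
  obtain ⟨ζA, rfl⟩ := kron_exists_unit_lift A hℓ ζ hζ
  rw [← coeffMap_kronRot]
  exact kronInt_kronIncl _

/-- rotation by a root of unity preserves primitivity -/
theorem nda_kronPrim_kronRot {ℓ : ℕ} (hℓ : ℓ ≠ 0) (ζ : Lˣ) (hζ : ζ ^ ℓ = 1)
    {f : LaurentSeries L} (hf : KronPrim A f) : KronPrim A (kronRot ζ f) := by
  refine ⟨nda_kronInt_kronRot hℓ ζ hζ hf.1, ?_⟩
  obtain ⟨n, hn⟩ := hf.2
  refine ⟨n, fun h => hn ?_⟩
  rw [kronRot_coeff] at h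
  have h1 : A.valuation ((ζ ^ n : Lˣ) : L) = 1 := by
    have h2 : A.valuation ((ζ ^ n : Lˣ) : L) ^ ℓ = 1 := by
      rw [← map_pow, ← Units.val_pow_eq_pow_val, ← zpow_natCast, ← zpow_mul, mul_comm, zpow_mul,
        zpow_natCast, hζ, one_zpow, Units.val_one, map_one]
    exact (pow_eq_one_iff.1 h2).resolve_right hℓ
  rw [A.mem_nonunits_iff, map_mul, h1, one_mul] at h
  exact A.mem_nonunits_iff.2 h

theorem nda_kronPrim_one : KronPrim A (1 : LaurentSeries L) := by
  refine ⟨KronInt.one, 0, ?_⟩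
  rw [HahnSeries.coeff_one, if_pos rfl, A.mem_nonunits_iff, map_one]
  exact lt_irrefl _

/-- `∏_b f(ζ^b q)` is primitive when `f` is -/
theorem nda_kronPrim_kronRotProd {ℓ : ℕ} (hℓ : ℓ ≠ 0) (ζ : Lˣ) (hζ : ζ ^ ℓ = 1)
    {f : LaurentSeries L} (hf : KronPrim A f) : KronPrim A (kronRotProd ℓ ζ f) := by
  unfold Fermat.Agent.ES.kronRotProd
  have key : ∀ s : Finset ℕ, KronPrim A (∏ b ∈ s, kronRot (ζ ^ b) f) := by
    intro s
    classical
    induction s using Finset.induction_on with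
    | empty => simpa using nda_kronPrim_one
    | insert a s ha ih =>
      rw [Finset.prod_insert ha]
      refine KronPrim.mul (nda_kronPrim_kronRot hℓ (ζ ^ a) ?_ hf) ih
      rw [← pow_mul, mul_comm, pow_mul, hζ, one_pow]
  exact key _

/-- `∏_b f(ζ^b q^{1/ℓ})` is primitive when `f` is -/
theorem nda_kronPrim_kronNorm {ℓ : ℕ} [NeZero ℓ] (ζ : Lˣ) (hζ : IsPrimitiveRoot ζ ℓ)
    {f : LaurentSeries L} (hf : KronPrim A f) : KronPrim A (kronNorm ℓ ζ f) := by
  refine ⟨hf.1.kronNorm ζ hζ.pow_eq_one, ?_⟩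
  obtain ⟨n, hn⟩ := (nda_kronPrim_kronRotProd (NeZero.ne ℓ) ζ hζ.pow_eq_one hf).2
  by_cases hdvd : (ℓ : ℤ) ∣ n
  · obtain ⟨m, rfl⟩ := hdvd
    exact ⟨m, hn⟩
  · exfalso
    apply hn
    rw [kronRotProd_coeff_of_not_dvd ℓ ζ hζ f hdvd]
    rw [A.mem_nonunits_iff, map_zero]
    exact zero_lt_one

end Valuation

end Fermat.Agent.S33
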