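import Mathlib

/-!
# S33 v2 / C4 / T5j — cube descent, generic part (helper61)

* `wcu_exists_aut` : a degree-3 extension `L/K` (with `ζ₃ ∈ K`) generated by a cube root of an element
  of `K` that is not a cube in `K` is Galois: every `t ∉ K` is moved by some `σ ∈ Gal(L/K)`.
* `wcu_exists_aut_int` : the same for a tower `K ≤ L` of intermediate fields of `E/k`.
* `wcu_val_root`, `wcu_root_unique` : for an additive valuation `v` with values in `ℤ ∪ {∞}` and
  `v j = -d`, `d` odd, `v 256 = 0`: the cubic `j X² = (X + 256)³` has at most one root (every root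
  has valuation `-d`; two distinct roots force a third root of valuation `2 d`).
-/

set_option autoImplicit false

noncomputable section

namespace Fermat.Agent.S33

open Polynomial IntermediateField

/-- A Kummer extension of degree `3` moves every element outside the base. -/
theorem wcu_exists_aut {K L : Type*} [Field K] [Field L] [Algebra K L]
    (hdeg : Module.finrank K L = 3) (hζ : (primitiveRoots 3 K).Nonempty)
    {a : K} {h : L} (hh : h ^ 3 = algebraMap K L a) (hno : ∀ b : K, b ^ 3 ≠ a)
    {t : L} (ht : t ∉ (algebraMap K L).range) : ∃ σ : L ≃ₐ[K] L, σ t ≠ t := by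
  have : FiniteDimensional K L := Module.finite_of_finrank_pos (by rw [hdeg]; norm_num)
  have hirr : Irreducible (X ^ 3 - C a : K[X]) :=
    X_pow_sub_C_irreducible_of_prime Nat.prime_three hno
  have htop : K⟮h⟯ = ⊤ := by
    have := IntermediateField.isSimpleOrder_of_finrank_prime K L
      (by rw [hdeg]; exact Nat.prime_three)
    rcases eq_bot_or_eq_top K⟮h⟯ with hb | ht'
    · exfalso
      have h1 : h ∈ (⊥ : IntermediateField K L) := hb ▸ mem_adjoin_simple_self K h
      obtain ⟨b, rfl⟩ := IntermediateField.mem_bot.mp h1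
      apply hno b
      apply (algebraMap K L).injective
      rw [map_pow, hh]
    · exact ht'
  have hζ' : (primitiveRoots (Module.finrank K L) K).Nonempty := by rwa [hdeg]
  have hh' : h ^ (Module.finrank K L) = algebraMap K L a := by rwa [hdeg]
  have hsplit : IsSplittingField K L (X ^ 3 - C a) := by
    have := isSplittingField_X_pow_sub_C_of_root_adjoin_eq_top hζ' hh' htop
    rwa [hdeg] at this
  have : IsGalois K L := isGalois_of_isSplittingField_X_pow_sub_C hζ hirr L
  by_contra hcon
  have hfix : ∀ σ : L ≃ₐ[K] L, σ t = t := fun σ => by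
    by_contra hne
    exact hcon ⟨σ, hne⟩
  have h1 : t ∈ (⊥ : IntermediateField K L) := (IsGalois.mem_bot_iff_fixed t).mpr hfix
  exact ht (IntermediateField.mem_bot.mp h1)

/-- `wcu_exists_aut` for a tower `K ≤ L` of intermediate fields. -/
theorem wcu_exists_aut_int {k E : Type*} [Field k] [Field E] [Algebra k E]
    {K L : IntermediateField k E} (hKL : K ≤ L) (hdeg : K.relfinrank L = 3)
    (hζ : (primitiveRoots 3 k).Nonempty) {h : E} (hh : h ∈ L) (hw : h ^ 3 ∈ K)
    (hno : ∀ g ∈ K, g ^ 3 ≠ h ^ 3) {t : E} (ht : t ∈ L) (htK : t ∉ K) :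
    ∃ σ : IntermediateField.extendScalars hKL ≃ₐ[K] IntermediateField.extendScalars hKL,
      ((σ ⟨t, ht⟩ : IntermediateField.extendScalars hKL) : E) ≠ t := by
  have hdeg' : Module.finrank K (IntermediateField.extendScalars hKL) = 3 := by
    rw [← IntermediateField.relfinrank_eq_finrank_of_le hKL, hdeg]
  have hζK : (primitiveRoots 3 K).Nonempty := by
    obtain ⟨ζ, hζ⟩ := hζ
    rw [mem_primitiveRoots (by norm_num)] at hζ
    exact ⟨algebraMap k K ζ, (mem_primitiveRoots (by norm_num)).mpr
      (hζ.map_of_injective (algebraMap k K).injective)⟩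
  obtain ⟨σ, hσ⟩ := wcu_exists_aut (K := K) (L := IntermediateField.extendScalars hKL) hdeg' hζK
    (a := ⟨h ^ 3, hw⟩) (h := ⟨h, hh⟩) (by apply Subtype.ext; rfl)
    (by
      intro b hb
      apply hno b.1 b.2
      have := congrArg Subtype.val hb
      simpa using this)
    (t := ⟨t, ht⟩)
    (by
      rintro ⟨b, hb⟩
      apply htK
      have := congrArg Subtype.val hb
      have h2 : (b : E) = t := this
      rw [← h2]
      exact b.2)
  refine ⟨σ, fun hcon => hσ ?_⟩
  exact Subtype.ext hcon

/-! ### the valuation argument -/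

section Val

theorem wcu_nsmul_coe (k : ℕ) (n : ℤ) :
    k • ((n : ℤ) : WithTop ℤ) = (((k : ℤ) * n : ℤ) : WithTop ℤ) := by
  rw [← WithTop.coe_nsmul, nsmul_eq_mul]

variable {E : Type*} [Field E] (v : AddValuation E (WithTop ℤ))

/-- Every root of `j X² = (X + 256)³` has valuation `-d` when `v j = -d`, `d` odd. -/
theorem wcu_val_root {j x : E} {d : ℕ} (hd : Odd d)
    (hj : v j = ((-(d : ℤ) : ℤ) : WithTop ℤ)) (h256 : v (256 : E) = 0)
    (hx : j * x ^ 2 = (x + 256) ^ 3) : v x = ((-(d : ℤ) : ℤ) : WithTop ℤ) := by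
  have hx0 : x ≠ 0 := by
    rintro rfl
    have h1 : v ((0 + 256 : E) ^ 3) = ⊤ := by
      rw [← hx]
      simp
    rw [zero_add, AddValuation.map_pow, h256] at h1
    simp at h1
  obtain ⟨n, hn⟩ := WithTop.ne_top_iff_exists.mp ((AddValuation.ne_top_iff v).mpr hx0)
  have hL : v (j * x ^ 2) = ((-(d : ℤ) + 2 * n : ℤ) : WithTop ℤ) := by
    rw [AddValuation.map_mul, AddValuation.map_pow, hj, ← hn, wcu_nsmul_coe, ← WithTop.coe_add]
    rfl
  have hd1 : 1 ≤ d := hd.pos
  rcases lt_trichotomy n 0 with hlt | heq | hgt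
  · have h1 : v x < v (256 : E) := by
      rw [h256, ← hn]
      exact_mod_cast hlt
    have h2 : v (x + 256) = v x := AddValuation.map_add_eq_of_lt_left v h1
    have h3 : v ((x + 256) ^ 3) = ((3 * n : ℤ) : WithTop ℤ) := by
      rw [AddValuation.map_pow, h2, ← hn, wcu_nsmul_coe]
      rfl
    rw [hx, h3] at hL
    have h4 : 3 * n = -(d : ℤ) + 2 * n := by exact_mod_cast hL
    rw [← hn]
    have h5 : n = -(d : ℤ) := by omega
    rw [h5]
  · exfalso
    subst heq
    have h1 : (0 : WithTop ℤ) ≤ v (x + 256) := by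
      refine AddValuation.map_le_add v ?_ ?_
      · rw [← hn]; rfl
      · rw [h256]
    have h3 : (0 : WithTop ℤ) ≤ v ((x + 256) ^ 3) := by
      rw [AddValuation.map_pow]
      exact nsmul_nonneg h1 3
    rw [← hx, hL] at h3
    have h4 : (0 : ℤ) ≤ -(d : ℤ) + 2 * 0 := by exact_mod_cast h3
    omega
  · exfalso
    have h1 : v (256 : E) < v x := by
      rw [h256, ← hn]
      exact_mod_cast hgt
    have h2 : v (x + 256) = v (256 : E) := AddValuation.map_add_eq_of_lt_right v h1
    have h3 : v ((x + 256) ^ 3) = ((0 : ℤ) : WithTop ℤ) := by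
      rw [AddValuation.map_pow, h2, h256]
      simp
    rw [hx, h3] at hL
    have h4 : (0 : ℤ) = -(d : ℤ) + 2 * n := by exact_mod_cast hL
    obtain ⟨m, hm⟩ := hd
    omega

/-- The cubic `j X² = (X + 256)³` has at most one root when `v j = -d`, `d` odd. -/
theorem wcu_root_unique {j x t : E} {d : ℕ} (hd : Odd d)
    (hj : v j = ((-(d : ℤ) : ℤ) : WithTop ℤ)) (h256 : v (256 : E) = 0)
    (hx : j * x ^ 2 = (x + 256) ^ 3) (ht : j * t ^ 2 = (t + 256) ^ 3) : x = t := by
  by_contra hne
  have hS : x ^ 2 + x * t + t ^ 2 + (768 - j) * (x + t) + 3 * 256 ^ 2 = 0 := by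
    have h1 : (x - t) * (x ^ 2 + x * t + t ^ 2 + (768 - j) * (x + t) + 3 * 256 ^ 2) = 0 := by
      linear_combination ht - hx
    rcases mul_eq_zero.mp h1 with h2 | h2
    · exact absurd (sub_eq_zero.mp h2) hne
    · exact h2
  have hy : j * (j - 768 - x - t) ^ 2 = ((j - 768 - x - t) + 256) ^ 3 := by
    linear_combination (-(j - 768 - x - t - x)) * hS + hx
  have hprod : x * t * (j - 768 - x - t) = -(256 ^ 3) := by
    linear_combination -hx - x * hS
  have hvx := wcu_val_root v hd hj h256 hx
  have hvt := wcu_val_root v hd hj h256 ht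
  have hvy := wcu_val_root v hd hj h256 hy
  have h1 := congrArg v hprod
  rw [AddValuation.map_mul, AddValuation.map_mul, hvx, hvt, hvy, AddValuation.map_neg,
    AddValuation.map_pow, h256] at h1
  have h2 : ((-(d : ℤ) + -(d : ℤ) + -(d : ℤ) : ℤ) : WithTop ℤ) = ((0 : ℤ) : WithTop ℤ) := by
    rw [WithTop.coe_add, WithTop.coe_add, h1]
    simp
  have h3 : -(d : ℤ) + -(d : ℤ) + -(d : ℤ) = 0 := by exact_mod_cast h2
  have hd1 : 1 ≤ d := hd.pos
  omega

end Val

end Fermat.Agent.S33
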