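import Fermat.Agent.UNIP.NodesSwap
import Fermat.Agent.S33.WildCubeGen

/-!
# S33 v2 / C4 / T5f-Φ — degrees of the coefficients of the modular polynomial (helper61)

`Φ = nodesSwapPhi p hp = X^{p+1} + Σ_{a ≤ p} c_a(Y) X^a ∈ ℤ[Y][X]`, `Φ(j(Q^p), j) = 0 = Φ(j, j(Q^p))`.

* `wpd_deg_pos : 1 ≤ a → (Φ.coeff a).natDegree ≤ p`, `wpd_deg_zero : (Φ.coeff 0).natDegree ≤ p + 1`
  (from the `q`-orders of the two relations only: a vanishing sum attains its minimal order twice).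
* `wpd_e_evalInt` : a monic `Ψ ∈ ℤ[Y][X]` with `Ψ(e, x) = 0` for `x = J⁻¹`, `e = Jp · x ^ p`, whenever
  `Φ(Jp, J) = 0`, `J ≠ 0` in a field.
* `wpd_e_integral` : `e = Jp · (J⁻¹) ^ p` is integral over `A[J⁻¹]` in `F = modularFunctionFieldFullC E (M * p)`.
-/

set_option autoImplicit false

noncomputable section

namespace Fermat.Agent.S33

open Polynomial ModularCurve Fermat.Agent.S28 Fermat.Agent.UNIP

/-! ### valuations of polynomial expressions -/

section Val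

variable {K : Type*} [Field K] (v : AddValuation K (WithTop ℤ))

theorem wpd_val_pow {z : K} {m : ℕ} (hz : v z = ((-(m : ℤ) : ℤ) : WithTop ℤ)) (a : ℕ) :
    v (z ^ a) = ((-((m : ℤ) * a) : ℤ) : WithTop ℤ) := by
  rw [AddValuation.map_pow, hz, wcu_nsmul_coe]
  congr 1
  ring

/-- valuation of `c(y)` for `c ∈ ℤ[Y]` nonzero, `v y = -m < 0`, `v` trivial on nonzero integers -/
theorem wpd_val_evalInt (hv : ∀ n : ℤ, n ≠ 0 → v (n : K) = 0) {y : K} {m : ℕ} (hm : 0 < m)
    (hy : v y = ((-(m : ℤ) : ℤ) : WithTop ℤ)) {c : Polynomial ℤ} (hc : c ≠ 0) :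
    v (evalInt y c) = ((-((m : ℤ) * c.natDegree) : ℤ) : WithTop ℤ) := by
  have hterm : ∀ i, c.coeff i ≠ 0 →
      v ((Int.castRingHom K) (c.coeff i) * y ^ i) = ((-((m : ℤ) * i) : ℤ) : WithTop ℤ) := by
    intro i hi
    rw [AddValuation.map_mul, eq_intCast, hv _ hi, zero_add, wpd_val_pow v hy]
  show v (Polynomial.eval₂ (Int.castRingHom K) y c) = _
  rw [Polynomial.eval₂_eq_sum_range, Finset.sum_range_succ]
  have htop := hterm c.natDegree (leadingCoeff_ne_zero.mpr hc)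
  have hrest : ((-((m : ℤ) * c.natDegree) : ℤ) : WithTop ℤ) <
      v (∑ i ∈ Finset.range c.natDegree, (Int.castRingHom K) (c.coeff i) * y ^ i) := by
    apply AddValuation.map_lt_sum v WithTop.coe_ne_top
    intro i hi
    rw [Finset.mem_range] at hi
    by_cases h0 : c.coeff i = 0
    · rw [h0, map_zero, zero_mul, AddValuation.map_zero]
      exact WithTop.coe_lt_top _
    · rw [hterm i h0]
      have h1 : (m : ℤ) * i < (m : ℤ) * c.natDegree := by
        have : (i : ℤ) < c.natDegree := by exact_mod_cast hi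
        have hm' : (0 : ℤ) < m := by exact_mod_cast hm
        exact mul_lt_mul_of_pos_left this hm'
      exact_mod_cast (by omega : -((m : ℤ) * c.natDegree) < -((m : ℤ) * i))
  rw [AddValuation.map_add_eq_of_lt_right v (by rwa [htop]), htop]

/-- valuation of a term `c(y) z^a` -/
theorem wpd_val_term (hv : ∀ n : ℤ, n ≠ 0 → v (n : K) = 0) {y z : K} {m m' : ℕ} (hm : 0 < m)
    (hy : v y = ((-(m : ℤ) : ℤ) : WithTop ℤ)) (hz : v z = ((-(m' : ℤ) : ℤ) : WithTop ℤ))
    {c : Polynomial ℤ} (hc : c ≠ 0) (a : ℕ) :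
    v (evalInt y c * z ^ a) =
      ((-(((m * c.natDegree + m' * a : ℕ) : ℤ)) : ℤ) : WithTop ℤ) := by
  rw [AddValuation.map_mul, wpd_val_evalInt v hv hm hy hc, wpd_val_pow v hz, ← WithTop.coe_add]
  congr 1
  push_cast
  ring

/-- **A vanishing sum attains its minimal order twice.** -/
theorem wpd_no_unique_max (hv : ∀ n : ℤ, n ≠ 0 → v (n : K) = 0) {y z : K} {m m' : ℕ}
    (hm : 0 < m) (hy : v y = ((-(m : ℤ) : ℤ) : WithTop ℤ))
    (hz : v z = ((-(m' : ℤ) : ℤ) : WithTop ℤ))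
    (Φ : Polynomial (Polynomial ℤ)) (h : Φ.eval₂ (evalInt y) z = 0) (a₀ : ℕ)
    (h0 : Φ.coeff a₀ ≠ 0) :
    ∃ a, a ≠ a₀ ∧ Φ.coeff a ≠ 0 ∧
      m * (Φ.coeff a₀).natDegree + m' * a₀ ≤ m * (Φ.coeff a).natDegree + m' * a := by
  by_contra hcon
  have hlt : ∀ a, a ≠ a₀ → Φ.coeff a ≠ 0 →
      m * (Φ.coeff a).natDegree + m' * a < m * (Φ.coeff a₀).natDegree + m' * a₀ := by
    intro a ha hca
    by_contra hge
    exact hcon ⟨a, ha, hca, not_lt.mp hge⟩
  have ha₀ : a₀ ∈ Finset.range (Φ.natDegree + 1) :=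
    Finset.mem_range.mpr (Nat.lt_succ_of_le (Polynomial.le_natDegree_of_ne_zero h0))
  rw [Polynomial.eval₂_eq_sum_range, ← Finset.add_sum_erase _ _ ha₀] at h
  have hv0 := wpd_val_term v hv hm hy hz h0 a₀
  have hrest : v (evalInt y (Φ.coeff a₀) * z ^ a₀) <
      v (∑ a ∈ (Finset.range (Φ.natDegree + 1)).erase a₀, evalInt y (Φ.coeff a) * z ^ a) := by
    rw [hv0]
    apply AddValuation.map_lt_sum v WithTop.coe_ne_top
    intro a ha
    have hne : a ≠ a₀ := Finset.ne_of_mem_erase ha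
    by_cases hca : Φ.coeff a = 0
    · rw [hca, map_zero, zero_mul, AddValuation.map_zero]
      exact WithTop.coe_lt_top _
    · rw [wpd_val_term v hv hm hy hz hca a]
      have := hlt a hne hca
      exact_mod_cast (by omega :
        -(((m * (Φ.coeff a₀).natDegree + m' * a₀ : ℕ) : ℤ)) <
          -(((m * (Φ.coeff a).natDegree + m' * a : ℕ) : ℤ)))
  have h2 := AddValuation.map_add_eq_of_lt_left v hrest
  rw [h, AddValuation.map_zero, hv0] at h2
  exact WithTop.coe_ne_top h2.symm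

end Val

/-! ### the combinatorial core -/

section Comb

theorem wpd_aux (p : ℕ) (hp : 2 ≤ p) (D : ℕ → ℕ) (lo hi : ℕ) (hlt : lo < hi) (hhi : hi ≤ p + 1)
    (heq : p * D lo + lo = p * D hi + hi) :
    D lo = D hi + 1 ∧ hi = lo + p := by
  have h1 : D hi < D lo := by
    by_contra h
    have h' : p * D lo ≤ p * D hi := Nat.mul_le_mul_left _ (not_lt.mp h)
    omega
  have h2 : D lo ≤ D hi + 1 := by
    by_contra h
    have h' : p * (D hi + 2) ≤ p * D lo := Nat.mul_le_mul_left _ (by omega)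
    rw [mul_add] at h'
    omega
  have h3 : D lo = D hi + 1 := by omega
  refine ⟨h3, ?_⟩
  rw [h3, mul_add, mul_one] at heq
  omega

theorem wpd_comb (p : ℕ) (hp : 2 ≤ p) (D : ℕ → ℕ) (S : ℕ → Prop)
    (hS : ∀ a, S a → a ≤ p + 1) (hS1 : S (p + 1)) (hD1 : D (p + 1) = 0)
    (H2 : ∀ a₀, S a₀ → ∃ a, a ≠ a₀ ∧ S a ∧ p * D a₀ + a₀ ≤ p * D a + a)
    (H1 : ∀ a₀, S a₀ → ∃ a, a ≠ a₀ ∧ S a ∧ D a₀ + p * a₀ ≤ D a + p * a) :
    ∀ a, S a → (1 ≤ a → D a ≤ p) ∧ D a ≤ p + 1 := by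
  classical
  -- a maximizer of the weight `p D a + a`
  obtain ⟨a₀, ha₀, hmax⟩ := Finset.exists_max_image ((Finset.range (p + 2)).filter S)
    (fun a => p * D a + a) ⟨p + 1, by simp [hS1]⟩
  have hSa₀ : S a₀ := (Finset.mem_filter.mp ha₀).2
  have hmax' : ∀ a, S a → p * D a + a ≤ p * D a₀ + a₀ := fun a ha =>
    hmax a (Finset.mem_filter.mpr ⟨Finset.mem_range.mpr (by have := hS a ha; omega), ha⟩)
  obtain ⟨a₁, hne, hSa₁, hle⟩ := H2 a₀ hSa₀
  have heq : p * D a₀ + a₀ = p * D a₁ + a₁ := le_antisymm hle (hmax' a₁ hSa₁)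
  -- the two indices are `lo < hi`
  obtain ⟨lo, hi, hSlo, hShi, hlt, hW, hD⟩ : ∃ lo hi, S lo ∧ S hi ∧ lo < hi ∧
      (∀ a, S a → p * D a + a ≤ p * D hi + hi) ∧ p * D lo + lo = p * D hi + hi := by
    rcases lt_or_gt_of_ne hne with h | h
    · exact ⟨a₁, a₀, hSa₁, hSa₀, h, hmax', heq.symm⟩
    · exact ⟨a₀, a₁, hSa₀, hSa₁, h, fun a ha => heq ▸ hmax' a ha, heq⟩
  obtain ⟨hDlo, hhi⟩ := wpd_aux p hp D lo hi hlt (hS hi hShi) hD
  have hhi' := hS hi hShi
  have hlo : lo = 0 ∨ lo = 1 := by omega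
  rcases hlo with rfl | rfl
  · -- Case 0: `hi = p`, `D 0 = D p + 1`
    have hhi0 : hi = p := by omega
    subst hhi0
    have hd : D hi ≤ hi := by
      by_contra hd
      obtain ⟨a, hane, hSa, hale⟩ := H1 hi hShi
      have ha := hS a hSa
      have hWa := hW a hSa
      rcases Nat.lt_or_ge a hi with hlt' | hge
      · rcases Nat.eq_zero_or_pos a with rfl | hpos
        · rw [hDlo] at hale
          have : hi * hi ≥ 2 * hi := Nat.mul_le_mul_right _ hp
          omega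
        · have h1 : D a ≤ D hi := by
            by_contra h
            have h' : hi * (D hi + 1) ≤ hi * D a := Nat.mul_le_mul_left _ (by omega)
            rw [mul_add, mul_one] at h'
            omega
          have h2 : hi * a ≤ hi * (hi - 1) := Nat.mul_le_mul_left _ (by omega)
          have h3 : hi * (hi - 1) + hi = hi * hi := by
            rw [← Nat.mul_succ]
            congr 1
            omega
          omega
      · have hap : a = hi + 1 := by omega
        subst hap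
        rw [hD1, mul_add, mul_one] at hale
        omega
    intro a hSa
    have hWa := hW a hSa
    have h1 : hi * D hi ≤ hi * hi := Nat.mul_le_mul_left _ hd
    constructor
    · intro ha
      by_contra h
      have h' : hi * (hi + 1) ≤ hi * D a := Nat.mul_le_mul_left _ (by omega)
      rw [mul_add, mul_one] at h'
      omega
    · by_contra h
      have h' : hi * (hi + 2) ≤ hi * D a := Nat.mul_le_mul_left _ (by omega)
      rw [mul_add] at h'
      omega
  · -- Case 1: `hi = p + 1`: impossible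
    exfalso
    have hhi1 : hi = p + 1 := by omega
    subst hhi1
    rw [hD1, mul_zero, zero_add] at hW
    obtain ⟨a, hane, hSa, hale⟩ := H1 (p + 1) hShi
    have ha := hS a hSa
    have hWa := hW a hSa
    rw [hD1, zero_add] at hale
    have h1 : D a ≤ 1 := by
      by_contra h
      have h' : p * 2 ≤ p * D a := Nat.mul_le_mul_left _ (by omega)
      omega
    have h2 : p * a ≤ p * p := Nat.mul_le_mul_left _ (by omega)
    rw [mul_add, mul_one] at hale
    omega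

end Comb

/-! ### the degrees of the coefficients of `Φ` -/

section Deg

variable (p : ℕ) [NeZero p] (hp : p.Prime)

theorem wpd_val_int (n : ℤ) (hn : n ≠ 0) :
    HahnSeries.addVal ℤ ℚ ((n : LaurentSeries ℚ)) = 0 := by
  have h3 : (n : LaurentSeries ℚ) = HahnSeries.C (n : ℚ) :=
    (map_intCast (HahnSeries.C : ℚ →+* LaurentSeries ℚ) n).symm
  have hne : (n : LaurentSeries ℚ) ≠ 0 := by
    rw [h3, Ne, map_eq_zero]
    exact_mod_cast hn
  rw [HahnSeries.addVal_apply_of_ne hne, h3, HahnSeries.order_C]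
  rfl

theorem wpd_val_j :
    HahnSeries.addVal ℤ ℚ (jqModC ℚ) = ((-((1 : ℕ) : ℤ) : ℤ) : WithTop ℤ) := by
  rw [HahnSeries.addVal_apply_of_ne (Fermat.Agent.S28.jqModC_ne_zero ℚ),
    Fermat.Agent.S28.order_jqModC]
  rfl

theorem wpd_val_jp :
    HahnSeries.addVal ℤ ℚ (qExpand ℚ p (jqModC ℚ)) = ((-((p : ℕ) : ℤ) : ℤ) : WithTop ℤ) := by
  have hne : qExpand ℚ p (jqModC ℚ) ≠ 0 :=
    Fermat.Agent.S28.qExpand_ne_zero (Fermat.Agent.S28.jqModC_ne_zero ℚ)
  rw [HahnSeries.addVal_apply_of_ne hne, Fermat.Agent.S28.order_qExpand,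
    Fermat.Agent.S28.order_jqModC, mul_neg, mul_one]

/-- **Degree bound**, both parts. -/
theorem wpd_deg (a : ℕ) :
    (1 ≤ a → ((nodesSwapPhi p hp).coeff a).natDegree ≤ p) ∧
      ((nodesSwapPhi p hp).coeff a).natDegree ≤ p + 1 := by
  by_cases ha : (nodesSwapPhi p hp).coeff a = 0
  · rw [ha, natDegree_zero]
    exact ⟨fun _ => Nat.zero_le _, Nat.zero_le _⟩
  have hmonic := nodesSwapPhi_monic p hp
  have hdeg := nodesSwapPhi_natDegree p hp
  refine wpd_comb p hp.two_le (fun a => ((nodesSwapPhi p hp).coeff a).natDegree)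
    (fun a => (nodesSwapPhi p hp).coeff a ≠ 0) ?_ ?_ ?_ ?_ ?_ a ha
  · intro b hb
    rw [← hdeg]
    exact Polynomial.le_natDegree_of_ne_zero hb
  · show (nodesSwapPhi p hp).coeff (p + 1) ≠ 0
    rw [← hdeg, Polynomial.coeff_natDegree, hmonic.leadingCoeff]
    exact one_ne_zero
  · show ((nodesSwapPhi p hp).coeff (p + 1)).natDegree = 0
    rw [← hdeg, Polynomial.coeff_natDegree, hmonic.leadingCoeff, natDegree_one]
  · intro a₀ ha₀
    obtain ⟨b, hb, hb0, hle⟩ := wpd_no_unique_max (HahnSeries.addVal ℤ ℚ) wpd_val_int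
      hp.pos (wpd_val_jp p) wpd_val_j (nodesSwapPhi p hp) (nodesSwapPhi_series' p hp ℚ) a₀ ha₀
    exact ⟨b, hb, hb0, by simpa using hle⟩
  · intro a₀ ha₀
    obtain ⟨b, hb, hb0, hle⟩ := wpd_no_unique_max (HahnSeries.addVal ℤ ℚ) wpd_val_int
      Nat.one_pos wpd_val_j (wpd_val_jp p) (nodesSwapPhi p hp) (nodesSwapPhi_series p hp ℚ) a₀ ha₀
    exact ⟨b, hb, hb0, by simpa using hle⟩

theorem wpd_deg_pos {a : ℕ} (ha : 1 ≤ a) : ((nodesSwapPhi p hp).coeff a).natDegree ≤ p :=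
  (wpd_deg p hp a).1 ha

theorem wpd_deg_zero : ((nodesSwapPhi p hp).coeff 0).natDegree ≤ p + 1 :=
  (wpd_deg p hp 0).2

/-- `deg c_a ≤ p (p + 1 - a)` for `a ≤ p + 1`. -/
theorem wpd_deg_le {a : ℕ} (ha : a ≤ p + 1) :
    ((nodesSwapPhi p hp).coeff a).natDegree ≤ p * (p + 1 - a) := by
  rcases Nat.eq_zero_or_pos a with rfl | hpos
  · refine (wpd_deg_zero p hp).trans ?_
    rw [Nat.sub_zero]
    exact Nat.le_mul_of_pos_left _ hp.pos
  · rcases Nat.lt_or_ge a (p + 1) with hlt | hge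
    · refine (wpd_deg_pos p hp hpos).trans ?_
      exact Nat.le_mul_of_pos_right _ (by omega)
    · have h1 : a = p + 1 := le_antisymm ha hge
      subst h1
      rw [← nodesSwapPhi_natDegree p hp, Polynomial.coeff_natDegree,
        (nodesSwapPhi_monic p hp).leadingCoeff, natDegree_one]
      exact Nat.zero_le _

end Deg

/-! ### integrality of `e = Jp / J ^ p` over `ℤ[1 / J]` -/

section Integral

/-- the reflected polynomial `Ψ(X, Y) = Y^{p(p+1)} Φ(X Y^{-p}, Y^{-1})` -/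
def wpdPsi (p : ℕ) (Φ : Polynomial (Polynomial ℤ)) : Polynomial (Polynomial ℤ) :=
  ∑ a ∈ Finset.range (p + 2), C (reflect (p * (p + 1 - a)) (Φ.coeff a)) * X ^ a

theorem wpdPsi_monic (p : ℕ) (Φ : Polynomial (Polynomial ℤ)) (hΦ : Φ.Monic)
    (hdeg : Φ.natDegree = p + 1) : (wpdPsi p Φ).Monic := by
  have h1 : wpdPsi p Φ = X ^ (p + 1) +
      ∑ a ∈ Finset.range (p + 1), C (reflect (p * (p + 1 - a)) (Φ.coeff a)) * X ^ a := by
    rw [wpdPsi, Finset.sum_range_succ, add_comm]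
    congr 1
    rw [← hdeg, Polynomial.coeff_natDegree, hΦ.leadingCoeff, Nat.sub_self, mul_zero,
      ← Polynomial.C_1, Polynomial.reflect_C, pow_zero, mul_one, Polynomial.C_1, Polynomial.C_1,
      one_mul]
  rw [h1]
  apply Polynomial.monic_X_pow_add
  refine lt_of_le_of_lt (Polynomial.degree_le_of_natDegree_le (n := p) ?_)
    (by exact_mod_cast Nat.lt_succ_self p)
  apply Polynomial.natDegree_sum_le_of_forall_le
  intro a ha
  exact (Polynomial.natDegree_C_mul_X_pow_le _ _).trans (Nat.le_of_lt_succ (Finset.mem_range.mp ha))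

theorem wpd_evalInt_reflect {F : Type*} [Field F] {J : F} (hJ : J ≠ 0) (N : ℕ)
    (c : Polynomial ℤ) (hc : c.natDegree ≤ N) :
    evalInt J⁻¹ (reflect N c) = evalInt J c * J⁻¹ ^ N := by
  let _ : Invertible J := invertibleOfNonzero hJ
  have h := Polynomial.eval₂_reflect_mul_pow (Int.castRingHom F) J N c hc
  rw [invOf_eq_inv] at h
  show Polynomial.eval₂ (Int.castRingHom F) J⁻¹ (reflect N c) =
    Polynomial.eval₂ (Int.castRingHom F) J c * J⁻¹ ^ N
  rw [← h, mul_assoc, ← mul_pow, mul_inv_cancel₀ hJ, one_pow, mul_one]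

/-- `Ψ(e, 1/J) = 0` for `e = Jp / J ^ p`. -/
theorem wpdPsi_eval {F : Type*} [Field F] {p : ℕ} (Φ : Polynomial (Polynomial ℤ))
    (hdeg : Φ.natDegree = p + 1)
    (hc : ∀ a, a ≤ p + 1 → (Φ.coeff a).natDegree ≤ p * (p + 1 - a))
    {J Jp : F} (hJ : J ≠ 0) (h : Φ.eval₂ (evalInt J) Jp = 0) :
    (wpdPsi p Φ).eval₂ (evalInt J⁻¹) (Jp * J⁻¹ ^ p) = 0 := by
  rw [Polynomial.eval₂_eq_sum_range, hdeg] at h
  rw [wpdPsi, Polynomial.eval₂_finsetSum]
  have hterm : ∀ a ∈ Finset.range (p + 2),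
      Polynomial.eval₂ (evalInt J⁻¹) (Jp * J⁻¹ ^ p)
        (C (reflect (p * (p + 1 - a)) (Φ.coeff a)) * X ^ a) =
      J⁻¹ ^ (p * (p + 1)) * (evalInt J (Φ.coeff a) * Jp ^ a) := by
    intro a ha
    have ha' : a ≤ p + 1 := Nat.le_of_lt_succ (Finset.mem_range.mp ha)
    rw [Polynomial.eval₂_mul, Polynomial.eval₂_C, Polynomial.eval₂_pow, Polynomial.eval₂_X,
      wpd_evalInt_reflect hJ _ _ (hc a ha'), mul_pow, ← pow_mul]
    have hN : p * (p + 1) = p * (p + 1 - a) + p * a := by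
      rw [← Nat.mul_add, Nat.sub_add_cancel ha']
    rw [hN, pow_add]
    ring
  rw [Finset.sum_congr rfl hterm, ← Finset.mul_sum, h, mul_zero]

/-- **`e = Jp / J ^ p` is a root of a monic polynomial over `ℤ[1 / J]`.** -/
theorem wpd_e_evalInt (p : ℕ) [NeZero p] (hp : p.Prime) {F : Type*} [Field F] {J Jp : F}
    (hJ : J ≠ 0) (h : (nodesSwapPhi p hp).eval₂ (evalInt J) Jp = 0) :
    ∃ Ψ : Polynomial (Polynomial ℤ), Ψ.Monic ∧ Ψ.eval₂ (evalInt J⁻¹) (Jp * J⁻¹ ^ p) = 0 :=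
  ⟨wpdPsi p (nodesSwapPhi p hp),
    wpdPsi_monic p _ (nodesSwapPhi_monic p hp) (nodesSwapPhi_natDegree p hp),
    wpdPsi_eval _ (nodesSwapPhi_natDegree p hp) (fun _ ha => wpd_deg_le p hp ha) hJ h⟩

/-- abstract form: integrality of `Jp / J ^ p` over `A[1 / J]` from `Φ(Jp, J) = 0` -/
theorem wpd_e_integral_of_eval (p : ℕ) [NeZero p] (hp : p.Prime) {A F : Type*} [CommRing A]
    [Field F] [Algebra A F] {J Jp : F} (hJ : J ≠ 0)
    (h : (nodesSwapPhi p hp).eval₂ (evalInt J) Jp = 0) :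
    IsIntegral (Algebra.adjoin A {J⁻¹}) (Jp * J⁻¹ ^ p) := by
  obtain ⟨Ψ, hΨ, hev⟩ := wpd_e_evalInt p hp hJ h
  exact nodesSwap_isIntegral_of_evalInt hΨ hev

variable (p : ℕ) [NeZero p] (E : Type*) [Field E] (M : ℕ) [NeZero M] [NeZero (M * p)]

theorem wpd_J_ne_zero : nodesFrobJ E M p ≠ 0 := by
  intro h
  have h1 := congrArg Subtype.val h
  exact Fermat.Agent.S28.jqModC_ne_zero E h1

/-- **T5f-Φ**: `e = Jp · (J⁻¹) ^ p` is integral over `A[J⁻¹]` in `F_{Mp}(E)`. -/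
theorem wpd_e_integral (hp : p.Prime) {A : Type*} [CommRing A]
    [Algebra A ↥(modularFunctionFieldFullC E (M * p))] :
    IsIntegral (Algebra.adjoin A {(nodesFrobJ E M p)⁻¹})
      (nodesFrobJq E M p * (nodesFrobJ E M p)⁻¹ ^ p) :=
  wpd_e_integral_of_eval p hp (wpd_J_ne_zero p E M) (nodesSwapPhi_eval p hp E M)

end Integral

end Fermat.Agent.S33
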