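import Fermat.Agent.S33.OfNTS
import Fermat.Agent.S33.PlanKey
import Fermat.Agent.ES.FaithOfInputs
import Fermat.Agent.ES.TorsionUnifProved
import Fermat.Agent.INJ.InjAll
import Fermat.Agent.Cheb.Final

/-!
# S33, route v2, block C5: the final assembly

`s33_of_key` : `StmtKeyGood` (B4) and `StmtWildT` (C3 + C4) give the frozen statement S33.

* `exists_cyclo_exp` : every `σ ∈ G_ℚ` acts on `μ_p` through `ζ ↦ ζ ^ a`;
* `nts_c2New_of_wild` : `StmtWildT` ⇒ `NTS` of the new part of exponent `p` (`nts_of_scalar`,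
  with `σ₀ ∈ I` acting on `μ_p` by inversion, `S33.exists_inertia_inv_root`; `p` odd);
* `keyAt_mul_of` : (KEY) at level `M p` (`c2_key_of_new`, helper92);
* `s33Pkg_of_keyAt` : the package `S33Pkg N p` for the module `PDiv N p` of the Eichler–Shimura
  package (`c2_pDiv_of_jZero`);
* `s33_of_key` : the frozen statement.
-/

set_option autoImplicit false
set_option linter.unusedSectionVars false
set_option linter.style.haveILetI false

namespace Fermat.Agent.S33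

open ModularCurve Fermat.Agent.ES Fermat.Agent.S31

/-- every `σ ∈ G_ℚ` acts on the `p`-th roots of unity by `ζ ↦ ζ ^ a` -/
theorem exists_cyclo_exp {p : ℕ} (hp : p.Prime) (σ : GQ) :
    ∃ a : ℕ, ∀ ζ : AlgebraicClosure ℚ, ζ ^ p = 1 → σ ζ = ζ ^ a := by
  have : NeZero p := ⟨hp.ne_zero⟩
  have : NeZero ((p : ℕ) : AlgebraicClosure ℚ) := ⟨Nat.cast_ne_zero.mpr hp.ne_zero⟩
  obtain ⟨ζ₀, hζ₀⟩ := HasEnoughRootsOfUnity.exists_primitiveRoot (AlgebraicClosure ℚ) p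
  have h1 : (σ ζ₀) ^ p = 1 := by rw [← map_pow, hζ₀.pow_eq_one, map_one]
  obtain ⟨a, -, ha⟩ := hζ₀.eq_pow_of_pow_eq_one h1
  refine ⟨a, fun ζ hζ => ?_⟩
  obtain ⟨k, -, hk⟩ := hζ₀.eq_pow_of_pow_eq_one hζ
  rw [← hk, map_pow, ← ha, ← pow_mul, ← pow_mul, mul_comm]

/-- **`NTS` of the new part of exponent `p`** from (C3) + (C4). -/
theorem nts_c2New_of_wild (hwild : StmtWildT) (M p : ℕ) [NeZero M] [NeZero p] (hp : p.Prime)
    (hp2 : p ≠ 2) (hpM : ¬ p ∣ M) (P : ValuationSubring (AlgebraicClosure ℚ))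
    (hP : P.LiesOverPrime p) (n : ℕ) :
    NTS (P.inertiaSubgroupIn ℚ) (jAct (M * p)) (c2New M p (P.inertiaSubgroupIn ℚ) n) := by
  classical
  -- the exponents
  choose ω hω using fun σ : GQ => exists_cyclo_exp hp σ
  obtain ⟨σ₀, hσ₀, hinv⟩ := exists_inertia_inv_root hp P hP
  -- `ω σ₀ ≡ -1 mod p`
  have : NeZero ((p : ℕ) : AlgebraicClosure ℚ) := ⟨Nat.cast_ne_zero.mpr hp.ne_zero⟩
  obtain ⟨ζ₀, hζ₀⟩ := HasEnoughRootsOfUnity.exists_primitiveRoot (AlgebraicClosure ℚ) p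
  have h1 : ζ₀ ^ (ω σ₀ + 1) = 1 := by
    have := hω σ₀ ζ₀ hζ₀.pow_eq_one
    rw [hinv ζ₀ hζ₀.pow_eq_one] at this
    rw [pow_succ, ← this]
    exact inv_mul_cancel₀ (hζ₀.ne_zero hp.ne_zero)
  have h2 : p ∣ ω σ₀ + 1 := (hζ₀.pow_eq_one_iff_dvd _).mp h1
  -- `ω σ₀ - 1` is prime to `p`
  have hcop : IsCoprime ((ω σ₀ : ℤ) - 1) (p : ℤ) := by
    have hpz : Prime (p : ℤ) := Nat.prime_iff_prime_int.mp hp
    rw [isCoprime_comm]
    refine (Prime.coprime_iff_not_dvd hpz).mpr ?_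
    intro hdvd
    have h3 : (p : ℤ) ∣ (ω σ₀ : ℤ) + 1 := by exact_mod_cast h2
    have h4 : (p : ℤ) ∣ 2 := by
      have := dvd_sub h3 hdvd
      have e : ((ω σ₀ : ℤ) + 1) - ((ω σ₀ : ℤ) - 1) = 2 := by ring
      rwa [e] at this
    have h5 : p ∣ 2 := by exact_mod_cast h4
    exact hp2 ((Nat.prime_dvd_prime_iff_eq hp Nat.prime_two).mp h5)
  obtain ⟨c, d, hcd⟩ := hcop
  refine nts_of_scalar (fun σ => (ω σ : ℤ)) ?_ hσ₀ c ?_
  · intro σ hσ z hz
    rw [natCast_zsmul]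
    exact hwild M p hp hp2 hpM P hP σ hσ (ω σ) (hω σ) n z hz
  · intro z hz
    have hz' : p • z = 0 := ((c2_mem_new_iff M p _ n z).1 hz).2.2.2
    have e : ((ω σ₀ : ℤ) - 1) * c = 1 - d * (p : ℤ) := by linear_combination hcd
    rw [e, sub_smul, one_smul, mul_smul, natCast_zsmul, hz', smul_zero, sub_zero]

/-- **(KEY) at level `M p`** from (KEY) at level `M` and (C3) + (C4). -/
theorem keyAt_mul_of (hgood : StmtKeyGood) (hwild : StmtWildT) (M p : ℕ) [NeZero M] [NeZero p]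
    (hp : p.Prime) (hp2 : p ≠ 2) (hpM : ¬ p ∣ M) (P : ValuationSubring (AlgebraicClosure ℚ))
    (hP : P.LiesOverPrime p) : KeyAt (M * p) p P :=
  fun n => c2_key_of_new M p (P.inertiaSubgroupIn ℚ) (hgood M p hp hp2 hpM P hP)
    (fun n => nts_c2New_of_wild hwild M p hp hp2 hpM P hP n) n

/-- (KEY) at every level exactly divisible by `p` -/
theorem keyAt_of (hgood : StmtKeyGood) (hwild : StmtWildT) (N p : ℕ) [NeZero N]
    (hp : p.Prime) (hp2 : p ≠ 2) (hN : p ∣ N ∧ ¬ p ^ 2 ∣ N)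
    (P : ValuationSubring (AlgebraicClosure ℚ)) (hP : P.LiesOverPrime p) : KeyAt N p P := by
  obtain ⟨M, hM⟩ := hN.1
  have hM' : N = M * p := by rw [hM, mul_comm]
  have hM0 : M ≠ 0 := by
    rintro rfl
    rw [zero_mul] at hM'
    exact NeZero.ne N hM'
  haveI : NeZero M := ⟨hM0⟩
  haveI : NeZero p := ⟨hp.ne_zero⟩
  have hpM : ¬ p ∣ M := by
    rintro ⟨k, hk⟩
    apply hN.2
    rw [hM, hk, ← mul_assoc, ← pow_two]
    exact dvd_mul_right _ _
  subst hM'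
  exact keyAt_mul_of hgood hwild M p hp hp2 hpM P hP

/-- **the package of S33** for the module `PDiv N p` of the Eichler–Shimura package. -/
theorem s33Pkg_of_keyAt (hINJ : Fermat.Agent.INJ.StmtINJAll) {N p : ℕ} [NeZero N]
    (hp : p.Prime) (hUT : TorsionUnif N p)
    (hkey : ∀ P : ValuationSubring (AlgebraicClosure ℚ), P.LiesOverPrime p → KeyAt N p P) :
    S33Pkg N p := by
  haveI : Fact p.Prime := ⟨hp⟩
  obtain ⟨μ, h⟩ := hUT
  have hp0 : p ≠ 0 := hp.ne_zero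
  have hm := multData_of_torsionUnifData hp0 h
  refine ⟨PDiv N p, inferInstance, pDivModule N p, pDivGalois N p,
    hm.esDataInf (stmtFiniteLevel N p hp0) (G2.stmtFrob_of_stmtINJAll hINJ N p)
      (G2.stmtUnram_of_stmtINJAll hINJ N p), hm.esFaith hp0, ?_⟩
  intro P hP n
  letI := pDivModule N p
  letI := pDivGalois N p
  have h1 := c2_pDiv_of_jZero N p (P.inertiaSubgroupIn ℚ) n (hkey P hP n)
  -- pass to the subtype `tors (PDiv N p) p n`
  let j : ↥(Fermat.Agent.S32.tors (PDiv N p) p n) →+ PDiv N p :=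
    (Fermat.Agent.S32.tors (PDiv N p) p n).subtype.toAddMonoidHom
  have hj : Function.Injective j := Subtype.val_injective
  have hjeq : ∀ σ ∈ P.inertiaSubgroupIn ℚ, ∀ c : ↥(Fermat.Agent.S32.tors (PDiv N p) p n),
      j (Fermat.Agent.S32.torsAction (PDiv N p) p n σ c) = pAct N p σ (j c) := fun _ _ _ => rfl
  have hst : ntsStable (P.inertiaSubgroupIn ℚ) (Fermat.Agent.S32.torsAction (PDiv N p) p n)
      (⊤ : AddSubgroup ↥(Fermat.Agent.S32.tors (PDiv N p) p n)) :=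
    fun _ _ _ _ => AddSubgroup.mem_top _
  refine NTS.comap_of_injective (actF := Fermat.Agent.S32.torsAction (PDiv N p) p n)
    (actX := pAct N p) j hj hjeq h1 (ntsStable_ntsSpan_of_stable hst) ?_
  refine (map_ntsSpan_le (actF := Fermat.Agent.S32.torsAction (PDiv N p) p n)
    (actX := pAct N p) j hjeq ⊤).trans (ntsSpan_mono ?_)
  rintro _ ⟨t, -, rfl⟩
  exact t.2

variable {p : ℕ} {N : ℕ} [NeZero N] {S : Finset ℕ}
  {𝒪 : Type} [CommRing 𝒪] [IsDomain 𝒪] [IsDiscreteValuationRing 𝒪]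
  [IsAdicComplete (IsLocalRing.maximalIdeal 𝒪) 𝒪]
  {θ : CuspForm.heckeAlgebra N 2 (↑S : Set ℕ) →+* IsLocalRing.ResidueField 𝒪}
  {T : Type} [CommRing T] [IsLocalRing T] [IsNoetherianRing T]
  [IsAdicComplete (IsLocalRing.maximalIdeal T) T] [Algebra 𝒪 T] [IsLocalHom (algebraMap 𝒪 T)]
  [Module.Finite 𝒪 T] [Module.Free 𝒪 T]

/-- **S33 from (KEY)**: the frozen statement S33 from `StmtKeyGood` (B4) and `StmtWildT`
(C3 + C4). -/
theorem s33_of_key (hgood : StmtKeyGood) (hwild : StmtWildT)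
    [Finite (IsLocalRing.ResidueField 𝒪)] [CharZero 𝒪]
    (hp : p.Prime) (hp2 : p ≠ 2) (hp𝒪 : (p : 𝒪) ∈ IsLocalRing.maximalIdeal 𝒪)
    (hN : p ∣ N ∧ ¬ p ^ 2 ∣ N)
    (hNS : ∀ q : ℕ, q.Prime → q ∣ N → q ∈ S)
    (H : CuspForm.HeckeGaloisRepDatum N (↑S : Set ℕ) 𝒪 θ T)
    (hres : (GaloisRepAdic.ofResidualGaloisRep H.ρ.residual).IsOrdinaryAt p) :
    H.ρ.IsOrdinaryAt p :=
  s33_isOrdinaryAt_of_pkg Fermat.Agent.Cheb.weakChebotarev_holds
    (s33Pkg_of_keyAt Fermat.Agent.INJ.injAll_stmtINJAll hp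
      (torsionUnif_proved N p hp.pos)
      (fun P hP => keyAt_of hgood hwild N p hp hp2 hN P hP))
    hp hp2 hp𝒪 (hNS p hp hN.1) hNS H hres

end Fermat.Agent.S33
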