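import Fermat.Agent.S33.NewRed
import Fermat.Agent.STB.PushGalois

/-!
# S33 v2, piece C2: `α_*`, `β_* : J₀(Mp)[pⁿ] → J₀(M)[pⁿ]` and the reduction of (KEY) to the
`p`-new part of exponent `p` (helper92)

`jAct M σ x = σ • x` is the Galois action on `J₀(M)(ℚ̄) = JZero M` as a plain map (the shape of
`S33/NTS.lean`), `I ≤ G_ℚ` any subgroup, `𝔄 T = ntsSpan I (jAct M) T`, `X[n] = ntsTors X n`.

* `c2_alpha_equivariant`, `c2_beta_equivariant` : `α_*`, `β_*` (`STB.stbPushAlpha`,
  `STB.stbPushBeta`; Kummer form `STB.stb_kummerRel_pushAlpha/Beta` = norm along `α`, `β`)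
  commute with `jAct`;
* `c2New M p n` : `𝔄 J₀(Mp)[pⁿ] ⊓ ker α_* ⊓ ker β_* ⊓ J₀(Mp)[p]`, the new part of exponent `p`;
* `c2_key_of_new` : `(∀ n, NTS (𝔄 J₀(M)[pⁿ])) → (∀ n, NTS (c2New M p n)) → ∀ n, NTS (𝔄 J₀(Mp)[pⁿ])`;
* `c2_pDiv_of_jZero` : transport to the `p`-divisible torsion `PDiv N p` (action `pDivGalois`);
* `c2_mem_new_iff`, `c2_kummer_of_mem_new` : a class of `c2New` has a Kummer function `u`
  (`p · D = div u`) whose norms along `α` and `β` are `p`-th powers up to constants, i.e. are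
  Kummer functions of `0`.
-/

set_option autoImplicit false
set_option linter.style.haveILetI false
set_option linter.unusedSectionVars false

noncomputable section

namespace Fermat.Agent.S33

open AlgebraicCurve ModularCurve Fermat.Agent.ES Fermat.Agent.STB

/-- the Galois action on `J₀(M)(ℚ̄)` as a plain map -/
def jAct (M : ℕ) [NeZero M] : GQ → JZero M → JZero M := fun σ x => σ • x

theorem jAct_apply (M : ℕ) [NeZero M] (σ : GQ) (x : JZero M) : jAct M σ x = σ • x := rfl

theorem jAct_add (M : ℕ) [NeZero M] (σ : GQ) (x y : JZero M) :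
    jAct M σ (x + y) = jAct M σ x + jAct M σ y := smul_add σ x y

theorem jAct_zero (M : ℕ) [NeZero M] (σ : GQ) : jAct M σ 0 = 0 := by
  show σ • (0 : JZero M) = 0
  exact smul_zero (A := JZero M) σ

theorem jAct_nsmul (M : ℕ) [NeZero M] (σ : GQ) (k : ℕ) (x : JZero M) :
    jAct M σ (k • x) = k • jAct M σ x :=
  map_nsmul (DistribSMul.toAddMonoidHom (JZero M) σ) k x

/-- the Galois action on `PDiv M p` as a plain map -/
def pAct (M p : ℕ) [NeZero M] : GQ → PDiv M p → PDiv M p :=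
  fun σ x => (letI := pDivGalois M p; σ • x)

theorem pAct_coe (M p : ℕ) [NeZero M] (σ : GQ) (x : PDiv M p) :
    ((pAct M p σ x : PDiv M p) : JZero M) = jAct M σ (x : JZero M) := rfl

section

variable (M p : ℕ) [NeZero M] [NeZero p]

theorem c2_alpha_equivariant (σ : GQ) (x : JZero (M * p)) :
    stbPushAlpha M p (jAct (M * p) σ x) = jAct M σ (stbPushAlpha M p x) :=
  stbPushAlpha_galois M p σ x

theorem c2_beta_equivariant (σ : GQ) (x : JZero (M * p)) :
    stbPushBeta M p (jAct (M * p) σ x) = jAct M σ (stbPushBeta M p x) :=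
  stbPushBeta_galois M p σ x

/-- the new part of exponent `p` of the inertia span of `J₀(Mp)[pⁿ]` -/
def c2New (I : Subgroup GQ) (n : ℕ) : AddSubgroup (JZero (M * p)) :=
  ntsSpan I (jAct (M * p)) (ntsTors (JZero (M * p)) (p ^ n)) ⊓ (stbPushAlpha M p).ker
    ⊓ (stbPushBeta M p).ker ⊓ ntsTors (JZero (M * p)) p

theorem c2_mem_new_iff (I : Subgroup GQ) (n : ℕ) (x : JZero (M * p)) :
    x ∈ c2New M p I n ↔
      x ∈ ntsSpan I (jAct (M * p)) (ntsTors (JZero (M * p)) (p ^ n)) ∧
        stbPushAlpha M p x = 0 ∧ stbPushBeta M p x = 0 ∧ p • x = 0 := by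
  constructor
  · rintro ⟨⟨⟨h1, h2⟩, h3⟩, h4⟩
    exact ⟨h1, h2, h3, h4⟩
  · rintro ⟨h1, h2, h3, h4⟩
    exact ⟨⟨⟨h1, h2⟩, h3⟩, h4⟩

/-- **(KEY) at level `Mp` from (KEY) at level `M` and `NTS` of the new part of exponent `p`.** -/
theorem c2_key_of_new (I : Subgroup GQ)
    (hold : ∀ n, NTS I (jAct M) (ntsSpan I (jAct M) (ntsTors (JZero M) (p ^ n))))
    (hnew : ∀ n, NTS I (jAct (M * p)) (c2New M p I n)) (n : ℕ) :
    NTS I (jAct (M * p)) (ntsSpan I (jAct (M * p)) (ntsTors (JZero (M * p)) (p ^ n))) :=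
  nts_key_of_new p (stbPushAlpha M p) (stbPushBeta M p)
    (fun σ _ c => c2_alpha_equivariant M p σ c) (fun σ _ c => c2_beta_equivariant M p σ c)
    (fun σ _ x y => jAct_add (M * p) σ x y) (fun σ _ => jAct_zero M σ) hold hnew n

/-- a class of the new part has a Kummer function whose norms along `α` and `β` are Kummer
functions of `0` (so `p`-th powers up to constants) -/
theorem c2_kummer_of_mem_new (I : Subgroup GQ) (n : ℕ) {x : JZero (M * p)}
    (hx : x ∈ c2New M p I n) :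
    ∃ u : modularFunctionFieldBar (M * p), KummerRel p x u ∧
      KummerRel p (0 : JZero M) (stbNorm (heckeAlphaBar (AlgebraicClosure ℚ) M p).toRingHom u) ∧
      KummerRel p (0 : JZero M) (stbNorm (heckeBetaBar (AlgebraicClosure ℚ) M p).toRingHom u) := by
  obtain ⟨_, h2, h3, h4⟩ := (c2_mem_new_iff M p I n x).1 hx
  obtain ⟨u, hu⟩ := exists_kummerRel (n := p) h4
  refine ⟨u, hu, ?_, ?_⟩
  · have := stb_kummerRel_pushAlpha M p hu
    rwa [h2] at this
  · have := stb_kummerRel_pushBeta M p hu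
    rwa [h3] at this

end

/-- transport of (KEY) from `J₀(N)(ℚ̄)` to the `p`-divisible torsion `PDiv N p` -/
theorem c2_pDiv_of_jZero (N p : ℕ) [NeZero N] (I : Subgroup GQ) (n : ℕ)
    (h : NTS I (jAct N) (ntsSpan I (jAct N) (ntsTors (JZero N) (p ^ n)))) :
    NTS I (pAct N p) (ntsSpan I (pAct N p) (ntsTors (PDiv N p) (p ^ n))) := by
  have hst : ntsStable I (pAct N p) (ntsTors (PDiv N p) (p ^ n)) := by
    intro σ _ x hx
    have hx' : p ^ n • x = 0 := hx
    show p ^ n • pAct N p σ x = 0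
    apply Subtype.ext
    rw [coe_nsmul_pDiv, pAct_coe, ← jAct_nsmul, ← coe_nsmul_pDiv, hx']
    exact jAct_zero N σ
  have heq : ∀ σ ∈ I, ∀ c : PDiv N p,
      (AddSubgroup.subtype (pDivTors p (JZero N))) (pAct N p σ c)
        = jAct N σ ((AddSubgroup.subtype (pDivTors p (JZero N))) c) := fun σ _ c => rfl
  refine NTS.comap_of_injective (actF := pAct N p) (actX := jAct N)
    (AddSubgroup.subtype (pDivTors p (JZero N))) Subtype.val_injective heq h
    (ntsStable_ntsSpan_of_stable hst) ?_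
  exact (map_ntsSpan_le (actF := pAct N p) (actX := jAct N)
    (AddSubgroup.subtype (pDivTors p (JZero N))) heq _).trans
    (ntsSpan_mono (ntsTors_map_le _ _))

end Fermat.Agent.S33
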