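import Mathlib

/-!
# S33, route v2, block A1: modules without trivial sub-quotients (`NTS`)

`G` a group, `I ≤ G` a subgroup ("inertia"), `act : G → X → X` a plain map on an additive group
(no axioms are asked; they are hypotheses of the lemmas that need them).

* `ntsSpan I act B` : the subgroup generated by `σ b − b`, `σ ∈ I`, `b ∈ B` (the "inertia span").
* `ntsStable I act B` : `B` is stable under `I`.
* `NTS I act Z` : every `I`-stable subgroup `B ≤ Z` is equal to its own inertia span, i.e. no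
  `I`-stable subgroup of `Z` has a nonzero quotient with trivial action ("no trivial
  sub-quotient").

Permanence: `NTS.mono` (subgroups), `nts_transfer` (correspondences `X ←Ψ– F –Θ→ Y` with
`ker Ψ ≤ ker Θ`), `NTS.map` (equivariant images), `NTS.comap_of_injective`, `NTS.of_ext`
(extensions), `NTS.pi` (finite products).
-/

set_option autoImplicit false

namespace Fermat.Agent.S33

variable {G : Type*} [Group G]

section defs

variable {X : Type*} [AddCommGroup X]

/-- the subgroup generated by `σ b − b`, `σ ∈ I`, `b ∈ B` -/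
def ntsSpan (I : Subgroup G) (act : G → X → X) (B : AddSubgroup X) : AddSubgroup X :=
  AddSubgroup.closure {w | ∃ σ ∈ I, ∃ b ∈ B, w = act σ b - b}

/-- `B` is stable under `I` -/
def ntsStable (I : Subgroup G) (act : G → X → X) (B : AddSubgroup X) : Prop :=
  ∀ σ ∈ I, ∀ b ∈ B, act σ b ∈ B

/-- **no trivial sub-quotient**: every `I`-stable subgroup of `Z` is its own inertia span -/
def NTS (I : Subgroup G) (act : G → X → X) (Z : AddSubgroup X) : Prop :=
  ∀ B : AddSubgroup X, B ≤ Z → ntsStable I act B → B ≤ ntsSpan I act B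

variable {I : Subgroup G} {act : G → X → X}

theorem sub_mem_ntsSpan {B : AddSubgroup X} {σ : G} (hσ : σ ∈ I) {b : X} (hb : b ∈ B) :
    act σ b - b ∈ ntsSpan I act B :=
  AddSubgroup.subset_closure ⟨σ, hσ, b, hb, rfl⟩

theorem ntsSpan_mono {B B' : AddSubgroup X} (h : B ≤ B') : ntsSpan I act B ≤ ntsSpan I act B' := by
  refine AddSubgroup.closure_mono ?_
  rintro w ⟨σ, hσ, b, hb, rfl⟩
  exact ⟨σ, hσ, b, h hb, rfl⟩

theorem ntsSpan_le_of_stable {B : AddSubgroup X} (h : ntsStable I act B) :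
    ntsSpan I act B ≤ B := by
  rw [ntsSpan, AddSubgroup.closure_le]
  rintro w ⟨σ, hσ, b, hb, rfl⟩
  exact B.sub_mem (h σ hσ b hb) hb

theorem NTS.mono {Z Z' : AddSubgroup X} (h : NTS I act Z) (hZ : Z' ≤ Z) : NTS I act Z' :=
  fun B hB hst => h B (hB.trans hZ) hst

theorem nts_bot : NTS I act (⊥ : AddSubgroup X) := by
  intro B hB _ b hb
  have : b = 0 := by simpa using hB hb
  rw [this]
  exact AddSubgroup.zero_mem _

end defs

section transfer

variable {F X Y : Type*} [AddCommGroup F] [AddCommGroup X] [AddCommGroup Y]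
  {I : Subgroup G} {actF : G → F → F} {actX : G → X → X} {actY : G → Y → Y}

/-- image of an inertia span -/
theorem ntsSpan_map_le (f : F →+ X) (hf : ∀ σ ∈ I, ∀ c, f (actF σ c) = actX σ (f c))
    (C : AddSubgroup F) : ntsSpan I actX (C.map f) ≤ (ntsSpan I actF C).map f := by
  rw [ntsSpan, AddSubgroup.closure_le]
  rintro w ⟨σ, hσ, b, hb, rfl⟩
  obtain ⟨c, hc, rfl⟩ := hb
  refine ⟨actF σ c - c, sub_mem_ntsSpan hσ hc, ?_⟩
  rw [map_sub, hf σ hσ]

theorem map_ntsSpan_le (f : F →+ X) (hf : ∀ σ ∈ I, ∀ c, f (actF σ c) = actX σ (f c))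
    (C : AddSubgroup F) : (ntsSpan I actF C).map f ≤ ntsSpan I actX (C.map f) := by
  rw [AddSubgroup.map_le_iff_le_comap, ntsSpan, AddSubgroup.closure_le]
  rintro w ⟨σ, hσ, c, hc, rfl⟩
  change f (actF σ c - c) ∈ ntsSpan I actX (C.map f)
  rw [map_sub, hf σ hσ]
  exact sub_mem_ntsSpan hσ ⟨c, hc, rfl⟩

/-- **Transfer along a correspondence.**  `Ψ : F → X`, `Θ : F → Y` equivariant with
`ker Ψ ≤ ker Θ`, `W ≤ F` stable with `Ψ W ≤ Z`: then `NTS Z` implies `NTS (Θ W)`. -/
theorem nts_transfer (Ψ : F →+ X) (Θ : F →+ Y)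
    (hΨ : ∀ σ ∈ I, ∀ c, Ψ (actF σ c) = actX σ (Ψ c))
    (hΘ : ∀ σ ∈ I, ∀ c, Θ (actF σ c) = actY σ (Θ c))
    (hker : ∀ c, Ψ c = 0 → Θ c = 0)
    {Z : AddSubgroup X} (hZ : NTS I actX Z) {W : AddSubgroup F} (hW : ntsStable I actF W)
    (hWZ : W.map Ψ ≤ Z) : NTS I actY (W.map Θ) := by
  intro B' hB' hst b' hb'
  set C : AddSubgroup F := W ⊓ B'.comap Θ with hC
  have hCst : ntsStable I actF C := by
    intro σ hσ c hc
    refine ⟨hW σ hσ c hc.1, ?_⟩
    change Θ (actF σ c) ∈ B'
    rw [hΘ σ hσ]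
    exact hst σ hσ _ hc.2
  have hBZ : C.map Ψ ≤ Z := (AddSubgroup.map_mono inf_le_left).trans hWZ
  have hBst : ntsStable I actX (C.map Ψ) := by
    rintro σ hσ _ ⟨c, hc, rfl⟩
    exact ⟨actF σ c, hCst σ hσ c hc, hΨ σ hσ c⟩
  have h1 := hZ (C.map Ψ) hBZ hBst
  obtain ⟨c, hcW, rfl⟩ := hB' hb'
  have hcC : c ∈ C := ⟨hcW, hb'⟩
  have h2 : Ψ c ∈ (ntsSpan I actF C).map Ψ := ntsSpan_map_le Ψ hΨ C (h1 ⟨c, hcC, rfl⟩)
  obtain ⟨c₁, hc₁, hc₁c⟩ := h2
  have h3 : Θ c = Θ c₁ := by
    have : Ψ (c - c₁) = 0 := by rw [map_sub, hc₁c, sub_self]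
    have := hker _ this
    rw [map_sub, sub_eq_zero] at this
    exact this
  change Θ c ∈ ntsSpan I actY B'
  rw [h3]
  have h4 : Θ c₁ ∈ ntsSpan I actY (C.map Θ) := map_ntsSpan_le Θ hΘ C ⟨c₁, hc₁, rfl⟩
  refine ntsSpan_mono ?_ h4
  rintro _ ⟨c', hc', rfl⟩
  exact hc'.2

/-- equivariant images -/
theorem NTS.map (f : X →+ Y) (hf : ∀ σ ∈ I, ∀ c, f (actX σ c) = actY σ (f c))
    {Z : AddSubgroup X} (hZ : NTS I actX Z) (hst : ntsStable I actX Z) :
    NTS I actY (Z.map f) :=
  nts_transfer (actF := actX) (actX := actX) (AddMonoidHom.id X) f (fun _ _ _ => rfl) hf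
    (fun c hc => by
    have : c = 0 := hc
    rw [this, map_zero]) hZ hst (by rw [AddSubgroup.map_id])

/-- pull-back along an injective equivariant map -/
theorem NTS.comap_of_injective (j : F →+ X) (hj : Function.Injective j)
    (hjeq : ∀ σ ∈ I, ∀ c, j (actF σ c) = actX σ (j c))
    {Z : AddSubgroup X} (hZ : NTS I actX Z) {W : AddSubgroup F} (hW : ntsStable I actF W)
    (hWZ : W.map j ≤ Z) : NTS I actF W := by
  have h := nts_transfer (actY := actF) j (AddMonoidHom.id F) hjeq (fun _ _ _ => rfl)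
    (fun c hc => by
      have : c = 0 := hj (by rw [hc, map_zero])
      rw [this, map_zero]) hZ hW hWZ
  rwa [AddSubgroup.map_id] at h

/-- **extensions** -/
theorem NTS.of_ext (f : X →+ Y) (hf : ∀ σ ∈ I, ∀ c, f (actX σ c) = actY σ (f c))
    (h0 : ∀ σ ∈ I, actY σ 0 = 0) {Z : AddSubgroup X}
    (h1 : NTS I actY (Z.map f)) (h2 : NTS I actX (Z ⊓ f.ker)) : NTS I actX Z := by
  intro B hB hst b hb
  have hB'st : ntsStable I actY (B.map f) := by
    rintro σ hσ _ ⟨c, hc, rfl⟩
    exact ⟨actX σ c, hst σ hσ c hc, hf σ hσ c⟩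
  have h3 := h1 (B.map f) (AddSubgroup.map_mono hB) hB'st ⟨b, hb, rfl⟩
  obtain ⟨w, hw, hwb⟩ := ntsSpan_map_le f hf B h3
  have hwB : w ∈ B := ntsSpan_le_of_stable hst hw
  set B₁ : AddSubgroup X := B ⊓ f.ker with hB₁
  have hB₁st : ntsStable I actX B₁ := by
    intro σ hσ c hc
    refine ⟨hst σ hσ c hc.1, ?_⟩
    have hc0 : f c = 0 := hc.2
    change f (actX σ c) = 0
    rw [hf σ hσ, hc0, h0 σ hσ]
  have hmem : b - w ∈ B₁ := by
    refine ⟨B.sub_mem hb hwB, ?_⟩
    change f (b - w) = 0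
    rw [map_sub, hwb, sub_self]
  have h4 := h2 B₁ (inf_le_inf_right _ hB) hB₁st hmem
  have h5 : b - w ∈ ntsSpan I actX B := ntsSpan_mono inf_le_left h4
  have : b = (b - w) + w := by abel
  rw [this]
  exact AddSubgroup.add_mem _ h5 hw

end transfer

section pi

variable {X : Type*} [AddCommGroup X] {I : Subgroup G} {act : G → X → X}

/-- **finite products** -/
theorem NTS.pi {ι : Type*} [Finite ι] {Z : AddSubgroup X} (hZ : NTS I act Z)
    (h0 : ∀ σ ∈ I, act σ 0 = 0) :
    NTS I (fun σ (f : ι → X) i => act σ (f i)) (AddSubgroup.pi Set.univ fun _ : ι => Z) := by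
  classical
  have := Fintype.ofFinite ι
  -- the subgroup of functions with values in `Z` and support in `s`
  let Zs : Finset ι → AddSubgroup (ι → X) := fun s =>
    AddSubgroup.pi Set.univ fun i : ι => if i ∈ s then Z else ⊥
  have key : ∀ s : Finset ι, NTS I (fun σ (f : ι → X) i => act σ (f i)) (Zs s) := by
    intro s
    induction s using Finset.induction_on with
    | empty =>
      refine nts_bot.mono ?_
      intro f hf
      rw [AddSubgroup.mem_bot]
      funext i
      have := hf i (Set.mem_univ i)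
      simpa using this
    | insert a s ha ih =>
      refine NTS.of_ext (actY := act) (Pi.evalAddMonoidHom (fun _ : ι => X) a)
        (fun _ _ _ => rfl) h0 ?_ ?_
      · refine hZ.mono ?_
        rintro _ ⟨f, hf, rfl⟩
        have := hf a (Set.mem_univ a)
        simpa using this
      · refine ih.mono ?_
        rintro f ⟨hf, hfa⟩ i -
        have hi := hf i (Set.mem_univ i)
        by_cases his : i ∈ s
        · simp only [his, if_true]
          have : i ∈ insert a s := Finset.mem_insert_of_mem his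
          simpa [this] using hi
        · simp only [his, if_false]
          by_cases hia : i = a
          · subst hia
            exact hfa
          · have : i ∉ insert a s := by
              rw [Finset.mem_insert, not_or]
              exact ⟨hia, his⟩
            simpa [this] using hi
  have := key Finset.univ
  refine this.mono ?_
  intro f hf i _
  simpa using hf i (Set.mem_univ i)

end pi

end Fermat.Agent.S33
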