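import Fermat.Agent.S33.NTS
import Fermat.Agent.W1.PlanGL
import Fermat.Agent.W1.PlanAlg

/-!
# S33, route v2 — interface of the ALGEBRA pieces (block B "Raynaud-lite")

Plan: `NOTES/S33-v2.md`.  `Qb = ℚ̄`, `G_ℚ = Gal(ℚ̄/ℚ)`, `P ⊂ ℚ̄` a valuation ring over `p`,
`I_P = P.inertiaSubgroupIn ℚ`.

Block A (files `NTS.lean`, `Count.lean`, `Transfer.lean`, `OfNTS.lean`, helper33):
  S33 ⇐ `NTS I_P (𝔄 J[pⁿ])` for all `n`  (`𝔄 X = ntsSpan I_P act ⊤`, the inertia span).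

Block B (this file): `NTS I_P (𝔄 M)` for every finite `p`-group `M` with a Hopf order over
`ℤ_(p)` (`W1.IsHopfLattice`), `p` odd.  Pieces:

* **B1 `StmtSQLocQuot`** (SQ-loc): quotients of Hopf lattices over `(R, I)`, `R ⊂ ℚ̄` a PID whose
  fraction field is the fixed field of `I` — helper17's `W1.sq_quot` with `(ℤ_(p), ℚ, G_ℚ)`
  replaced by `(R, Frac R, I)`  (copy-adapt `W1/SubQuot{Basic,Lin,Quot}.lean`).
* **B2 `StmtRayLite`** (Raynaud-lite, finite differences): a family `ℱ` of `R`-valued functions on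
  an abelian group `Q`, closed under comultiplication, with `φ q ≡ φ 0 mod p` for all `φ ∈ ℱ`,
  takes the same value at `q` and at `0` when `p q = 0`, `p` odd.
  Proof. `D_i φ := Σ_k (-1)^{i-k} C(i,k) φ(k q)`; `D_i φ = Σ_j s_j D_{i-1}(α_j) D_1(β_j)`;
  `D_1 ∈ p^s R` (all `φ`) ⇒ `D_i ∈ p^{is} R`; Newton: `0 = Σ_{i=1}^p C(p,i) D_i φ` ⇒
  `p D_1 φ ∈ p^{min(1+2s, ps)} R` ⇒ `D_1 φ ∈ p^{s+1} R`; so `D_1 φ ∈ ⋂ p^s R = 0`.
* **B3 `StmtNTSOfLattice`**: assembly (connected part `M⁰ ⊇ 𝔄 M`, restriction to `B`, quotient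
  `B / 𝔄 B` by B1, values in `A₀ = P ∩ ℚ̄^{I_P}`, `𝔪_P ∩ A₀ = p A₀` (`UNIP.beta0_div_mem`), B2).
-/

set_option autoImplicit false

namespace Fermat.Agent.S33

open Fermat.Agent.W1

/-- `Gal(ℚ̄/ℚ)` -/
abbrev GQb : Type := AlgebraicClosure ℚ ≃ₐ[ℚ] AlgebraicClosure ℚ

/-- The `R`-subalgebra `H` of `M → ℚ̄` is a Hopf order for the action of the subgroup `I`
(`R ⊂ ℚ̄` a subring fixed by `I`).  Same fields as `W1.IsHopfLattice`, without antipode and
counit (not needed here). -/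
structure IsHopfLatticeOver (R : Subring (AlgebraicClosure ℚ)) (I : Subgroup GQb)
    {M : Type} [AddCommGroup M] (act : GQb → M → M)
    (H : Subalgebra R (M → AlgebraicClosure ℚ)) : Prop where
  fg : (Subalgebra.toSubmodule H).FG
  equivariant : ∀ h ∈ H, ∀ σ ∈ I, ∀ x : M, h (act σ x) = σ (h x)
  separates : ∀ x y : M, (∀ h ∈ H, h x = h y) → x = y
  comul_mem : ∀ h ∈ H, (fun xy : M × M => h (xy.1 + xy.2)) ∈
    Submodule.span R {F : M × M → AlgebraicClosure ℚ |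
      ∃ a ∈ H, ∃ b ∈ H, F = fun xy => a xy.1 * b xy.2}

/-- pull-back of functions along `π`, as an `R`-algebra homomorphism -/
noncomputable def pullFnOver (R : Subring (AlgebraicClosure ℚ)) {M M'' : Type} (π : M → M'') :
    (M'' → AlgebraicClosure ℚ) →ₐ[R] (M → AlgebraicClosure ℚ) :=
  AlgHom.pi (fun m => Pi.evalAlgHom R (fun _ : M'' => AlgebraicClosure ℚ) (π m))

@[simp] theorem pullFnOver_apply (R : Subring (AlgebraicClosure ℚ)) {M M'' : Type} (π : M → M'')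
    (φ : M'' → AlgebraicClosure ℚ) (m : M) : pullFnOver R π φ m = φ (π m) := rfl

/-- **B1 (SQ-loc).**  Quotients of Hopf lattices over `(R, I)`: `R` a PID fixed by `I`, every
`I`-fixed element of `ℚ̄` is a fraction of elements of `R`. -/
def StmtSQLocQuot : Prop :=
  ∀ (R : Subring (AlgebraicClosure ℚ)) (I : Subgroup GQb), IsPrincipalIdealRing R →
    (∀ r ∈ R, ∀ σ ∈ I, σ r = r) →
    (∀ x : AlgebraicClosure ℚ, (∀ σ ∈ I, σ x = x) → ∃ r ∈ R, ∃ s ∈ R, s ≠ 0 ∧ x * s = r) →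
    ∀ (M : Type) (_ : AddCommGroup M) (_ : Finite M) (act : GQb → M → M)
      (M'' : Type) (_ : AddCommGroup M'') (act'' : GQb → M'' → M'')
      (H : Subalgebra R (M → AlgebraicClosure ℚ)), IsHopfLatticeOver R I act H →
      ∀ π : M →+ M'', Function.Surjective π →
        (∀ σ ∈ I, ∀ m, π (act σ m) = act'' σ (π m)) →
        IsHopfLatticeOver R I act'' (H.comap (pullFnOver R π))

/-- **B2 (Raynaud-lite).**  `R ⊂ K` a subring of a field of characteristic zero which is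
`p`-adically separated, `p` an odd prime, `q` an element of order dividing `p` of an abelian
group `Q`, `ℱ` a set of `R`-valued functions on `Q` closed under comultiplication with
`φ q ≡ φ 0 mod p R` for all `φ ∈ ℱ`.  Then `φ q = φ 0` for all `φ ∈ ℱ`. -/
def StmtRayLite : Prop :=
  ∀ (K : Type) (_ : Field K) (_ : CharZero K) (R : Subring K) (p : ℕ), p.Prime → p ≠ 2 →
    (∀ x : K, (∀ s : ℕ, x / (p : K) ^ s ∈ R) → x = 0) →
    ∀ (Q : Type) (_ : AddCommGroup Q) (q : Q), p • q = 0 →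
    ∀ ℱ : Set (Q → K),
      (∀ φ ∈ ℱ, ∀ x, φ x ∈ R) →
      (∀ φ ∈ ℱ, (fun xy : Q × Q => φ (xy.1 + xy.2)) ∈
        Submodule.span R {F : Q × Q → K | ∃ a ∈ ℱ, ∃ b ∈ ℱ, F = fun xy => a xy.1 * b xy.2}) →
      (∀ φ ∈ ℱ, (φ q - φ 0) / (p : K) ∈ R) →
      ∀ φ ∈ ℱ, φ q = φ 0

/-- **B3.**  A finite `p`-group with a Hopf order over `ℤ_(p)` (`p` odd): its inertia span at a
place `P ∣ p` has no trivial sub-quotient. -/
def StmtNTSOfLattice : Prop :=
  ∀ (p : ℕ), p.Prime → p ≠ 2 →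
    ∀ P : ValuationSubring (AlgebraicClosure ℚ), P.LiesOverPrime p →
    ∀ (M : Type) (_ : AddCommGroup M) (_ : Finite M) (act : GQb → M → M), IsContAction act →
      (∃ m : ℕ, ∀ x : M, p ^ m • x = 0) →
      ∀ H : Subalgebra (GaloisRep.ratLocalizedAt p) (M → AlgebraicClosure ℚ),
        IsHopfLattice (GaloisRep.ratLocalizedAt p) act H →
        NTS (P.inertiaSubgroupIn ℚ) act (ntsSpan (P.inertiaSubgroupIn ℚ) act ⊤)

end Fermat.Agent.S33
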