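import Fermat.Agent.S33.Count
import Fermat.Agent.S33.Plan2
import Fermat.Agent.W1.SubQuot

/-!
# S33 v2, piece FO (helper15): flat + residually ordinary ⇒ ordinary

* `fo_isContAction` : the action of `G_ℚ` on `V / 𝔪ⁿ V` is a continuous action (`W1.IsContAction`);
* `fo_levelSpan_le` : the image of the inertia span of `V` in `V / J V` lies in the inertia span
  of `V / J V`;
* `fo_ntsAt_of_isFlatAt` : `StmtNTSOfLattice` (B3) and `ρ.IsFlatAt p` give `NTSAt ρ P (𝔪ⁿ)`;
* `fo_isOrdinaryAt_of_isFlatAt` : **flat at `p` + residually ordinary + inertia acts non-trivially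
  on the residual representation ⇒ ordinary at `p`** (`p` odd), from B3.
-/

set_option autoImplicit false
set_option linter.style.haveILetI false

namespace Fermat.Agent.S33

open Fermat.Agent.W1

variable {A : Type} [CommRing A] [IsLocalRing A]

/-- the action of `G_ℚ` on `V / 𝔪ⁿ V` is continuous -/
theorem fo_isContAction (ρ : GaloisRepAdic A) (n : ℕ) :
    IsContAction (fun σ => ρ.levelAction (IsLocalRing.maximalIdeal A ^ n) σ) where
  one := by
    intro P
    obtain ⟨v, rfl⟩ := Submodule.mkQ_surjective _ P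
    rw [levelAction_mkQ, map_one, Module.End.one_apply]
  mul := by
    intro σ τ P
    obtain ⟨v, rfl⟩ := Submodule.mkQ_surjective _ P
    rw [levelAction_mkQ, levelAction_mkQ, levelAction_mkQ, map_mul, Module.End.mul_apply]
  add := fun σ P Q => map_add _ P Q
  open_stab := by
    intro P
    obtain ⟨v, rfl⟩ := Submodule.mkQ_surjective _ P
    obtain ⟨L, hL, h⟩ := ρ.isAdicContinuous n
    refine ⟨L, hL, fun σ hσ => ?_⟩
    rw [levelAction_mkQ, ← sub_eq_zero, ← map_sub]
    exact (Submodule.Quotient.mk_eq_zero _).2 (h σ hσ v)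

/-- the inertia span of `V / J V` is stable under scalars -/
theorem fo_smul_mem_ntsSpan (ρ : GaloisRepAdic A) (P : ValuationSubring (AlgebraicClosure ℚ))
    (J : Ideal A) (a : A) {x : ρ.V ⧸ (J • (⊤ : Submodule A ρ.V))}
    (hx : x ∈ ntsSpan (P.inertiaSubgroupIn ℚ) (fun σ => ρ.levelAction J σ) ⊤) :
    a • x ∈ ntsSpan (P.inertiaSubgroupIn ℚ) (fun σ => ρ.levelAction J σ) ⊤ := by
  unfold ntsSpan at hx ⊢
  induction hx using AddSubgroup.closure_induction with
  | mem w hw =>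
    obtain ⟨σ, hσ, b, _, rfl⟩ := hw
    refine AddSubgroup.subset_closure ⟨σ, hσ, a • b, AddSubgroup.mem_top _, ?_⟩
    show a • (ρ.levelAction J σ b - b) = ρ.levelAction J σ (a • b) - a • b
    rw [smul_sub, map_smul]
  | zero => rw [smul_zero]; exact AddSubgroup.zero_mem _
  | add x y _ _ hx hy => rw [smul_add]; exact AddSubgroup.add_mem _ hx hy
  | neg x _ hx => rw [smul_neg]; exact AddSubgroup.neg_mem _ hx

/-- the image of the inertia span of `V` lies in the inertia span of `V / J V` -/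
theorem fo_levelSpan_le (ρ : GaloisRepAdic A) (P : ValuationSubring (AlgebraicClosure ℚ))
    (J : Ideal A) :
    levelSpan ρ P J ≤ ntsSpan (P.inertiaSubgroupIn ℚ) (fun σ => ρ.levelAction J σ) ⊤ := by
  rintro _ ⟨w, hw, rfl⟩
  induction hw using Submodule.span_induction with
  | mem w hw =>
    obtain ⟨σ, hσ, v, rfl⟩ := hw
    have h1 : Submodule.mkQ (J • (⊤ : Submodule A ρ.V)) (ρ.ρ σ v - v) =
        ρ.levelAction J σ (Submodule.mkQ _ v) - Submodule.mkQ _ v := by
      rw [map_sub, levelAction_mkQ]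
    rw [h1]
    exact sub_mem_ntsSpan hσ (AddSubgroup.mem_top _)
  | zero => rw [map_zero]; exact AddSubgroup.zero_mem _
  | add x y _ _ hx hy => rw [map_add]; exact AddSubgroup.add_mem _ hx hy
  | smul a x _ hx => rw [map_smul]; exact fo_smul_mem_ntsSpan ρ P J a hx

/-- `V / 𝔪ⁿ V` is killed by `pⁿ` -/
theorem fo_pow_smul (ρ : GaloisRepAdic A) {p : ℕ}
    (hpA : (p : A) ∈ IsLocalRing.maximalIdeal A) (n : ℕ)
    (x : ρ.V ⧸ ((IsLocalRing.maximalIdeal A ^ n) • (⊤ : Submodule A ρ.V))) : p ^ n • x = 0 := by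
  obtain ⟨v, rfl⟩ := Submodule.mkQ_surjective _ x
  rw [← map_nsmul]
  refine (Submodule.Quotient.mk_eq_zero _).2 ?_
  have h1 : p ^ n • v = ((p : A) ^ n) • v := by
    rw [← Nat.cast_pow, Nat.cast_smul_eq_nsmul]
  rw [h1]
  exact Submodule.smul_mem_smul (Ideal.pow_mem_pow hpA n) Submodule.mem_top

/-- **B3 + flat ⇒ NTS at every finite level.** -/
theorem fo_ntsAt_of_isFlatAt (hB3 : StmtNTSOfLattice) [IsNoetherianRing A]
    (ρ : GaloisRepAdic A) {p : ℕ} (hp : p.Prime) (hp2 : p ≠ 2)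
    (hpA : (p : A) ∈ IsLocalRing.maximalIdeal A) (hflat : ρ.IsFlatAt p)
    (P : ValuationSubring (AlgebraicClosure ℚ)) (hP : P.LiesOverPrime p) (n : ℕ) :
    NTSAt ρ P (IsLocalRing.maximalIdeal A ^ n) := by
  obtain ⟨hfinres, hmodel⟩ := (sq_isFlatAt_iff ρ p).1 hflat
  haveI : Finite (A ⧸ IsLocalRing.maximalIdeal A) := hfinres
  haveI hfinq : Finite (A ⧸ IsLocalRing.maximalIdeal A ^ n) :=
    Ideal.finite_quotient_pow (IsNoetherian.noetherian _) n
  haveI hfinY : Finite (ρ.V ⧸ ((IsLocalRing.maximalIdeal A ^ n) • (⊤ : Submodule A ρ.V))) := by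
    have : Module.Finite (A ⧸ IsLocalRing.maximalIdeal A ^ n)
        (ρ.V ⧸ ((IsLocalRing.maximalIdeal A ^ n) • (⊤ : Submodule A ρ.V))) :=
      Module.Finite.of_restrictScalars_finite A _ _
    exact Module.finite_of_finite (A ⧸ IsLocalRing.maximalIdeal A ^ n)
  obtain ⟨H, hH⟩ := sq_lattice_of_model (hmodel _ hfinq)
  have h := hB3 p hp hp2 P hP _ inferInstance hfinY _ (fo_isContAction ρ n)
    ⟨n, fo_pow_smul ρ hpA n⟩ H hH
  exact h.mono (fo_levelSpan_le ρ P _)

/-- **FO: flat at `p` + residually ordinary ⇒ ordinary at `p`** (`p` odd, inertia at `p` acts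
non-trivially on the residual representation), from B3. -/
theorem fo_isOrdinaryAt_of_isFlatAt (hB3 : StmtNTSOfLattice) [IsNoetherianRing A]
    (ρ : GaloisRepAdic A) {p : ℕ} (hp : p.Prime) (hp2 : p ≠ 2)
    (hpA : (p : A) ∈ IsLocalRing.maximalIdeal A)
    (hne : ∀ P : ValuationSubring (AlgebraicClosure ℚ), P.LiesOverPrime p →
      ∃ σ ∈ P.inertiaSubgroupIn ℚ, ρ.residual.ρ σ ≠ 1)
    (hres : (GaloisRepAdic.ofResidualGaloisRep ρ.residual).IsOrdinaryAt p)
    (hflat : ρ.IsFlatAt p) : ρ.IsOrdinaryAt p :=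
  isOrdinaryAt_of_nts ρ p hne hres fun P hP n =>
    fo_ntsAt_of_isFlatAt hB3 ρ hp hp2 hpA hflat P hP n

end Fermat.Agent.S33
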