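import Fermat.Agent.S33.NTS

/-!
# S33 v2, piece C2 (generic part): reduction of `NTS (𝔄 J[pⁿ])` to the new part of exponent `p`
(helper92)

`G` a group, `I ≤ G`, `X`, `Y` additive groups with maps `actX : G → X → X`, `actY : G → Y → Y`,
`a b : X →+ Y` equivariant for `I` (in the application `X = J₀(pM)(ℚ̄)`, `Y = J₀(M)(ℚ̄)`,
`a = α_*`, `b = β_*`).

* `ntsTors X n` : the `n`-torsion subgroup;
* `NTS.of_ext₂` : `NTS (Z ⊓ ker a ⊓ ker b)`, `a Z ≤ W`, `b Z ≤ W`, `NTS W` ⇒ `NTS Z`;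
* `nts_span_of_new` : the same for `Z = 𝔄 T`, `W = 𝔄 T'`, `a T ≤ T'`, `b T ≤ T'`;
* `nts_filtration` : filtration by `p`: if `p Z_{n+1} ≤ Z_n`, `Z_0 = ⊥` and
  `NTS (Z_n ⊓ X[p])` for all `n` then `NTS (Z_n)` for all `n`;
* `nts_key_of_new` : **(KEY) for `X` from (KEY) for `Y` and `NTS` of the new part of exponent `p`**:
  `(∀ n, NTS (𝔄 Y[pⁿ])) → (∀ n, NTS (𝔄 X[pⁿ] ⊓ ker a ⊓ ker b ⊓ X[p])) → ∀ n, NTS (𝔄 X[pⁿ])`;
* `nts_top_of_sub`, `nts_sub_of_top` : `NTS (𝔄 T)` in `X` ⇔ `NTS (𝔄 ⊤)` in `↥T` (the shape of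
  `nts_of_ann`, `S33/Transfer.lean`);
* `nts_of_scalar` : the trivial end of the route: if every `σ ∈ I` acts on `Z` through a scalar
  `ω σ` and `ω σ₀ - 1` is invertible on `Z` for one `σ₀ ∈ I`, then `NTS Z`.
-/

set_option autoImplicit false

namespace Fermat.Agent.S33

variable {G : Type*} [Group G]

section tors

variable (X : Type*) [AddCommGroup X]

/-- the `n`-torsion subgroup -/
def ntsTors (n : ℕ) : AddSubgroup X := (nsmulAddMonoidHom n : X →+ X).ker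

variable {X}

theorem mem_ntsTors {n : ℕ} {x : X} : x ∈ ntsTors X n ↔ n • x = 0 := Iff.rfl

theorem ntsTors_one : ntsTors X 1 = ⊥ := by
  ext x
  rw [mem_ntsTors, one_nsmul, AddSubgroup.mem_bot]

theorem ntsTors_map_le {Y : Type*} [AddCommGroup Y] (f : X →+ Y) (n : ℕ) :
    (ntsTors X n).map f ≤ ntsTors Y n := by
  rintro _ ⟨x, hx, rfl⟩
  have hx' : n • x = 0 := hx
  show n • f x = 0
  rw [← map_nsmul, hx', map_zero]

theorem ntsTors_succ_map_le (p n : ℕ) :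
    (ntsTors X (p ^ (n + 1))).map (nsmulAddMonoidHom p : X →+ X) ≤ ntsTors X (p ^ n) := by
  rintro _ ⟨x, hx, rfl⟩
  have hx' : p ^ (n + 1) • x = 0 := hx
  show p ^ n • (nsmulAddMonoidHom p : X →+ X) x = 0
  rw [nsmulAddMonoidHom_apply, ← mul_nsmul', ← pow_succ]
  exact hx'

theorem ntsTors_mono {m n : ℕ} (h : m ∣ n) : ntsTors X m ≤ ntsTors X n := by
  intro x hx
  obtain ⟨k, rfl⟩ := h
  rw [mem_ntsTors] at hx ⊢
  rw [mul_comm, mul_nsmul', hx, nsmul_zero]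

end tors

section red

variable {X Y : Type*} [AddCommGroup X] [AddCommGroup Y] {I : Subgroup G}
  {actX : G → X → X} {actY : G → Y → Y}

theorem ntsSpan_bot (h0 : ∀ σ ∈ I, actX σ 0 = 0) : ntsSpan I actX (⊥ : AddSubgroup X) = ⊥ := by
  rw [eq_bot_iff, ntsSpan, AddSubgroup.closure_le]
  rintro w ⟨σ, hσ, b, hb, rfl⟩
  rw [AddSubgroup.mem_bot] at hb
  subst hb
  rw [h0 σ hσ, sub_zero]
  exact AddSubgroup.zero_mem _

theorem ntsStable_ntsSpan_of_stable {B : AddSubgroup X} (hB : ntsStable I actX B) :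
    ntsStable I actX (ntsSpan I actX B) := by
  intro σ hσ w hw
  have h1 : w ∈ B := ntsSpan_le_of_stable hB hw
  have h2 : actX σ w - w ∈ ntsSpan I actX B := sub_mem_ntsSpan hσ h1
  have : actX σ w = (actX σ w - w) + w := by abel
  rw [this]
  exact AddSubgroup.add_mem _ h2 hw

/-- extension along two maps -/
theorem NTS.of_ext₂ (a b : X →+ Y) (ha : ∀ σ ∈ I, ∀ c, a (actX σ c) = actY σ (a c))
    (hb : ∀ σ ∈ I, ∀ c, b (actX σ c) = actY σ (b c)) (h0 : ∀ σ ∈ I, actY σ 0 = 0)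
    {Z : AddSubgroup X} {W : AddSubgroup Y} (hW : NTS I actY W) (haZ : Z.map a ≤ W)
    (hbZ : Z.map b ≤ W) (hnew : NTS I actX (Z ⊓ a.ker ⊓ b.ker)) : NTS I actX Z :=
  NTS.of_ext a ha h0 (hW.mono haZ)
    (NTS.of_ext b hb h0 (hW.mono ((AddSubgroup.map_mono inf_le_left).trans hbZ)) hnew)

/-- the same for inertia spans -/
theorem nts_span_of_new (a b : X →+ Y) (ha : ∀ σ ∈ I, ∀ c, a (actX σ c) = actY σ (a c))
    (hb : ∀ σ ∈ I, ∀ c, b (actX σ c) = actY σ (b c)) (h0 : ∀ σ ∈ I, actY σ 0 = 0)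
    {T : AddSubgroup X} {T' : AddSubgroup Y} (haT : T.map a ≤ T') (hbT : T.map b ≤ T')
    (hold : NTS I actY (ntsSpan I actY T'))
    (hnew : NTS I actX (ntsSpan I actX T ⊓ a.ker ⊓ b.ker)) : NTS I actX (ntsSpan I actX T) :=
  NTS.of_ext₂ a b ha hb h0 hold ((map_ntsSpan_le a ha T).trans (ntsSpan_mono haT))
    ((map_ntsSpan_le b hb T).trans (ntsSpan_mono hbT)) hnew

/-- the action commutes with multiplication by `p` -/
theorem nts_act_nsmul (hadd : ∀ σ ∈ I, ∀ x y, actX σ (x + y) = actX σ x + actX σ y)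
    {σ : G} (hσ : σ ∈ I) (p : ℕ) (x : X) : actX σ (p • x) = p • actX σ x := by
  have h0 : actX σ 0 = 0 := by
    have := hadd σ hσ 0 0
    rw [add_zero] at this
    exact left_eq_add.mp this
  induction p with
  | zero => rw [zero_nsmul, zero_nsmul, h0]
  | succ k ih => rw [succ_nsmul, succ_nsmul, hadd σ hσ, ih]

theorem nts_act_zero (hadd : ∀ σ ∈ I, ∀ x y, actX σ (x + y) = actX σ x + actX σ y)
    {σ : G} (hσ : σ ∈ I) : actX σ 0 = 0 := by
  have := hadd σ hσ 0 0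
  rw [add_zero] at this
  exact left_eq_add.mp this

/-- **filtration by `p`** -/
theorem nts_filtration (p : ℕ)
    (hadd : ∀ σ ∈ I, ∀ x y, actX σ (x + y) = actX σ x + actX σ y)
    (Z : ℕ → AddSubgroup X) (hZ0 : Z 0 = ⊥)
    (hZ : ∀ n, (Z (n + 1)).map (nsmulAddMonoidHom p : X →+ X) ≤ Z n)
    (h : ∀ n, NTS I actX (Z n ⊓ ntsTors X p)) (n : ℕ) : NTS I actX (Z n) := by
  induction n with
  | zero =>
    rw [hZ0]
    exact nts_bot
  | succ k ih =>
    refine NTS.of_ext (actY := actX) (nsmulAddMonoidHom p : X →+ X) ?_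
      (fun σ hσ => nts_act_zero hadd hσ) (ih.mono (hZ k)) (h (k + 1))
    intro σ hσ c
    rw [nsmulAddMonoidHom_apply, nsmulAddMonoidHom_apply]
    exact (nts_act_nsmul hadd hσ p c).symm

/-- **(KEY) for `X` from (KEY) for `Y` and the new part of exponent `p`.** -/
theorem nts_key_of_new (p : ℕ) (a b : X →+ Y)
    (ha : ∀ σ ∈ I, ∀ c, a (actX σ c) = actY σ (a c))
    (hb : ∀ σ ∈ I, ∀ c, b (actX σ c) = actY σ (b c))
    (haddX : ∀ σ ∈ I, ∀ x y, actX σ (x + y) = actX σ x + actX σ y)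
    (h0 : ∀ σ ∈ I, actY σ 0 = 0)
    (hold : ∀ n, NTS I actY (ntsSpan I actY (ntsTors Y (p ^ n))))
    (hnew : ∀ n, NTS I actX
      (ntsSpan I actX (ntsTors X (p ^ n)) ⊓ a.ker ⊓ b.ker ⊓ ntsTors X p)) (n : ℕ) :
    NTS I actX (ntsSpan I actX (ntsTors X (p ^ n))) := by
  refine nts_span_of_new a b ha hb h0 (ntsTors_map_le a _) (ntsTors_map_le b _) (hold n) ?_
  refine nts_filtration p haddX
    (fun n => ntsSpan I actX (ntsTors X (p ^ n)) ⊓ a.ker ⊓ b.ker) ?_ ?_ hnew n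
  · show ntsSpan I actX (ntsTors X (p ^ 0)) ⊓ a.ker ⊓ b.ker = ⊥
    rw [pow_zero, ntsTors_one, ntsSpan_bot (fun σ hσ => nts_act_zero haddX hσ), bot_inf_eq,
      bot_inf_eq]
  · intro k
    rintro _ ⟨x, ⟨⟨hx1, hx2⟩, hx3⟩, rfl⟩
    refine ⟨⟨?_, ?_⟩, ?_⟩
    · have h1 : (nsmulAddMonoidHom p : X →+ X) x
          ∈ (ntsSpan I actX (ntsTors X (p ^ (k + 1)))).map (nsmulAddMonoidHom p : X →+ X) :=
        ⟨x, hx1, rfl⟩
      have h2 := map_ntsSpan_le (actX := actX) (nsmulAddMonoidHom p : X →+ X)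
        (fun σ hσ c => by
          rw [nsmulAddMonoidHom_apply, nsmulAddMonoidHom_apply]
          exact (nts_act_nsmul haddX hσ p c).symm) (ntsTors X (p ^ (k + 1))) h1
      exact ntsSpan_mono (ntsTors_succ_map_le p k) h2
    · have hx2' : a x = 0 := hx2
      show a ((nsmulAddMonoidHom p : X →+ X) x) = 0
      rw [nsmulAddMonoidHom_apply, map_nsmul, hx2', nsmul_zero]
    · have hx3' : b x = 0 := hx3
      show b ((nsmulAddMonoidHom p : X →+ X) x) = 0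
      rw [nsmulAddMonoidHom_apply, map_nsmul, hx3', nsmul_zero]

/-- passing to a subgroup as ambient group -/
theorem nts_top_of_sub {T : AddSubgroup X} (actT : G → T → T)
    (hT : ∀ σ ∈ I, ∀ t : T, ((actT σ t : T) : X) = actX σ (t : X))
    (h : NTS I actX (ntsSpan I actX T)) : NTS I actT (ntsSpan I actT ⊤) := by
  have hst : ntsStable I actT (⊤ : AddSubgroup T) := fun _ _ _ _ => AddSubgroup.mem_top _
  refine NTS.comap_of_injective (actF := actT) (actX := actX) T.subtype Subtype.val_injective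
    hT h (ntsStable_ntsSpan_of_stable hst) ?_
  refine (map_ntsSpan_le (actF := actT) (actX := actX) T.subtype hT ⊤).trans (ntsSpan_mono ?_)
  rintro _ ⟨t, _, rfl⟩
  exact t.2

/-- passing from a subgroup as ambient group to the big group -/
theorem nts_sub_of_top {T : AddSubgroup X} (actT : G → T → T)
    (hT : ∀ σ ∈ I, ∀ t : T, ((actT σ t : T) : X) = actX σ (t : X))
    (h : NTS I actT (ntsSpan I actT ⊤)) : NTS I actX (ntsSpan I actX T) := by
  have hst : ntsStable I actT (⊤ : AddSubgroup T) := fun _ _ _ _ => AddSubgroup.mem_top _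
  have h1 := NTS.map (actX := actT) (actY := actX) T.subtype hT h
    (ntsStable_ntsSpan_of_stable hst)
  refine h1.mono ?_
  refine le_trans (ntsSpan_mono ?_) (ntsSpan_map_le (actF := actT) (actX := actX) T.subtype hT ⊤)
  intro t ht
  exact ⟨⟨t, ht⟩, AddSubgroup.mem_top _, rfl⟩

/-- **the end of the route**: if every `σ ∈ I` acts on `Z` through a scalar `ω σ` and
`(ω σ₀ - 1) c = 1 mod` the exponent of `Z` for one `σ₀ ∈ I`, then `NTS Z`. -/
theorem nts_of_scalar {Z : AddSubgroup X} (ω : G → ℤ)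
    (hω : ∀ σ ∈ I, ∀ z ∈ Z, actX σ z = ω σ • z) {σ₀ : G} (hσ₀ : σ₀ ∈ I) (c : ℤ)
    (hc : ∀ z ∈ Z, ((ω σ₀ - 1) * c) • z = z) : NTS I actX Z := by
  intro B hB _ b hb
  have h1 : actX σ₀ (c • b) - c • b ∈ ntsSpan I actX B :=
    sub_mem_ntsSpan hσ₀ (B.zsmul_mem hb c)
  have h2 : actX σ₀ (c • b) - c • b = b := by
    rw [hω σ₀ hσ₀ _ (Z.zsmul_mem (hB hb) c), ← mul_zsmul]
    have := hc b (hB hb)
    rwa [sub_mul, one_mul, sub_smul] at this
  rwa [h2] at h1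

end red

end Fermat.Agent.S33
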