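import Fermat.Agent.S33.Plan2
import Fermat.Agent.S33.NewRed
import Fermat.Agent.S19
import Fermat.Agent.W1.S19Final
import Fermat.Agent.W1.SubQuot

/-!
# S33 v2, piece B4 (helper15): (KEY) at a level prime to `p`

`J = J₀(N)`, `p ∤ N`, `p` odd, `P ∣ p`, `I = I_P`.  From S19 (`Fermat.Agent.S19.result`, a finite
flat model of `J[pᵏ]` over `ℤ_(p)`) and B3 (`StmtNTSOfLattice`):

* `fo_nts_jzero_tors` : `NTS I (𝔄 ⊤)` on the group `J[pᵏ]` (`Submodule.torsionBy`, `W1.torsAct`);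
* `fo_nts_jzero` : `NTS I (𝔄 J[pᵏ])` inside `J` (`ntsTors (JZero N) (p ^ k)`, the shape of
  `nts_key_of_new`).
-/

set_option autoImplicit false
set_option linter.style.haveILetI false

namespace Fermat.Agent.S33

open ModularCurve Fermat.Agent.W1

/-- **B4, torsion form.** -/
theorem fo_nts_jzero_tors (hB3 : StmtNTSOfLattice) (N : ℕ) [NeZero N] {p : ℕ} (hp : p.Prime)
    (hp2 : p ≠ 2) (hpN : ¬ p ∣ N) (P : ValuationSubring (AlgebraicClosure ℚ))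
    (hP : P.LiesOverPrime p) (k : ℕ) :
    NTS (P.inertiaSubgroupIn ℚ) (torsAct (JZero N) ((p : ℤ) ^ k))
      (ntsSpan (P.inertiaSubgroupIn ℚ) (torsAct (JZero N) ((p : ℤ) ^ k)) ⊤) := by
  haveI : Fact p.Prime := ⟨hp⟩
  have hmodel : HasFiniteFlatModel (GaloisRep.ratLocalizedAt p)
      ↥(Submodule.torsionBy ℤ (JZero N) ((p : ℤ) ^ k)) (torsAct (JZero N) ((p : ℤ) ^ k)) := by
    obtain ⟨H, i1, i2, h1, h2, h3, e, he1, he2⟩ := Fermat.Agent.S19.result N p hpN k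
    exact ⟨H, i1, i2, h1, h2, h3, e, he1, fun σ f g hfg => Subtype.ext (he2 σ f g hfg)⟩
  haveI hfin : Finite ↥(Submodule.torsionBy ℤ (JZero N) ((p : ℤ) ^ k)) :=
    s19f_finite N p hp.ne_zero k
  obtain ⟨H, hH⟩ := sq_lattice_of_model hmodel
  refine hB3 p hp hp2 P hP _ inferInstance hfin _ (s19f_cont N p hp.ne_zero k)
    ⟨k, fun x => ?_⟩ H hH
  apply Subtype.ext
  rw [AddSubmonoidClass.coe_nsmul]
  exact s19f_nsmul_of_mem p k x.2

/-- **B4, ambient form** (the shape of the hypothesis `hold` of `nts_key_of_new`). -/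
theorem fo_nts_jzero (hB3 : StmtNTSOfLattice) (N : ℕ) [NeZero N] {p : ℕ} (hp : p.Prime)
    (hp2 : p ≠ 2) (hpN : ¬ p ∣ N) (P : ValuationSubring (AlgebraicClosure ℚ))
    (hP : P.LiesOverPrime p) (k : ℕ) :
    NTS (P.inertiaSubgroupIn ℚ)
      (fun (σ : AlgebraicClosure ℚ ≃ₐ[ℚ] AlgebraicClosure ℚ) (x : JZero N) => σ • x)
      (ntsSpan (P.inertiaSubgroupIn ℚ)
        (fun (σ : AlgebraicClosure ℚ ≃ₐ[ℚ] AlgebraicClosure ℚ) (x : JZero N) => σ • x)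
        (ntsTors (JZero N) (p ^ k))) := by
  have h0 := fo_nts_jzero_tors hB3 N hp hp2 hpN P hP k
  set f : ↥(Submodule.torsionBy ℤ (JZero N) ((p : ℤ) ^ k)) →+ JZero N :=
    (Submodule.torsionBy ℤ (JZero N) ((p : ℤ) ^ k)).subtype.toAddMonoidHom with hf
  have hfeq : ∀ σ ∈ P.inertiaSubgroupIn ℚ,
      ∀ c : ↥(Submodule.torsionBy ℤ (JZero N) ((p : ℤ) ^ k)),
        f (torsAct (JZero N) ((p : ℤ) ^ k) σ c) = σ • f c := fun _ _ _ => rfl
  have hst : ntsStable (P.inertiaSubgroupIn ℚ) (torsAct (JZero N) ((p : ℤ) ^ k))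
      (⊤ : AddSubgroup ↥(Submodule.torsionBy ℤ (JZero N) ((p : ℤ) ^ k))) :=
    fun _ _ _ _ => AddSubgroup.mem_top _
  have h1 := NTS.map (actX := torsAct (JZero N) ((p : ℤ) ^ k))
    (actY := fun (σ : AlgebraicClosure ℚ ≃ₐ[ℚ] AlgebraicClosure ℚ) (x : JZero N) => σ • x)
    f hfeq h0 (ntsStable_ntsSpan_of_stable hst)
  refine h1.mono ?_
  refine le_trans (ntsSpan_mono ?_)
    (ntsSpan_map_le (actF := torsAct (JZero N) ((p : ℤ) ^ k))
      (actX := fun (σ : AlgebraicClosure ℚ ≃ₐ[ℚ] AlgebraicClosure ℚ) (x : JZero N) => σ • x)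
      f hfeq ⊤)
  intro t ht
  have ht' : t ∈ Submodule.torsionBy ℤ (JZero N) ((p : ℤ) ^ k) := by
    rw [Submodule.mem_torsionBy_iff, ← s19f_cast, natCast_zsmul]
    exact ht
  exact ⟨⟨t, ht'⟩, AddSubgroup.mem_top _, rfl⟩

end Fermat.Agent.S33
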