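import Fermat.Agent.S33.SQLocLin

/-!
# S33 v2, piece B1 (SQ-loc), part 2: quotients of Hopf lattices over `(R, I)`

`stmtSQLocQuot : StmtSQLocQuot` (`Plan2.lean`): if `H` is a Hopf lattice over `(R, I)` on the
finite group `M` (`R ⊂ ℚ̄` a PID fixed by `I`, every `I`-fixed element of `ℚ̄` a fraction of
elements of `R`) and `π : M → M''` is a surjective `I`-equivariant additive map, then
`H'' = {φ : M'' → ℚ̄ | φ ∘ π ∈ H}` is a Hopf lattice over `(R, I)` on `M''`.

* finitely generated: `R` is noetherian;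
* separation: the traces `P'' ↦ ∑_{π x = P''} h x` are `I`-equivariant, hence have a multiple in
  `H''` (`sqloc_exists_smul_mem`), and they separate points because `H` spans all functions;
* comultiplication: `H''` is saturated in `H`; expand `(P, Q) ↦ h (P + Q)` in `ℚ̄`-linearly
  independent `R`-bases and use the invariance under the kernel of `π` in each variable.

This is helper17's `W1/SubQuotQuot.lean` (`W1.sq_quot`) with `(ℤ_(p), ℚ, G_ℚ)` replaced by
`(R, ℚ̄^I, I)`.
-/

set_option autoImplicit false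
set_option linter.unusedSectionVars false
set_option linter.unusedSimpArgs false
set_option linter.style.haveILetI false

namespace Fermat.Agent.S33

section Quot

variable {R : Subring (AlgebraicClosure ℚ)} {I : Subgroup GQb}
  {M M'' : Type} [AddCommGroup M] [AddCommGroup M'']
  {act : GQb → M → M} {act'' : GQb → M'' → M''}
  {H : Subalgebra R (M → AlgebraicClosure ℚ)}

/-- Pull-back along a surjective map is injective. -/
theorem sqloc_pull_injective {π : M → M''} (hπ : Function.Surjective π) :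
    Function.Injective (pullFnOver R π) := by
  intro f g hfg
  funext P''
  obtain ⟨P, rfl⟩ := hπ P''
  exact congrFun hfg P

theorem sqloc_mem_comap {π : M → M''} {φ : M'' → AlgebraicClosure ℚ} :
    φ ∈ H.comap (pullFnOver R π) ↔ (fun P => φ (π P)) ∈ H := Iff.rfl

theorem sqloc_apply_inv_apply (σ : GQb) (y : AlgebraicClosure ℚ) : σ (σ⁻¹ y) = y := by
  rw [← AlgEquiv.mul_apply, mul_inv_cancel, AlgEquiv.one_apply]

theorem sqloc_inv_apply_apply (σ : GQb) (y : AlgebraicClosure ℚ) : σ⁻¹ (σ y) = y := by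
  rw [← AlgEquiv.mul_apply, inv_mul_cancel, AlgEquiv.one_apply]

/-- The action of `I` is by permutations (1). -/
theorem sqloc_act_inv_act
    (hequiv : ∀ h ∈ H, ∀ σ ∈ I, ∀ P : M, h (act σ P) = σ (h P))
    (hsep : ∀ P Q : M, (∀ h ∈ H, h P = h Q) → P = Q)
    (σ : GQb) (hσ : σ ∈ I) (P : M) : act σ⁻¹ (act σ P) = P := by
  refine hsep _ _ fun h hh => ?_
  rw [hequiv h hh σ⁻¹ (I.inv_mem hσ), hequiv h hh σ hσ, sqloc_inv_apply_apply]

/-- The action of `I` is by permutations (2). -/
theorem sqloc_act_act_inv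
    (hequiv : ∀ h ∈ H, ∀ σ ∈ I, ∀ P : M, h (act σ P) = σ (h P))
    (hsep : ∀ P Q : M, (∀ h ∈ H, h P = h Q) → P = Q)
    (σ : GQb) (hσ : σ ∈ I) (P : M) : act σ (act σ⁻¹ P) = P := by
  refine hsep _ _ fun h hh => ?_
  rw [hequiv h hh σ hσ, hequiv h hh σ⁻¹ (I.inv_mem hσ), sqloc_apply_inv_apply]

/-- The sum of a function over the fibres of `π`. -/
noncomputable def sqlocTrace [Fintype M] [DecidableEq M''] (π : M → M'')
    (h : M → AlgebraicClosure ℚ) : M'' → AlgebraicClosure ℚ :=
  fun P'' => ∑ x ∈ Finset.univ.filter (fun x => π x = P''), h x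

/-- The trace of an element of `H` is equivariant. -/
theorem sqloc_trace_equivariant [Fintype M] [DecidableEq M'']
    (hequiv : ∀ h ∈ H, ∀ σ ∈ I, ∀ P : M, h (act σ P) = σ (h P))
    (hsep : ∀ P Q : M, (∀ h ∈ H, h P = h Q) → P = Q)
    {π : M → M''} (hπ : Function.Surjective π)
    (hπequiv : ∀ σ ∈ I, ∀ P, π (act σ P) = act'' σ (π P))
    (h : M → AlgebraicClosure ℚ) (hh : h ∈ H)
    (σ : GQb) (hσ : σ ∈ I) (P'' : M'') :
    sqlocTrace π h (act'' σ P'') = σ (sqlocTrace π h P'') := by
  unfold sqlocTrace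
  rw [map_sum]
  symm
  refine Finset.sum_nbij' (fun x => act σ x) (fun y => act σ⁻¹ y) ?_ ?_ ?_ ?_ ?_
  · intro a ha
    simp only [Finset.mem_filter, Finset.mem_univ, true_and] at ha ⊢
    rw [hπequiv σ hσ, ha]
  · intro y hy
    simp only [Finset.mem_filter, Finset.mem_univ, true_and] at hy ⊢
    obtain ⟨x₀, rfl⟩ := hπ P''
    rw [hπequiv σ⁻¹ (I.inv_mem hσ), hy, ← hπequiv σ hσ, ← hπequiv σ⁻¹ (I.inv_mem hσ),
      sqloc_act_inv_act hequiv hsep σ hσ]
  · intro a _
    exact sqloc_act_inv_act hequiv hsep σ hσ a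
  · intro y _
    exact sqloc_act_act_inv hequiv hsep σ hσ y
  · intro a _
    exact (hequiv h hh σ hσ a).symm

variable [IsPrincipalIdealRing R]

/-- The quotient lattice is finitely generated. -/
theorem sqloc_quot_fg (hfg : (Subalgebra.toSubmodule H).FG) {π : M → M''}
    (hπ : Function.Surjective π) :
    (Subalgebra.toSubmodule (H.comap (pullFnOver R π))).FG := by
  haveI : IsNoetherian R (Subalgebra.toSubmodule H) := isNoetherian_of_fg_of_noetherian _ hfg
  refine Submodule.fg_of_fg_map_injective (pullFnOver R π).toLinearMap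
    (sqloc_pull_injective (R := R) hπ) ?_
  have hle : (Subalgebra.toSubmodule (H.comap (pullFnOver R π))).map
      (pullFnOver R π).toLinearMap ≤ Subalgebra.toSubmodule H := by
    rintro _ ⟨f, hf, rfl⟩
    exact hf
  exact isNoetherian_submodule.1 inferInstance _ hle

/-- The quotient lattice is equivariant. -/
theorem sqloc_quot_equivariant
    (hequiv : ∀ h ∈ H, ∀ σ ∈ I, ∀ P : M, h (act σ P) = σ (h P))
    {π : M → M''} (hπ : Function.Surjective π)
    (hπequiv : ∀ σ ∈ I, ∀ P, π (act σ P) = act'' σ (π P)) :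
    ∀ φ ∈ H.comap (pullFnOver R π), ∀ σ ∈ I, ∀ P : M'', φ (act'' σ P) = σ (φ P) := by
  intro φ hφ σ hσ P''
  obtain ⟨P, rfl⟩ := hπ P''
  rw [← hπequiv σ hσ]
  exact hequiv _ hφ σ hσ P

/-- The quotient lattice separates points. -/
theorem sqloc_quot_separates [Finite M] (hfrac : SqlocFrac R I)
    (hfg : (Subalgebra.toSubmodule H).FG)
    (hequiv : ∀ h ∈ H, ∀ σ ∈ I, ∀ P : M, h (act σ P) = σ (h P))
    (hsep : ∀ P Q : M, (∀ h ∈ H, h P = h Q) → P = Q)
    {π : M → M''} (hπ : Function.Surjective π)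
    (hπequiv : ∀ σ ∈ I, ∀ P, π (act σ P) = act'' σ (π P)) :
    ∀ P Q : M'', (∀ φ ∈ H.comap (pullFnOver R π), φ P = φ Q) → P = Q := by
  classical
  haveI : Fintype M := Fintype.ofFinite M
  intro P'' Q'' hPQ
  by_contra hne
  -- traces agree
  have htr : ∀ h ∈ H, sqlocTrace π h P'' = sqlocTrace π h Q'' := by
    intro h hh
    have he : ∀ σ ∈ I, ∀ P : M,
        (fun P => sqlocTrace π h (π P)) (act σ P) = σ ((fun P => sqlocTrace π h (π P)) P) := by
      intro σ hσ P
      show sqlocTrace π h (π (act σ P)) = σ (sqlocTrace π h (π P))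
      rw [hπequiv σ hσ]
      exact sqloc_trace_equivariant hequiv hsep hπ hπequiv h hh σ hσ (π P)
    obtain ⟨d, hd0, hd⟩ := sqloc_exists_smul_mem hfrac hfg hequiv hsep
      (fun P => sqlocTrace π h (π P)) he
    have h1 : d • sqlocTrace π h ∈ H.comap (pullFnOver R π) := by
      rw [sqloc_mem_comap]
      exact hd
    have h2 : (d : AlgebraicClosure ℚ) * sqlocTrace π h P'' =
        (d : AlgebraicClosure ℚ) * sqlocTrace π h Q'' := hPQ _ h1
    have hdK : (d : AlgebraicClosure ℚ) ≠ 0 := fun h => hd0 (Subtype.ext h)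
    exact mul_left_cancel₀ hdK h2
  -- the linear functional
  let L : (M → AlgebraicClosure ℚ) →ₗ[AlgebraicClosure ℚ] AlgebraicClosure ℚ :=
    { toFun := fun f => sqlocTrace π f P'' - sqlocTrace π f Q''
      map_add' := by
        intro f g
        simp only [sqlocTrace, Pi.add_apply, Finset.sum_add_distrib]
        ring
      map_smul' := by
        intro c f
        simp only [sqlocTrace, Pi.smul_apply, smul_eq_mul, ← Finset.mul_sum, RingHom.id_apply]
        ring }
  have hL : Submodule.span (AlgebraicClosure ℚ) (H : Set (M → AlgebraicClosure ℚ)) ≤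
      LinearMap.ker L := by
    rw [Submodule.span_le]
    intro h hh
    rw [SetLike.mem_coe, LinearMap.mem_ker]
    show sqlocTrace π h P'' - sqlocTrace π h Q'' = 0
    rw [htr h hh, sub_self]
  rw [sqloc_span_top H hsep] at hL
  have h3 : L (fun x => if π x = P'' then 1 else 0) = 0 :=
    LinearMap.mem_ker.1 (hL trivial)
  have h4 : L (fun x => if π x = P'' then 1 else 0) =
      ((Finset.univ.filter (fun x => π x = P'')).card : AlgebraicClosure ℚ) := by
    show sqlocTrace π _ P'' - sqlocTrace π _ Q'' = _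
    have h5 : sqlocTrace π (fun x => if π x = P'' then (1 : AlgebraicClosure ℚ) else 0) P'' =
        ((Finset.univ.filter (fun x => π x = P'')).card : AlgebraicClosure ℚ) := by
      unfold sqlocTrace
      rw [Finset.sum_congr rfl (g := fun _ => (1 : AlgebraicClosure ℚ))]
      · simp
      · intro x hx
        simp only [Finset.mem_filter, Finset.mem_univ, true_and] at hx
        show (if π x = P'' then (1 : AlgebraicClosure ℚ) else 0) = 1
        rw [if_pos hx]
    have h6 : sqlocTrace π (fun x => if π x = P'' then (1 : AlgebraicClosure ℚ) else 0) Q'' =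
        0 := by
      unfold sqlocTrace
      refine Finset.sum_eq_zero fun x hx => ?_
      simp only [Finset.mem_filter, Finset.mem_univ, true_and] at hx
      show (if π x = P'' then (1 : AlgebraicClosure ℚ) else 0) = 0
      rw [if_neg]
      intro h7
      exact hne (h7.symm.trans hx)
    rw [h5, h6, sub_zero]
  rw [h4] at h3
  obtain ⟨x₀, hx₀⟩ := hπ P''
  have h8 : (Finset.univ.filter (fun x => π x = P'')).card ≠ 0 := by
    refine Finset.card_ne_zero.2 ⟨x₀, ?_⟩
    simp [hx₀]
  exact h8 (Nat.cast_eq_zero.1 h3)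

omit [IsPrincipalIdealRing R] [AddCommGroup M] in
/-- Comparison of coefficients with respect to a linearly independent family. -/
theorem sqloc_coeff_eq {X Y : Type} {n : ℕ} (v : Fin n → Y → AlgebraicClosure ℚ)
    (hv : LinearIndependent (AlgebraicClosure ℚ) v)
    (g : Fin n → X → AlgebraicClosure ℚ) (x x' : X)
    (h : ∀ y, ∑ j, g j x * v j y = ∑ j, g j x' * v j y) : ∀ j, g j x = g j x' := by
  have h1 : ∑ j, (g j x - g j x') • v j = 0 := by
    funext y
    simp only [Finset.sum_apply, Pi.smul_apply, smul_eq_mul, Pi.zero_apply, sub_mul,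
      Finset.sum_sub_distrib]
    rw [h y, sub_self]
  intro j
  exact sub_eq_zero.1 (Fintype.linearIndependent_iff.1 hv _ h1 j)

/-- A function invariant under translation by the kernel of `π` factors through `π`. -/
theorem sqloc_descend (π : M →+ M'') (hπ : Function.Surjective π)
    (g : M → AlgebraicClosure ℚ)
    (hinv : ∀ P m, π m = 0 → g (P + m) = g P) :
    ∃ g'' : M'' → AlgebraicClosure ℚ, ∀ P, g'' (π P) = g P := by
  refine ⟨fun P'' => g (Function.surjInv hπ P''), fun P => ?_⟩
  have h1 : π (Function.surjInv hπ (π P)) = π P := Function.surjInv_eq hπ _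
  have h2 : π (P - Function.surjInv hπ (π P)) = 0 := by rw [map_sub, h1, sub_self]
  have h3 := hinv (Function.surjInv hπ (π P)) _ h2
  rw [add_sub_cancel] at h3
  exact h3.symm

/-- The quotient lattice is closed under the comultiplication. -/
theorem sqloc_quot_comul [Finite M] (hfrac : SqlocFrac R I)
    (hH : IsHopfLatticeOver R I act H) (π : M →+ M'')
    (hπ : Function.Surjective π) (hπequiv : ∀ σ ∈ I, ∀ P, π (act σ P) = act'' σ (π P)) :
    ∀ φ ∈ H.comap (pullFnOver R π), (fun PQ : M'' × M'' => φ (PQ.1 + PQ.2)) ∈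
      Submodule.span R {F : M'' × M'' → AlgebraicClosure ℚ |
        ∃ a ∈ H.comap (pullFnOver R π), ∃ b ∈ H.comap (pullFnOver R π),
          F = fun PQ => a PQ.1 * b PQ.2} := by
  classical
  intro φ hφ
  obtain ⟨n, y, hy⟩ := sqloc_exists_basis (act := act) hfrac hH.fg hH.equivariant
  have hfg'' := sqloc_quot_fg hH.fg hπ
  have hequiv'' := sqloc_quot_equivariant (act'' := act'') hH.equivariant hπ hπequiv
  obtain ⟨k, u, hu⟩ := sqloc_exists_basis (act := act'') hfrac hfg'' hequiv''
  -- the pulled back basis of `H''` is linearly independent on `M`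
  have hu' : LinearIndependent (AlgebraicClosure ℚ)
      (fun i => fun P : M =>
        ((u i : H.comap (pullFnOver R π)) : M'' → AlgebraicClosure ℚ) (π P)) := by
    have h1 := hu.map' (LinearMap.funLeft (AlgebraicClosure ℚ) (AlgebraicClosure ℚ) π)
      (LinearMap.ker_eq_bot.2 (LinearMap.funLeft_injective_of_surjective _ _ π hπ))
    exact h1
  -- Step 1: expansion of `F` in the second variable
  have hstep1 : ∀ F ∈ Submodule.span R {F : M × M → AlgebraicClosure ℚ |
      ∃ a ∈ H, ∃ b ∈ H, F = fun PQ => a PQ.1 * b PQ.2},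
      ∃ g : Fin n → M → AlgebraicClosure ℚ, (∀ j, g j ∈ H) ∧
        ∀ P Q, F (P, Q) = ∑ j, g j P * ((y j : H) : M → AlgebraicClosure ℚ) Q := by
    intro F hF
    induction hF using Submodule.span_induction with
    | mem F hF =>
      obtain ⟨a, ha, b, hb, rfl⟩ := hF
      refine ⟨fun j => y.repr ⟨b, hb⟩ j • a, fun j => H.smul_mem ha _, fun P Q => ?_⟩
      have h1 : (⟨b, hb⟩ : H) = ∑ j, y.repr ⟨b, hb⟩ j • y j := (y.sum_repr _).symm
      have h2 := congrArg (fun x : H => (x : M → AlgebraicClosure ℚ) Q) h1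
      simp only [AddSubmonoidClass.coe_finsetSum, Finset.sum_apply] at h2
      show a P * b Q = _
      rw [h2, Finset.mul_sum]
      refine Finset.sum_congr rfl fun j _ => ?_
      rw [sqloc_coe_smul_apply]
      show _ = ((y.repr ⟨b, hb⟩ j : R) : AlgebraicClosure ℚ) * a P * _
      ring
    | zero =>
      exact ⟨fun _ => 0, fun _ => H.zero_mem, fun P Q => by simp⟩
    | add F G _ _ hF hG =>
      obtain ⟨g, hg, hgF⟩ := hF
      obtain ⟨g', hg', hgG⟩ := hG
      refine ⟨fun j => g j + g' j, fun j => H.add_mem (hg j) (hg' j), fun P Q => ?_⟩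
      simp only [Pi.add_apply, hgF, hgG, add_mul, Finset.sum_add_distrib]
    | smul r F _ hF =>
      obtain ⟨g, hg, hgF⟩ := hF
      refine ⟨fun j => r • g j, fun j => H.smul_mem (hg j) _, fun P Q => ?_⟩
      show (r : AlgebraicClosure ℚ) * F (P, Q) =
        ∑ j, ((r : AlgebraicClosure ℚ) * g j P) * ((y j : H) : M → AlgebraicClosure ℚ) Q
      rw [hgF, Finset.mul_sum]
      refine Finset.sum_congr rfl fun j _ => ?_
      ring
  obtain ⟨g, hg, hgF⟩ := hstep1 _ (hH.comul_mem _ hφ)
  have hF : ∀ P Q : M, φ (π (P + Q)) = ∑ j, g j P * ((y j : H) : M → AlgebraicClosure ℚ) Q :=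
    fun P Q => hgF P Q
  -- Step 2: the `g j` are invariant under the kernel
  have hginv : ∀ j P m, π m = 0 → g j (P + m) = g j P := by
    intro j P m hm
    refine sqloc_coeff_eq _ hy g (P + m) P (fun Q => ?_) j
    rw [← hF, ← hF]
    congr 1
    rw [map_add, map_add, map_add, hm, add_zero]
  choose g'' hg'' using fun j => sqloc_descend π hπ (g j) (hginv j)
  have hg''mem : ∀ j, g'' j ∈ H.comap (pullFnOver R π) := by
    intro j
    rw [sqloc_mem_comap]
    have : (fun P => g'' j (π P)) = g j := funext (hg'' j)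
    rw [this]
    exact hg j
  -- Step 3: expansion in the basis of `H''`
  have hexp : ∀ j (P'' : M''), g'' j P'' =
      ∑ i, ((u.repr ⟨g'' j, hg''mem j⟩ i : R) : AlgebraicClosure ℚ) *
        ((u i : H.comap (pullFnOver R π)) : M'' → AlgebraicClosure ℚ) P'' := by
    intro j P''
    have h1 : (⟨g'' j, hg''mem j⟩ : H.comap (pullFnOver R π)) =
        ∑ i, u.repr ⟨g'' j, hg''mem j⟩ i • u i := (u.sum_repr _).symm
    have h2 := congrArg
      (fun x : H.comap (pullFnOver R π) => (x : M'' → AlgebraicClosure ℚ) P'') h1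
    simp only [AddSubmonoidClass.coe_finsetSum, Finset.sum_apply] at h2
    refine h2.trans ?_
    refine Finset.sum_congr rfl fun i _ => ?_
    exact sqloc_coe_smul_apply _ _ _ _
  set kk : Fin k → M → AlgebraicClosure ℚ := fun i =>
    ∑ j, u.repr ⟨g'' j, hg''mem j⟩ i • ((y j : H) : M → AlgebraicClosure ℚ) with hkk
  have hkkmem : ∀ i, kk i ∈ H := fun i =>
    H.sum_mem fun j _ => H.smul_mem (y j).2 _
  have hkkval : ∀ i Q, kk i Q = ∑ j, ((u.repr ⟨g'' j, hg''mem j⟩ i : R) : AlgebraicClosure ℚ) *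
      ((y j : H) : M → AlgebraicClosure ℚ) Q := by
    intro i Q
    simp only [hkk, Finset.sum_apply]
    rfl
  have hF2 : ∀ P Q : M, φ (π (P + Q)) =
      ∑ i, kk i Q * ((u i : H.comap (pullFnOver R π)) : M'' → AlgebraicClosure ℚ) (π P) := by
    intro P Q
    rw [hF]
    have h1 : ∀ j, g j P = ∑ i, ((u.repr ⟨g'' j, hg''mem j⟩ i : R) : AlgebraicClosure ℚ) *
        ((u i : H.comap (pullFnOver R π)) : M'' → AlgebraicClosure ℚ) (π P) := by
      intro j
      rw [← hg'' j P, hexp]
    simp only [h1, hkkval, Finset.sum_mul]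
    rw [Finset.sum_comm]
    refine Finset.sum_congr rfl fun i _ => ?_
    refine Finset.sum_congr rfl fun j _ => ?_
    ring
  -- Step 4: the `kk i` are invariant under the kernel
  have hkinv : ∀ i Q m, π m = 0 → kk i (Q + m) = kk i Q := by
    intro i Q m hm
    refine sqloc_coeff_eq _ hu' kk (Q + m) Q (fun P => ?_) i
    show ∑ i, kk i (Q + m) *
        ((u i : H.comap (pullFnOver R π)) : M'' → AlgebraicClosure ℚ) (π P) =
      ∑ i, kk i Q * ((u i : H.comap (pullFnOver R π)) : M'' → AlgebraicClosure ℚ) (π P)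
    rw [← hF2, ← hF2]
    congr 1
    rw [map_add, map_add, map_add, hm, add_zero]
  choose k'' hk'' using fun i => sqloc_descend π hπ (kk i) (hkinv i)
  have hk''mem : ∀ i, k'' i ∈ H.comap (pullFnOver R π) := by
    intro i
    rw [sqloc_mem_comap]
    have : (fun P => k'' i (π P)) = kk i := funext (hk'' i)
    rw [this]
    exact hkkmem i
  -- Step 5
  have hfinal : (fun PQ : M'' × M'' => φ (PQ.1 + PQ.2)) =
      ∑ i, (fun PQ : M'' × M'' =>
        ((u i : H.comap (pullFnOver R π)) : M'' → AlgebraicClosure ℚ) PQ.1 * k'' i PQ.2) := by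
    funext ⟨P'', Q''⟩
    obtain ⟨P, rfl⟩ := hπ P''
    obtain ⟨Q, rfl⟩ := hπ Q''
    rw [Finset.sum_apply]
    show φ (π P + π Q) = _
    rw [← map_add, hF2]
    refine Finset.sum_congr rfl fun i _ => ?_
    rw [hk'' i Q, mul_comm]
  rw [hfinal]
  exact Submodule.sum_mem _ fun i _ =>
    Submodule.subset_span ⟨_, (u i).2, _, hk''mem i, rfl⟩

/-- **(SQ-loc)** The quotient of a Hopf lattice over `(R, I)` by an `I`-equivariant surjection is
a Hopf lattice over `(R, I)`. -/
theorem sqloc_quot [Finite M] (hfrac : SqlocFrac R I) (hH : IsHopfLatticeOver R I act H)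
    (π : M →+ M'') (hπ : Function.Surjective π)
    (hπequiv : ∀ σ ∈ I, ∀ P, π (act σ P) = act'' σ (π P)) :
    IsHopfLatticeOver R I act'' (H.comap (pullFnOver R π)) where
  fg := sqloc_quot_fg hH.fg hπ
  equivariant := sqloc_quot_equivariant hH.equivariant hπ hπequiv
  separates := sqloc_quot_separates hfrac hH.fg hH.equivariant hH.separates hπ hπequiv
  comul_mem := sqloc_quot_comul hfrac hH π hπ hπequiv

end Quot

/-- **B1 (SQ-loc)** of `Plan2.lean`. -/
theorem stmtSQLocQuot : StmtSQLocQuot := by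
  intro R I hPID _ hfrac M _ _ act M'' _ act'' H hH π hπ hπequiv
  exact sqloc_quot hfrac hH π hπ hπequiv

end Fermat.Agent.S33
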