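import Fermat.Agent.S33.RayLiteStmt
import Fermat.Agent.S33.Plan2
import Fermat.Agent.S33.SQLocQuot
import Fermat.Agent.UNIP.Beta0Pkg
import Fermat.Agent.W1.DescentBasic
import Fermat.Agent.S05.Inertia

/-!
# S33 v2, piece B3: `stmtNTSOfLattice_of : StmtSQLocQuot → StmtNTSOfLattice` (helper53)

A finite `p`-group `M` with a Hopf order `H` over `ℤ_(p)` (`p` odd), `P ∣ p` a place of `ℚ̄`,
`I = I_P`: the inertia span `𝔄 M` has no trivial sub-quotient.

Proof.  `A₀ = P ∩ ℚ̄^I` (a PID with uniformizer `p`: `UNIP.beta0Ring_isDVR_base`,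
`UNIP.beta0_div_mem`).
1. values of `h ∈ H` lie in `P` (integrality);
2. `M⁰ = {m | ∀ h ∈ H, h m ≡ h 0 mod 𝔪_P}` is a subgroup containing `𝔄 M`;
3. for an `I`-stable `B ≤ 𝔄 M`: `H_B` := the `A₀`-algebra generated by the restrictions `h|_B`;
   it is a Hopf lattice over `(A₀, I)` with values in `P`, `≡` value at `0` mod `𝔪_P`;
4. `Q = B / 𝔄 B`, trivial action, `H_Q = H_B.comap π^*` is a Hopf lattice over `(A₀, I)` (B1);
   its values are `I`-fixed, in `P`, `≡` value at `0`; so `(φ q - φ 0) / p ∈ A₀`;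
5. Raynaud-lite (B2): `φ q = φ 0` for `p q = 0`, hence `q = 0`; so `Q = 0`, i.e. `B = 𝔄 B`.
-/

set_option autoImplicit false
set_option linter.unusedSectionVars false
set_option linter.unusedSimpArgs false
set_option linter.style.haveILetI false

namespace Fermat.Agent.S33

open Fermat.Agent.W1 Fermat.Agent.UNIP

/-- `ℚ̄` -/
abbrev NQb : Type := AlgebraicClosure ℚ

section A0

variable (P : ValuationSubring NQb)

/-- `A₀ = P ∩ ℚ̄^{I_P}` as a subring of `ℚ̄`. -/
noncomputable def ntslA0 : Subring NQb := P.toSubring ⊓ (beta0Field P).toSubring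

variable {P}

theorem mem_ntslA0 {x : NQb} : x ∈ ntslA0 P ↔ x ∈ P ∧ x ∈ beta0Field P := Iff.rfl

theorem ntslA0_fixed {r : NQb} (hr : r ∈ ntslA0 P) {σ : GQb} (hσ : σ ∈ P.inertiaSubgroupIn ℚ) :
    σ r = r :=
  mem_beta0Field.mp hr.2 σ hσ

theorem ntslA0_frac (x : NQb) (hx : ∀ σ ∈ P.inertiaSubgroupIn ℚ, σ x = x) :
    ∃ r ∈ ntslA0 P, ∃ s ∈ ntslA0 P, s ≠ 0 ∧ x * s = r := by
  have hxE : x ∈ beta0Field P := mem_beta0Field.mpr hx
  rcases P.mem_or_inv_mem x with h | h
  · exact ⟨x, ⟨h, hxE⟩, 1, (ntslA0 P).one_mem, one_ne_zero, mul_one x⟩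
  · by_cases hx0 : x = 0
    · exact ⟨0, (ntslA0 P).zero_mem, 1, (ntslA0 P).one_mem, one_ne_zero, by rw [hx0, zero_mul]⟩
    · exact ⟨1, (ntslA0 P).one_mem, x⁻¹, ⟨h, (beta0Field P).inv_mem hxE⟩, inv_ne_zero hx0,
        mul_inv_cancel₀ hx0⟩

/-- the surjection `beta0Ring P E₀ → A₀` -/
noncomputable def ntslA0Hom : beta0Ring P (beta0Field P) →+* ntslA0 P where
  toFun y := ⟨((y : beta0Field P) : NQb), ⟨y.2, (y : beta0Field P).2⟩⟩
  map_one' := rfl
  map_mul' _ _ := rfl
  map_zero' := rfl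
  map_add' _ _ := rfl

theorem ntslA0Hom_surjective : Function.Surjective (ntslA0Hom (P := P)) := by
  rintro ⟨x, hxP, hxE⟩
  exact ⟨⟨⟨x, hxE⟩, hxP⟩, rfl⟩

theorem ntslA0_isPrincipalIdealRing {p : ℕ} (hp : p.Prime) (hP : P.LiesOverPrime p) :
    IsPrincipalIdealRing (ntslA0 P) := by
  haveI : IsDiscreteValuationRing (beta0Ring P (beta0Field P)) := beta0Ring_isDVR_base hp hP
  exact IsPrincipalIdealRing.of_surjective (ntslA0Hom (P := P)) ntslA0Hom_surjective

theorem ntslA0_div_mem {p : ℕ} (hp : p.Prime) (hP : P.LiesOverPrime p) {x : NQb}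
    (hx : x ∈ ntslA0 P) (hx' : x ∈ P.nonunits) : x / (p : NQb) ∈ ntslA0 P :=
  ⟨beta0_div_mem hp hP hx.2 hx', (beta0Field P).div_mem hx.2 (natCast_mem _ p)⟩

theorem ntslA0_sep {p : ℕ} (hp : p.Prime) (hP : P.LiesOverPrime p) (x : NQb)
    (hx : ∀ s : ℕ, x / (p : NQb) ^ s ∈ ntslA0 P) : x = 0 := by
  haveI := ntslA0_isPrincipalIdealRing hp hP
  have hpK : (p : NQb) ≠ 0 := Nat.cast_ne_zero.mpr hp.ne_zero
  have hx0 : x ∈ ntslA0 P := by simpa using hx 0
  by_contra hne
  -- `p` is not a unit of `A₀`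
  have hpnu : ¬ IsUnit ((p : ℕ) : ntslA0 P) := by
    intro hu
    obtain ⟨u, hu⟩ := hu
    have h1 : ((u⁻¹ : (ntslA0 P)ˣ) : ntslA0 P) * ((p : ℕ) : ntslA0 P) = 1 := by
      rw [← hu]; exact Units.inv_mul u
    have h2 : (((u⁻¹ : (ntslA0 P)ˣ) : ntslA0 P) : NQb) * (p : NQb) = 1 := by
      have := congrArg (Subtype.val) h1
      simpa using this
    have h3 : (p : NQb)⁻¹ ∈ P := by
      have : (p : NQb)⁻¹ = (((u⁻¹ : (ntslA0 P)ˣ) : ntslA0 P) : NQb) := by
        field_simp
        rw [mul_comm]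
        exact h2.symm
      rw [this]
      exact ((u⁻¹ : (ntslA0 P)ˣ) : ntslA0 P).2.1
    have h4 : (p : NQb) ∈ P.nonunits := hP
    rw [ValuationSubring.mem_nonunits_iff] at h4
    have h5 : P.valuation ((p : NQb)⁻¹) ≤ 1 := (P.valuation_le_one_iff _).mpr h3
    rw [map_inv₀] at h5
    have h6 : P.valuation (p : NQb) ≠ 0 := by
      rw [Ne, Valuation.zero_iff]; exact hpK
    have h7 : 1 ≤ P.valuation (p : NQb) := by
      have := (inv_le_one₀ (zero_lt_iff.mpr h6)).mp h5
      exact this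
    exact absurd h4 (not_lt.mpr h7)
  have hxne : (⟨x, hx0⟩ : ntslA0 P) ≠ 0 := by
    intro h
    exact hne (congrArg Subtype.val h)
  have hfin : FiniteMultiplicity ((p : ℕ) : ntslA0 P) (⟨x, hx0⟩ : ntslA0 P) :=
    FiniteMultiplicity.of_not_isUnit hpnu hxne
  obtain ⟨n, hn⟩ := hfin
  apply hn
  refine ⟨⟨x / (p : NQb) ^ (n + 1), hx (n + 1)⟩, ?_⟩
  apply Subtype.ext
  show x = (((((p : ℕ) : ntslA0 P) ^ (n + 1) : ntslA0 P)) : NQb) * (x / (p : NQb) ^ (n + 1))
  have e : (((((p : ℕ) : ntslA0 P) ^ (n + 1) : ntslA0 P)) : NQb) = (p : NQb) ^ (n + 1) := by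
    push_cast
    rfl
  rw [e, mul_div_cancel₀ _ (pow_ne_zero _ hpK)]

end A0

section Nonunits

variable {P : ValuationSubring NQb}

theorem ntsl_nu_zero : (0 : NQb) ∈ P.nonunits := by
  rw [ValuationSubring.mem_nonunits_iff, map_zero]
  exact zero_lt_one

theorem ntsl_nu_add {x y : NQb} (hx : x ∈ P.nonunits) (hy : y ∈ P.nonunits) :
    x + y ∈ P.nonunits := by
  rw [ValuationSubring.mem_nonunits_iff] at *
  exact lt_of_le_of_lt (P.valuation.map_add x y) (max_lt hx hy)

theorem ntsl_nu_neg {x : NQb} (hx : x ∈ P.nonunits) : -x ∈ P.nonunits := by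
  rw [ValuationSubring.mem_nonunits_iff] at *
  rwa [Valuation.map_neg]

theorem ntsl_nu_sub {x y : NQb} (hx : x ∈ P.nonunits) (hy : y ∈ P.nonunits) :
    x - y ∈ P.nonunits := by
  rw [sub_eq_add_neg]
  exact ntsl_nu_add hx (ntsl_nu_neg hy)

theorem ntsl_nu_mul {a x : NQb} (ha : a ∈ P) (hx : x ∈ P.nonunits) : a * x ∈ P.nonunits := by
  rw [ValuationSubring.mem_nonunits_iff] at *
  rw [map_mul]
  have h1 : P.valuation a ≤ 1 := (P.valuation_le_one_iff a).mpr ha
  calc P.valuation a * P.valuation x ≤ 1 * P.valuation x := mul_le_mul' h1 le_rfl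
    _ = P.valuation x := one_mul _
    _ < 1 := hx

theorem ntsl_nu_mem {x : NQb} (hx : x ∈ P.nonunits) : x ∈ P := by
  rw [ValuationSubring.mem_nonunits_iff] at hx
  exact (P.valuation_le_one_iff x).mp hx.le

/-- congruence of products -/
theorem ntsl_nu_mul_sub_mul {a a' b b' : NQb} (ha : a ∈ P) (hb' : b' ∈ P)
    (h1 : a - a' ∈ P.nonunits) (h2 : b - b' ∈ P.nonunits) : a * b - a' * b' ∈ P.nonunits := by
  have e : a * b - a' * b' = a * (b - b') + b' * (a - a') := by ring
  rw [e]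
  exact ntsl_nu_add (ntsl_nu_mul ha h2) (ntsl_nu_mul hb' h1)

end Nonunits

section Lattice

variable {p : ℕ} {P : ValuationSubring NQb} {M : Type} [AddCommGroup M] {act : GQb → M → M}
  {H : Subalgebra (GaloisRep.ratLocalizedAt p) (M → NQb)}

/-- `ℤ_(p) ⊂ P` -/
theorem ntsl_rat_mem (hp : p.Prime) (hP : P.LiesOverPrime p) (r : GaloisRep.ratLocalizedAt p) :
    algebraMap ℚ NQb (r : ℚ) ∈ P :=
  (desc_rat_mem_iff hp P hP (r : ℚ)).mpr r.2

/-- `ℤ_(p) ⊂ A₀` -/
theorem ntsl_rat_mem_A0 (hp : p.Prime) (hP : P.LiesOverPrime p)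
    (r : GaloisRep.ratLocalizedAt p) : algebraMap ℚ NQb (r : ℚ) ∈ ntslA0 P :=
  ⟨ntsl_rat_mem hp hP r, (beta0Field P).algebraMap_mem _⟩

/-- the ring homomorphism `ℤ_(p) → P` -/
noncomputable def ntslRatHom (hp : p.Prime) (hP : P.LiesOverPrime p) :
    GaloisRep.ratLocalizedAt p →+* P where
  toFun r := ⟨algebraMap ℚ NQb (r : ℚ), ntsl_rat_mem hp hP r⟩
  map_one' := by apply Subtype.ext; simp
  map_mul' x y := by apply Subtype.ext; simp
  map_zero' := by apply Subtype.ext; simp
  map_add' x y := by apply Subtype.ext; simp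

/-- an element of `ℚ̄` which is integral over `ℤ_(p)` lies in `P` -/
theorem ntsl_mem_of_isIntegral (hp : p.Prime) (hP : P.LiesOverPrime p) {y : NQb}
    (hy : IsIntegral (GaloisRep.ratLocalizedAt p) y) : y ∈ P := by
  obtain ⟨f, hf, hf0⟩ := hy
  have h3 : IsIntegral P y := by
    refine ⟨f.map (ntslRatHom hp hP), hf.map _, ?_⟩
    rw [Polynomial.eval₂_map]
    exact hf0
  obtain ⟨z, hz⟩ := (IsIntegrallyClosed.isIntegral_iff (R := P) (K := NQb)).mp h3
  rw [← hz]
  exact z.2

/-- values of a Hopf lattice over `ℤ_(p)` lie in `P` -/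
theorem ntsl_value_mem (hp : p.Prime) (hP : P.LiesOverPrime p)
    (hfg : (Subalgebra.toSubmodule H).FG) {h : M → NQb} (hh : h ∈ H) (x : M) : h x ∈ P := by
  have h1 : IsIntegral (GaloisRep.ratLocalizedAt p) h := IsIntegral.of_mem_of_fg H hfg h hh
  have h2 : IsIntegral (GaloisRep.ratLocalizedAt p) (h x) :=
    h1.map (Pi.evalAlgHom (GaloisRep.ratLocalizedAt p) (fun _ : M => NQb) x)
  exact ntsl_mem_of_isIntegral hp hP h2

theorem ntsl_R_smul_apply {X : Type} (r : GaloisRep.ratLocalizedAt p) (F : X → NQb) (x : X) :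
    (r • F) x = algebraMap ℚ NQb (r : ℚ) * F x := by
  rw [Pi.smul_apply, Algebra.smul_def]
  rfl

/-- **Congruence through the comultiplication**: if `a x ≡ a x'` and `b y ≡ b y'` for all
`a, b ∈ H` then `h (x + y) ≡ h (x' + y')` for all `h ∈ H`. -/
theorem ntsl_comul_congr (hp : p.Prime) (hP : P.LiesOverPrime p)
    (hH : IsHopfLattice (GaloisRep.ratLocalizedAt p) act H) {x x' y y' : M}
    (hx : ∀ a ∈ H, a x - a x' ∈ P.nonunits) (hy : ∀ b ∈ H, b y - b y' ∈ P.nonunits)
    {h : M → NQb} (hh : h ∈ H) : h (x + y) - h (x' + y') ∈ P.nonunits := by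
  have key : ∀ F ∈ Submodule.span (GaloisRep.ratLocalizedAt p)
      {F : M × M → NQb | ∃ a ∈ H, ∃ b ∈ H, F = fun PQ => a PQ.1 * b PQ.2},
      F (x, y) - F (x', y') ∈ P.nonunits := by
    intro F hF
    induction hF using Submodule.span_induction with
    | mem F hF =>
      obtain ⟨a, ha, b, hb, rfl⟩ := hF
      exact ntsl_nu_mul_sub_mul (ntsl_value_mem hp hP hH.fg ha x)
        (ntsl_value_mem hp hP hH.fg hb y') (hx a ha) (hy b hb)
    | zero =>
      simp only [Pi.zero_apply, sub_zero]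
      exact ntsl_nu_zero
    | add F G _ _ hF hG =>
      have e : (F + G) (x, y) - (F + G) (x', y') =
          (F (x, y) - F (x', y')) + (G (x, y) - G (x', y')) := by
        simp only [Pi.add_apply]; ring
      rw [e]
      exact ntsl_nu_add hF hG
    | smul r F _ hF =>
      have e : (r • F) (x, y) - (r • F) (x', y') =
          algebraMap ℚ NQb (r : ℚ) * (F (x, y) - F (x', y')) := by
        rw [ntsl_R_smul_apply, ntsl_R_smul_apply]
        ring
      rw [e]
      exact ntsl_nu_mul (ntsl_rat_mem hp hP r) hF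
  exact key _ (hH.comul_mem h hh)

/-- the "connected part" `M⁰ = {m | ∀ h ∈ H, h m ≡ h 0 mod 𝔪_P}` -/
def ntslConn (hp : p.Prime) (hP : P.LiesOverPrime p)
    (hH : IsHopfLattice (GaloisRep.ratLocalizedAt p) act H) : AddSubgroup M where
  carrier := {m | ∀ h ∈ H, h m - h 0 ∈ P.nonunits}
  zero_mem' := by
    intro h _
    rw [sub_self]
    exact ntsl_nu_zero
  add_mem' := by
    intro x y hx hy h hh
    have := ntsl_comul_congr hp hP hH (x := x) (x' := 0) (y := y) (y' := 0) hx hy hh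
    rwa [add_zero] at this
  neg_mem' := by
    intro x hx h hh
    have := hx _ (hH.antipode_mem h hh)
    simpa using this

theorem mem_ntslConn (hp : p.Prime) (hP : P.LiesOverPrime p)
    (hH : IsHopfLattice (GaloisRep.ratLocalizedAt p) act H) {m : M} :
    m ∈ ntslConn hp hP hH ↔ ∀ h ∈ H, h m - h 0 ∈ P.nonunits := Iff.rfl

/-- `𝔄 M ≤ M⁰` -/
theorem ntsl_span_le_conn (hp : p.Prime) (hP : P.LiesOverPrime p)
    (hH : IsHopfLattice (GaloisRep.ratLocalizedAt p) act H) :
    ntsSpan (P.inertiaSubgroupIn ℚ) act ⊤ ≤ ntslConn hp hP hH := by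
  rw [ntsSpan, AddSubgroup.closure_le]
  rintro w ⟨σ, hσ, m, -, rfl⟩ h hh
  have h1 : ∀ a ∈ H, a (act σ m) - a m ∈ P.nonunits := by
    intro a ha
    rw [hH.equivariant a ha σ m]
    exact Fermat.Agent.S05.inertia_apply_sub_mem_nonunits hσ (ntsl_value_mem hp hP hH.fg ha m)
  have h2 : ∀ b ∈ H, b (-m) - b (-m) ∈ P.nonunits := by
    intro b _
    rw [sub_self]
    exact ntsl_nu_zero
  have := ntsl_comul_congr hp hP hH h1 h2 hh
  rwa [add_neg_cancel, ← sub_eq_add_neg] at this

end Lattice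

section Pure

variable {R : Subring NQb} {X : Type}

/-- the span of the pure tensors of a subalgebra is closed under multiplication -/
theorem ntsl_pure_mul (Hs : Subalgebra R (X → NQb)) {G₁ G₂ : X × X → NQb}
    (h1 : G₁ ∈ Submodule.span R {F : X × X → NQb | ∃ a ∈ Hs, ∃ b ∈ Hs,
      F = fun xy => a xy.1 * b xy.2})
    (h2 : G₂ ∈ Submodule.span R {F : X × X → NQb | ∃ a ∈ Hs, ∃ b ∈ Hs,
      F = fun xy => a xy.1 * b xy.2}) :
    G₁ * G₂ ∈ Submodule.span R {F : X × X → NQb | ∃ a ∈ Hs, ∃ b ∈ Hs,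
      F = fun xy => a xy.1 * b xy.2} := by
  have h := Submodule.mul_mem_mul h1 h2
  rw [Submodule.span_mul_span] at h
  refine Submodule.span_mono ?_ h
  rintro _ ⟨_, ⟨a, ha, b, hb, rfl⟩, _, ⟨a', ha', b', hb', rfl⟩, rfl⟩
  refine ⟨a * a', Hs.mul_mem ha ha', b * b', Hs.mul_mem hb hb', ?_⟩
  funext xy
  simp only [Pi.mul_apply]
  ring

end Pure

section Restrict

variable {p : ℕ} {P : ValuationSubring NQb} {M : Type} [AddCommGroup M] {act : GQb → M → M}
  {H : Subalgebra (GaloisRep.ratLocalizedAt p) (M → NQb)}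

/-- restriction of functions to `B`, as a ring homomorphism -/
def ntslRes (B : AddSubgroup M) : (M → NQb) →+* (B → NQb) where
  toFun f := fun b => f b
  map_one' := rfl
  map_mul' _ _ := rfl
  map_zero' := rfl
  map_add' _ _ := rfl

@[simp] theorem ntslRes_apply (B : AddSubgroup M) (f : M → NQb) (b : B) :
    ntslRes B f b = f b := rfl

/-- the generating set: restrictions of the elements of `H` -/
def ntslGen (H : Subalgebra (GaloisRep.ratLocalizedAt p) (M → NQb)) (B : AddSubgroup M) :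
    Set (B → NQb) := {f | ∃ h ∈ H, f = ntslRes B h}

variable (P) in
/-- the `A₀`-algebra generated by the restrictions of the elements of `H` -/
noncomputable def ntslHB (H : Subalgebra (GaloisRep.ratLocalizedAt p) (M → NQb))
    (B : AddSubgroup M) : Subalgebra (ntslA0 P) (B → NQb) :=
  Algebra.adjoin (ntslA0 P) (ntslGen H B)

open Classical in
/-- the restricted action -/
noncomputable def ntslAct (act : GQb → M → M) (B : AddSubgroup M) : GQb → B → B :=
  fun σ b => if h : act σ b ∈ B then ⟨act σ b, h⟩ else b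

theorem ntslAct_coe {B : AddSubgroup M} {σ : GQb} {b : B} (h : act σ b ∈ B) :
    ((ntslAct act B σ b : B) : M) = act σ b := by
  unfold ntslAct
  rw [dif_pos h]

theorem ntsl_A0_algebraMap_apply {X : Type} (r : ntslA0 P) (x : X) :
    algebraMap (ntslA0 P) (X → NQb) r x = (r : NQb) := rfl

theorem ntsl_A0_smul_apply {X : Type} (r : ntslA0 P) (F : X → NQb) (x : X) :
    (r • F) x = (r : NQb) * F x := rfl

theorem ntsl_res_mem (B : AddSubgroup M) {h : M → NQb} (hh : h ∈ H) :
    ntslRes B h ∈ ntslHB P H B :=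
  Algebra.subset_adjoin ⟨h, hh, rfl⟩

/-- (a) values in `P` -/
theorem ntslHB_value_mem (hp : p.Prime) (hP : P.LiesOverPrime p)
    (hH : IsHopfLattice (GaloisRep.ratLocalizedAt p) act H) (B : AddSubgroup M)
    {f : B → NQb} (hf : f ∈ ntslHB P H B) (b : B) : f b ∈ P := by
  unfold ntslHB at hf
  induction hf using Algebra.adjoin_induction with
  | mem f hf =>
    obtain ⟨h, hh, rfl⟩ := hf
    exact ntsl_value_mem hp hP hH.fg hh _
  | algebraMap r => exact r.2.1
  | add f g _ _ hf hg => exact P.add_mem _ _ hf hg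
  | mul f g _ _ hf hg => exact P.mul_mem _ _ hf hg

/-- (b) equivariance under `I` -/
theorem ntslHB_equivariant (hH : IsHopfLattice (GaloisRep.ratLocalizedAt p) act H)
    {B : AddSubgroup M} (hst : ntsStable (P.inertiaSubgroupIn ℚ) act B)
    {f : B → NQb} (hf : f ∈ ntslHB P H B) {σ : GQb} (hσ : σ ∈ P.inertiaSubgroupIn ℚ) (b : B) :
    f (ntslAct act B σ b) = σ (f b) := by
  unfold ntslHB at hf
  induction hf using Algebra.adjoin_induction with
  | mem f hf =>
    obtain ⟨h, hh, rfl⟩ := hf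
    show h ((ntslAct act B σ b : B) : M) = σ (h b)
    rw [ntslAct_coe (hst σ hσ b b.2)]
    exact hH.equivariant h hh σ b
  | algebraMap r =>
    rw [ntsl_A0_algebraMap_apply, ntsl_A0_algebraMap_apply]
    exact (ntslA0_fixed r.2 hσ).symm
  | add f g _ _ hf hg =>
    simp only [Pi.add_apply, map_add, hf, hg]
  | mul f g _ _ hf hg =>
    simp only [Pi.mul_apply, map_mul, hf, hg]

/-- (c) congruence: `f b ≡ f 0 mod 𝔪_P` when `B ≤ M⁰` -/
theorem ntslHB_congr (hp : p.Prime) (hP : P.LiesOverPrime p)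
    (hH : IsHopfLattice (GaloisRep.ratLocalizedAt p) act H) {B : AddSubgroup M}
    (hB : B ≤ ntslConn hp hP hH) {f : B → NQb} (hf : f ∈ ntslHB P H B) (b : B) :
    f b - f 0 ∈ P.nonunits := by
  have hf' := hf
  unfold ntslHB at hf
  induction hf using Algebra.adjoin_induction with
  | mem f hf =>
    obtain ⟨h, hh, rfl⟩ := hf
    exact hB b.2 h hh
  | algebraMap r =>
    rw [ntsl_A0_algebraMap_apply, ntsl_A0_algebraMap_apply, sub_self]
    exact ntsl_nu_zero
  | add f g hf0 hg0 hf hg =>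
    have e : (f + g) b - (f + g) 0 = (f b - f 0) + (g b - g 0) := by
      simp only [Pi.add_apply]; ring
    rw [e]
    exact ntsl_nu_add (hf hf0) (hg hg0)
  | mul f g hf0 hg0 hf hg =>
    exact ntsl_nu_mul_sub_mul (ntslHB_value_mem hp hP hH B hf0 b)
      (ntslHB_value_mem hp hP hH B hg0 0) (hf hf0) (hg hg0)

/-- (d) separation of points -/
theorem ntslHB_separates (hH : IsHopfLattice (GaloisRep.ratLocalizedAt p) act H)
    (B : AddSubgroup M) (x y : B) (hxy : ∀ f ∈ ntslHB P H B, f x = f y) : x = y := by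
  apply Subtype.ext
  apply hH.separates
  intro h hh
  exact hxy _ (ntsl_res_mem B hh)

/-- the ring homomorphism `ℤ_(p) → A₀` -/
noncomputable def ntslRatHomA0 (hp : p.Prime) (hP : P.LiesOverPrime p) :
    GaloisRep.ratLocalizedAt p →+* ntslA0 P where
  toFun r := ⟨algebraMap ℚ NQb (r : ℚ), ntsl_rat_mem_A0 hp hP r⟩
  map_one' := by apply Subtype.ext; simp
  map_mul' x y := by apply Subtype.ext; simp
  map_zero' := by apply Subtype.ext; simp
  map_add' x y := by apply Subtype.ext; simp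

theorem ntsl_res_smul (hp : p.Prime) (hP : P.LiesOverPrime p) (B : AddSubgroup M)
    (r : GaloisRep.ratLocalizedAt p) (h : M → NQb) :
    ntslRes B (r • h) = ntslRatHomA0 hp hP r • ntslRes B h := by
  funext b
  rw [ntslRes_apply, ntsl_R_smul_apply, ntsl_A0_smul_apply]
  rfl

/-- restrictions of elements of the `ℤ_(p)`-span of `t` lie in the `A₀`-algebra generated by the
restrictions of the elements of `t` -/
theorem ntsl_res_mem_adjoin (hp : p.Prime) (hP : P.LiesOverPrime p) (B : AddSubgroup M)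
    (t : Set (M → NQb)) {h : M → NQb}
    (hh : h ∈ Submodule.span (GaloisRep.ratLocalizedAt p) t) :
    ntslRes B h ∈ Algebra.adjoin (ntslA0 P) ((ntslRes B) '' t) := by
  induction hh using Submodule.span_induction with
  | mem h hh => exact Algebra.subset_adjoin ⟨h, hh, rfl⟩
  | zero => rw [map_zero]; exact Subalgebra.zero_mem _
  | add f g _ _ hf hg => rw [map_add]; exact Subalgebra.add_mem _ hf hg
  | smul r f _ hf =>
    rw [ntsl_res_smul hp hP]
    exact Subalgebra.smul_mem _ hf _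

/-- (e) `H_B` is a finitely generated `A₀`-module -/
theorem ntslHB_fg (hp : p.Prime) (hP : P.LiesOverPrime p)
    (hH : IsHopfLattice (GaloisRep.ratLocalizedAt p) act H) (B : AddSubgroup M) :
    (Subalgebra.toSubmodule (ntslHB P H B)).FG := by
  obtain ⟨t, ht⟩ := hH.fg
  have htH : ∀ g ∈ t, g ∈ H := by
    intro g hg
    have : g ∈ Subalgebra.toSubmodule H := by
      rw [← ht]
      exact Submodule.subset_span hg
    exact this
  have heq : ntslHB P H B = Algebra.adjoin (ntslA0 P) ((ntslRes B) '' (t : Set (M → NQb))) := by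
    apply le_antisymm
    · unfold ntslHB
      rw [Algebra.adjoin_le_iff]
      rintro f ⟨h, hh, rfl⟩
      apply ntsl_res_mem_adjoin hp hP B
      rw [ht]
      exact hh
    · apply Algebra.adjoin_mono
      rintro _ ⟨g, hg, rfl⟩
      exact ⟨g, htH g hg, rfl⟩
  rw [heq]
  apply fg_adjoin_of_finite ((t.finite_toSet).image _)
  rintro _ ⟨g, hg, rfl⟩
  -- integrality of `res g` over `A₀`
  have h1 : IsIntegral (GaloisRep.ratLocalizedAt p) g :=
    IsIntegral.of_mem_of_fg H hH.fg g (htH g hg)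
  obtain ⟨f, hf, hf0⟩ := h1
  refine ⟨f.map (ntslRatHomA0 hp hP), hf.map _, ?_⟩
  rw [Polynomial.eval₂_map]
  have hcomp : (algebraMap (ntslA0 P) (B → NQb)).comp (ntslRatHomA0 hp hP)
      = (ntslRes B).comp (algebraMap (GaloisRep.ratLocalizedAt p) (M → NQb)) := by
    ext r b
    rfl
  rw [hcomp, ← Polynomial.hom_eval₂, hf0, map_zero]

/-- (f) `H_B` is closed under comultiplication -/
theorem ntslHB_comul (hp : p.Prime) (hP : P.LiesOverPrime p)
    (hH : IsHopfLattice (GaloisRep.ratLocalizedAt p) act H) (B : AddSubgroup M)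
    {f : B → NQb} (hf : f ∈ ntslHB P H B) :
    (fun xy : B × B => f (xy.1 + xy.2)) ∈
      Submodule.span (ntslA0 P) {F : B × B → NQb | ∃ a ∈ ntslHB P H B, ∃ b ∈ ntslHB P H B,
        F = fun xy => a xy.1 * b xy.2} := by
  unfold ntslHB at hf
  induction hf using Algebra.adjoin_induction with
  | mem f hf =>
    obtain ⟨h, hh, rfl⟩ := hf
    -- restrict the comultiplication of `h`
    have key : ∀ G ∈ Submodule.span (GaloisRep.ratLocalizedAt p)
        {F : M × M → NQb | ∃ a ∈ H, ∃ b ∈ H, F = fun PQ => a PQ.1 * b PQ.2},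
        (fun xy : B × B => G ((xy.1 : M), (xy.2 : M))) ∈
          Submodule.span (ntslA0 P) {F : B × B → NQb | ∃ a ∈ ntslHB P H B,
            ∃ b ∈ ntslHB P H B, F = fun xy => a xy.1 * b xy.2} := by
      intro G hG
      induction hG using Submodule.span_induction with
      | mem G hG =>
        obtain ⟨a, ha, b, hb, rfl⟩ := hG
        exact Submodule.subset_span ⟨ntslRes B a, ntsl_res_mem B ha, ntslRes B b,
          ntsl_res_mem B hb, rfl⟩
      | zero => exact Submodule.zero_mem _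
      | add F G _ _ hF hG => exact Submodule.add_mem _ hF hG
      | smul r F _ hF =>
        have e : (fun xy : B × B => (r • F) ((xy.1 : M), (xy.2 : M)))
            = ntslRatHomA0 hp hP r • (fun xy : B × B => F ((xy.1 : M), (xy.2 : M))) := by
          funext xy
          rw [ntsl_R_smul_apply, ntsl_A0_smul_apply]
          rfl
        rw [e]
        exact Submodule.smul_mem _ _ hF
    exact key _ (hH.comul_mem h hh)
  | algebraMap r =>
    have e : (fun xy : B × B => algebraMap (ntslA0 P) (B → NQb) r (xy.1 + xy.2))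
        = r • (fun xy : B × B => (1 : B → NQb) xy.1 * (1 : B → NQb) xy.2) := by
      funext xy
      rw [ntsl_A0_algebraMap_apply, ntsl_A0_smul_apply]
      simp
    rw [e]
    exact Submodule.smul_mem _ _ (Submodule.subset_span
      ⟨1, Subalgebra.one_mem _, 1, Subalgebra.one_mem _, rfl⟩)
  | add f g _ _ hf hg =>
    exact Submodule.add_mem _ hf hg
  | mul f g _ _ hf hg =>
    exact ntsl_pure_mul (Algebra.adjoin (ntslA0 P) (ntslGen H B)) hf hg

/-- `H_B` is a Hopf lattice over `(A₀, I)` -/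
theorem ntslHB_isHopfLatticeOver (hp : p.Prime) (hP : P.LiesOverPrime p)
    (hH : IsHopfLattice (GaloisRep.ratLocalizedAt p) act H) {B : AddSubgroup M}
    (hst : ntsStable (P.inertiaSubgroupIn ℚ) act B) :
    IsHopfLatticeOver (ntslA0 P) (P.inertiaSubgroupIn ℚ) (ntslAct act B) (ntslHB P H B) where
  fg := ntslHB_fg hp hP hH B
  equivariant := fun _ hf _ hσ b => ntslHB_equivariant hH hst hf hσ b
  separates := ntslHB_separates hH B
  comul_mem := fun _ hf => ntslHB_comul hp hP hH B hf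

end Restrict

section Final

/-- a group of exponent `p^m` without elements of order `p` is trivial -/
theorem ntsl_eq_zero_of_pow {Q : Type*} [AddCommGroup Q] {p : ℕ}
    (h1 : ∀ q : Q, p • q = 0 → q = 0) (m : ℕ) (q : Q) (hq : p ^ m • q = 0) : q = 0 := by
  induction m generalizing q with
  | zero => simpa using hq
  | succ m ih =>
    apply ih
    apply h1
    rw [← mul_smul, ← pow_succ']
    exact hq

/-- **B3**, from B1 and B2. -/
theorem stmtNTSOfLattice_of (hB1 : StmtSQLocQuot) : StmtNTSOfLattice := by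
  intro p hp hp2 P hP M _ _ act hact hpow H hH B hB hst b hb
  obtain ⟨m, hm⟩ := hpow
  -- the quotient `Q = B / 𝔄 B`
  set C : AddSubgroup M := ntsSpan (P.inertiaSubgroupIn ℚ) act B with hC
  let C' : AddSubgroup B := C.addSubgroupOf B
  let π : B →+ B ⧸ C' := QuotientAddGroup.mk' C'
  have hπ : Function.Surjective π := QuotientAddGroup.mk'_surjective C'
  let act'' : GQb → B ⧸ C' → B ⧸ C' := fun _ x => x
  have hequiv : ∀ σ ∈ P.inertiaSubgroupIn ℚ, ∀ x : B, π (ntslAct act B σ x) = act'' σ (π x) := by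
    intro σ hσ x
    show π (ntslAct act B σ x) = π x
    rw [← sub_eq_zero, ← map_sub]
    apply (QuotientAddGroup.eq_zero_iff _).mpr
    show ((ntslAct act B σ x - x : B) : M) ∈ C
    rw [AddSubgroup.coe_sub, ntslAct_coe (hst σ hσ x x.2)]
    exact sub_mem_ntsSpan hσ x.2
  -- the Hopf lattice on `Q`
  have hHB := ntslHB_isHopfLatticeOver hp hP hH hst
  have hQ := hB1 (ntslA0 P) (P.inertiaSubgroupIn ℚ) (ntslA0_isPrincipalIdealRing hp hP)
    (fun r hr σ hσ => ntslA0_fixed hr hσ) ntslA0_frac B inferInstance inferInstance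
    (ntslAct act B) (B ⧸ C') inferInstance act'' (ntslHB P H B) hHB π hπ hequiv
  have hBconn : B ≤ ntslConn hp hP hH := hB.trans (ntsl_span_le_conn hp hP hH)
  -- no element of order `p` in `Q`
  have hnop : ∀ q : B ⧸ C', p • q = 0 → q = 0 := by
    intro q hq
    apply hQ.separates
    have hval : ∀ φ ∈ ((ntslHB P H B).comap (pullFnOver (ntslA0 P) π) : Set (B ⧸ C' → NQb)),
        ∀ x, φ x ∈ ntslA0 P := by
      intro φ hφ x
      obtain ⟨y, rfl⟩ := hπ x
      refine ⟨ntslHB_value_mem hp hP hH B hφ y, ?_⟩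
      show φ (π y) ∈ beta0Field P
      rw [mem_beta0Field]
      intro σ hσ
      exact (hQ.equivariant φ hφ σ hσ (π y)).symm
    have hconn : ∀ φ ∈ ((ntslHB P H B).comap (pullFnOver (ntslA0 P) π) : Set (B ⧸ C' → NQb)),
        (φ q - φ 0) / (p : NQb) ∈ ntslA0 P := by
      intro φ hφ
      apply ntslA0_div_mem hp hP ((ntslA0 P).sub_mem (hval φ hφ q) (hval φ hφ 0))
      obtain ⟨y, rfl⟩ := hπ q
      have := ntslHB_congr hp hP hH hBconn hφ y
      simpa using this
    exact stmtRayLite NQb inferInstance inferInstance (ntslA0 P) p hp hp2 (ntslA0_sep hp hP)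
      (B ⧸ C') inferInstance q hq _ hval hQ.comul_mem hconn
  -- conclusion
  have hzero : π ⟨b, hb⟩ = 0 := by
    apply ntsl_eq_zero_of_pow hnop m
    rw [← map_nsmul]
    have : p ^ m • (⟨b, hb⟩ : B) = 0 := by
      apply Subtype.ext
      simpa using hm b
    rw [this, map_zero]
  have := (QuotientAddGroup.eq_zero_iff _).mp hzero
  exact this

/-- **B3** (`Plan2.lean`), unconditional. -/
theorem stmtNTSOfLattice : StmtNTSOfLattice := stmtNTSOfLattice_of stmtSQLocQuot

end Final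

end Fermat.Agent.S33
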