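import Fermat.Agent.S33.FlatOrd
import Fermat.Agent.S33.NTSJZero
import Fermat.Agent.S33.NTSOfLattice
import Fermat.Agent.S33.DetCyclo

/-!
# S33 v2, pieces B4 + FO (helper15), unconditional forms

* `isOrdinaryAt_of_isFlatAt` : **flat at `p` + residually ordinary + cyclotomic determinant ⇒
  ordinary at `p`** (`p` odd), for every `GaloisRepAdic` over a Noetherian local ring.
* `nts_jzero_good` : (KEY) at a level prime to `p`: `NTS I_P (𝔄 J₀(N)[pᵏ])`, `p ∤ N`, `p` odd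
  (the hypothesis `hold` of `nts_key_of_new`).
* `nts_jzero_good_tors` : the same on the group `J₀(N)[pᵏ]` itself.
-/

set_option autoImplicit false

namespace Fermat.Agent.S33

open ModularCurve Fermat.Agent.W1

/-- **FO.**  A representation which is flat at the odd prime `p`, residually ordinary at `p` and
has cyclotomic determinant is ordinary at `p`. -/
theorem isOrdinaryAt_of_isFlatAt {A : Type} [CommRing A] [IsLocalRing A] [IsNoetherianRing A]
    (ρ : GaloisRepAdic A) {p : ℕ} (hp : p.Prime) (hp2 : p ≠ 2)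
    (hdet : ρ.DetIsCyclotomic p)
    (hres : (GaloisRepAdic.ofResidualGaloisRep ρ.residual).IsOrdinaryAt p)
    (hflat : ρ.IsFlatAt p) : ρ.IsOrdinaryAt p :=
  fo_isOrdinaryAt_of_isFlatAt stmtNTSOfLattice ρ hp hp2 hdet.1
    (fun P hP => exists_inertia_residual_ne_one hp hp2 ρ hdet P hP) hres hflat

/-- **B4** (torsion form): `NTS` for the inertia span of `J₀(N)[pᵏ]`, `p ∤ N`, `p` odd. -/
theorem nts_jzero_good_tors (N : ℕ) [NeZero N] {p : ℕ} (hp : p.Prime)
    (hp2 : p ≠ 2) (hpN : ¬ p ∣ N) (P : ValuationSubring (AlgebraicClosure ℚ))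
    (hP : P.LiesOverPrime p) (k : ℕ) :
    NTS (P.inertiaSubgroupIn ℚ) (torsAct (JZero N) ((p : ℤ) ^ k))
      (ntsSpan (P.inertiaSubgroupIn ℚ) (torsAct (JZero N) ((p : ℤ) ^ k)) ⊤) :=
  fo_nts_jzero_tors stmtNTSOfLattice N hp hp2 hpN P hP k

/-- **B4** (ambient form, the hypothesis `hold` of `nts_key_of_new`). -/
theorem nts_jzero_good (N : ℕ) [NeZero N] {p : ℕ} (hp : p.Prime)
    (hp2 : p ≠ 2) (hpN : ¬ p ∣ N) (P : ValuationSubring (AlgebraicClosure ℚ))
    (hP : P.LiesOverPrime p) (k : ℕ) :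
    NTS (P.inertiaSubgroupIn ℚ)
      (fun (σ : AlgebraicClosure ℚ ≃ₐ[ℚ] AlgebraicClosure ℚ) (x : JZero N) => σ • x)
      (ntsSpan (P.inertiaSubgroupIn ℚ)
        (fun (σ : AlgebraicClosure ℚ ≃ₐ[ℚ] AlgebraicClosure ℚ) (x : JZero N) => σ • x)
        (ntsTors (JZero N) (p ^ k))) :=
  fo_nts_jzero stmtNTSOfLattice N hp hp2 hpN P hP k

end Fermat.Agent.S33
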