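import Fermat.Agent.S33.NormDepthMod

/-!
# S33, route v2, block C3 "NORM-DEPTH": the iteration (helper90)

`stmtNewSplit_of_start : StmtDepthStart p → StmtNewSplit hp hpM`.

`ϖ ∣ p`:  depth `ϖ ^ j` at one of `v_∞`, `v_0` (`j ≥ 1`) gives depth `ϖ ^ (j + 1)` at both
(`stmtNormDepth`, `s33nd_step_beta` with `c = ϖ ^ j`, `d = ϖ ^ (j + 1)`); `p ∣ ϖ ^ e` gives depth
`p ^ k` for all `k`.
-/

set_option autoImplicit false

noncomputable section

namespace Fermat.Agent.S33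

open ModularCurve AlgebraicCurve Fermat.Agent.ES Fermat.Agent.ES.G2 Fermat.Agent.STB
  Fermat.Agent.UNIP

section

variable {p M : ℕ} [NeZero p] [NeZero M] [NeZero (M * p)] (hp : p.Prime) (hpM : ¬ p ∣ M)

omit [NeZero p] in
/-- the two divisibilities of one step with `c = ϖ ^ j`, `d = ϖ ^ (j + 1)` -/
theorem s33ns_dvd {A : ValuationSubring Qb} {ϖ a : Qb} (hϖ : ϖ ∈ A)
    (hpa : (p : Qb) = ϖ * a) (hp2 : 2 ≤ p) (j : ℕ) (hj : 1 ≤ j) :
    ϖ ^ j * (p : Qb) = ϖ ^ (j + 1) * a ∧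
      ∃ e₂ : Qb, e₂ ∈ A ∧ (ϖ ^ j) ^ p = ϖ ^ (j + 1) * e₂ := by
  refine ⟨by rw [hpa]; ring, ϖ ^ (j * p - (j + 1)), A.pow_mem hϖ _, ?_⟩
  rw [← pow_mul, ← pow_add]
  congr 1
  have : j + 1 ≤ j * p := by nlinarith
  omega

/-- one round of the iteration -/
theorem s33ns_round (A : ValuationSubring Qb) (hA : A.LiesOverPrime p) {ϖ a : Qb} (hϖ : ϖ ∈ A)
    (ha : a ∈ A) (hpa : (p : Qb) = ϖ * a)
    {u : modularFunctionFieldBar (M * p)} (hu : u ≠ 0)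
    (hNα : ∃ (a : Qb) (f : modularFunctionFieldBar M),
      stbNormAlpha M p u = algebraMap Qb (modularFunctionFieldBar M) a * f ^ p)
    (hNβ : ∃ (a : Qb) (f : modularFunctionFieldBar M),
      stbNormBeta M p u = algebraMap Qb (modularFunctionFieldBar M) a * f ^ p)
    (j : ℕ) (hj : 1 ≤ j)
    (h : DepthInf A (M * p) p (ϖ ^ j) u ∨ DepthZero hp hpM A (ϖ ^ j) u) :
    DepthInf A (M * p) p (ϖ ^ (j + 1)) u ∧ DepthZero hp hpM A (ϖ ^ (j + 1)) u := by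
  obtain ⟨h₁, e₂, he₂, h₂⟩ := s33ns_dvd (A := A) hϖ hpa hp.two_le j hj
  have hc : ϖ ^ j ∈ A := A.pow_mem hϖ j
  have hdown : ϖ ^ (j + 1) = ϖ ^ j * ϖ := pow_succ ϖ j
  rcases h with h | h
  · have hZ : DepthZero hp hpM A (ϖ ^ (j + 1)) u :=
      s33nd_step_beta hp hpM A hA hc ha he₂ h₁ h₂ hu hNβ h
    exact ⟨stmtNormDepth hp hpM A hA _ _ _ _ hc ha he₂ h₁ h₂ u hu hNα
      (DepthZero.of_dvd hp hpM hϖ hdown hZ), hZ⟩
  · have hI : DepthInf A (M * p) p (ϖ ^ (j + 1)) u :=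
      stmtNormDepth hp hpM A hA _ _ _ _ hc ha he₂ h₁ h₂ u hu hNα h
    exact ⟨hI, s33nd_step_beta hp hpM A hA hc ha he₂ h₁ h₂ hu hNβ
      (DepthInf.of_dvd hϖ hdown hI)⟩

/-- the iteration: depth `ϖ` at one of the two valuations gives depth `ϖ ^ j` at both, all `j` -/
theorem s33ns_iter (A : ValuationSubring Qb) (hA : A.LiesOverPrime p) {ϖ a : Qb} (hϖ : ϖ ∈ A)
    (ha : a ∈ A) (hpa : (p : Qb) = ϖ * a)
    {u : modularFunctionFieldBar (M * p)} (hu : u ≠ 0)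
    (hNα : ∃ (a : Qb) (f : modularFunctionFieldBar M),
      stbNormAlpha M p u = algebraMap Qb (modularFunctionFieldBar M) a * f ^ p)
    (hNβ : ∃ (a : Qb) (f : modularFunctionFieldBar M),
      stbNormBeta M p u = algebraMap Qb (modularFunctionFieldBar M) a * f ^ p)
    (h : DepthInf A (M * p) p ϖ u ∨ DepthZero hp hpM A ϖ u) (j : ℕ) :
    DepthInf A (M * p) p (ϖ ^ (j + 2)) u ∧ DepthZero hp hpM A (ϖ ^ (j + 2)) u := by
  induction j with
  | zero =>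
      refine s33ns_round hp hpM A hA hϖ ha hpa hu hNα hNβ 1 le_rfl ?_
      rwa [pow_one]
  | succ j ih =>
      exact s33ns_round hp hpM A hA hϖ ha hpa hu hNα hNβ (j + 2) (by omega) (Or.inl ih.1)

/-- depth `ϖ` at one of the two valuations, `ϖ ∣ p`, `p ∣ ϖ ^ e`: split -/
theorem s33ns_split (A : ValuationSubring Qb) (hA : A.LiesOverPrime p) {ϖ a b : Qb} {e : ℕ}
    (hϖ : ϖ ∈ A) (ha : a ∈ A) (hb : b ∈ A) (hpa : (p : Qb) = ϖ * a)
    (hpe : ϖ ^ e = (p : Qb) * b)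
    {u : modularFunctionFieldBar (M * p)} (hu : u ≠ 0)
    (hNα : ∃ (a : Qb) (f : modularFunctionFieldBar M),
      stbNormAlpha M p u = algebraMap Qb (modularFunctionFieldBar M) a * f ^ p)
    (hNβ : ∃ (a : Qb) (f : modularFunctionFieldBar M),
      stbNormBeta M p u = algebraMap Qb (modularFunctionFieldBar M) a * f ^ p)
    (h : DepthInf A (M * p) p ϖ u ∨ DepthZero hp hpM A ϖ u) : IsSplitFn hp hpM A u := by
  intro k
  obtain ⟨h1, h2⟩ := s33ns_iter hp hpM A hA hϖ ha hpa hu hNα hNβ h (e * k)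
  have hdvd : ϖ ^ (e * k + 2) = (p : Qb) ^ k * (b ^ k * ϖ ^ 2) := by
    rw [pow_add, pow_mul, hpe, mul_pow]
    ring
  have hmem : b ^ k * ϖ ^ 2 ∈ A := A.mul_mem _ _ (A.pow_mem hb k) (A.pow_mem hϖ 2)
  exact ⟨DepthInf.of_dvd hmem hdvd h1, DepthZero.of_dvd hp hpM hmem hdvd h2⟩

/-- a uniform congruence for a constant multiple gives depth -/
theorem s33ns_depth_of_congr {A : ValuationSubring Qb} {N : ℕ} [NeZero N] (p : ℕ) {ϖ c₀ : Qb}
    (hc₀ : c₀ ≠ 0) {u : modularFunctionFieldBar N}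
    (h : CongrOneMod A N ϖ (algebraMap Qb (modularFunctionFieldBar N) c₀ * u)) :
    DepthInf A N p ϖ u := by
  refine ⟨c₀⁻¹, 1, inv_ne_zero hc₀, one_ne_zero, ?_⟩
  have e : u / (algebraMap Qb (modularFunctionFieldBar N) c₀⁻¹ * 1 ^ p) =
      algebraMap Qb (modularFunctionFieldBar N) c₀ * u := by
    rw [one_pow, mul_one, map_inv₀, div_inv_eq_mul, mul_comm]
  rw [e]
  exact h

/-- **C3**, modulo the start. -/
theorem stmtNewSplit_of_start (hS : StmtDepthStart p) : StmtNewSplit hp hpM := by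
  intro A hA u hu hNα hNβ hG
  rcases hG with ⟨c₀, hc₀, hR⟩ | ⟨c₀, hc₀, hR⟩
  · obtain ⟨ϖ, a, b, e, hϖ, ha, hb, -, hpa, hpe, hC⟩ := hS A hA (M * p) _ hR
    exact s33ns_split hp hpM A hA hϖ ha hb hpa hpe hu hNα hNβ
      (Or.inl (s33ns_depth_of_congr p hc₀ hC))
  · obtain ⟨ϖ, a, b, e, hϖ, ha, hb, -, hpa, hpe, hC⟩ := hS A hA (M * p) _ hR
    exact s33ns_split hp hpM A hA hϖ ha hb hpa hpe hu hNα hNβ
      (Or.inr (s33ns_depth_of_congr p hc₀ hC))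

end

end Fermat.Agent.S33
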