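import Fermat.Agent.S33.NewSplit
import Fermat.Agent.S33.C2
import Fermat.Agent.ES.G2.Pow
import Fermat.Agent.ES.G2.Prim
import Fermat.Agent.ES.MuUnique
import Fermat.Agent.ES.KummerMu

/-!
# S33, route v2, block C3/C5a: the new classes of exponent `p` are split (helper90)

`A ⊂ ℚ̄` a valuation ring over `p`, `I = I_A` its inertia group, `N = M p`, `p ∤ M`.

* `s33nc_gaussConst_of_pow` : `GaussConst (g ^ m) → GaussConst g`  (`ES.G2.pow_adjust`);
* `s33nc_exists_gaussConst` : a class of the inertia span of `J₀(N)[m]` has a Kummer function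
  (of level `m`) which is Gauss-constant at `v_∞`  (`UNIP.cheap_infty`);
* `s33nc_const_pow_of_kummerRel_zero` : a Kummer function of the class `0` is a constant times
  a `p`-th power;
* `s33nc_depth_of_mem_span` : a Kummer function (level `p`) of a class of exponent `p` of the
  inertia span of `J₀(N)[pⁿ]` has positive depth at `v_∞`;
* `s33_split_of_mem_new_of_start` : **every Kummer function of a class of `c2New M p I_A n` is
  split** (modulo `StmtDepthStart p`).
-/

set_option autoImplicit false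
set_option linter.unusedSectionVars false

noncomputable section

namespace Fermat.Agent.S33

open ModularCurve AlgebraicCurve Fermat.Agent.ES Fermat.Agent.ES.G2 Fermat.Agent.STB
  Fermat.Agent.UNIP

/-- `GaussConst (g ^ m) → GaussConst g` -/
theorem s33nc_gaussConst_of_pow {ℓ : ℕ} (hℓ : ℓ.Prime) (A : ValuationSubring Qb)
    (hA : A.LiesOverPrime ℓ) (N : ℕ) [NeZero N] {g : modularFunctionFieldBar N} {m : ℕ}
    (hm : 0 < m) (h : GaussConst A N (g ^ m)) : GaussConst A N g := by
  obtain ⟨c, hc, hR⟩ := h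
  obtain ⟨d, hd⟩ := IsAlgClosed.exists_pow_nat_eq c hm
  have hd0 : d ≠ 0 := by
    rintro rfl
    rw [zero_pow hm.ne'] at hd
    exact hc hd.symm
  have hpow : (algebraMap Qb (modularFunctionFieldBar N) d * g) ^ m =
      algebraMap Qb (modularFunctionFieldBar N) c * g ^ m := by
    rw [mul_pow, ← map_pow, hd]
  obtain ⟨ζ, hζ, hζR⟩ := pow_adjust stmtPrim N ℓ hℓ A hA m hm _ _ hR.ne_zero hR hpow
  have hζ0 : ζ ≠ 0 := by
    rintro rfl
    rw [zero_pow hm.ne'] at hζ
    exact zero_ne_one hζ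
  refine ⟨d * ζ, mul_ne_zero hd0 hζ0, ?_⟩
  have e : algebraMap Qb (modularFunctionFieldBar N) (d * ζ) * g =
      algebraMap Qb (modularFunctionFieldBar N) d * g *
        algebraMap Qb (modularFunctionFieldBar N) ζ := by
    rw [map_mul]; ring
  rw [e]
  exact hζR

/-- a class of the inertia span of the `m`-torsion has a Gauss-constant Kummer function of
level `m` -/
theorem s33nc_exists_gaussConst {ℓ : ℕ} (hℓ : ℓ.Prime) (A : ValuationSubring Qb)
    (hA : A.LiesOverPrime ℓ) (N : ℕ) [NeZero N] (m : ℕ) {x : JZero N}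
    (hx : x ∈ ntsSpan (A.inertiaSubgroupIn ℚ) (jAct N) (ntsTors (JZero N) m)) :
    ∃ U : modularFunctionFieldBar N, KummerRel m x U ∧ GaussConst A N U := by
  unfold ntsSpan at hx
  induction hx using AddSubgroup.closure_induction with
  | mem x hx =>
      obtain ⟨σ, hσ, b, hb, rfl⟩ := hx
      obtain ⟨u, hu⟩ := exists_kummerRel (n := m) (mem_ntsTors.1 hb)
      refine ⟨(arithmeticGalois (modularFunctionFieldFull N) σ • u) / u,
        (hu.galois σ).sub hu, ?_⟩
      exact cheap_infty N ℓ hℓ A hA σ hσ u hu.ne_zero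
  | zero => exact ⟨1, KummerRel.zero, GaussConst.one⟩
  | add x y _ _ hx hy =>
      obtain ⟨U, hU, hUG⟩ := hx
      obtain ⟨V, hV, hVG⟩ := hy
      exact ⟨U * V, hU.add hV, hUG.mul hVG⟩
  | neg x _ hx =>
      obtain ⟨U, hU, hUG⟩ := hx
      exact ⟨U⁻¹, hU.neg, hUG.inv⟩

/-- a Kummer function of the class `0` is a constant times a `p`-th power -/
theorem s33nc_const_pow_of_kummerRel_zero (M : ℕ) [NeZero M] (p : ℕ)
    {v : modularFunctionFieldBar M} (h : KummerRel p (0 : JZero M) v) :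
    ∃ (a : Qb) (f : modularFunctionFieldBar M),
      v = algebraMap Qb (modularFunctionFieldBar M) a * f ^ p := by
  obtain ⟨k, c, -, -, hc, hv⟩ := KummerRel.exists_eq_mul_pow (KummerRel.zero (n := p)) h
  obtain ⟨c₀, hc₀⟩ := mu_exists_const_of_ord_eq_zero c hc
  exact ⟨c₀, k, by rw [hv, hc₀, mul_one]⟩

/-- a Kummer function of level `p` of a class of the inertia span of `J₀(N)[pⁿ]` is, up to a
`p`-th power, Gauss-constant at `v_∞` -/
theorem s33nc_gaussConst_of_mem_span {p : ℕ} (hp : p.Prime) (A : ValuationSubring Qb)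
    (hA : A.LiesOverPrime p) (N : ℕ) [NeZero N] (n : ℕ) {x : JZero N}
    (hx : x ∈ ntsSpan (A.inertiaSubgroupIn ℚ) (jAct N) (ntsTors (JZero N) (p ^ n)))
    {u : modularFunctionFieldBar N} (hu : KummerRel p x u) :
    ∃ k : modularFunctionFieldBar N, k ≠ 0 ∧ GaussConst A N (u / k ^ p) := by
  obtain ⟨U, hU, hUG⟩ := s33nc_exists_gaussConst hp A hA N (p ^ n) hx
  have h1 : KummerRel (p ^ n * p) x (u ^ (p ^ n)) := hu.pow_left (p ^ n)
  have h2 : KummerRel (p ^ n * p) x (U ^ p) := by
    have := hU.pow_left p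
    rwa [mul_comm] at this
  obtain ⟨k, c, hk, hc, hcord, he⟩ := KummerRel.exists_eq_mul_pow h2 h1
  obtain ⟨c₀, hc₀⟩ := mu_exists_const_of_ord_eq_zero c hcord
  have hc₀0 : c₀ ≠ 0 := by
    rintro rfl
    rw [map_zero] at hc₀
    exact hc hc₀.symm
  refine ⟨k, hk, ?_⟩
  apply s33nc_gaussConst_of_pow hp A hA N (pow_pos hp.pos n)
  have e : (u / k ^ p) ^ (p ^ n) = algebraMap Qb (modularFunctionFieldBar N) c₀ * U ^ p := by
    rw [div_pow, he, hc₀, ← pow_mul, mul_comm p (p ^ n)]
    exact mul_div_cancel_right₀ _ (pow_ne_zero _ hk)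
  rw [e]
  exact GaussConst.const_mul hc₀0 (hUG.pow p)

section

variable {p M : ℕ} [NeZero p] [NeZero M] [NeZero (M * p)] (hp : p.Prime) (hpM : ¬ p ∣ M)

/-- depth of `u` from a uniform congruence for `c₁ · u / kᵖ` -/
theorem s33nc_depth_of_congr {A : ValuationSubring Qb} {N : ℕ} [NeZero N] (p : ℕ) {ϖ c₁ : Qb}
    (hc₁ : c₁ ≠ 0) {u k : modularFunctionFieldBar N} (hk : k ≠ 0)
    (h : CongrOneMod A N ϖ (algebraMap Qb (modularFunctionFieldBar N) c₁ * (u / k ^ p))) :
    DepthInf A N p ϖ u := by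
  refine ⟨c₁⁻¹, k, inv_ne_zero hc₁, hk, ?_⟩
  have e : u / (algebraMap Qb (modularFunctionFieldBar N) c₁⁻¹ * k ^ p) =
      algebraMap Qb (modularFunctionFieldBar N) c₁ * (u / k ^ p) := by
    rw [map_inv₀]
    have h1 : algebraMap Qb (modularFunctionFieldBar N) c₁ ≠ 0 := (map_ne_zero _).mpr hc₁
    have h2 : k ^ p ≠ 0 := pow_ne_zero _ hk
    field_simp
  rw [e]
  exact h

/-- **C3 for classes**, modulo the start: every Kummer function of a class of the new part of
exponent `p` of the inertia span of `J₀(Mp)[pⁿ]` is split. -/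
theorem s33_split_of_mem_new_of_start (hS : StmtDepthStart p) (A : ValuationSubring Qb)
    (hA : A.LiesOverPrime p) (n : ℕ) {x : JZero (M * p)}
    (hx : x ∈ c2New M p (A.inertiaSubgroupIn ℚ) n)
    {u : modularFunctionFieldBar (M * p)} (hu : KummerRel p x u) : IsSplitFn hp hpM A u := by
  obtain ⟨h1, h2, h3, -⟩ := (c2_mem_new_iff M p _ n x).1 hx
  have hNα : ∃ (a : Qb) (f : modularFunctionFieldBar M),
      stbNormAlpha M p u = algebraMap Qb (modularFunctionFieldBar M) a * f ^ p := by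
    have := stb_kummerRel_pushAlpha M p hu
    rw [h2] at this
    exact s33nc_const_pow_of_kummerRel_zero M p this
  have hNβ : ∃ (a : Qb) (f : modularFunctionFieldBar M),
      stbNormBeta M p u = algebraMap Qb (modularFunctionFieldBar M) a * f ^ p := by
    have := stb_kummerRel_pushBeta M p hu
    rw [h3] at this
    exact s33nc_const_pow_of_kummerRel_zero M p this
  obtain ⟨k, hk, c₁, hc₁, hR⟩ := s33nc_gaussConst_of_mem_span hp A hA (M * p) n h1 hu
  obtain ⟨ϖ, a, b, e, hϖ, ha, hb, -, hpa, hpe, hC⟩ := hS A hA (M * p) _ hR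
  exact s33ns_split hp hpM A hA hϖ ha hb hpa hpe hu.ne_zero hNα hNβ
    (Or.inl (s33nc_depth_of_congr p hc₁ hk hC))

end

end Fermat.Agent.S33
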