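import Fermat.Agent.S33.PlanGeo
import Fermat.Agent.STB.KronQ
import Fermat.Agent.STB.NewToricKummer

/-!
# S33, route v2, block C3 "NORM-DEPTH": the one step (helper90)

`stmtNormDepth : StmtNormDepth hp hpM` — depth `c` at `v_0` and `N_α u ∈ ℚ̄^× F_M^{×p}` give depth
`d` at `v_∞` for every common divisor `d` of `c p` and `c ^ p`; the twin `s33nd_step_beta`
(depth at `v_∞` and `N_β u` give depth at `v_0`); monotonicity of the depth.

Proof: the norm formula `N_α u = u · ∏_b (w u)(ζ^b q^{1/p})` (`STB.stmtNormQ`, helper60) and the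
norm estimate `NdaCongr.kronNorm` (`S33/NormAlg.lean`, helper61):
if `w u · y₂ = c₀ hᵖ y₁`, `y₁ ≡ y₂ mod c`, `N_α u = a fᵖ`, then
`u · 𝒩 y₁ = (a / c₀ᵖ) (f / 𝒩 h)ᵖ · 𝒩 y₂`, `𝒩 = kronNorm p ζ`, and `𝒩 y₁ ≡ 𝒩 y₂ mod d`.
-/

set_option autoImplicit false

noncomputable section

namespace Fermat.Agent.S33

open ModularCurve AlgebraicCurve Fermat.Agent.ES Fermat.Agent.ES.G2 Fermat.Agent.STB
  Fermat.Agent.UNIP

/-- `∏_b c(ζ^b q^{1/p}) = c ^ p` for a constant `c` -/
theorem s33nd_kronNorm_C (p : ℕ) [NeZero p] (ζ : Qbˣ) (a : Qb) :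
    kronNorm p ζ (HahnSeries.C a : LaurentSeries Qb) = HahnSeries.C (a ^ p) := by
  refine kronNorm_unique p ζ _ _ ?_
  have h1 : qExpand Qb p (HahnSeries.C (a ^ p) : LaurentSeries Qb) = HahnSeries.C (a ^ p) := by
    rw [HahnSeries.C_apply, qExpand_single, mul_zero]
  rw [h1, kronRotProd]
  simp only [nda_kronRot_C]
  rw [Finset.prod_const, Finset.card_range, map_pow]

theorem s33nd_kronNorm_pow (p : ℕ) [NeZero p] (ζ : Qbˣ) (hζ : IsPrimitiveRoot ζ p)
    (f : LaurentSeries Qb) (n : ℕ) : kronNorm p ζ (f ^ n) = kronNorm p ζ f ^ n := by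
  induction n with
  | zero => rw [pow_zero, pow_zero, kronNorm_one]
  | succ n ih => rw [pow_succ, pow_succ, kronNorm_mul p ζ hζ, ih]

theorem s33nd_kronNorm_ne_zero (p : ℕ) [NeZero p] (ζ : Qbˣ) (hζ : IsPrimitiveRoot ζ p)
    {f : LaurentSeries Qb} (hf : f ≠ 0) : kronNorm p ζ f ≠ 0 := by
  intro h0
  have h1 : kronNorm p ζ (f * f⁻¹) = 1 := by rw [mul_inv_cancel₀ hf, kronNorm_one]
  rw [kronNorm_mul p ζ hζ, h0, zero_mul] at h1
  exact zero_ne_one h1

theorem s33nd_coe_algebraMap (N : ℕ) (c₀ : Qb) :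
    ((algebraMap Qb (modularFunctionFieldBar N) c₀ : modularFunctionFieldBar N) :
      LaurentSeries Qb) = HahnSeries.C c₀ := by
  rw [IntermediateField.coe_algebraMap_apply, LaurentSeries.algebraMap_apply]

theorem s33nd_coe_frac (N : ℕ) (W h : modularFunctionFieldBar N) (c₀ : Qb) (p : ℕ) :
    ((W / (algebraMap Qb (modularFunctionFieldBar N) c₀ * h ^ p) : modularFunctionFieldBar N) :
      LaurentSeries Qb) =
      (W : LaurentSeries Qb) / (HahnSeries.C c₀ * (h : LaurentSeries Qb) ^ p) := by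
  rw [IntermediateField.coe_div, IntermediateField.coe_mul, IntermediateField.coe_pow,
    s33nd_coe_algebraMap]

/-- monotonicity of the congruence in the modulus -/
theorem CongrOneMod.of_dvd {A : ValuationSubring Qb} {N : ℕ} [NeZero N] {c d e : Qb}
    (he : e ∈ A) (hc : c = d * e) {u : modularFunctionFieldBar N} (h : CongrOneMod A N c u) :
    CongrOneMod A N d u := by
  obtain ⟨y₁, y₂, h1, h2, h3, h4, h5, h6⟩ := h
  exact ⟨y₁, y₂, h1, h2, h3, h4, h5.of_dvd he hc, h6⟩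

/-- monotonicity of the depth in the modulus -/
theorem DepthInf.of_dvd {A : ValuationSubring Qb} {N : ℕ} [NeZero N] {p : ℕ} {c d e : Qb}
    (he : e ∈ A) (hc : c = d * e) {u : modularFunctionFieldBar N} (h : DepthInf A N p c u) :
    DepthInf A N p d u := by
  obtain ⟨c₀, h₀, h1, h2, h3⟩ := h
  exact ⟨c₀, h₀, h1, h2, h3.of_dvd he hc⟩

section

variable {p M : ℕ} [NeZero p] [NeZero M] [NeZero (M * p)] (hp : p.Prime) (hpM : ¬ p ∣ M)

theorem DepthZero.of_dvd {A : ValuationSubring Qb} {c d e : Qb}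
    (he : e ∈ A) (hc : c = d * e) {u : modularFunctionFieldBar (M * p)}
    (h : DepthZero hp hpM A c u) : DepthZero hp hpM A d u :=
  DepthInf.of_dvd he hc h

/-- `DepthZero` of `w u` is `DepthInf` of `u` -/
theorem depthZero_atkinLehner_iff {A : ValuationSubring Qb} {c : Qb}
    {u : modularFunctionFieldBar (M * p)} :
    DepthZero hp hpM A c (atkinLehnerBar hp hpM u) ↔ DepthInf A (M * p) p c u := by
  unfold DepthZero
  rw [atkinLehnerBar_invol]

/-- **C3, one step.** -/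
theorem stmtNormDepth : StmtNormDepth hp hpM := by
  intro A hA c d e₁ e₂ hc he₁ he₂ h₁ h₂ u hu hN hD
  obtain ⟨a, f, hNα⟩ := hN
  obtain ⟨c₀, h, hc₀, hh, y₁, y₂, hy₁, hy₂, hP₁, hP₂, hcongr, hfrac⟩ := hD
  obtain ⟨ζ, hζ⟩ := frob_exists_primitiveRoot p hp.ne_zero
  rw [stb_a_normAlpha_eq] at hNα
  obtain ⟨ha, hf⟩ := stb_a_ne_zero_of_norm (q := p) (M := M) hu hp.ne_zero hNα
  -- notation
  set W := atkinLehnerBar hp hpM u with hW
  have hW0 : W ≠ 0 := (map_ne_zero_iff _ (atkinLehnerBar hp hpM).injective).mpr hu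
  have hus : (u : LaurentSeries Qb) ≠ 0 := fun h0 => hu (Subtype.ext h0)
  have hWs : (W : LaurentSeries Qb) ≠ 0 := fun h0 => hW0 (Subtype.ext h0)
  have hhs : (h : LaurentSeries Qb) ≠ 0 := fun h0 => hh (Subtype.ext h0)
  have hfs : (f : LaurentSeries Qb) ≠ 0 := fun h0 => hf (Subtype.ext h0)
  have hCc : (HahnSeries.C c₀ : LaurentSeries Qb) ≠ 0 :=
    (map_ne_zero_iff _ HahnSeries.C_injective).mpr hc₀
  have hCa : (HahnSeries.C a : LaurentSeries Qb) ≠ 0 :=
    (map_ne_zero_iff _ HahnSeries.C_injective).mpr ha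
  -- the relation for `w u`
  have E1 : (W : LaurentSeries Qb) * y₂ =
      HahnSeries.C c₀ * (h : LaurentSeries Qb) ^ p * y₁ := by
    rw [s33nd_coe_frac] at hfrac
    rw [← hfrac]
    field_simp
  -- apply the norm
  have E2 : kronNorm p ζ (W : LaurentSeries Qb) * kronNorm p ζ y₂ =
      HahnSeries.C c₀ ^ p * kronNorm p ζ (h : LaurentSeries Qb) ^ p * kronNorm p ζ y₁ := by
    have := congrArg (kronNorm p ζ) E1
    rw [kronNorm_mul p ζ hζ, kronNorm_mul p ζ hζ, kronNorm_mul p ζ hζ, s33nd_kronNorm_C,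
      s33nd_kronNorm_pow p ζ hζ, map_pow] at this
    exact this
  -- the norm formula
  have E3 : HahnSeries.C a * (f : LaurentSeries Qb) ^ p =
      (u : LaurentSeries Qb) * kronNorm p ζ (W : LaurentSeries Qb) := by
    have h3 := stmtNormQ hp hpM ζ hζ u
    rw [hNα, IntermediateField.coe_mul, IntermediateField.coe_pow, s33nd_coe_algebraMap] at h3
    exact h3
  have hX : kronNorm p ζ (W : LaurentSeries Qb) ≠ 0 := s33nd_kronNorm_ne_zero p ζ hζ hWs
  have hH : kronNorm p ζ (h : LaurentSeries Qb) ≠ 0 := s33nd_kronNorm_ne_zero p ζ hζ hhs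
  -- the new data
  have hfN : (f : LaurentSeries Qb) ∈ modularFunctionFieldBar (M * p) := hdeg_bar_le M p f.2
  have hHN : kronNorm p ζ (h : LaurentSeries Qb) ∈ modularFunctionFieldBar (M * p) :=
    stb_k_kronNorm_mem hp hpM ζ hζ h.2
  refine ⟨a / c₀ ^ p, ⟨(f : LaurentSeries Qb) / kronNorm p ζ (h : LaurentSeries Qb),
    div_mem hfN hHN⟩, div_ne_zero ha (pow_ne_zero _ hc₀), ?_, ?_⟩
  · intro h0
    exact div_ne_zero hfs hH (congrArg Subtype.val h0)
  refine ⟨kronNorm p ζ y₂, kronNorm p ζ y₁, stb_k_kronNorm_mem hp hpM ζ hζ hy₂,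
    stb_k_kronNorm_mem hp hpM ζ hζ hy₁, nda_kronPrim_kronNorm ζ hζ hP₂,
    nda_kronPrim_kronNorm ζ hζ hP₁,
    (NdaCongr.kronNorm p hp ζ hζ hc he₁ he₂ h₁ h₂ hP₂.1 hcongr).symm, ?_⟩
  rw [s33nd_coe_frac, map_div₀, map_pow, div_pow]
  have hCcp : (HahnSeries.C c₀ : LaurentSeries Qb) ^ p ≠ 0 := pow_ne_zero _ hCc
  have hHp : kronNorm p ζ (h : LaurentSeries Qb) ^ p ≠ 0 := pow_ne_zero _ hH
  have hfp : (f : LaurentSeries Qb) ^ p ≠ 0 := pow_ne_zero _ hfs
  field_simp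
  linear_combination (-(u : LaurentSeries Qb)) * E2 - kronNorm p ζ y₂ * E3

/-- **C3, one step, twin**: depth `c` at `v_∞` and `N_β u ∈ ℚ̄^× F_M^{×p}` give depth `d` at `v_0`,
for every common divisor `d` of `c p` and `c ^ p`. -/
theorem s33nd_step_beta (A : ValuationSubring Qb) (hA : A.LiesOverPrime p) {c d e₁ e₂ : Qb}
    (hc : c ∈ A) (he₁ : e₁ ∈ A) (he₂ : e₂ ∈ A) (h₁ : c * (p : Qb) = d * e₁) (h₂ : c ^ p = d * e₂)
    {u : modularFunctionFieldBar (M * p)} (hu : u ≠ 0)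
    (hN : ∃ (a : Qb) (f : modularFunctionFieldBar M),
      stbNormBeta M p u = algebraMap Qb (modularFunctionFieldBar M) a * f ^ p)
    (hD : DepthInf A (M * p) p c u) : DepthZero hp hpM A d u := by
  have hwu : atkinLehnerBar hp hpM u ≠ 0 :=
    (map_ne_zero_iff _ (atkinLehnerBar hp hpM).injective).mpr hu
  have hN' : ∃ (a : Qb) (f : modularFunctionFieldBar M),
      stbNormAlpha M p (atkinLehnerBar hp hpM u) =
        algebraMap Qb (modularFunctionFieldBar M) a * f ^ p := by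
    rw [stb_a_normAlpha_eq, ← stb_a_normBeta_eq hp hpM u]
    exact hN
  exact stmtNormDepth hp hpM A hA c d e₁ e₂ hc he₁ he₂ h₁ h₂ _ hwu hN'
    ((depthZero_atkinLehner_iff hp hpM).2 hD)

end

end Fermat.Agent.S33
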