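import Fermat.Agent.S33.NTS
import Fermat.Agent.S32.SubquotAbs

/-!
# S33, route v2, block A3: transfer of `NTS` along annihilators

`X`, `Y` finite abelian groups with additive multiplicative maps `actX`, `actY` of a group `G`
(`actY 1 = id`), `I ≤ G` a subgroup.  If every element of `ℤ[G]` which kills `X` kills `Y`, and
the inertia span `𝔄 X := ntsSpan I actX ⊤` has no trivial sub-quotient, then neither has `𝔄 Y`.

Proof. `Y` is an equivariant quotient `π : M ↠ Y` of an equivariant subobject `ι : M ↪ X ^ (Y × X)`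
(`S32.s32b_subquot_data`, helper9).  `NTS` passes to finite products (`NTS.pi`), to stable
subgroups of subobjects (`NTS.comap_of_injective`) and to images (`NTS.map`); and
`𝔄 Y ≤ π (ι⁻¹ ((𝔄 X) ^ (Y × X)))`.
-/

set_option autoImplicit false
set_option linter.unusedSectionVars false

namespace Fermat.Agent.S33

section stable

variable {G : Type*} [Group G] {X : Type*} [AddCommGroup X]

/-- an additive map commutes with subtraction -/
theorem act_sub_of_add {act : G → X → X}
    (hadd : ∀ σ x x', act σ (x + x') = act σ x + act σ x') (σ : G) (x y : X) :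
    act σ (x - y) = act σ x - act σ y := by
  have h := hadd σ (x - y) y
  rw [sub_add_cancel] at h
  rw [h, add_sub_cancel_right]

theorem act_zero_of_add {act : G → X → X}
    (hadd : ∀ σ x x', act σ (x + x') = act σ x + act σ x') (σ : G) : act σ 0 = 0 := by
  have h := act_sub_of_add hadd σ 0 0
  rwa [sub_self, sub_self] at h

/-- the inertia span of any subgroup is stable under `I` -/
theorem ntsStable_ntsSpan (I : Subgroup G) (act : G → X → X)
    (hadd : ∀ σ x x', act σ (x + x') = act σ x + act σ x')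
    (hmul : ∀ σ τ x, act (σ * τ) x = act σ (act τ x)) (B : AddSubgroup X) :
    ntsStable I act (ntsSpan I act B) := by
  intro τ hτ w hw
  let f : X →+ X := AddMonoidHom.mk' (act τ) (hadd τ)
  have hf : ∀ v, f v = act τ v := fun _ => rfl
  have hle : ntsSpan I act B ≤ (ntsSpan I act B).comap f := by
    rw [ntsSpan, AddSubgroup.closure_le]
    rintro _ ⟨σ, hσ, b, hb, rfl⟩
    change f (act σ b - b) ∈ ntsSpan I act B
    rw [map_sub, hf, hf, ← hmul]
    have e : act (τ * σ) b - act τ b = (act (τ * σ) b - b) - (act τ b - b) := by abel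
    rw [e]
    exact AddSubgroup.sub_mem _ (sub_mem_ntsSpan (I.mul_mem hτ hσ) hb) (sub_mem_ntsSpan hτ hb)
  exact hle hw

end stable

/-- **Transfer of `NTS` along annihilators.** -/
theorem nts_of_ann {G : Type} [Group G] (I : Subgroup G)
    (X : Type) [AddCommGroup X] [Finite X] (actX : G → X → X)
    (Y : Type) [AddCommGroup Y] [Finite Y] (actY : G → Y → Y)
    (haddX : ∀ σ x x', actX σ (x + x') = actX σ x + actX σ x')
    (hmulX : ∀ σ τ x, actX (σ * τ) x = actX σ (actX τ x))
    (haddY : ∀ σ y y', actY σ (y + y') = actY σ y + actY σ y')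
    (hmulY : ∀ σ τ y, actY (σ * τ) y = actY σ (actY τ y))
    (honeY : ∀ y, actY 1 y = y)
    (hann : ∀ c : G →₀ ℤ, (∀ x : X, (c.sum fun g z => z • actX g x) = 0) →
      ∀ y : Y, (c.sum fun g z => z • actY g y) = 0)
    (hX : NTS I actX (ntsSpan I actX ⊤)) : NTS I actY (ntsSpan I actY ⊤) := by
  classical
  obtain ⟨M, _, actM, ι, π, hι, hιeq, hπ, hπeq⟩ :=
    Fermat.Agent.S32.s32b_subquot_data X actX Y actY haddX hmulX haddY hmulY honeY hann
  -- the product
  set Zpi : AddSubgroup (Y × X → X) :=
    AddSubgroup.pi Set.univ fun _ : Y × X => ntsSpan I actX ⊤ with hZpi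
  have hpi : NTS I (fun σ (f : Y × X → X) i => actX σ (f i)) Zpi :=
    NTS.pi hX fun σ _ => act_zero_of_add haddX σ
  -- the subobject
  set W : AddSubgroup M := Zpi.comap ι with hW
  have hWst : ntsStable I actM W := by
    intro σ hσ m hm
    change ι (actM σ m) ∈ Zpi
    rw [hιeq]
    intro i hi
    exact ntsStable_ntsSpan I actX haddX hmulX ⊤ σ hσ _ (hm i hi)
  have hWnts : NTS I actM W :=
    NTS.comap_of_injective (actX := fun σ (f : Y × X → X) i => actX σ (f i)) ι hι
      (fun σ _ c => hιeq σ c) hpi hWst (AddSubgroup.map_comap_le _ _)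
  -- the image
  have hmap : NTS I actY (W.map π) :=
    NTS.map (actX := actM) π (fun σ _ c => hπeq σ c) hWnts hWst
  refine hmap.mono ?_
  rw [ntsSpan, AddSubgroup.closure_le]
  rintro _ ⟨σ, hσ, y, -, rfl⟩
  obtain ⟨m, rfl⟩ := hπ y
  refine ⟨actM σ m - m, ?_, ?_⟩
  · change ι (actM σ m - m) ∈ Zpi
    rw [map_sub, hιeq]
    intro i _
    exact sub_mem_ntsSpan hσ (AddSubgroup.mem_top _)
  · rw [map_sub, hπeq]

end Fermat.Agent.S33
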