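import Fermat.Agent.S33.Count
import Fermat.Agent.S33.Transfer
import Fermat.Agent.S33.DetCyclo
import Fermat.Agent.S32.Final

/-!
# S33, route v2, block A4: the frozen statement S33 from the package `S33Pkg N p`

* `S33Pkg N p` : ONE `G_ℚ × Hecke`-module `J` carrying the faithful `p`-adic Eichler–Shimura
  package (`ES.ESDataInf`, `S31.ESFaith`) AND such that for every place `P` over `p` and every `n`
  the inertia span `𝔄 J[pⁿ]` has no trivial sub-quotient (`NTS`, KEY of `NOTES/S33-v2.md`).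
* `s33_isOrdinaryAt_of_pkg` : weak Chebotarev + `S33Pkg N p` give `H.ρ.IsOrdinaryAt p` for every
  Hecke–Galois datum `H` of level `N` away from `S ∋ p` with ordinary residual representation.

Proof. For `n` choose `m` by the key lemma of S32 (`S32.s32_key`, which does not use `p ∤ N`):
every element of `ℤ[G_ℚ]` which kills `J[pᵐ]` kills `V ⧸ 𝔪ⁿ V`.  By `nts_of_ann` the inertia span of
`V ⧸ 𝔪ⁿ V` has no trivial sub-quotient; it contains the image of the `T`-span `inertiaSpan`
(`levelSpan_le_ntsSpan`); conclude by `isOrdinaryAt_of_nts`.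
-/

set_option autoImplicit false
set_option linter.unusedSectionVars false
set_option linter.style.haveILetI false

namespace Fermat.Agent.S33

open ModularCurve Fermat.Agent.ES Fermat.Agent.S31

/-- The package consumed by S33 (route v2): the faithful `p`-adic Eichler–Shimura data on a
module `J`, together with `NTS` for the inertia span of every `J[pⁿ]`, at every place over `p`. -/
def S33Pkg (N p : ℕ) [NeZero N] : Prop :=
  ∃ (J : Type) (_ : AddCommGroup J) (_ : Module HeckeAlg J) (_ : DistribMulAction GQ J),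
    ESDataInf N p J ∧ ESFaith N p J ∧
      ∀ P : ValuationSubring (AlgebraicClosure ℚ), P.LiesOverPrime p → ∀ n : ℕ,
        NTS (P.inertiaSubgroupIn ℚ) (Fermat.Agent.S32.torsAction J p n)
          (ntsSpan (P.inertiaSubgroupIn ℚ) (Fermat.Agent.S32.torsAction J p n) ⊤)

section level

variable {A : Type} [CommRing A] [IsLocalRing A]

/-- the image of the `A`-span `inertiaSpan` in `V ⧸ J V` is contained in the inertia span
(as a group) of `V ⧸ J V` -/
theorem levelSpan_le_ntsSpan (ρ : GaloisRepAdic A) (P : ValuationSubring (AlgebraicClosure ℚ))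
    (J : Ideal A) :
    levelSpan ρ P J ≤ ntsSpan (P.inertiaSubgroupIn ℚ) (fun σ => ρ.levelAction J σ) ⊤ := by
  rintro _ ⟨x, hx, rfl⟩
  have key : ∀ a : A, Submodule.mkQ (J • (⊤ : Submodule A ρ.V)) (a • x) ∈
      ntsSpan (P.inertiaSubgroupIn ℚ) (fun σ => ρ.levelAction J σ) ⊤ := by
    induction hx using Submodule.span_induction with
    | mem w hw =>
      obtain ⟨σ, hσ, v, rfl⟩ := hw
      intro a
      have e : a • (ρ.ρ σ v - v) = ρ.ρ σ (a • v) - a • v := by
        rw [smul_sub, map_smul]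
      rw [e, map_sub, ← levelAction_mkQ]
      exact sub_mem_ntsSpan hσ (AddSubgroup.mem_top _)
    | zero =>
      intro a
      rw [smul_zero, map_zero]
      exact AddSubgroup.zero_mem _
    | add x y _ _ hx hy =>
      intro a
      rw [smul_add, map_add]
      exact AddSubgroup.add_mem _ (hx a) (hy a)
    | smul b x _ hx =>
      intro a
      rw [smul_smul]
      exact hx (a * b)
  have := key 1
  rwa [one_smul] at this

end level

variable {p : ℕ} {N : ℕ} [NeZero N] {S : Finset ℕ}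
  {𝒪 : Type} [CommRing 𝒪] [IsDomain 𝒪] [IsDiscreteValuationRing 𝒪]
  [IsAdicComplete (IsLocalRing.maximalIdeal 𝒪) 𝒪]
  {θ : CuspForm.heckeAlgebra N 2 (↑S : Set ℕ) →+* IsLocalRing.ResidueField 𝒪}
  {T : Type} [CommRing T] [IsLocalRing T] [IsNoetherianRing T]
  [IsAdicComplete (IsLocalRing.maximalIdeal T) T] [Algebra 𝒪 T] [IsLocalHom (algebraMap 𝒪 T)]
  [Module.Finite 𝒪 T] [Module.Free 𝒪 T]

/-- `NTS` at every finite level of the representation of a Hecke–Galois datum, from the package -/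
theorem ntsAt_of_pkg (hcheb : Cheb.WeakChebotarev) (hpkg : S33Pkg N p)
    [Finite (IsLocalRing.ResidueField 𝒪)]
    (hp : p.Prime) (hp𝒪 : (p : 𝒪) ∈ IsLocalRing.maximalIdeal 𝒪)
    (hpS : p ∈ S) (hNS : ∀ q : ℕ, q.Prime → q ∣ N → q ∈ S)
    (H : CuspForm.HeckeGaloisRepDatum N (↑S : Set ℕ) 𝒪 θ T)
    (P : ValuationSubring (AlgebraicClosure ℚ)) (hP : P.LiesOverPrime p) (n : ℕ) :
    NTSAt H.ρ P (IsLocalRing.maximalIdeal T ^ n) := by
  classical
  obtain ⟨J, _, _, _, hJ, hfaith, hkey⟩ := hpkg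
  obtain ⟨m, hm⟩ := Fermat.Agent.S32.s32_key hcheb hJ hfaith hp hp𝒪 hpS hNS H n
  set I : Ideal T := IsLocalRing.maximalIdeal T ^ n with hI
  -- finiteness
  haveI hfinX : Finite ↥(Fermat.Agent.S32.tors J p m) := (hJ.finite m).to_subtype
  haveI hfinres : Finite (IsLocalRing.ResidueField T) := Fermat.Agent.S32.finite_residueField H
  haveI hfinres' : Finite (T ⧸ IsLocalRing.maximalIdeal T) := hfinres
  haveI hfinQ : Finite (T ⧸ I) :=
    Ideal.finite_quotient_pow (IsNoetherian.noetherian _) n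
  haveI hfinY : Finite (H.ρ.V ⧸ (I • (⊤ : Submodule T H.ρ.V))) := by
    have : Module.Finite (T ⧸ I) (H.ρ.V ⧸ (I • (⊤ : Submodule T H.ρ.V))) :=
      Module.Finite.of_restrictScalars_finite T _ _
    exact Module.finite_of_finite (T ⧸ I)
  have h := nts_of_ann (P.inertiaSubgroupIn ℚ)
    ↥(Fermat.Agent.S32.tors J p m) (Fermat.Agent.S32.torsAction J p m)
    (H.ρ.V ⧸ (I • (⊤ : Submodule T H.ρ.V))) (fun σ => H.ρ.levelAction I σ)
    (fun σ x x' => smul_add σ x x') (fun σ τ x => mul_smul σ τ x)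
    (fun σ y y' => map_add _ y y')
    (fun σ τ y => Fermat.Agent.S32.levelAction_mul H.ρ I σ τ y)
    (fun y => Fermat.Agent.S32.levelAction_one H.ρ I y) ?_ (hkey P hP m)
  · exact h.mono (levelSpan_le_ntsSpan H.ρ P I)
  · intro c hc y
    obtain ⟨v, rfl⟩ := Submodule.Quotient.mk_surjective _ y
    have hc' : ∀ x : J, p ^ m • x = 0 → (c.sum fun g z => z • g • x) = 0 := by
      intro x hx
      have := congrArg (fun t : ↥(Fermat.Agent.S32.tors J p m) => (t : J)) (hc ⟨x, hx⟩)
      simp only [Fermat.Agent.S32.torsAction, Finsupp.sum, AddSubmonoidClass.coe_finsetSum,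
        Submodule.coe_smul_of_tower, Fermat.Agent.S32.coe_smul_tors,
        ZeroMemClass.coe_zero] at this
      exact this
    have hmem := hm c hc' v
    have e : (c.sum fun g z => z • H.ρ.levelAction I g (Submodule.Quotient.mk v)) =
        (I • (⊤ : Submodule T H.ρ.V)).mkQ (c.sum fun g z => z • H.ρ.ρ g v) := by
      rw [Finsupp.sum, Finsupp.sum, map_sum]
      refine Finset.sum_congr rfl fun g _ => ?_
      rw [map_zsmul]
      rfl
    rw [e, Submodule.mkQ_apply]
    exact (Submodule.Quotient.mk_eq_zero _).mpr hmem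

/-- **S33 from the package** (route v2). -/
theorem s33_isOrdinaryAt_of_pkg (hcheb : Cheb.WeakChebotarev) (hpkg : S33Pkg N p)
    [Finite (IsLocalRing.ResidueField 𝒪)]
    (hp : p.Prime) (hp2 : p ≠ 2) (hp𝒪 : (p : 𝒪) ∈ IsLocalRing.maximalIdeal 𝒪)
    (hpS : p ∈ S) (hNS : ∀ q : ℕ, q.Prime → q ∣ N → q ∈ S)
    (H : CuspForm.HeckeGaloisRepDatum N (↑S : Set ℕ) 𝒪 θ T)
    (hres : (GaloisRepAdic.ofResidualGaloisRep H.ρ.residual).IsOrdinaryAt p) :
    H.ρ.IsOrdinaryAt p :=
  isOrdinaryAt_of_nts H.ρ p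
    (fun P hP => exists_inertia_residual_ne_one hp hp2 H.ρ
      (detIsCyclotomic_of_datum hp hp𝒪 H) P hP) hres
    (fun P hP n => ntsAt_of_pkg hcheb hpkg hp hp𝒪 hpS hNS H P hP n)

end Fermat.Agent.S33
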