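import Fermat.Agent.S33.Assembly
import Fermat.Agent.S33.FlatOrdFinal

/-!
# S33, route v2: the frozen statement from (C3) + (C4) alone

* `stmtKeyGood : StmtKeyGood` : (KEY) at levels prime to `p` (B4, helper15: `nts_jzero_good`).
* `s33_of_wild : StmtWildT →` the frozen statement S33.
-/

set_option autoImplicit false
set_option linter.unusedSectionVars false
set_option linter.unusedVariables false

namespace Fermat.Agent.S33

open ModularCurve Fermat.Agent.ES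

/-- **B4**: (KEY) at levels prime to `p`. -/
theorem stmtKeyGood : StmtKeyGood :=
  fun M p _ hp hp2 hpM P hP n => nts_jzero_good M hp hp2 hpM P hP n

variable {p : ℕ} {N : ℕ} [NeZero N] {S : Finset ℕ}
  {𝒪 : Type} [CommRing 𝒪] [IsDomain 𝒪] [IsDiscreteValuationRing 𝒪]
  [IsAdicComplete (IsLocalRing.maximalIdeal 𝒪) 𝒪]
  {θ : CuspForm.heckeAlgebra N 2 (↑S : Set ℕ) →+* IsLocalRing.ResidueField 𝒪}
  {T : Type} [CommRing T] [IsLocalRing T] [IsNoetherianRing T]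
  [IsAdicComplete (IsLocalRing.maximalIdeal T) T] [Algebra 𝒪 T] [IsLocalHom (algebraMap 𝒪 T)]
  [Module.Finite 𝒪 T] [Module.Free 𝒪 T]

/-- **S33 from (C3) + (C4).** -/
theorem s33_of_wild (hwild : StmtWildT)
    [Finite (IsLocalRing.ResidueField 𝒪)] [CharZero 𝒪]
    (hp : p.Prime) (hp2 : p ≠ 2) (hp𝒪 : (p : 𝒪) ∈ IsLocalRing.maximalIdeal 𝒪)
    (hN : p ∣ N ∧ ¬ p ^ 2 ∣ N)
    (hNS : ∀ q : ℕ, q.Prime → q ∣ N → q ∈ S)
    (H : CuspForm.HeckeGaloisRepDatum N (↑S : Set ℕ) 𝒪 θ T)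
    (hres : (GaloisRepAdic.ofResidualGaloisRep H.ρ.residual).IsOrdinaryAt p) :
    H.ρ.IsOrdinaryAt p :=
  s33_of_key stmtKeyGood hwild hp hp2 hp𝒪 hN hNS H hres

end Fermat.Agent.S33
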