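import Fermat.Agent.STB.KronQStmt
import Fermat.Agent.STB.Stmt
import Fermat.Agent.S33.NormAlg

/-!
# S33, route v2, block C3 "NORM-DEPTH" — interface (helper90)

`N = M p`, `p ∤ M`, `p` prime, `A ⊂ ℚ̄` a valuation ring over `p`,
`F_N = modularFunctionFieldBar (M * p) ⊂ ℚ̄((q))`, `w = w_p = UNIP.atkinLehnerBar hp hpM`,
`v_∞` = Gauss valuation of the `q`-expansion at `A`, `v_0 = v_∞ ∘ w`.

* `CongrOneMod A N ϖ u` : `u = y₁ / y₂` with `y₁, y₂ ∈ F_N` primitive at `A` and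
  `y₁ ≡ y₂ mod ϖ A` coefficientwise (`NdaCongr`, `S33/NormAlg.lean`): "`v_∞(u − 1) ≥ v(ϖ)`".
  For `ϖ` a nonzero non-unit this refines `ES.G2.ReducesToOne`.
* `DepthInf A N p ϖ u` : the class of `u` modulo constants and `p`-th powers has depth `≥ v(ϖ)` at
  `v_∞`:  `∃ c ∈ ℚ̄^×, h ∈ F_N^×, u / (c hᵖ) ≡ 1 mod ϖ`.
* `DepthZero hp hpM A ϖ u := DepthInf A (M p) p ϖ (w u)` : the same at `v_0`.
* `IsSplitFn hp hpM A u` : depth `≥ v(p^k)` at `v_∞` and at `v_0`, for all `k`.

Statements: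
* `StmtNormDepth hp hpM` — one step: depth `c` at `v_0` and `N_α u ∈ ℚ̄^× F_M^{×p}` give depth
  `d` at `v_∞` for every common divisor `d` of `c p` and `c^p`  (`g(δ) = min(δ + 1, p δ)`).
* `StmtDepthStart p` — `ReducesToOne` gives a uniform congruence modulo a uniformizer `ϖ` of a
  number field (`ϖ ∣ p`, `p ∣ ϖ^e`).
* `StmtNewSplit hp hpM` — every `u` with `N_α u, N_β u ∈ ℚ̄^× F_M^{×p}` which is Gauss-constant at
  `v_∞` or at `v_0` is split.

Proofs: `S33/NormDepthMod.lean` (one step, from `STB.StmtNormQ` + `S33/NormAlg.lean`),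
`S33/DepthStart.lean`, `S33/NewSplit.lean` (iteration).
-/

set_option autoImplicit false

noncomputable section

namespace Fermat.Agent.S33

open ModularCurve AlgebraicCurve Fermat.Agent.ES Fermat.Agent.ES.G2 Fermat.Agent.STB

/-- `u ≡ 1` modulo `ϖ A` at the Gauss valuation of the `q`-expansion, in fraction form. -/
def CongrOneMod (A : ValuationSubring Qb) (N : ℕ) [NeZero N] (ϖ : Qb)
    (u : modularFunctionFieldBar N) : Prop :=
  ∃ y₁ y₂ : LaurentSeries Qb,
    y₁ ∈ modularFunctionFieldBar N ∧ y₂ ∈ modularFunctionFieldBar N ∧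
      KronPrim A y₁ ∧ KronPrim A y₂ ∧ NdaCongr A ϖ y₁ y₂ ∧ (u : LaurentSeries Qb) * y₂ = y₁

/-- depth `≥ v(ϖ)` at `v_∞` of the class of `u` modulo `ℚ̄^× · F_N^{× p}` -/
def DepthInf (A : ValuationSubring Qb) (N : ℕ) [NeZero N] (p : ℕ) (ϖ : Qb)
    (u : modularFunctionFieldBar N) : Prop :=
  ∃ (c : Qb) (h : modularFunctionFieldBar N), c ≠ 0 ∧ h ≠ 0 ∧
    CongrOneMod A N ϖ (u / (algebraMap Qb (modularFunctionFieldBar N) c * h ^ p))

section

variable {p M : ℕ} [NeZero p] [NeZero M] [NeZero (M * p)] (hp : p.Prime) (hpM : ¬ p ∣ M)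

/-- depth `≥ v(ϖ)` at `v_0 = v_∞ ∘ w_p` -/
def DepthZero (A : ValuationSubring Qb) (ϖ : Qb) (u : modularFunctionFieldBar (M * p)) : Prop :=
  DepthInf A (M * p) p ϖ (Fermat.Agent.UNIP.atkinLehnerBar hp hpM u)

/-- `u` is split at `A`: infinitely deep at `v_∞` and at `v_0`. -/
def IsSplitFn (A : ValuationSubring Qb) (u : modularFunctionFieldBar (M * p)) : Prop :=
  ∀ k : ℕ, DepthInf A (M * p) p ((p : Qb) ^ k) u ∧ DepthZero hp hpM A ((p : Qb) ^ k) u

/-- **C3, one step.**  Depth `c` at `v_0` and `N_α u ∈ ℚ̄^× · F_M^{× p}` give depth `d` at `v_∞`,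
for every common divisor `d` of `c p` and `c ^ p`. -/
def StmtNormDepth : Prop :=
  ∀ A : ValuationSubring Qb, A.LiesOverPrime p →
    ∀ c d e₁ e₂ : Qb, c ∈ A → e₁ ∈ A → e₂ ∈ A → c * (p : Qb) = d * e₁ → c ^ p = d * e₂ →
      ∀ u : modularFunctionFieldBar (M * p), u ≠ 0 →
        (∃ (a : Qb) (f : modularFunctionFieldBar M),
          stbNormAlpha M p u = algebraMap Qb (modularFunctionFieldBar M) a * f ^ p) →
        DepthZero hp hpM A c u → DepthInf A (M * p) p d u

/-- **C3, all of it.**  A function whose norms along `α` and `β` are constants times `p`-th powers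
and which is Gauss-constant at `v_∞` or at `v_0` is split. -/
def StmtNewSplit : Prop :=
  ∀ A : ValuationSubring Qb, A.LiesOverPrime p →
    ∀ u : modularFunctionFieldBar (M * p), u ≠ 0 →
      (∃ (a : Qb) (f : modularFunctionFieldBar M),
        stbNormAlpha M p u = algebraMap Qb (modularFunctionFieldBar M) a * f ^ p) →
      (∃ (a : Qb) (f : modularFunctionFieldBar M),
        stbNormBeta M p u = algebraMap Qb (modularFunctionFieldBar M) a * f ^ p) →
      (GaussConst A (M * p) u ∨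
        GaussConst A (M * p) (Fermat.Agent.UNIP.atkinLehnerBar hp hpM u)) →
      IsSplitFn hp hpM A u

end

/-- **C3, start.**  A function reducing to one is congruent to one modulo some `ϖ` with
`ϖ ∣ p` and `p ∣ ϖ ^ e` in `A` (a uniformizer of `A ∩ K₀`, `K₀` a number field over which the
function is defined). -/
def StmtDepthStart (p : ℕ) : Prop :=
  ∀ A : ValuationSubring Qb, A.LiesOverPrime p →
    ∀ (N : ℕ) [NeZero N] (u : modularFunctionFieldBar N), ReducesToOne A N u →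
      ∃ (ϖ a b : Qb) (e : ℕ), ϖ ∈ A ∧ a ∈ A ∧ b ∈ A ∧ ϖ ≠ 0 ∧ (p : Qb) = ϖ * a ∧
        ϖ ^ e = (p : Qb) * b ∧ CongrOneMod A N ϖ u

end Fermat.Agent.S33
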