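import Fermat.Agent.S33.WildMGStmt

/-!
# S33, route v2, block C4 (WILD): the top statements in Kummer form

The Props `StmtWildKummerAt hp hpM`, `StmtWildKummer`, `StmtWildKummerAux` live in
`S33/WildMGStmt.lean` (helper39); this file only re-exports them (it was landed at the same time
with the same Props, which are removed here to keep the names unique).

`S33/WildOfKummer.lean` : `StmtWildKummer → StmtWildT` (the input of `s33_of_wild`).
-/
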