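import Mathlib
import Fermat.Prelude.Def_CuspForm_HeckeGaloisRepDatum
import Fermat.Agent.PET.Eigen
import Fermat.Agent.S22.Final

/-!
# S33-PTS: the coefficient ring `T` of a Hecke–Galois datum is reduced and its characteristic
zero points separate elements

* `pts_exists_separable`: every element of the Hecke algebra `𝕋 = heckeAlgebra N k S` (`S` contains
  the primes dividing `N`) is killed by a polynomial with integer coefficients which is separable
  over `ℚ`.  (`𝕋` embeds into a product of copies of `ℂ` by `PET.exists_eigenchar_ne_zero`.)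
* `pts_isReduced`: the coefficient ring `T` of a Hecke–Galois datum over a characteristic zero
  discrete valuation ring is reduced.
* `exists_point_ne_zero`: for `t ≠ 0` in `T` there is a ring homomorphism `x : T →+* Ω` to a field
  of characteristic zero with `x t ≠ 0`.
-/

set_option autoImplicit false
set_option linter.unusedSectionVars false

open Polynomial

namespace Fermat.Agent.S33

section Hecke

variable {N : ℕ} [NeZero N] {k : ℤ} {S : Set ℕ}

/-- The product of all complex points of the Hecke algebra. -/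
noncomputable def ptsProd (N : ℕ) [NeZero N] (k : ℤ) (S : Set ℕ) :
    CuspForm.heckeAlgebra N k S →+* ((CuspForm.heckeAlgebra N k S →+* ℂ) → ℂ) :=
  RingHom.pi fun χ => χ

theorem ptsProd_injective (hS : ∀ q : ℕ, q.Prime → q ∣ N → q ∈ S) :
    Function.Injective (ptsProd N k S) := by
  rw [injective_iff_map_eq_zero]
  intro t ht
  by_contra hne
  obtain ⟨f, χ, -, -, hχ⟩ := Fermat.Agent.PET.exists_eigenchar_ne_zero N k hS hne
  exact hχ (congrFun ht χ)

theorem pts_isReduced_pi (I : Type*) : IsReduced (I → ℂ) := by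
  refine ⟨fun x hx => ?_⟩
  obtain ⟨n, hn⟩ := hx
  funext i
  have : (x i) ^ n = 0 := by simpa using congrFun hn i
  exact IsNilpotent.eq_zero ⟨n, this⟩

/-- Every element of the Hecke algebra is killed by an integer polynomial which is separable
over `ℚ`. -/
theorem pts_exists_separable (hS : ∀ q : ℕ, q.Prime → q ∣ N → q ∈ S)
    (τ : CuspForm.heckeAlgebra N k S) :
    ∃ r : ℤ[X], aeval τ r = 0 ∧ (r.map (Int.castRingHom ℚ)).Separable := by
  classical
  have : Module.Finite ℤ (CuspForm.heckeAlgebra N k S) :=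
    Fermat.Agent.S22.moduleFinite_heckeAlgebra N k S
  have := pts_isReduced_pi (CuspForm.heckeAlgebra N k S →+* ℂ)
  set ι := ptsProd N k S with hι
  have hτint : IsIntegral ℤ τ := Algebra.IsIntegral.isIntegral τ
  have hxint : IsIntegral ℤ (ι τ) := hτint.map ι.toIntAlgHom
  have hxQ : IsIntegral ℚ (ι τ) := hxint.tower_top
  set q := minpoly ℚ (ι τ) with hq
  have hqsq : Squarefree q :=
    (minpoly.isRadical ℚ (ι τ)).squarefree (minpoly.ne_zero hxQ)
  have hqsep : q.Separable := PerfectField.separable_iff_squarefree.mpr hqsq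
  obtain ⟨b, hbM, hb⟩ := IsLocalization.integerNormalization_spec (nonZeroDivisors ℤ) q
  set r := IsLocalization.integerNormalization (nonZeroDivisors ℤ) q with hr
  have hb0 : (b : ℤ) ≠ 0 := nonZeroDivisors.ne_zero hbM
  have hmap : r.map (Int.castRingHom ℚ) = C (b : ℚ) * q := by
    have : r.map (algebraMap ℤ ℚ) = b • q := hb
    rw [show (algebraMap ℤ ℚ) = Int.castRingHom ℚ from rfl] at this
    rw [this, zsmul_eq_mul]
    simp
  refine ⟨r, ?_, ?_⟩
  · apply ptsProd_injective hS
    rw [map_zero]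
    have h1 : ι (aeval τ r) = eval₂ (Int.castRingHom _) (ι τ) r := by
      rw [aeval_def, hom_eval₂]
      congr 1
      exact RingHom.ext_int _ _
    have h2 : eval₂ (Int.castRingHom _) (ι τ) r =
        aeval (ι τ) (r.map (Int.castRingHom ℚ)) := by
      rw [aeval_def, eval₂_map]
      congr 1
    rw [show ptsProd N k S = ι from rfl, h1, h2, hmap, map_mul, hq, minpoly.aeval,
      mul_zero]
  · rw [hmap]
    have hu : IsUnit (C (b : ℚ)) := by
      rw [Polynomial.isUnit_C]
      exact IsUnit.mk0 _ (by exact_mod_cast hb0)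
    exact Polynomial.Separable.unit_mul hu hqsep

end Hecke

section Rep

variable (𝒪 T : Type) [CommRing 𝒪] [IsDomain 𝒪] [CommRing T] [Algebra 𝒪 T]
  [Module.Finite 𝒪 T] [Module.Free 𝒪 T]

/-- The regular representation of `T` on `K ^ n`, where `K = Frac 𝒪` and `n = rank_𝒪 T`. -/
noncomputable def ptsRep :
    T →+* Module.End (FractionRing 𝒪) (Module.Free.ChooseBasisIndex 𝒪 T → FractionRing 𝒪) := by
  classical
  exact ((Matrix.toLinAlgEquiv' (R := FractionRing 𝒪)
      (n := Module.Free.ChooseBasisIndex 𝒪 T)).toAlgHom.toRingHom).comp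
    (((algebraMap 𝒪 (FractionRing 𝒪)).mapMatrix).comp
      (Algebra.leftMulMatrix (Module.Free.chooseBasis 𝒪 T)).toRingHom)

theorem ptsRep_injective : Function.Injective (ptsRep 𝒪 T) := by
  classical
  unfold ptsRep
  simp only [RingHom.coe_comp]
  refine Function.Injective.comp ?_ (Function.Injective.comp ?_ ?_)
  · exact (Matrix.toLinAlgEquiv' (R := FractionRing 𝒪)
      (n := Module.Free.ChooseBasisIndex 𝒪 T)).injective
  · intro A B hAB
    ext i j
    have := congrFun (congrFun hAB i) j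
    simp only [RingHom.mapMatrix_apply, Matrix.map_apply] at this
    exact IsFractionRing.injective 𝒪 (FractionRing 𝒪) this
  · exact Algebra.leftMulMatrix_injective _

theorem ptsRep_algebraMap (c : 𝒪) :
    ptsRep 𝒪 T (algebraMap 𝒪 T c) = algebraMap 𝒪 (FractionRing 𝒪) c • 1 := by
  classical
  unfold ptsRep
  simp only [RingHom.coe_comp, Function.comp_apply, AlgHom.toRingHom_eq_coe, RingHom.coe_coe,
    AlgHom.commutes]
  rw [Matrix.algebraMap_eq_diagonal]
  refine LinearMap.ext fun w => funext fun i => ?_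
  simp only [RingHom.mapMatrix_apply,
    Matrix.diagonal_map (map_zero _),
    Pi.algebraMap_apply, Algebra.algebraMap_self, RingHom.id_apply, LinearMap.smul_apply,
    Module.End.one_apply, Pi.smul_apply, smul_eq_mul]
  change (Matrix.toLinAlgEquiv' (Matrix.diagonal fun _ => (algebraMap 𝒪 (FractionRing 𝒪)) c)) w i
    = _
  rw [Matrix.toLinAlgEquiv'_apply, Matrix.mulVec_diagonal]

end Rep

section Datum

open IsLocalRing

variable {N : ℕ} [NeZero N] {S : Finset ℕ} {𝒪 : Type} [CommRing 𝒪] [IsDomain 𝒪]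
  [IsDiscreteValuationRing 𝒪] [IsAdicComplete (maximalIdeal 𝒪) 𝒪] [CharZero 𝒪]
  {θ : CuspForm.heckeAlgebra N 2 (↑S : Set ℕ) →+* ResidueField 𝒪}
  {T : Type} [CommRing T] [IsLocalRing T] [IsNoetherianRing T]
  [IsAdicComplete (maximalIdeal T) T] [Algebra 𝒪 T] [IsLocalHom (algebraMap 𝒪 T)]
  [Module.Finite 𝒪 T] [Module.Free 𝒪 T]

theorem pts_charZero_fractionRing (𝒪 : Type) [CommRing 𝒪] [IsDomain 𝒪] [CharZero 𝒪] :
    CharZero (FractionRing 𝒪) :=
  charZero_of_injective_ringHom (IsFractionRing.injective 𝒪 (FractionRing 𝒪))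

/-- The image of a Hecke operator in the regular representation of `T` is semisimple. -/
theorem pts_isSemisimple_π (hNS : ∀ q : ℕ, q.Prime → q ∣ N → q ∈ S)
    (H : CuspForm.HeckeGaloisRepDatum N ↑S 𝒪 θ T) (τ : CuspForm.heckeAlgebra N 2 (↑S : Set ℕ)) :
    (ptsRep 𝒪 T (H.π τ)).IsSemisimple := by
  classical
  have := pts_charZero_fractionRing 𝒪
  obtain ⟨r, hr0, hrsep⟩ := pts_exists_separable (N := N) (k := 2) (S := (↑S : Set ℕ))
    (fun q hq hqN => Finset.mem_coe.mpr (hNS q hq hqN)) τ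
  have hsep : ((r.map (Int.castRingHom ℚ)).map (algebraMap ℚ (FractionRing 𝒪))).Separable :=
    hrsep.map
  refine Module.End.isSemisimple_of_squarefree_aeval_eq_zero hsep.squarefree ?_
  rw [aeval_def, eval₂_map, eval₂_map]
  have h1 : ((ptsRep 𝒪 T).comp H.π) (aeval τ r) = 0 := by rw [hr0, map_zero]
  rw [aeval_def, hom_eval₂] at h1
  rw [← h1]
  congr 1
  exact RingHom.ext_int _ _

/-- Every element of `T` acts semisimply in the regular representation. -/
theorem pts_isSemisimple (hNS : ∀ q : ℕ, q.Prime → q ∣ N → q ∈ S)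
    (H : CuspForm.HeckeGaloisRepDatum N ↑S 𝒪 θ T) (t : T) :
    (ptsRep 𝒪 T t).IsSemisimple := by
  classical
  have := pts_charZero_fractionRing 𝒪
  have hcomm : ∀ a b : T, Commute (ptsRep 𝒪 T a) (ptsRep 𝒪 T b) := fun a b =>
    (Commute.all a b).map (ptsRep 𝒪 T)
  have ht : t ∈ Algebra.adjoin 𝒪 (Set.range H.π) := by
    rw [H.adjoin_range_π]; exact Algebra.mem_top
  induction ht using Algebra.adjoin_induction with
  | mem x hx =>
    obtain ⟨τ, rfl⟩ := hx
    exact pts_isSemisimple_π hNS H τ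
  | algebraMap c =>
    rw [ptsRep_algebraMap]
    exact Module.End.IsSemisimple_smul _ Module.End.isSemisimple_id
  | add x y _ _ hx hy =>
    rw [map_add]
    exact Module.End.IsSemisimple.add_of_commute (hcomm x y) hx hy
  | mul x y _ _ hx hy =>
    rw [map_mul]
    exact Module.End.IsSemisimple.mul_of_commute (hcomm x y) hx hy

/-- The coefficient ring of a Hecke–Galois datum over a characteristic zero discrete valuation
ring is reduced. -/
theorem pts_isReduced (hNS : ∀ q : ℕ, q.Prime → q ∣ N → q ∈ S)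
    (H : CuspForm.HeckeGaloisRepDatum N ↑S 𝒪 θ T) : IsReduced T := by
  refine ⟨fun t ht => ?_⟩
  apply ptsRep_injective 𝒪 T
  rw [map_zero]
  exact Module.End.eq_zero_of_isNilpotent_isSemisimple (ht.map (ptsRep 𝒪 T))
    (pts_isSemisimple hNS H t)

/-- Core of S33-PTS: a point `x : T →+* Ω` with values in a field, injective on `𝒪`, and
nonzero at a given `t ≠ 0`. -/
theorem pts_exists_point (hNS : ∀ q : ℕ, q.Prime → q ∣ N → q ∈ S)
    (H : CuspForm.HeckeGaloisRepDatum N ↑S 𝒪 θ T) (t : T) (ht : t ≠ 0) :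
    ∃ (Ω : Type) (_ : Field Ω) (x : T →+* Ω),
      Function.Injective (x.comp (algebraMap 𝒪 T)) ∧ x t ≠ 0 := by
  classical
  have := pts_isReduced hNS H
  obtain ⟨ϖ, hϖ⟩ := IsDiscreteValuationRing.exists_irreducible 𝒪
  -- `ϖ • t` is not nilpotent
  have hne : ϖ • t ≠ 0 := by
    intro h0
    rcases smul_eq_zero.mp h0 with h | h
    · exact hϖ.ne_zero h
    · exact ht h
  have hnil : ϖ • t ∉ nilradical T := by
    rw [mem_nilradical]
    intro hn
    exact hne hn.eq_zero
  rw [nilradical_eq_sInf, Ideal.mem_sInf] at hnil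
  push Not at hnil
  obtain ⟨𝔭, h𝔭, hmem⟩ := hnil
  have h𝔭' : 𝔭.IsPrime := h𝔭
  have ht𝔭 : t ∉ 𝔭 := fun h => hmem (by rw [Algebra.smul_def]; exact 𝔭.mul_mem_left _ h)
  have hϖ𝔭 : algebraMap 𝒪 T ϖ ∉ 𝔭 := fun h =>
    hmem (by rw [Algebra.smul_def]; exact 𝔭.mul_mem_right _ h)
  let x : T →+* FractionRing (T ⧸ 𝔭) :=
    (algebraMap (T ⧸ 𝔭) (FractionRing (T ⧸ 𝔭))).comp (Ideal.Quotient.mk 𝔭)
  have hx0 : ∀ a : T, x a = 0 ↔ a ∈ 𝔭 := by
    intro a
    rw [RingHom.comp_apply,
      map_eq_zero_iff _ (IsFractionRing.injective (T ⧸ 𝔭) (FractionRing (T ⧸ 𝔭))),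
      Ideal.Quotient.eq_zero_iff_mem]
  have hinj : Function.Injective (x.comp (algebraMap 𝒪 T)) := by
    rw [injective_iff_map_eq_zero]
    intro a ha
    by_contra ha0
    obtain ⟨n, u, rfl⟩ := IsDiscreteValuationRing.eq_unit_mul_pow_irreducible ha0 hϖ
    rw [map_mul, map_pow] at ha
    rcases mul_eq_zero.mp ha with h | h
    · exact ((u.isUnit.map (x.comp (algebraMap 𝒪 T))).ne_zero) h
    · rcases Nat.eq_zero_or_pos n with hn | hn
      · subst hn; simp at h
      · have h' : (x.comp (algebraMap 𝒪 T)) ϖ = 0 := pow_eq_zero_iff hn.ne' |>.mp h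
        exact hϖ𝔭 ((hx0 _).mp h')
  exact ⟨FractionRing (T ⧸ 𝔭), inferInstance, x, hinj, fun h => ht𝔭 ((hx0 t).mp h)⟩

/-- **S33-PTS**: the characteristic zero points of the coefficient ring `T` of a Hecke–Galois
datum separate its elements. -/
theorem exists_point_ne_zero (hNS : ∀ q : ℕ, q.Prime → q ∣ N → q ∈ S)
    (H : CuspForm.HeckeGaloisRepDatum N ↑S 𝒪 θ T) (t : T) (ht : t ≠ 0) :
    ∃ (Ω : Type) (_ : Field Ω) (_ : CharZero Ω) (x : T →+* Ω), x t ≠ 0 := by
  obtain ⟨Ω, hF, x, hinj, hx⟩ := pts_exists_point hNS H t ht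
  exact ⟨Ω, hF, charZero_of_injective_ringHom hinj, x, hx⟩

/-- Variant of `exists_point_ne_zero`: the point can be taken `𝒪`-linear, for an `𝒪`-algebra
structure on `Ω` with injective structure map. -/
theorem exists_algHom_point_ne_zero (hNS : ∀ q : ℕ, q.Prime → q ∣ N → q ∈ S)
    (H : CuspForm.HeckeGaloisRepDatum N ↑S 𝒪 θ T) (t : T) (ht : t ≠ 0) :
    ∃ (Ω : Type) (_ : Field Ω) (_ : CharZero Ω) (_ : Algebra 𝒪 Ω) (x : T →ₐ[𝒪] Ω),
      Function.Injective (algebraMap 𝒪 Ω) ∧ x t ≠ 0 := by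
  obtain ⟨Ω, hF, x, hinj, hx⟩ := pts_exists_point hNS H t ht
  exact ⟨Ω, hF, charZero_of_injective_ringHom hinj, (x.comp (algebraMap 𝒪 T)).toAlgebra,
    @AlgHom.mk 𝒪 T Ω _ _ _ _ (x.comp (algebraMap 𝒪 T)).toAlgebra x (fun _ => rfl), hinj, hx⟩

end Datum

end Fermat.Agent.S33
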