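import Mathlib

/-!
# S33 v2, step (1): "Raynaud-lite" — a connected Hopf order has no rational points (helper53)

Pure algebra (Mathlib only).  Let `B` be a commutative ring, `p` an odd prime which is a
non-zero-divisor of `B` with `⋂ₛ pˢ B = 0`, `Q` a commutative group, and `H` a set of functions
`Q → B` which is closed under comultiplication up to `B`-linear combinations:
for `h ∈ H` the function `(x, y) ↦ h (x + y)` is a `B`-linear combination of functions
`(x, y) ↦ a x * b y` with `a, b ∈ H`.  If `q ∈ Q` is killed by `p` and `h q ≡ h 0 mod p` for all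
`h ∈ H` ("`q` reduces to the origin"), then `h q = h 0` for all `h ∈ H`.

Proof (helper33's finite-difference argument).  Put `Dᵢ(h) = (Δ_qⁱ h)(0)`.  Comultiplication gives
`Δ_q h = ∑ⱼ rⱼ D₁(bⱼ) aⱼ`; so if `D₁(H) ⊆ pˢ B` then `Δ_qⁱ` maps `span H` into `p^{is} span H`
and `Dᵢ(H) ⊆ p^{is} B`.  Gregory–Newton: `0 = h (p q) - h 0 = ∑_{i=1}^{p} C(p,i) Dᵢ(h)`, hence
`p D₁(h) ∈ p^{min(1+2s, ps)} B ⊆ p^{s+2} B` (`p ≥ 3`, `s ≥ 1`) and `D₁(h) ∈ p^{s+1} B`.
-/

set_option autoImplicit false

namespace Fermat.Agent.S33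

open Finset fwdDiff

section Core

variable {B : Type*} [CommRing B] {Q : Type*} [AddCommGroup Q]

/-- The set of "pure tensors" `(x, y) ↦ a x * b y`, `a, b ∈ H`. -/
def raylitePure (H : Set (Q → B)) : Set (Q × Q → B) :=
  {F | ∃ a ∈ H, ∃ b ∈ H, F = fun PQ => a PQ.1 * b PQ.2}

/-- `H` is closed under comultiplication (up to `B`-linear combinations). -/
def RayliteComul (H : Set (Q → B)) : Prop :=
  ∀ h ∈ H, (fun PQ : Q × Q => h (PQ.1 + PQ.2)) ∈ Submodule.span B (raylitePure H)

/-- The `B`-linear map `F ↦ (x ↦ F (x, q) - F (x, 0))`. -/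
def rayliteSlice (q : Q) : (Q × Q → B) →ₗ[B] (Q → B) where
  toFun F := fun x => F (x, q) - F (x, 0)
  map_add' F G := by funext x; simp only [Pi.add_apply]; ring
  map_smul' c F := by funext x; simp only [Pi.smul_apply, smul_eq_mul, RingHom.id_apply]; ring

/-- The forward difference as a `B`-linear map. -/
def rayliteDiff (q : Q) : (Q → B) →ₗ[B] (Q → B) where
  toFun f := Δ_[q] f
  map_add' f g := fwdDiff_add q f g
  map_smul' c f := by
    funext x
    simp only [fwdDiff, Pi.smul_apply, smul_eq_mul, RingHom.id_apply]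
    ring

theorem rayliteDiff_apply (q : Q) (f : Q → B) : rayliteDiff q f = Δ_[q] f := rfl

theorem rayliteDiff_pow_apply (q : Q) (i : ℕ) (f : Q → B) :
    ((rayliteDiff q) ^ i) f = (fwdDiff q)^[i] f := by
  induction i generalizing f with
  | zero => rfl
  | succ i ih =>
    rw [pow_succ, Module.End.mul_apply, ih, rayliteDiff_apply, Function.iterate_succ_apply]

/-- Key step: if `D₁(H) ⊆ c B` then `Δ_q` maps `span H` into `c • span H`. -/
theorem raylite_diff_mem {H : Set (Q → B)} (hH : RayliteComul H) (q : Q) (c : B)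
    (hc : ∀ h ∈ H, c ∣ h q - h 0) (f : Q → B) (hf : f ∈ Submodule.span B H) :
    ∃ g ∈ Submodule.span B H, rayliteDiff q f = c • g := by
  -- the submodule `c • span H`
  let W : Submodule B (Q → B) := (Submodule.span B H).map (LinearMap.lsmul B (Q → B) c)
  suffices h : rayliteDiff q f ∈ W by
    obtain ⟨g, hg, hg'⟩ := h
    exact ⟨g, hg, hg'.symm⟩
  have hle : Submodule.span B H ≤ W.comap (rayliteDiff q) := by
    rw [Submodule.span_le]
    intro h hh
    show rayliteDiff q h ∈ W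
    -- `Δ_q h = slice (comul h)`
    have e1 : rayliteDiff q h = rayliteSlice q (fun PQ : Q × Q => h (PQ.1 + PQ.2)) := by
      funext x
      show h (x + q) - h x = h (x + q) - h (x + 0)
      rw [add_zero]
    rw [e1]
    have hle2 : Submodule.span B (raylitePure H) ≤ W.comap (rayliteSlice q) := by
      rw [Submodule.span_le]
      rintro F ⟨a, ha, b, hb, rfl⟩
      show rayliteSlice q _ ∈ W
      obtain ⟨t, ht⟩ := hc b hb
      refine ⟨t • a, Submodule.smul_mem _ _ (Submodule.subset_span ha), ?_⟩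
      funext x
      show c • (t • a) x = a x * b q - a x * b 0
      simp only [Pi.smul_apply, smul_eq_mul]
      linear_combination (-(a x)) * ht
    exact hle2 (hH h hh)
  exact hle hf

/-- Iteration: if `D₁(H) ⊆ c B` then `Δ_qⁱ` maps `span H` into `cⁱ • span H`. -/
theorem raylite_diff_pow_mem {H : Set (Q → B)} (hH : RayliteComul H) (q : Q) (c : B)
    (hc : ∀ h ∈ H, c ∣ h q - h 0) (i : ℕ) (f : Q → B) (hf : f ∈ Submodule.span B H) :
    ∃ g ∈ Submodule.span B H, (fwdDiff q)^[i] f = c ^ i • g := by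
  induction i generalizing f with
  | zero => exact ⟨f, hf, by simp⟩
  | succ i ih =>
    obtain ⟨g, hg, hg'⟩ := raylite_diff_mem hH q c hc f hf
    obtain ⟨g2, hg2, hg2'⟩ := ih g hg
    refine ⟨g2, hg2, ?_⟩
    rw [Function.iterate_succ_apply, ← rayliteDiff_apply, hg', ← rayliteDiff_pow_apply,
      map_smul, rayliteDiff_pow_apply, hg2', smul_smul, pow_succ, mul_comm]

/-- Inductive step of the finite-difference argument: from `D₁(H) ⊆ pˢ B` (`s ≥ 1`) to
`D₁(H) ⊆ p^{s+1} B`, for an odd prime `p` which is a non-zero-divisor and a point `q` killed by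
`p`. -/
theorem raylite_step {H : Set (Q → B)} (hH : RayliteComul H) {p : ℕ} (hp : p.Prime)
    (hp2 : p ≠ 2) (hreg : ∀ x : B, (p : B) * x = 0 → x = 0) (q : Q) (hq : p • q = 0)
    (s : ℕ) (hs : 1 ≤ s) (hc : ∀ h ∈ H, (p : B) ^ s ∣ h q - h 0) :
    ∀ h ∈ H, (p : B) ^ (s + 1) ∣ h q - h 0 := by
  intro h hh
  have hp3 : 3 ≤ p := by
    have := hp.two_le
    omega
  obtain ⟨n, rfl⟩ : ∃ n, p = n + 2 := ⟨p - 2, by omega⟩
  -- divisibility of the higher differences
  have hD : ∀ i : ℕ, (((n + 2 : ℕ) : B) ^ s) ^ i ∣ ((fwdDiff q)^[i] h) 0 := by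
    intro i
    obtain ⟨g, -, hg⟩ := raylite_diff_pow_mem hH q (((n + 2 : ℕ) : B) ^ s) hc i h
      (Submodule.subset_span hh)
    rw [hg]
    exact ⟨g 0, rfl⟩
  -- Gregory–Newton
  have hN := shift_eq_sum_fwdDiff_iter q h (n + 2) 0
  rw [hq, add_zero, Finset.sum_range_succ', Finset.sum_range_succ'] at hN
  simp only [Function.iterate_zero, id_eq, Nat.choose_zero_right, one_smul, zero_add,
    Function.iterate_one, Nat.choose_one_right] at hN
  have hD1 : (fwdDiff q h) 0 = h q - h 0 := by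
    show h (0 + q) - h 0 = h q - h 0
    rw [zero_add]
  rw [hD1] at hN
  -- the tail is divisible by `p^(s+2)`
  have htail : ((n + 2 : ℕ) : B) ^ (s + 2) ∣
      ∑ k ∈ Finset.range (n + 1), (n + 2).choose (k + 1 + 1) • ((fwdDiff q)^[k + 1 + 1] h) 0 := by
    apply Finset.dvd_sum
    intro k hk
    have hk' : k < n + 1 := Finset.mem_range.mp hk
    rw [nsmul_eq_mul]
    rcases Nat.lt_or_ge (k + 2) (n + 2) with hlt | hge
    · -- `p ∣ C(p, k+2)` and `p^(2s) ∣ D`
      have h1 : (n + 2) ∣ (n + 2).choose (k + 1 + 1) := hp.dvd_choose_self (by omega) hlt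
      have h1' : ((n + 2 : ℕ) : B) ∣ (((n + 2).choose (k + 1 + 1) : ℕ) : B) :=
        Nat.cast_dvd_cast h1
      have h2 : ((n + 2 : ℕ) : B) ^ (s + 1) ∣ ((fwdDiff q)^[k + 1 + 1] h) 0 := by
        refine dvd_trans ?_ (hD (k + 1 + 1))
        rw [← pow_mul]
        apply pow_dvd_pow
        nlinarith
      have := mul_dvd_mul h1' h2
      rwa [← pow_succ', show s + 1 + 1 = s + 2 by ring] at this
    · have hkn : k = n := by omega
      subst hkn
      rw [show k + 1 + 1 = k + 2 by ring, Nat.choose_self, Nat.cast_one, one_mul]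
      refine dvd_trans ?_ (hD (k + 2))
      rw [← pow_mul]
      apply pow_dvd_pow
      nlinarith
  obtain ⟨y, hy⟩ := htail
  -- `p * D₁ = - p^(s+2) y`
  refine ⟨-y, ?_⟩
  have hfin : ((n + 2 : ℕ) : B) * ((h q - h 0) - ((n + 2 : ℕ) : B) ^ (s + 1) * (-y)) = 0 := by
    have e1 : ((n + 2 : ℕ) : B) * (h q - h 0) = (n + 2) • (h q - h 0) := by
      rw [nsmul_eq_mul]
    rw [hy] at hN
    rw [mul_sub, e1]
    have hN' : (n + 2) • (h q - h 0) = - ((((n + 2 : ℕ) : B)) ^ (s + 2) * y) := by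
      have : h 0 = (((n + 2 : ℕ) : B)) ^ (s + 2) * y + (n + 2) • (h q - h 0) + h 0 := hN
      linear_combination -this
    rw [hN']
    ring
  have := hreg _ hfin
  linear_combination this

/-- **Raynaud-lite**: let `p` be an odd prime, a non-zero-divisor of `B`, with `⋂ₛ pˢ B = 0`.
Let `H` be a set of functions `Q → B` closed under comultiplication and `q ∈ Q` a point killed
by `p` with `h q ≡ h 0 mod p` for all `h ∈ H`.  Then `h q = h 0` for all `h ∈ H`. -/
theorem raylite_eq {H : Set (Q → B)} (hH : RayliteComul H) {p : ℕ} (hp : p.Prime)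
    (hp2 : p ≠ 2) (hreg : ∀ x : B, (p : B) * x = 0 → x = 0)
    (hsep : ∀ x : B, (∀ s : ℕ, (p : B) ^ s ∣ x) → x = 0) (q : Q) (hq : p • q = 0)
    (hc : ∀ h ∈ H, (p : B) ∣ h q - h 0) : ∀ h ∈ H, h q = h 0 := by
  have key : ∀ s : ℕ, ∀ h ∈ H, (p : B) ^ (s + 1) ∣ h q - h 0 := by
    intro s
    induction s with
    | zero => simpa using hc
    | succ s ih => exact raylite_step hH hp hp2 hreg q hq (s + 1) (by omega) ih
  intro h hh
  have h0 : h q - h 0 = 0 := by
    apply hsep
    intro s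
    rcases s with _ | s
    · simp
    · exact key s h hh
  exact sub_eq_zero.mp h0

/-- If moreover `H` separates `q` from `0`, then `q = 0`: a connected Hopf order on a group with
trivial inertia action has no point of order `p`. -/
theorem raylite_eq_zero {H : Set (Q → B)} (hH : RayliteComul H) {p : ℕ} (hp : p.Prime)
    (hp2 : p ≠ 2) (hreg : ∀ x : B, (p : B) * x = 0 → x = 0)
    (hsep : ∀ x : B, (∀ s : ℕ, (p : B) ^ s ∣ x) → x = 0)
    (hsepQ : ∀ P : Q, (∀ h ∈ H, h P = h 0) → P = 0) (q : Q) (hq : p • q = 0)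
    (hc : ∀ h ∈ H, (p : B) ∣ h q - h 0) : q = 0 :=
  hsepQ q (raylite_eq hH hp hp2 hreg hsep q hq hc)

end Core

end Fermat.Agent.S33
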