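import Fermat.Agent.S33.RayLite
import Fermat.Agent.S33.Plan2

/-!
# S33 v2, piece B2: `stmtRayLite : StmtRayLite` (helper53)

The exact `Prop` of `S33/Plan2.lean`, deduced from the core `raylite_eq` of `S33/RayLite.lean`
(functions with values in the ring `B := R`).
-/

set_option autoImplicit false

namespace Fermat.Agent.S33

/-- composition with the inclusion `R → K`, as an `R`-linear map on functions -/
def rayliteIncl {K : Type} [Field K] (R : Subring K) (X : Type) : (X → R) →ₗ[R] (X → K) where
  toFun f := fun x => (f x : K)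
  map_add' f g := by funext x; simp
  map_smul' c f := by funext x; simp [Subring.smul_def]

theorem rayliteIncl_injective {K : Type} [Field K] (R : Subring K) (X : Type) :
    Function.Injective (rayliteIncl R X) := by
  intro f g h
  funext x
  exact Subtype.ext (congrFun h x)

/-- **B2 (Raynaud-lite)**, the exact statement of `Plan2.lean`. -/
theorem stmtRayLite : StmtRayLite := by
  intro K _ _ R p hp hp2 hsepK Q _ q hq ℱ hval hcomul hconn φ hφ
  have hpK : (p : K) ≠ 0 := Nat.cast_ne_zero.mpr hp.ne_zero
  -- the `R`-valued family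
  let H : Set (Q → R) := {h | rayliteIncl R Q h ∈ ℱ}
  -- every element of `ℱ` comes from `H`
  have hlift : ∀ a ∈ ℱ, ∃ a' ∈ H, rayliteIncl R Q a' = a := by
    intro a ha
    refine ⟨fun x => ⟨a x, hval a ha x⟩, ?_, rfl⟩
    show rayliteIncl R Q _ ∈ ℱ
    exact ha
  have hH : RayliteComul H := by
    intro h hh
    have h1 := hcomul _ hh
    -- the set of pure tensors is the image of `raylitePure H`
    have hset : {F : Q × Q → K | ∃ a ∈ ℱ, ∃ b ∈ ℱ, F = fun xy => a xy.1 * b xy.2}
        = (rayliteIncl R (Q × Q)) '' (raylitePure H) := by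
      ext F
      constructor
      · rintro ⟨a, ha, b, hb, rfl⟩
        obtain ⟨a', ha', rfl⟩ := hlift a ha
        obtain ⟨b', hb', rfl⟩ := hlift b hb
        exact ⟨fun xy => a' xy.1 * b' xy.2, ⟨a', ha', b', hb', rfl⟩, by
          funext xy; simp [rayliteIncl]⟩
      · rintro ⟨G, ⟨a', ha', b', hb', rfl⟩, rfl⟩
        exact ⟨rayliteIncl R Q a', ha', rayliteIncl R Q b', hb', by
          funext xy; simp [rayliteIncl]⟩
    rw [hset, ← Submodule.map_span] at h1
    obtain ⟨G, hG, hG'⟩ := h1
    have : G = fun PQ : Q × Q => h (PQ.1 + PQ.2) := by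
      apply rayliteIncl_injective R (Q × Q)
      rw [hG']
      rfl
    rw [← this]
    exact hG
  have hreg : ∀ x : R, ((p : ℕ) : R) * x = 0 → x = 0 := by
    intro x hx
    have hpR : ((p : ℕ) : R) ≠ 0 := by
      intro h0
      apply hpK
      have := congrArg (Subtype.val) h0
      simpa using this
    rcases mul_eq_zero.mp hx with h | h
    · exact absurd h hpR
    · exact h
  have hsep : ∀ x : R, (∀ s : ℕ, ((p : ℕ) : R) ^ s ∣ x) → x = 0 := by
    intro x hx
    apply Subtype.ext
    show (x : K) = 0
    apply hsepK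
    intro s
    obtain ⟨y, hy⟩ := hx s
    have : (x : K) = (p : K) ^ s * (y : K) := by
      have := congrArg (Subtype.val) hy
      simpa using this
    rw [this, mul_div_cancel_left₀ _ (pow_ne_zero _ hpK)]
    exact y.2
  obtain ⟨φ', hφ', rfl⟩ := hlift φ hφ
  have hc : ∀ h ∈ H, ((p : ℕ) : R) ∣ h q - h 0 := by
    intro h hh
    have := hconn _ hh
    refine ⟨⟨_, this⟩, ?_⟩
    apply Subtype.ext
    show ((h q - h 0 : R) : K) = (((p : ℕ) : R) : K) * _
    have e1 : ((h q - h 0 : R) : K) = (h q : K) - (h 0 : K) := by push_cast; rfl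
    have e2 : (((p : ℕ) : R) : K) = (p : K) := by push_cast; rfl
    rw [e1, e2]
    show (h q : K) - (h 0 : K) = (p : K) * ((rayliteIncl R Q h q - rayliteIncl R Q h 0) / (p : K))
    show (h q : K) - (h 0 : K) = (p : K) * (((h q : K) - (h 0 : K)) / (p : K))
    field_simp
  have := raylite_eq hH hp hp2 hreg hsep q hq hc φ' hφ'
  show ((φ' q : R) : K) = ((φ' 0 : R) : K)
  rw [this]

end Fermat.Agent.S33
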