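import Fermat.Agent.S33.Plan2

/-!
# S33 v2, piece B1 (SQ-loc), part 1: linear algebra of a lattice of `I`-equivariant functions

`R ⊂ ℚ̄` a subring, `I ≤ G_ℚ` a subgroup, every `I`-fixed element of `ℚ̄` a fraction of elements
of `R` (`SqlocFrac R I`).  For a finite set `M` and an `R`-subalgebra `H ⊂ Map(M, ℚ̄)`:

* `sqloc_span_top`       : the `ℚ̄`-span of a separating `H` is the space of all functions;
* `sqloc_linearIndependent` : Artin's lemma — a family of `I`-equivariant functions which is
  linearly independent over `R` is linearly independent over `ℚ̄`;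
* `sqloc_exists_basis`   : (`R` a PID) a finitely generated `I`-equivariant `H` has an `R`-basis
  which is linearly independent over `ℚ̄`;
* `sqloc_exists_smul_mem`: every `I`-equivariant function has a non-zero `R`-multiple in a
  finitely generated, equivariant, separating `H`.

This is helper17's `W1/SubQuotLin.lean` with `(ℤ_(p), ℚ, G_ℚ)` replaced by `(R, ℚ̄^I, I)`.
-/

set_option autoImplicit false
set_option linter.unusedSectionVars false
set_option linter.unusedSimpArgs false
set_option linter.style.haveILetI false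

namespace Fermat.Agent.S33

/-- every `I`-fixed element of `ℚ̄` is a fraction of elements of `R` -/
def SqlocFrac (R : Subring (AlgebraicClosure ℚ)) (I : Subgroup GQb) : Prop :=
  ∀ x : AlgebraicClosure ℚ, (∀ σ ∈ I, σ x = x) → ∃ r ∈ R, ∃ s ∈ R, s ≠ 0 ∧ x * s = r

section SpanTop

variable {R : Subring (AlgebraicClosure ℚ)} {M : Type}

/-- The `ℚ̄`-span of a subalgebra is a `ℚ̄`-subalgebra. -/
theorem sqloc_span_eq_adjoin (H : Subalgebra R (M → AlgebraicClosure ℚ)) :
    Submodule.span (AlgebraicClosure ℚ) (H : Set (M → AlgebraicClosure ℚ)) =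
      Subalgebra.toSubmodule
        (Algebra.adjoin (AlgebraicClosure ℚ) (H : Set (M → AlgebraicClosure ℚ))) := by
  rw [Algebra.adjoin_eq_span]
  congr 1
  have h1 : ((H.toSubsemiring.toSubmonoid : Submonoid (M → AlgebraicClosure ℚ)) :
      Set (M → AlgebraicClosure ℚ)) = (H : Set (M → AlgebraicClosure ℚ)) := rfl
  rw [← h1, Submonoid.closure_eq]

/-- Over a finite set, the `ℚ̄`-span of a separating subalgebra is everything. -/
theorem sqloc_span_top [Finite M] (H : Subalgebra R (M → AlgebraicClosure ℚ))
    (hsep : ∀ P Q : M, (∀ h ∈ H, h P = h Q) → P = Q) :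
    Submodule.span (AlgebraicClosure ℚ) (H : Set (M → AlgebraicClosure ℚ)) = ⊤ := by
  classical
  haveI : Fintype M := Fintype.ofFinite M
  rw [sqloc_span_eq_adjoin]
  set A := Algebra.adjoin (AlgebraicClosure ℚ) (H : Set (M → AlgebraicClosure ℚ)) with hA
  -- separating functions
  have hex : ∀ P Q : M, P ≠ Q → ∃ h ∈ H, h P ≠ h Q := by
    intro P Q hPQ
    by_contra hcon
    refine hPQ (hsep P Q fun h hh => ?_)
    by_contra hne
    exact hcon ⟨h, hh, hne⟩
  -- the indicator functions
  have hind : ∀ P : M, (fun x => if x = P then (1 : AlgebraicClosure ℚ) else 0) ∈ A := by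
    intro P
    -- a factor for every `Q ≠ P`
    have hfac : ∀ Q : M, ∃ g ∈ A, g P = 1 ∧ (Q ≠ P → g Q = 0) := by
      intro Q
      by_cases hQ : Q = P
      · exact ⟨1, A.one_mem, rfl, fun h => absurd hQ h⟩
      · obtain ⟨h, hh, hne⟩ := hex P Q (Ne.symm hQ)
        have hne' : h P - h Q ≠ 0 := sub_ne_zero.2 hne
        refine ⟨(h P - h Q)⁻¹ • (h - algebraMap (AlgebraicClosure ℚ) _ (h Q)),
          A.smul_mem (A.sub_mem (Algebra.subset_adjoin hh) (A.algebraMap_mem _)) _, ?_, ?_⟩
        · simp [Pi.algebraMap_apply, hne']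
        · intro _
          simp [Pi.algebraMap_apply]
    choose g hgA hgP hgQ using hfac
    have h1 : (∏ Q ∈ Finset.univ.erase P, g Q) ∈ A := A.prod_mem fun Q _ => hgA Q
    convert h1 using 1
    funext x
    rw [Finset.prod_apply]
    by_cases hx : x = P
    · subst hx
      rw [if_pos rfl]
      symm
      refine Finset.prod_eq_one fun Q hQ => ?_
      by_cases hQx : Q = x
      · exact absurd hQx (Finset.ne_of_mem_erase hQ)
      · exact hgP Q
    · rw [if_neg hx]
      symm
      refine Finset.prod_eq_zero (Finset.mem_erase.2 ⟨hx, Finset.mem_univ x⟩) ?_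
      exact hgQ x hx
  rw [eq_top_iff]
  intro f _
  have hf : f = ∑ P : M, f P • (fun x => if x = P then (1 : AlgebraicClosure ℚ) else 0) := by
    funext x
    simp [Finset.sum_apply]
  rw [hf]
  exact (Subalgebra.mem_toSubmodule A).2 (A.sum_mem fun P _ => A.smul_mem (hind P) _)

end SpanTop

section Artin

variable {R : Subring (AlgebraicClosure ℚ)} {I : Subgroup GQb}

/-- a common denominator in `R` of finitely many `I`-fixed elements -/
theorem sqloc_common_den {ι : Type*} (hfrac : SqlocFrac R I) (t : Finset ι)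
    (c : ι → AlgebraicClosure ℚ) (hc : ∀ i ∈ t, ∀ σ ∈ I, σ (c i) = c i) :
    ∃ d ∈ R, d ≠ 0 ∧ ∀ i ∈ t, d * c i ∈ R := by
  classical
  induction t using Finset.induction_on with
  | empty => exact ⟨1, R.one_mem, one_ne_zero, fun i hi => absurd hi (Finset.notMem_empty i)⟩
  | insert a s has ih =>
    obtain ⟨d, hd, hd0, hds⟩ := ih fun i hi => hc i (Finset.mem_insert_of_mem hi)
    obtain ⟨r, hr, s', hs', hs'0, hrs⟩ := hfrac (c a) (hc a (Finset.mem_insert_self a s))
    refine ⟨d * s', R.mul_mem hd hs', mul_ne_zero hd0 hs'0, fun i hi => ?_⟩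
    rcases Finset.mem_insert.1 hi with rfl | hi
    · have : d * s' * c i = d * r := by rw [← hrs]; ring
      rw [this]
      exact R.mul_mem hd hr
    · have : d * s' * c i = s' * (d * c i) := by ring
      rw [this]
      exact R.mul_mem hs' (hds i hi)

/-- **Artin's lemma** for `I`-equivariant functions: linear independence over `R` implies linear
independence over `ℚ̄`. -/
theorem sqloc_linearIndependent {X ι : Type*} (hfrac : SqlocFrac R I)
    (act : GQb → X → X) (h : ι → X → AlgebraicClosure ℚ)
    (hequiv : ∀ i, ∀ σ ∈ I, ∀ x : X, h i (act σ x) = σ (h i x))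
    (hR : LinearIndependent R h) : LinearIndependent (AlgebraicClosure ℚ) h := by
  classical
  rw [linearIndependent_iff']
  intro s
  induction s using Finset.induction_on with
  | empty => intro g _ i hi; simp at hi
  | insert a s has ih =>
    intro g hg
    -- twisting a relation by `σ`
    have twist : ∀ (t : Finset ι) (c : ι → AlgebraicClosure ℚ),
        ∑ i ∈ t, c i • h i = 0 →
        ∀ σ ∈ I, ∑ i ∈ t, (σ (c i)) • h i = 0 := by
      intro t c hc σ hσ
      funext x
      have h1 := congrFun hc (act σ⁻¹ x)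
      simp only [Finset.sum_apply, Pi.smul_apply, smul_eq_mul, Pi.zero_apply] at h1 ⊢
      have h2 := congrArg σ h1
      simp only [map_sum, map_mul, map_zero] at h2
      rw [← h2]
      refine Finset.sum_congr rfl fun i _ => ?_
      rw [hequiv i σ⁻¹ (I.inv_mem hσ) x]
      have : σ (σ⁻¹ (h i x)) = h i x := by
        rw [← AlgEquiv.mul_apply, mul_inv_cancel, AlgEquiv.one_apply]
      rw [this]
    by_cases hga : g a = 0
    · -- reduce to `s`
      have hs : ∑ i ∈ s, g i • h i = 0 := by
        rw [Finset.sum_insert has, hga, zero_smul, zero_add] at hg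
        exact hg
      intro i hi
      rcases Finset.mem_insert.1 hi with rfl | hi
      · exact hga
      · exact ih g hs i hi
    · exfalso
      -- normalise
      set c : ι → AlgebraicClosure ℚ := fun i => (g a)⁻¹ * g i with hc
      have hca : c a = 1 := by simp [hc, hga]
      have hcrel : ∑ i ∈ insert a s, c i • h i = 0 := by
        have : ∑ i ∈ insert a s, c i • h i = (g a)⁻¹ • ∑ i ∈ insert a s, g i • h i := by
          rw [Finset.smul_sum]
          refine Finset.sum_congr rfl fun i _ => ?_
          simp [hc, mul_smul]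
        rw [this, hg, smul_zero]
      -- all coefficients are fixed
      have hfix : ∀ i ∈ insert a s, ∀ σ ∈ I, σ (c i) = c i := by
        intro i hi σ hσ
        have h1 := twist _ c hcrel σ hσ
        have h2 : ∑ i ∈ s, (σ (c i) - c i) • h i = 0 := by
          have h3 : ∑ i ∈ insert a s, (σ (c i) - c i) • h i = 0 := by
            simp only [sub_smul, Finset.sum_sub_distrib, h1, hcrel, sub_zero]
          rw [Finset.sum_insert has, hca, map_one, sub_self, zero_smul, zero_add] at h3
          exact h3
        rcases Finset.mem_insert.1 hi with rfl | hi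
        · rw [hca, map_one]
        · exact sub_eq_zero.1 (ih _ h2 i hi)
      obtain ⟨d, hd, hd0, hdc⟩ := sqloc_common_den hfrac (insert a s) c hfix
      set q : ι → R := fun i => if hi : i ∈ insert a s then ⟨d * c i, hdc i hi⟩ else 0 with hq
      have hqv : ∀ i ∈ insert a s, ((q i : R) : AlgebraicClosure ℚ) = d * c i := by
        intro i hi
        simp only [hq, dif_pos hi]
      have hqrel : ∑ i ∈ insert a s, q i • h i = 0 := by
        have e : ∑ i ∈ insert a s, q i • h i = d • ∑ i ∈ insert a s, c i • h i := by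
          rw [Finset.smul_sum]
          refine Finset.sum_congr rfl fun i hi => ?_
          funext x
          show ((q i : R) : AlgebraicClosure ℚ) * h i x = d * (c i * h i x)
          rw [hqv i hi, mul_assoc]
        rw [e, hcrel, smul_zero]
      have h0 := linearIndependent_iff'.1 hR _ q hqrel a (Finset.mem_insert_self a s)
      have h1 := hqv a (Finset.mem_insert_self a s)
      rw [h0, hca, mul_one] at h1
      exact hd0 h1.symm

end Artin

section Basis

variable {R : Subring (AlgebraicClosure ℚ)} {I : Subgroup GQb} {M : Type}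
  {act : GQb → M → M} {H : Subalgebra R (M → AlgebraicClosure ℚ)}

/-- The lattice is torsion free. -/
theorem sqloc_isTorsionFree (H : Subalgebra R (M → AlgebraicClosure ℚ)) :
    Module.IsTorsionFree R H := by
  refine Module.IsTorsionFree.of_smul_eq_zero fun r h hrh => ?_
  by_cases hr : r = 0
  · exact Or.inl hr
  · right
    apply Subtype.ext
    funext P
    have h1 : r • ((h : M → AlgebraicClosure ℚ) P) = 0 :=
      congrArg (fun x : H => (x : M → AlgebraicClosure ℚ) P) hrh
    have h2 : (r : AlgebraicClosure ℚ) * (h : M → AlgebraicClosure ℚ) P = 0 := h1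
    rcases mul_eq_zero.1 h2 with h3 | h3
    · exact absurd (Subtype.ext h3) hr
    · simpa using h3

/-- Evaluation of a scalar multiple in a lattice. -/
theorem sqloc_coe_smul_apply (H : Subalgebra R (M → AlgebraicClosure ℚ)) (r : R) (h : H)
    (Q : M) :
    ((r • h : H) : M → AlgebraicClosure ℚ) Q =
      (r : AlgebraicClosure ℚ) * (h : M → AlgebraicClosure ℚ) Q := rfl

variable [IsPrincipalIdealRing R]

/-- A finitely generated lattice of `I`-equivariant functions has an `R`-basis which is linearly
independent over `ℚ̄`. -/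
theorem sqloc_exists_basis (hfrac : SqlocFrac R I) (hfg : (Subalgebra.toSubmodule H).FG)
    (hequiv : ∀ h ∈ H, ∀ σ ∈ I, ∀ P : M, h (act σ P) = σ (h P)) :
    ∃ (n : ℕ) (b : Module.Basis (Fin n) R H),
      LinearIndependent (AlgebraicClosure ℚ)
        (fun i => ((b i : H) : M → AlgebraicClosure ℚ)) := by
  haveI : Module.Finite R H := Module.Finite.iff_fg.2 hfg
  haveI : Module.IsTorsionFree R H := sqloc_isTorsionFree H
  haveI : Module.Free R H := Module.free_of_finite_type_torsion_free'
  refine ⟨_, Module.finBasis R H, ?_⟩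
  set b := Module.finBasis R H
  have h1 : LinearIndependent R (fun i => ((b i : H) : M → AlgebraicClosure ℚ)) := by
    have := b.linearIndependent.map' (Subalgebra.toSubmodule H).subtype
      (Submodule.ker_subtype _)
    exact this
  exact sqloc_linearIndependent hfrac act _ (fun i σ hσ x => hequiv _ (b i).2 σ hσ x) h1

/-- An `R`-basis of a separating lattice spans all functions over `ℚ̄`. -/
theorem sqloc_basis_span_top [Finite M] (hsep : ∀ P Q : M, (∀ h ∈ H, h P = h Q) → P = Q)
    {n : ℕ} (b : Module.Basis (Fin n) R H) :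
    Submodule.span (AlgebraicClosure ℚ)
      (Set.range fun i => ((b i : H) : M → AlgebraicClosure ℚ)) = ⊤ := by
  rw [eq_top_iff, ← sqloc_span_top H hsep, Submodule.span_le]
  intro h hh
  have h1 : (⟨h, hh⟩ : H) = ∑ i, b.repr ⟨h, hh⟩ i • b i := (b.sum_repr _).symm
  have h2 : h = ∑ i, ((b.repr ⟨h, hh⟩ i : R) : AlgebraicClosure ℚ) •
      ((b i : H) : M → AlgebraicClosure ℚ) := by
    have h3 := congrArg (fun x : H => (x : M → AlgebraicClosure ℚ)) h1
    simp only [AddSubmonoidClass.coe_finsetSum] at h3
    refine h3.trans ?_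
    refine Finset.sum_congr rfl fun i _ => ?_
    funext x
    rfl
  rw [h2]
  exact Submodule.sum_mem _ fun i _ =>
    Submodule.smul_mem _ _ (Submodule.subset_span ⟨i, rfl⟩)

/-- **`Frac(R) H = Map_I(M, ℚ̄)`**: every `I`-equivariant function has a non-zero `R`-multiple
in a separating lattice `H`. -/
theorem sqloc_exists_smul_mem [Finite M] (hfrac : SqlocFrac R I)
    (hfg : (Subalgebra.toSubmodule H).FG)
    (hequiv : ∀ h ∈ H, ∀ σ ∈ I, ∀ P : M, h (act σ P) = σ (h P))
    (hsep : ∀ P Q : M, (∀ h ∈ H, h P = h Q) → P = Q)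
    (f : M → AlgebraicClosure ℚ)
    (hf : ∀ σ ∈ I, ∀ P : M, f (act σ P) = σ (f P)) :
    ∃ d : R, d ≠ 0 ∧ d • f ∈ H := by
  classical
  obtain ⟨n, b, hli⟩ := sqloc_exists_basis hfrac hfg hequiv
  have hspan := sqloc_basis_span_top hsep b
  set v : Fin n → M → AlgebraicClosure ℚ := fun i => ((b i : H) : M → AlgebraicClosure ℚ)
    with hv
  have hfmem : f ∈ Submodule.span (AlgebraicClosure ℚ) (Set.range v) := by
    rw [hspan]; trivial
  obtain ⟨c, hc⟩ := (Submodule.mem_span_range_iff_exists_fun (AlgebraicClosure ℚ)).1 hfmem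
  -- the coefficients are invariant
  have hfix : ∀ i ∈ (Finset.univ : Finset (Fin n)), ∀ σ ∈ I, σ (c i) = c i := by
    intro i _ σ hσ
    have h1 : ∑ i, σ (c i) • v i = f := by
      funext x
      have h2 := congrFun hc (act σ⁻¹ x)
      simp only [Finset.sum_apply, Pi.smul_apply, smul_eq_mul] at h2 ⊢
      have h3 := congrArg σ h2
      rw [hf σ⁻¹ (I.inv_mem hσ) x] at h3
      have e : ∀ y : AlgebraicClosure ℚ, σ (σ⁻¹ y) = y := fun y => by
        rw [← AlgEquiv.mul_apply, mul_inv_cancel, AlgEquiv.one_apply]
      simp only [map_sum, map_mul, e] at h3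
      rw [← h3]
      refine Finset.sum_congr rfl fun i _ => ?_
      have h5 : v i (act σ⁻¹ x) = σ⁻¹ (v i x) := hequiv _ (b i).2 σ⁻¹ (I.inv_mem hσ) x
      rw [h5, e]
    have h4 : ∑ i, (σ (c i) - c i) • v i = 0 := by
      simp only [sub_smul, Finset.sum_sub_distrib, h1, hc, sub_self]
    exact sub_eq_zero.1 (Fintype.linearIndependent_iff.1 hli _ h4 i)
  obtain ⟨d, hd, hd0, hdc⟩ := sqloc_common_den hfrac Finset.univ c hfix
  refine ⟨⟨d, hd⟩, fun h => hd0 (congrArg Subtype.val h), ?_⟩
  have h5 : (⟨d, hd⟩ : R) • f =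
      ∑ i, (⟨d * c i, hdc i (Finset.mem_univ i)⟩ : R) • v i := by
    rw [← hc, Finset.smul_sum]
    refine Finset.sum_congr rfl fun i _ => ?_
    funext x
    show d * (c i * v i x) = d * c i * v i x
    rw [mul_assoc]
  rw [h5]
  exact H.sum_mem fun i _ => H.smul_mem (b i).2 _

end Basis

end Fermat.Agent.S33
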