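import Fermat.Agent.S33.WildTwist
import Fermat.Agent.STB.WeakApprox

/-!
# S33 v2 / C4 WILD, piece T3, part 3: weak approximation with depth  (helper61)

* `wt_weakApprox_two` : `V₁`, `V₂` incomparable archimedean valuation subrings of `F`, `d ≠ 0`
  a non-unit of `V₁`: for `T₁ T₂ ≠ 0` there is `H ≠ 0` with `H / T₁ ∈ 1 + d V₁`,
  `H / T₂ ∈ 1 + d V₂`.
* `wt_hWA_two` : the hypothesis `hWA` of `wt_main` for a family `V : κ → ValuationSubring F`
  with (at most) two members.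
-/

set_option autoImplicit false

namespace Fermat.Agent.S33

open Fermat.Agent.STB

variable {F : Type*} [Field F]

/-- **Weak approximation with depth** for two valuation subrings, from an element `e ≡ 1` at
`V₁`, `e ≡ 0` at `V₂`. -/
theorem wt_weakApprox_of_idem {V₁ V₂ : ValuationSubring F} {e : F}
    (he1 : e - 1 ∈ V₁.nonunits) (he2 : e ∈ V₂.nonunits)
    (h1 : StbArch V₁) (h2 : StbArch V₂) {d : F} (hd0 : d ≠ 0) (hd1 : V₁.valuation d < 1)
    {T₁ T₂ : F} (hT₁ : T₁ ≠ 0) (hT₂ : T₂ ≠ 0) :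
    ∃ H : F, H ≠ 0 ∧ V₁.valuation (H / T₁ - 1) ≤ V₁.valuation d ∧
      V₂.valuation (H / T₂ - 1) ≤ V₂.valuation d := by
  have he1' : 1 - e ∈ V₁.nonunits := by
    have := stb_neg_mem_nonunits he1
    rwa [neg_sub] at this
  obtain ⟨N₁, hN₁⟩ := h1.exists_forall_ge ((T₂ / T₁ - 1) / d) he1'
  obtain ⟨N₂, hN₂⟩ := h2.exists_forall_ge ((T₁ / T₂ - 1) / d) he2
  set M := max (max N₁ N₂) 1 with hM
  have hM1 : N₁ ≤ M := (le_max_left _ _).trans (le_max_left _ _)
  have hM2 : N₂ ≤ M := (le_max_right _ _).trans (le_max_left _ _)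
  -- the improved idempotent
  set f := 1 - (1 - e ^ M) ^ M with hf
  -- at `V₁`
  have hev1 : V₁.valuation e ≤ 1 := by
    have h3 : e = (e - 1) + 1 := by ring
    rw [h3]
    exact Valuation.map_add_le _ ((V₁.mem_nonunits_iff.1 he1).le) (map_one V₁.valuation).le
  have h1a : V₁.valuation (1 - e ^ M) ≤ V₁.valuation (1 - e) := by
    rw [Valuation.map_sub_swap, Valuation.map_sub_swap _ 1 e]
    exact wt_val_pow_sub_one_le V₁ hev1 M
  have hH1 : V₁.valuation ((T₁ * f + T₂ * (1 - f)) / T₁ - 1) ≤ V₁.valuation d := by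
    have e' : (T₁ * f + T₂ * (1 - f)) / T₁ - 1 = (1 - e ^ M) ^ M * (T₂ / T₁ - 1) := by
      rw [hf]
      field_simp
      ring
    rw [e', map_mul, map_pow]
    have h4 := hN₁ M hM1
    have h5 : V₁.valuation ((T₂ / T₁ - 1) / d * (1 - e) ^ M) ≤ 1 :=
      (V₁.mem_nonunits_iff.1 h4).le
    rw [map_mul, map_div₀, map_pow] at h5
    have hdpos : 0 < V₁.valuation d := zero_lt_iff.2 ((Valuation.ne_zero_iff _).2 hd0)
    calc V₁.valuation (1 - e ^ M) ^ M * V₁.valuation (T₂ / T₁ - 1)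
        ≤ V₁.valuation (1 - e) ^ M * V₁.valuation (T₂ / T₁ - 1) :=
          mul_le_mul' (pow_le_pow_left' h1a M) le_rfl
      _ = (V₁.valuation (T₂ / T₁ - 1) / V₁.valuation d * V₁.valuation (1 - e) ^ M)
            * V₁.valuation d := by
          field_simp
      _ ≤ 1 * V₁.valuation d := mul_le_mul' h5 le_rfl
      _ = V₁.valuation d := one_mul _
  -- at `V₂`
  have hy2 : V₂.valuation (e ^ M) ≤ 1 := by
    rw [map_pow]
    exact pow_le_one₀ zero_le (V₂.mem_nonunits_iff.1 he2).le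
  have h2a : V₂.valuation f ≤ V₂.valuation e ^ M := by
    have h6 : V₂.valuation (1 - e ^ M) ≤ 1 :=
      Valuation.map_sub_le _ (map_one V₂.valuation).le hy2
    have h7 := wt_val_pow_sub_one_le V₂ h6 M
    have e1 : f = -((1 - e ^ M) ^ M - 1) := by rw [hf]; ring
    have e2 : 1 - e ^ M - 1 = -(e ^ M) := by ring
    rw [e1, Valuation.map_neg]
    rw [e2, Valuation.map_neg, map_pow] at h7
    exact h7
  have hH2 : V₂.valuation ((T₁ * f + T₂ * (1 - f)) / T₂ - 1) ≤ V₂.valuation d := by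
    have e' : (T₁ * f + T₂ * (1 - f)) / T₂ - 1 = f * (T₁ / T₂ - 1) := by
      field_simp
      ring
    rw [e', map_mul]
    have h4 := hN₂ M hM2
    have h5 : V₂.valuation ((T₁ / T₂ - 1) / d * e ^ M) ≤ 1 :=
      (V₂.mem_nonunits_iff.1 h4).le
    rw [map_mul, map_div₀, map_pow] at h5
    have hdpos : 0 < V₂.valuation d := zero_lt_iff.2 ((Valuation.ne_zero_iff _).2 hd0)
    calc V₂.valuation f * V₂.valuation (T₁ / T₂ - 1)
        ≤ V₂.valuation e ^ M * V₂.valuation (T₁ / T₂ - 1) := mul_le_mul' h2a le_rfl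
      _ = (V₂.valuation (T₁ / T₂ - 1) / V₂.valuation d * V₂.valuation e ^ M)
            * V₂.valuation d := by
          field_simp
      _ ≤ 1 * V₂.valuation d := mul_le_mul' h5 le_rfl
      _ = V₂.valuation d := one_mul _
  refine ⟨T₁ * f + T₂ * (1 - f), ?_, hH1, hH2⟩
  intro h0
  rw [h0, zero_div, zero_sub, Valuation.map_neg, map_one] at hH1
  exact absurd hH1 (not_le.2 hd1)

/-- **Weak approximation with depth** for two incomparable archimedean valuation subrings. -/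
theorem wt_weakApprox_two {V₁ V₂ : ValuationSubring F} (h12 : ¬ V₁ ≤ V₂) (h21 : ¬ V₂ ≤ V₁)
    (h1 : StbArch V₁) (h2 : StbArch V₂) {d : F} (hd0 : d ≠ 0) (hd1 : V₁.valuation d < 1)
    {T₁ T₂ : F} (hT₁ : T₁ ≠ 0) (hT₂ : T₂ ≠ 0) :
    ∃ H : F, H ≠ 0 ∧ V₁.valuation (H / T₁ - 1) ≤ V₁.valuation d ∧
      V₂.valuation (H / T₂ - 1) ≤ V₂.valuation d := by
  obtain ⟨a, ha1, ha2⟩ := stb_exists_sep_of_not_le h12
  obtain ⟨b, hb2, hb1⟩ := stb_exists_sep_of_not_le h21
  obtain ⟨he1, he2⟩ := stb_idem ha1 ha2 hb1 hb2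
  exact wt_weakApprox_of_idem he1 he2 h1 h2 hd0 hd1 hT₁ hT₂

/-- the archimedean property in the form used by UNIP (`harch`) -/
theorem wt_stbArch_of_harch (V : ValuationSubring F)
    (harch : ∀ a x : F, a ∈ V.nonunits → ∃ N : ℕ, a ^ N * x ∈ V.nonunits) : StbArch V := by
  intro x y hy
  obtain ⟨N, hN⟩ := harch y x hy
  exact ⟨N, by rwa [mul_comm]⟩

/-- **`hWA` of `wt_main`** for a family with two members `c₁`, `c₂` (incomparable,
archimedean). -/
theorem wt_hWA_two {κ : Type*} (V : κ → ValuationSubring F) (c₁ c₂ : κ)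
    (hκ : ∀ c, c = c₁ ∨ c = c₂) (h12 : ¬ V c₁ ≤ V c₂) (h21 : ¬ V c₂ ≤ V c₁)
    (harch : ∀ c (a x : F), a ∈ (V c).nonunits → ∃ N : ℕ, a ^ N * x ∈ (V c).nonunits)
    {d : F} (hd0 : d ≠ 0) (hd1 : ∀ c, (V c).valuation d < 1) :
    ∀ T : κ → F, (∀ c, T c ≠ 0) → ∃ H : F, H ≠ 0 ∧
      ∀ c, (V c).valuation (H / T c - 1) ≤ (V c).valuation d := by
  intro T hT
  obtain ⟨H, hH0, hH1, hH2⟩ := wt_weakApprox_two h12 h21
    (wt_stbArch_of_harch _ (harch c₁)) (wt_stbArch_of_harch _ (harch c₂)) hd0 (hd1 c₁)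
    (hT c₁) (hT c₂)
  refine ⟨H, hH0, fun c => ?_⟩
  rcases hκ c with rfl | rfl
  · exact hH1
  · exact hH2

/-- **`hWA` of `wt_main`** for a single valuation. -/
theorem wt_hWA_one {κ : Type*} (V : κ → ValuationSubring F) (c₁ : κ) (hκ : ∀ c, c = c₁)
    (d : F) :
    ∀ T : κ → F, (∀ c, T c ≠ 0) → ∃ H : F, H ≠ 0 ∧
      ∀ c, (V c).valuation (H / T c - 1) ≤ (V c).valuation d := by
  intro T hT
  refine ⟨T c₁, hT c₁, fun c => ?_⟩
  rw [hκ c, div_self (hT c₁), sub_self, map_zero]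
  exact zero_le

end Fermat.Agent.S33
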