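import Fermat.Agent.S33.WildAdapter
import Fermat.Agent.S33.WildApprox

/-!
# S33 v2, C4 (WILD): the abstract assembly  (T1 + T3 + weak approximation)

Chart setting of `UNIP.at_main_two` / `S33.wka_hP_at` over the DVR `A₀` (uniformizer `π`,
`π ∣ p`, `ζ ∈ A₀` a primitive `p`-th root of unity, `π ∣ ζ − 1`), `V c` the vertical valuation
rings, `σ` a semilinear automorphism, trivial modulo `π` on both charts, preserving the vertical
valuations, with `σ ζ = ζ ^ a`.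

* `wab_wkShape_of_wildShape` : helper61's `WildShape` (valuation form, depth `lam^p π`) gives
  `WkShape`.
* `wab_atO_le`, `wab_atO_unit`, `wab_atO_smul` : the hypotheses `hOV`, `hunit`, `hσO` of `wt_main`
  for the canonical local rings `atO π t i`.
* `wab_main_of_loc` : **(T)-wild, abstract.**  `u` split at all vertical valuations (H1) and of
  the improved local shape at all closed points (LS) ⇒ `σ u / u ^ a = c · h ^ p`, `c ∈ E^×`.
* `wab_main_two_of_loc` : the same for two incomparable components (weak approximation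
  `wt_hWA_two` discharged).
-/

set_option autoImplicit false
set_option linter.unusedSectionVars false
set_option linter.unusedVariables false
set_option linter.style.haveILetI false

namespace Fermat.Agent.S33

open Polynomial IntermediateField Fermat.Agent.INJ Fermat.Agent.UNIP AlgebraicCurve

section Bridge

variable {F : Type*} [Field F] {ι κ : Type*}

/-- `WildShape` (valuation form, with the extra factor `π`) implies `WkShape`. -/
theorem wab_wkShape_of_wildShape (V : κ → ValuationSubring F) (O : ι → Subring F)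
    (inc : ι → κ → Prop) {lam π : F} {p : ℕ} {w : F} (hlam : lam ≠ 0)
    (hπV : ∀ c, (V c).valuation π < 1) (hπO : ∀ i, π ∈ O i)
    (h : WildShape V O inc lam π p w) : WkShape V O inc p lam w := by
  have hmem : ∀ (c : κ) {x d : F}, d ≠ 0 →
      (V c).valuation x ≤ (V c).valuation (d * π) → x / d ∈ (V c).nonunits := by
    intro c x d hd hx
    obtain ⟨z, hz, rfl⟩ := (wt_le_iff (V c)).1 hx
    have e : d * π * z / d = π * z := by field_simp
    rw [e, ValuationSubring.mem_nonunits_iff, map_mul]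
    exact lt_of_le_of_lt (mul_le_of_le_one_right zero_le ((V c).valuation_le_one_iff z |>.2 hz))
      (hπV c)
  refine ⟨⟨(w - 1) / lam ^ p, fun c => hmem c (pow_ne_zero p hlam) (h.1 c), ?_⟩, fun i => ?_⟩
  · field_simp
  · obtain ⟨ε, γ, ⟨y, hy, hεy⟩, hγ, hw⟩ := h.2 i
    refine ⟨ε, γ, π * y, (O i).mul_mem (hπO i) hy, by rw [hεy]; ring, fun c hc => ?_, hw⟩
    exact ⟨(γ - 1) / lam, hmem c hlam (hγ c hc), by field_simp⟩

end Bridge

section Loc

variable {A₀ E F : Type*} [CommRing A₀] [IsDomain A₀] [IsDiscreteValuationRing A₀]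
  [Field E] [Algebra A₀ E] [IsFractionRing A₀ E] [CharZero E]
  [Field F] [Algebra E F] [Algebra A₀ F] [IsScalarTower A₀ E F]
  {π : A₀} {κ : Type*}

/-- a component through the closed point contains its local ring -/
theorem wab_atLoc_le {u : F} (𝔫 : AtPt (F := F) π u) (W : ValuationSubring F)
    (hBW : ∀ b : F, IsIntegral ↥(Algebra.adjoin A₀ {u}) b → b ∈ W)
    (hthr : atThrough 𝔫 W) {x : F} (hx : x ∈ atLoc 𝔫) : x ∈ W := by
  haveI := 𝔫.2.1.isPrime
  obtain ⟨b, s, hs, hsx⟩ := hx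
  have hsW : (s : F) ∈ W := hBW _ (mem_zchClosure.mp s.2)
  have hbW : (b : F) ∈ W := hBW _ (mem_zchClosure.mp b.2)
  have hs1 : W.valuation (s : F) = 1 := by
    refine le_antisymm ((W.valuation_le_one_iff _).2 hsW) (not_lt.mp fun hlt => hs ?_)
    exact hthr s ((ValuationSubring.mem_nonunits_iff W).mpr hlt)
  rw [← W.valuation_le_one_iff]
  have h1 : W.valuation ((s : F) * x) ≤ 1 := by
    change W.valuation (algebraMap ↥(zchClosure (A₀ := A₀) ({u} : Set F)) F s * x) ≤ 1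
    rw [hsx]
    exact (W.valuation_le_one_iff _).2 hbW
  rwa [map_mul, hs1, one_mul] at h1

/-- constants lie in the local ring of a closed point -/
theorem wab_const_mem_atLoc {u : F} (𝔫 : AtPt (F := F) π u) (a : A₀) :
    algebraMap A₀ F a ∈ atLoc 𝔫 := by
  haveI := 𝔫.2.1.isPrime
  exact ls_algebraMap_mem (F := F) 𝔫.1
    (algebraMap A₀ ↥(zchClosure (A₀ := A₀) ({u} : Set F)) a)

/-- `1 + π y` is a unit of the local ring of a closed point of the special fibre -/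
theorem wab_atLoc_unit {u : F} (𝔫 : AtPt (F := F) π u) {y : F} (hy : y ∈ atLoc 𝔫) :
    (1 + algebraMap A₀ F π * y)⁻¹ ∈ atLoc 𝔫 := by
  haveI := 𝔫.2.1.isPrime
  obtain ⟨b, s, hs, hsy⟩ := hy
  set ϖ : ↥(zchClosure (A₀ := A₀) ({u} : Set F)) :=
    algebraMap A₀ ↥(zchClosure (A₀ := A₀) ({u} : Set F)) π with hϖ
  have hϖF : algebraMap ↥(zchClosure (A₀ := A₀) ({u} : Set F)) F ϖ = algebraMap A₀ F π := rfl
  have hnot : s + ϖ * b ∉ 𝔫.1 := fun h =>
    hs (by
      have := 𝔫.1.sub_mem h (𝔫.1.mul_mem_right b 𝔫.2.2)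
      rwa [add_sub_cancel_right] at this)
  have hne : algebraMap ↥(zchClosure (A₀ := A₀) ({u} : Set F)) F (s + ϖ * b) ≠ 0 := by
    intro h0
    apply hnot
    have : s + ϖ * b = 0 := Subtype.ext h0
    rw [this]
    exact 𝔫.1.zero_mem
  have hs0 : algebraMap ↥(zchClosure (A₀ := A₀) ({u} : Set F)) F s ≠ 0 := by
    intro h0
    apply hs
    have : s = 0 := Subtype.ext h0
    rw [this]
    exact 𝔫.1.zero_mem
  have e : algebraMap ↥(zchClosure (A₀ := A₀) ({u} : Set F)) F (s + ϖ * b)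
      = algebraMap ↥(zchClosure (A₀ := A₀) ({u} : Set F)) F s * (1 + algebraMap A₀ F π * y) := by
    rw [map_add, map_mul, hϖF, ← hsy]
    ring
  have h1 : (1 + algebraMap A₀ F π * y) ≠ 0 := by
    intro h0
    rw [h0, mul_zero] at e
    exact hne e
  refine ⟨s, s + ϖ * b, hnot, ?_⟩
  rw [e, mul_assoc, mul_inv_cancel₀ h1, mul_one]

/-- an automorphism which is trivial modulo `π` on the chart preserves the local rings of the
closed points of the special fibre -/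
theorem wab_atLoc_smul {u : F} {g : SemilinearAut E F} (hg : AtTrivMod π u g)
    (𝔫 : AtPt (F := F) π u) {x : F} (hx : x ∈ atLoc 𝔫) : g • x ∈ atLoc 𝔫 := by
  haveI := 𝔫.2.1.isPrime
  obtain ⟨b, s, hs, hsx⟩ := hx
  obtain ⟨c, hc, hgs⟩ := hg (s : F) (mem_zchClosure.mp s.2)
  refine ⟨⟨g • (b : F), mem_zchClosure.mpr (hg.isIntegral (mem_zchClosure.mp b.2))⟩,
    s + algebraMap A₀ ↥(zchClosure (A₀ := A₀) ({u} : Set F)) π *
      (⟨c, mem_zchClosure.mpr hc⟩ : ↥(zchClosure (A₀ := A₀) ({u} : Set F))), fun h => hs ?_, ?_⟩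
  · have := 𝔫.1.sub_mem h (𝔫.1.mul_mem_right
      (⟨c, mem_zchClosure.mpr hc⟩ : ↥(zchClosure (A₀ := A₀) ({u} : Set F))) 𝔫.2.2)
    rwa [add_sub_cancel_right] at this
  · change ((s : F) + algebraMap A₀ F π * c) * g • x = g • (b : F)
    rw [← hgs, ← smul_mul', ]
    congr 1

end Loc

section Main

variable {A₀ E F : Type*} [CommRing A₀] [IsDomain A₀] [IsDiscreteValuationRing A₀]
  [Field E] [Algebra A₀ E] [IsFractionRing A₀ E] [CharZero E]
  [Field F] [Algebra E F] [Algebra A₀ F] [IsScalarTower A₀ E F]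
  {π : A₀} {κ : Type*}

/-- **(T)-wild, abstract form** (T1 + T3).  Chart setting for `F / E(t)` over the DVR `A₀`
(`π ∣ p`, `ζ ∈ A₀` a primitive `p`-th root of unity, `π ∣ ζ − 1`), vertical valuation rings `V c`
with (SS1) and weak approximation at depth `(ζ − 1) π` (`hWA`); `σ` a semilinear automorphism,
trivial modulo `π` on both charts, preserving the vertical valuations, with `σ ζ = ζ ^ a`.
If `u ≠ 0` is split at every vertical valuation (`hsplit`: `u / h_c ^ p ≡ 1 mod (ζ−1)^p π`) and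
has the improved local shape at every closed point of the special fibre of both charts (`hloc`:
`u / g ^ p ∈ 1 + (ζ−1)^p π (B_u)_𝔫`), then `σ u / u ^ a` is a constant times a `p`-th power. -/
theorem wab_main_of_loc (hπ : Irreducible π) {t : F} (ht : Transcendental E t)
    [FiniteDimensional E⟮t⟯ F]
    (hcl : ∀ x : F, IsAlgebraic E x → x ∈ (algebraMap E F).range)
    {p : ℕ} (hp : p.Prime) (hpπ : π ∣ (p : A₀)) {ζ : A₀} (hζ : IsPrimitiveRoot ζ p)
    (hlam : π ∣ ζ - 1)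
    [Finite κ] (V : κ → ValuationSubring F)
    (hBV₁ : ∀ c (b : F), IsIntegral ↥(Algebra.adjoin A₀ {t}) b → b ∈ V c)
    (hBV₂ : ∀ c (b : F), IsIntegral ↥(Algebra.adjoin A₀ {t⁻¹}) b → b ∈ V c)
    (hπV : ∀ c, algebraMap A₀ F π ∈ (V c).nonunits)
    (hSS1 : ∀ b : F, IsIntegral ↥(Algebra.adjoin A₀ {t}) b → (∀ c, b ∈ (V c).nonunits) →
      ∃ b' : F, IsIntegral ↥(Algebra.adjoin A₀ {t}) b' ∧ b = algebraMap A₀ F π * b')
    (harch : ∀ c (a x : F), a ∈ (V c).nonunits → ∃ N : ℕ, a ^ N * x ∈ (V c).nonunits)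
    (hWA : ∀ T : κ → F, (∀ c, T c ≠ 0) → ∃ H : F, H ≠ 0 ∧
      ∀ c, (V c).valuation (H / T c - 1) ≤
        (V c).valuation ((algebraMap A₀ F ζ - 1) * algebraMap A₀ F π))
    (σ : SemilinearAut E F)
    (hσB₁ : AtTrivMod π t σ) (hσB₂ : AtTrivMod π t⁻¹ σ)
    (hσV : ∀ c (f : F), f ≠ 0 → (V c).valuation (σ • f / f) = 1)
    {a : ℕ} (hσζ : σ • algebraMap A₀ F ζ = algebraMap A₀ F ζ ^ a)
    {u : F} (hu : u ≠ 0)
    (hsplit : ∀ c, ∃ h : F, h ≠ 0 ∧ (V c).valuation (u / h ^ p - 1) ≤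
      (V c).valuation ((algebraMap A₀ F ζ - 1) ^ p * algebraMap A₀ F π))
    (hloc : ∀ i, ∃ g : F, g ≠ 0 ∧ ∃ y ∈ atO π t i,
      u / g ^ p - 1 = (algebraMap A₀ F ζ - 1) ^ p * algebraMap A₀ F π * y) :
    ∃ c : E, c ≠ 0 ∧ ∃ h : F, σ • u / u ^ a = algebraMap E F c * h ^ p := by
  have hinj : Function.Injective (algebraMap A₀ F) :=
    zch_algebraMap_injective (A₀ := A₀) (E := E)
  have hζF : IsPrimitiveRoot (algebraMap A₀ F ζ) p := hζ.map_of_injective hinj
  have hlamF : algebraMap A₀ F ζ - 1 ≠ 0 := sub_ne_zero.mpr (hζF.ne_one hp.one_lt)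
  have hπV' : ∀ c, (V c).valuation (algebraMap A₀ F π) < 1 := fun c =>
    (ValuationSubring.mem_nonunits_iff (V c)).mp (hπV c)
  have hconstO : ∀ (i : AtPt (F := F) π t ⊕ AtPt (F := F) π t⁻¹) (x : A₀),
      algebraMap A₀ F x ∈ atO π t i := by
    rintro (𝔫 | 𝔫) x
    · exact wab_const_mem_atLoc 𝔫 x
    · exact wab_const_mem_atLoc 𝔫 x
  have hOV : ∀ i c, atInc π t V i c → ∀ x ∈ atO π t i, x ∈ V c := by
    rintro (𝔫 | 𝔫) c hc x hx
    · exact wab_atLoc_le 𝔫 (V c) (hBV₁ c) hc hx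
    · exact wab_atLoc_le 𝔫 (V c) (hBV₂ c) hc hx
  have hunit : ∀ i, ∀ y ∈ atO π t i, (1 + algebraMap A₀ F π * y)⁻¹ ∈ atO π t i := by
    rintro (𝔫 | 𝔫) y hy
    · exact wab_atLoc_unit 𝔫 hy
    · exact wab_atLoc_unit 𝔫 hy
  have hσO : ∀ i, ∀ x ∈ atO π t i,
      (SemilinearAut.toRingAut σ : F ≃+* F).toRingHom x ∈ atO π t i := by
    rintro (𝔫 | 𝔫) x hx
    · exact wab_atLoc_smul hσB₁ 𝔫 hx
    · exact wab_atLoc_smul hσB₂ 𝔫 hx
  have hσV' : ∀ c (f : F),
      (V c).valuation ((SemilinearAut.toRingAut σ : F ≃+* F).toRingHom f)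
        = (V c).valuation f := by
    intro c f
    by_cases hf : f = 0
    · rw [hf, map_zero]
    · have h1 := hσV c f hf
      rw [map_div₀, div_eq_one_iff_eq ((Valuation.ne_zero_iff _).2 hf)] at h1
      exact h1
  have hπint : ∀ u' : F, IsIntegral ↥(Algebra.adjoin A₀ {u'}) (algebraMap A₀ F π) := fun u' =>
    wk_isIntegral_const u' π
  have hσπ : ∀ i, ∃ v ∈ atO π t i,
      (SemilinearAut.toRingAut σ : F ≃+* F).toRingHom (algebraMap A₀ F π)
        = algebraMap A₀ F π * v := by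
    rintro (𝔫 | 𝔫)
    · obtain ⟨c, hc, hgc⟩ := hσB₁ _ (hπint t)
      haveI := 𝔫.2.1.isPrime
      refine ⟨1 + c, (atO π t (Sum.inl 𝔫)).add_mem (Subring.one_mem _) ?_, ?_⟩
      · exact ls_algebraMap_mem (F := F) 𝔫.1
          (⟨c, mem_zchClosure.mpr hc⟩ : ↥(zchClosure (A₀ := A₀) ({t} : Set F)))
      · change σ • algebraMap A₀ F π = _
        rw [hgc]; ring
    · obtain ⟨c, hc, hgc⟩ := hσB₂ _ (hπint t⁻¹)
      haveI := 𝔫.2.1.isPrime
      refine ⟨1 + c, (atO π t (Sum.inr 𝔫)).add_mem (Subring.one_mem _) ?_, ?_⟩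
      · exact ls_algebraMap_mem (F := F) 𝔫.1
          (⟨c, mem_zchClosure.mpr hc⟩ : ↥(zchClosure (A₀ := A₀) ({t⁻¹} : Set F)))
      · change σ • algebraMap A₀ F π = _
        rw [hgc]; ring
  obtain ⟨γ, hγ0, hshape⟩ := wt_main V (atO π t) (atInc π t V) hOV hp hζF
    (fun i => hconstO i ζ) hπV' (fun i => hconstO i π) hunit
    (SemilinearAut.toRingAut σ : F ≃+* F).toRingHom (a := a) hσζ hσV' hσO hσπ hWA hu hsplit hloc
  have hwk := wab_wkShape_of_wildShape V (atO π t) (atInc π t V) hlamF hπV'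
    (fun i => hconstO i π) hshape
  have hσu0 : (SemilinearAut.toRingAut σ : F ≃+* F).toRingHom u ≠ 0 :=
    (_root_.map_ne_zero _).2 hu
  have hw0 : (SemilinearAut.toRingAut σ : F ≃+* F).toRingHom u / u ^ a / γ ^ p ≠ 0 :=
    div_ne_zero (div_ne_zero hσu0 (pow_ne_zero a hu)) (pow_ne_zero p hγ0)
  have hlam_eq : algebraMap A₀ F (ζ - 1) = algebraMap A₀ F ζ - 1 := by
    rw [map_sub, map_one]
  rw [← hlam_eq] at hwk
  obtain ⟨c, hc0, h, hch⟩ := wka_hP_at hπ ht hcl hp hpπ hζ hlam V hBV₁ hBV₂ hSS1 harch hw0 hwk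
  refine ⟨c, hc0, h * γ, ?_⟩
  change (SemilinearAut.toRingAut σ : F ≃+* F).toRingHom u / u ^ a = _
  rw [mul_pow, ← mul_assoc, ← hch, div_mul_cancel₀ _ (pow_ne_zero p hγ0)]

/-- **(T)-wild, abstract form, two components.**  As `wab_main_of_loc`, with weak approximation
discharged for `κ = {c₁, c₂}`, `V c₁`, `V c₂` incomparable. -/
theorem wab_main_two_of_loc (hπ : Irreducible π) {t : F} (ht : Transcendental E t)
    [FiniteDimensional E⟮t⟯ F]
    (hcl : ∀ x : F, IsAlgebraic E x → x ∈ (algebraMap E F).range)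
    {p : ℕ} (hp : p.Prime) (hpπ : π ∣ (p : A₀)) {ζ : A₀} (hζ : IsPrimitiveRoot ζ p)
    (hlam : π ∣ ζ - 1)
    [Finite κ] (V : κ → ValuationSubring F) (c₁ c₂ : κ) (hκ : ∀ c, c = c₁ ∨ c = c₂)
    (h12 : ¬ V c₁ ≤ V c₂) (h21 : ¬ V c₂ ≤ V c₁)
    (hBV₁ : ∀ c (b : F), IsIntegral ↥(Algebra.adjoin A₀ {t}) b → b ∈ V c)
    (hBV₂ : ∀ c (b : F), IsIntegral ↥(Algebra.adjoin A₀ {t⁻¹}) b → b ∈ V c)
    (hπV : ∀ c, algebraMap A₀ F π ∈ (V c).nonunits)
    (hSS1 : ∀ b : F, IsIntegral ↥(Algebra.adjoin A₀ {t}) b → (∀ c, b ∈ (V c).nonunits) →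
      ∃ b' : F, IsIntegral ↥(Algebra.adjoin A₀ {t}) b' ∧ b = algebraMap A₀ F π * b')
    (harch : ∀ c (a x : F), a ∈ (V c).nonunits → ∃ N : ℕ, a ^ N * x ∈ (V c).nonunits)
    (σ : SemilinearAut E F)
    (hσB₁ : AtTrivMod π t σ) (hσB₂ : AtTrivMod π t⁻¹ σ)
    (hσV : ∀ c (f : F), f ≠ 0 → (V c).valuation (σ • f / f) = 1)
    {a : ℕ} (hσζ : σ • algebraMap A₀ F ζ = algebraMap A₀ F ζ ^ a)
    {u : F} (hu : u ≠ 0)
    (hsplit : ∀ c, ∃ h : F, h ≠ 0 ∧ (V c).valuation (u / h ^ p - 1) ≤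
      (V c).valuation ((algebraMap A₀ F ζ - 1) ^ p * algebraMap A₀ F π))
    (hloc : ∀ i, ∃ g : F, g ≠ 0 ∧ ∃ y ∈ atO π t i,
      u / g ^ p - 1 = (algebraMap A₀ F ζ - 1) ^ p * algebraMap A₀ F π * y) :
    ∃ c : E, c ≠ 0 ∧ ∃ h : F, σ • u / u ^ a = algebraMap E F c * h ^ p := by
  have hinj : Function.Injective (algebraMap A₀ F) :=
    zch_algebraMap_injective (A₀ := A₀) (E := E)
  have hζF : IsPrimitiveRoot (algebraMap A₀ F ζ) p := hζ.map_of_injective hinj
  have hlamF : algebraMap A₀ F ζ - 1 ≠ 0 := sub_ne_zero.mpr (hζF.ne_one hp.one_lt)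
  have hπ0 : algebraMap A₀ F π ≠ 0 := by
    rw [Ne, map_eq_zero_iff _ hinj]
    exact hπ.ne_zero
  have hd1 : ∀ c, (V c).valuation ((algebraMap A₀ F ζ - 1) * algebraMap A₀ F π) < 1 := by
    intro c
    rw [map_mul]
    exact lt_of_le_of_lt (mul_le_of_le_one_left zero_le (wt_val_lam_le (V c) hp hζF))
      ((ValuationSubring.mem_nonunits_iff (V c)).mp (hπV c))
  exact wab_main_of_loc hπ ht hcl hp hpπ hζ hlam V hBV₁ hBV₂ hπV hSS1 harch
    (wt_hWA_two V c₁ c₂ hκ h12 h21 harch (mul_ne_zero hlamF hπ0) hd1)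
    σ hσB₁ hσB₂ hσV hσζ hu hsplit hloc

end Main

end Fermat.Agent.S33
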