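/-
S33 v2 / C4 WILD, piece T2 "WildDepth" (helper53): the depth-improvement lemma (pure commutative
algebra, Mathlib only).  Statement and proof follow NOTES/S33-C4-depth.md (helper33), organised
by the invariant `Inv d : ∃ γ ∈ R^×, ∀ c, G c - γ ∈ π^d V c` (no case analysis on valuations).

`F` a field, `R ⊆ F` a local subring, `V c ⊇ R` subrings (the vertical valuation rings through
the closed point; arbitrary subrings with `π⁻¹ ∉ V c` suffice), `ζ` a primitive `p`-th root of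
unity in `R`, `ζ - 1 = π ^ e₁ * u₀` with `u₀ ∈ R^×`, `e₁ ≥ 1`.  Hypotheses
  (SS1) `R ∩ ⋂ π V c = π R`,
  (N1), (N2) roots of `T^p - r`, `T^p - T - r` modulo `π V c` come from `R`,
  (X) gluing: a family `a c ∈ R`, pairwise congruent modulo `𝔪_R`, is simultaneously
      approximated modulo `π V c` by one element of `R`.
`wd_main`: if `ε ∈ R^×` is a `p`-th power modulo `(ζ - 1)^p π` in every `V c`, then it is the
`p`-th power of a unit of `R` modulo `(ζ - 1)^p π R`.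
-/
import Mathlib

set_option autoImplicit false

namespace Fermat.Agent.S33

open Polynomial

/-! ### binomial identity -/

/-- refined binomial identity in `ℤ[X]` -/
theorem wd_binom_poly {p : ℕ} (hp : p.Prime) :
    ∃ Q : ℤ[X], (1 + X : ℤ[X]) ^ p = 1 + X ^ p + (p : ℤ[X]) * X + (p : ℤ[X]) * X ^ 2 * Q := by
  obtain ⟨r, hr⟩ := exists_add_pow_prime_eq hp (1 : ℤ[X]) X
  have hc : r.coeff 0 = 1 := by
    have h1 := congrArg (fun f : ℤ[X] => f.coeff 1) hr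
    simp only [one_pow, mul_one] at h1
    rw [Polynomial.coeff_one_add_X_pow] at h1
    have h2 : ((1 : ℤ[X]) + X ^ p + (p : ℤ[X]) * X * r).coeff 1 = (p : ℤ) * r.coeff 0 := by
      have hp1 : (1 : ℕ) ≠ p := hp.one_lt.ne
      rw [Polynomial.coeff_add, Polynomial.coeff_add, Polynomial.coeff_one, Polynomial.coeff_X_pow,
        if_neg (by norm_num), if_neg hp1, zero_add, zero_add, mul_assoc,
        ← Polynomial.C_eq_natCast, Polynomial.coeff_C_mul, Polynomial.coeff_X_mul]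
    rw [h2] at h1
    have hp0 : (p : ℤ) ≠ 0 := by exact_mod_cast hp.ne_zero
    have h3 : (p : ℤ) * 1 = (p : ℤ) * r.coeff 0 := by
      rw [mul_one, ← h1]; simp
    exact (mul_left_cancel₀ hp0 h3).symm
  have hdvd : (X : ℤ[X]) ∣ r - 1 := by
    rw [Polynomial.X_dvd_iff, Polynomial.coeff_sub, hc, Polynomial.coeff_one_zero, sub_self]
  obtain ⟨Q, hQ⟩ := hdvd
  refine ⟨Q, ?_⟩
  have hr' : r = 1 + X * Q := by rw [← hQ]; ring
  rw [hr, hr']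
  ring

/-- refined binomial identity in any commutative ring -/
theorem wd_binom {S : Type*} [CommRing S] {p : ℕ} (hp : p.Prime) (y : S) :
    ∃ q : S, (1 + y) ^ p = 1 + y ^ p + (p : S) * y + (p : S) * y ^ 2 * q := by
  obtain ⟨Q, hQ⟩ := wd_binom_poly hp
  refine ⟨Polynomial.aeval y Q, ?_⟩
  have := congrArg (Polynomial.aeval y) hQ
  simpa using this

/-- the same inside a subring of a field -/
theorem wd_binom_mem {F : Type*} [Field F] (T : Subring F) {p : ℕ} (hp : p.Prime) {y : F}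
    (hy : y ∈ T) :
    ∃ q ∈ T, (1 + y) ^ p = 1 + y ^ p + (p : F) * y + (p : F) * y ^ 2 * q := by
  obtain ⟨q, hq⟩ := wd_binom (S := T) hp ⟨y, hy⟩
  refine ⟨q, q.2, ?_⟩
  have := congrArg (Subtype.val) hq
  simpa using this

/-- `(a + b)^p = a^p + b^p + p * r` in a subring -/
theorem wd_add_pow_mem {F : Type*} [Field F] (T : Subring F) {p : ℕ} (hp : p.Prime) {a b : F}
    (ha : a ∈ T) (hb : b ∈ T) :
    ∃ r ∈ T, (a + b) ^ p = a ^ p + b ^ p + (p : F) * r := by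
  obtain ⟨r, hr⟩ := exists_add_pow_prime_eq hp (⟨a, ha⟩ : T) ⟨b, hb⟩
  refine ⟨a * b * r, T.mul_mem (T.mul_mem ha hb) r.2, ?_⟩
  have := congrArg (Subtype.val) hr
  simp only [Subring.coe_add, Subring.coe_mul, Subring.coe_pow, Subring.coe_natCast] at this
  rw [this]; ring

open IsLocalRing

section Local

variable {F : Type*} [Field F] (R : Subring F)

theorem wd_inv_mem_of_isUnit {x : R} (h : IsUnit x) : (x : F)⁻¹ ∈ R := by
  obtain ⟨y, hy⟩ := h.exists_right_inv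
  have h1 : (x : F) * (y : F) = 1 := by
    have := congrArg Subtype.val hy
    simpa using this
  have h2 : (x : F)⁻¹ = (y : F) := inv_eq_of_mul_eq_one_right h1
  rw [h2]; exact y.2

theorem wd_isUnit_of_inv_mem {x : F} (hx : x ∈ R) (hx0 : x ≠ 0) (hx' : x⁻¹ ∈ R) :
    IsUnit (⟨x, hx⟩ : R) := by
  refine IsUnit.of_mul_eq_one (⟨x⁻¹, hx'⟩ : R) ?_
  apply Subtype.ext
  simp [hx0]

theorem wd_ne_zero_of_isUnit {x : R} (h : IsUnit x) : (x : F) ≠ 0 := by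
  intro h0
  have : x = 0 := Subtype.ext h0
  rw [this] at h
  exact not_isUnit_zero h

variable [IsLocalRing R]

/-- (i) `R ∩ πV ⊆ 𝔪` -/
theorem wd_mem_max (V : Subring F) (hRV : R ≤ V) {π : F} (hπ0 : π ≠ 0) (hπV : π⁻¹ ∉ V)
    {x : R} (h : ∃ y ∈ V, (x : F) = π * y) : x ∈ maximalIdeal R := by
  by_contra hx
  have hu : IsUnit x := by
    by_contra hnu
    exact hx ((IsLocalRing.mem_maximalIdeal x).mpr hnu)
  obtain ⟨y, hy, hxy⟩ := h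
  have hx0 := wd_ne_zero_of_isUnit R hu
  have hxi := hRV (wd_inv_mem_of_isUnit R hu)
  apply hπV
  have : π⁻¹ = y * (x : F)⁻¹ := by
    rw [hxy]
    have hy0 : y ≠ 0 := by
      rintro rfl
      rw [mul_zero] at hxy
      exact hx0 hxy
    field_simp
  rw [this]
  exact V.mul_mem hy hxi

/-- (ii) Frobenius is injective on the residue field -/
theorem wd_frob_inj {p : ℕ} (hp : p.Prime) (hpm : (p : R) ∈ maximalIdeal R) {a b : R}
    (h : a ^ p - b ^ p ∈ maximalIdeal R) : a - b ∈ maximalIdeal R := by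
  obtain ⟨r, hr⟩ := exists_add_pow_prime_eq hp (a - b) b
  rw [sub_add_cancel] at hr
  have h1 : (a - b) ^ p = (a ^ p - b ^ p) - (p : R) * ((a - b) * b * r) := by
    rw [hr]; ring
  have h2 : (a - b) ^ p ∈ maximalIdeal R := by
    rw [h1]
    exact Ideal.sub_mem _ h (Ideal.mul_mem_right _ _ hpm)
  exact (IsLocalRing.maximalIdeal.isMaximal R).isPrime.mem_of_pow_mem p h2

/-- (iii) -/
theorem wd_isUnit_of_pow {p : ℕ} (hp : p.Prime) {γ ε : R} (hε : IsUnit ε)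
    (h : γ ^ p - ε ∈ maximalIdeal R) : IsUnit γ := by
  by_contra hnu
  have hγ : γ ∈ maximalIdeal R := (IsLocalRing.mem_maximalIdeal γ).mpr hnu
  have hγp : γ ^ p ∈ maximalIdeal R := Ideal.pow_mem_of_mem _ hγ p hp.pos
  have : ε ∈ maximalIdeal R := by
    have h2 : ε = γ ^ p - (γ ^ p - ε) := by ring
    rw [h2]
    exact Ideal.sub_mem _ hγp h
  exact (IsLocalRing.mem_maximalIdeal ε).mp this hε

/-- (iv) roots of `X^p - X` in the residue field -/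
theorem wd_as_root {p : ℕ} [hp : Fact p.Prime] (hpm : (p : R) ∈ maximalIdeal R) {x : R}
    (h : x ^ p - x ∈ maximalIdeal R) : ∃ i : ℕ, x - (i : R) ∈ maximalIdeal R := by
  have hp0 : ((p : ℕ) : ResidueField R) = 0 := by
    have := (IsLocalRing.residue_eq_zero_iff (p : R)).mpr hpm
    simpa using this
  have : CharP (ResidueField R) p := (CharP.charP_iff_prime_eq_zero hp.out).mpr hp0
  have hx : (residue R x) ^ p = residue R x := by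
    have := (IsLocalRing.residue_eq_zero_iff (x ^ p - x)).mpr h
    rw [map_sub, map_pow, sub_eq_zero] at this
    exact this
  have hbot := (Subfield.mem_bot_iff_pow_eq_self (ResidueField R) p).mpr hx
  rw [← ZMod.fieldRange_castHom_eq_bot p] at hbot
  obtain ⟨a, ha⟩ := hbot
  refine ⟨a.val, ?_⟩
  rw [← IsLocalRing.residue_eq_zero_iff, map_sub, map_natCast, ← ha, sub_eq_zero]
  simp

/-- (iv') Artin–Schreier: `℘ a ≡ ℘ b` ⇒ `a ≡ b + i` -/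
theorem wd_as_diff {p : ℕ} [hp : Fact p.Prime] (hpm : (p : R) ∈ maximalIdeal R) {a b : R}
    (h : (a ^ p - a) - (b ^ p - b) ∈ maximalIdeal R) :
    ∃ i : ℕ, a - b - (i : R) ∈ maximalIdeal R := by
  obtain ⟨r, hr⟩ := exists_add_pow_prime_eq hp.out (a - b) b
  rw [sub_add_cancel] at hr
  apply wd_as_root R hpm
  have h1 : (a - b) ^ p - (a - b) = ((a ^ p - a) - (b ^ p - b)) - (p : R) * ((a - b) * b * r) := by
    rw [hr]; ring
  rw [h1]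
  exact Ideal.sub_mem _ h (Ideal.mul_mem_right _ _ hpm)

end Local

/-! ### elementwise helpers in subrings of a field -/

section Helpers

variable {F : Type*} [Field F]

theorem wd_pow_sub_pow_mem (T : Subring F) {a b : F} (ha : a ∈ T) (hb : b ∈ T) (n : ℕ) :
    ∃ g ∈ T, a ^ n - b ^ n = (a - b) * g := by
  obtain ⟨g, hg⟩ := sub_dvd_pow_sub_pow (⟨a, ha⟩ : T) ⟨b, hb⟩ n
  refine ⟨g, g.2, ?_⟩
  have := congrArg Subtype.val hg
  simpa using this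

theorem wd_flt (p : ℕ) [hp : Fact p.Prime] (i : ℕ) : ∃ n : ℤ, ((i : ℤ) ^ p - i) = p * n := by
  have h : (((i : ℤ) ^ p - i : ℤ) : ZMod p) = 0 := by
    push_cast
    rw [ZMod.pow_card, sub_self]
  exact (ZMod.intCast_zmod_eq_zero_iff_dvd _ p).mp h

theorem wd_flt_field (p : ℕ) [hp : Fact p.Prime] (i : ℕ) :
    ∃ n : ℤ, ((i : F) ^ p - i) = p * n := by
  obtain ⟨n, hn⟩ := wd_flt p i
  refine ⟨n, ?_⟩
  have := congrArg (fun z : ℤ => (z : F)) hn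
  simpa using this

end Helpers

/-! ### the hypotheses -/

/-- The hypotheses of the depth lemma (T2 WildDepth). -/
structure WdHyp {F : Type*} [Field F] (R : Subring F) [IsLocalRing R] {κ : Type*}
    (V : κ → Subring F) (p : ℕ) (ζ π : F) (e₁ : ℕ) (u₀ : F) : Prop where
  hRV : ∀ c, R ≤ V c
  hζR : ζ ∈ R
  hζ : IsPrimitiveRoot ζ p
  hπR : π ∈ R
  hπV : ∀ c, π⁻¹ ∉ V c
  he₁ : 1 ≤ e₁
  hu₀ : u₀ ∈ R
  hu₀' : u₀⁻¹ ∈ R
  hlam : ζ - 1 = π ^ e₁ * u₀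
  hSS1 : ∀ x ∈ R, (∀ c, ∃ y ∈ V c, x = π * y) → ∃ y ∈ R, x = π * y
  hN1 : ∀ c, ∀ x ∈ V c, ∀ r ∈ R, (∃ y ∈ V c, x ^ p - r = π * y) →
    ∃ s ∈ R, ∃ y ∈ V c, x - s = π * y
  hN2 : ∀ c, ∀ x ∈ V c, ∀ r ∈ R, (∃ y ∈ V c, x ^ p - x - r = π * y) →
    ∃ s ∈ R, ∃ y ∈ V c, x - s = π * y
  hX : ∀ a : κ → R, (∀ c c', a c - a c' ∈ IsLocalRing.maximalIdeal R) →
    ∃ r : R, ∀ c, ∃ y ∈ V c, (r : F) - (a c : F) = π * y

namespace WdHyp

variable {F : Type*} [Field F] {R : Subring F} [IsLocalRing R] {κ : Type*} [Nonempty κ]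
  {V : κ → Subring F} {p : ℕ} [hp : Fact p.Prime] {ζ π : F} {e₁ : ℕ} {u₀ : F}

omit [Nonempty κ] in
theorem lam_ne_zero (H : WdHyp R V p ζ π e₁ u₀) : ζ - 1 ≠ 0 :=
  sub_ne_zero.mpr (H.hζ.ne_one hp.out.one_lt)

omit [Nonempty κ] in
theorem pi_ne_zero (H : WdHyp R V p ζ π e₁ u₀) : π ≠ 0 := by
  intro h
  apply H.lam_ne_zero
  rw [H.hlam, h, zero_pow (by have := H.he₁; omega), zero_mul]

omit [Nonempty κ] in
theorem u₀_ne_zero (H : WdHyp R V p ζ π e₁ u₀) : u₀ ≠ 0 := by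
  intro h
  apply H.lam_ne_zero
  rw [H.hlam, h, mul_zero]

omit [Nonempty κ] in
/-- `R ∩ πV_c ⊆ 𝔪` -/
theorem mem_max (H : WdHyp R V p ζ π e₁ u₀) (c : κ) {x : F} (hx : x ∈ R)
    (h : ∃ y ∈ V c, x = π * y) : (⟨x, hx⟩ : R) ∈ IsLocalRing.maximalIdeal R :=
  wd_mem_max R (V c) (H.hRV c) H.pi_ne_zero (H.hπV c) h

omit [Nonempty κ] hp in
/-- `λ = π * l₁` -/
theorem exists_lam_eq (H : WdHyp R V p ζ π e₁ u₀) : ∃ l₁ ∈ R, ζ - 1 = π * l₁ := by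
  obtain ⟨e, rfl⟩ : ∃ e, e₁ = e + 1 := ⟨e₁ - 1, by have := H.he₁; omega⟩
  refine ⟨π ^ e * u₀, R.mul_mem (R.pow_mem H.hπR e) H.hu₀, ?_⟩
  rw [H.hlam]; ring

omit [Nonempty κ] hp in
theorem lam_mem (H : WdHyp R V p ζ π e₁ u₀) : ζ - 1 ∈ R :=
  R.sub_mem H.hζR R.one_mem

/-- the cyclotomic relation `p λ = - λ^p υ`, `υ = 1 - λ q υ` -/
theorem exists_upsilon (H : WdHyp R V p ζ π e₁ u₀) :
    ∃ υ ∈ R, ∃ q ∈ R, (p : F) * (ζ - 1) = -((ζ - 1) ^ p * υ) ∧ υ = 1 - (ζ - 1) * q * υ := by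
  obtain ⟨q, hq, hbin⟩ := wd_binom_mem R hp.out H.lam_mem
  have hζp : (1 + (ζ - 1)) ^ p = 1 := by
    rw [add_sub_cancel]; exact H.hζ.pow_eq_one
  rw [hζp] at hbin
  set lam := ζ - 1 with hlamdef
  have hlam0 : lam ≠ 0 := H.lam_ne_zero
  -- `u := 1 + lam q` is a unit of `R`
  have huR : 1 + lam * q ∈ R := R.add_mem R.one_mem (R.mul_mem H.lam_mem hq)
  obtain ⟨l₁, hl₁, hl⟩ := H.exists_lam_eq
  have c₀ : κ := Classical.arbitrary κ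
  have hlamq : (⟨lam * q, R.mul_mem H.lam_mem hq⟩ : R) ∈ IsLocalRing.maximalIdeal R := by
    apply H.mem_max c₀
    refine ⟨l₁ * q, (H.hRV c₀) (R.mul_mem hl₁ hq), ?_⟩
    rw [hlamdef, hl]; ring
  have hunit : IsUnit (⟨1 + lam * q, huR⟩ : R) := by
    have h1 : (⟨1 + lam * q, huR⟩ : R) = 1 + ⟨lam * q, R.mul_mem H.lam_mem hq⟩ := rfl
    rw [h1]
    by_contra hnu
    have h2 := (IsLocalRing.mem_maximalIdeal _).mpr hnu
    have h3 : (1 : R) ∈ IsLocalRing.maximalIdeal R := by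
      have := Ideal.sub_mem _ h2 hlamq
      simp at this
    exact (IsLocalRing.mem_maximalIdeal (1 : R)).mp h3 isUnit_one
  have hu0 : (1 + lam * q) ≠ 0 := wd_ne_zero_of_isUnit R hunit
  have huinv : (1 + lam * q)⁻¹ ∈ R := wd_inv_mem_of_isUnit R hunit
  refine ⟨(1 + lam * q)⁻¹, huinv, q, hq, ?_, ?_⟩
  · have h4 : (p : F) * lam * (1 + lam * q) = -(lam ^ p) := by
      linear_combination -hbin
    field_simp
    linear_combination h4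
  · field_simp
    ring

/-- `p ∈ πR` -/
theorem exists_p_eq (H : WdHyp R V p ζ π e₁ u₀) : ∃ p₁ ∈ R, (p : F) = π * p₁ := by
  obtain ⟨υ, hυ, q, hq, h1, h2⟩ := H.exists_upsilon
  obtain ⟨l₁, hl₁, hl⟩ := H.exists_lam_eq
  obtain ⟨m, hm⟩ : ∃ m, p = m + 2 := ⟨p - 2, by have := hp.out.two_le; omega⟩
  have hlam0 : ζ - 1 ≠ 0 := H.lam_ne_zero
  refine ⟨-(l₁ * (ζ - 1) ^ m * υ), R.neg_mem (R.mul_mem (R.mul_mem hl₁ (R.pow_mem H.lam_mem m)) hυ), ?_⟩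
  have h3 : (p : F) * (ζ - 1) = (π * -(l₁ * (ζ - 1) ^ m * υ)) * (ζ - 1) := by
    rw [h1]
    have : (ζ - 1) ^ p = (ζ - 1) ^ m * (ζ - 1) * (π * l₁) := by
      rw [hm, pow_succ, pow_succ, ← hl]
    rw [this]; ring
  exact mul_right_cancel₀ hlam0 h3

theorem p_mem_max (H : WdHyp R V p ζ π e₁ u₀) : ((p : ℕ) : R) ∈ IsLocalRing.maximalIdeal R := by
  obtain ⟨p₁, hp₁, hpe⟩ := H.exists_p_eq
  have c₀ : κ := Classical.arbitrary κ
  have h := H.mem_max c₀ (natCast_mem R p) ⟨p₁, H.hRV c₀ hp₁, hpe⟩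
  have e : (⟨(p : F), natCast_mem R p⟩ : R) = ((p : ℕ) : R) := Subtype.ext (by simp)
  rwa [e] at h

omit [Nonempty κ] in
/-- iterated (SS1) -/
theorem ss1_iter (H : WdHyp R V p ζ π e₁ u₀) : ∀ (n : ℕ) (x : F), x ∈ R →
    (∀ c, ∃ y ∈ V c, x = π ^ n * y) → ∃ y ∈ R, x = π ^ n * y := by
  intro n
  induction n with
  | zero =>
    intro x hx _
    exact ⟨x, hx, by simp⟩
  | succ n ih =>
    intro x hx h
    have h1 : ∀ c, ∃ y ∈ V c, x = π * y := by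
      intro c
      obtain ⟨y, hy, hxy⟩ := h c
      exact ⟨π ^ n * y, (V c).mul_mem ((V c).pow_mem (H.hRV c H.hπR) n) hy, by rw [hxy]; ring⟩
    obtain ⟨x', hx', hxx'⟩ := H.hSS1 x hx h1
    have h2 : ∀ c, ∃ y ∈ V c, x' = π ^ n * y := by
      intro c
      obtain ⟨y, hy, hxy⟩ := h c
      refine ⟨y, hy, ?_⟩
      have : π * x' = π * (π ^ n * y) := by rw [← hxx', hxy]; ring
      exact mul_left_cancel₀ H.pi_ne_zero this
    obtain ⟨y, hy, hx'y⟩ := ih x' hx' h2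
    exact ⟨y, hy, by rw [hxx', hx'y]; ring⟩

end WdHyp

/-! ### the induction -/

namespace WdHyp

variable {F : Type*} [Field F] {R : Subring F} [IsLocalRing R] {κ : Type*} [Nonempty κ]
  {V : κ → Subring F} {p : ℕ} [hp : Fact p.Prime] {ζ π : F} {e₁ : ℕ} {u₀ : F}

/-- the invariant: `γ ∈ R^×` with `G_c ≡ γ mod π^d V_c` for all `c` -/
def Inv (R : Subring F) (V : κ → Subring F) (π : F) (G : κ → F) (d : ℕ) : Prop :=
  ∃ γ ∈ R, γ ≠ 0 ∧ γ⁻¹ ∈ R ∧ ∀ c, ∃ w ∈ V c, G c - γ = π ^ d * w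

omit [Nonempty κ] hp [IsLocalRing R] in
theorem inv_zero (G : κ → F) (hG : ∀ c, G c ∈ V c) : Inv R V π G 0 :=
  ⟨1, R.one_mem, one_ne_zero, by rw [inv_one]; exact R.one_mem, fun c =>
    ⟨G c - 1, (V c).sub_mem (hG c) (V c).one_mem, by simp⟩⟩

omit [Nonempty κ] in
/-- unit criterion: `γ ∈ R`, `γ ≡ G_c mod πV_c` for one `c` ⇒ `γ ∈ R^×` -/
theorem unit_of_congr (H : WdHyp R V p ζ π e₁ u₀) {ε : F} (hε : ε ∈ R) (hε' : ε⁻¹ ∈ R)
    (hε0 : ε ≠ 0) {G : κ → F} (hG : ∀ c, G c ∈ V c)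
    (hGε : ∀ c, ∃ y ∈ V c, ε - G c ^ p = (ζ - 1) ^ p * π * y)
    {γ : F} (hγ : γ ∈ R) (c : κ) (h : ∃ y ∈ V c, G c - γ = π * y) :
    γ ≠ 0 ∧ γ⁻¹ ∈ R := by
  obtain ⟨y, hy, hyG⟩ := h
  obtain ⟨z, hz, hzG⟩ := hGε c
  have hγV : γ ∈ V c := H.hRV c hγ
  obtain ⟨g, hg, hgG⟩ := wd_pow_sub_pow_mem (V c) (hG c) hγV p
  have hlamV : ζ - 1 ∈ V c := H.hRV c H.lam_mem
  have hmem : (⟨γ, hγ⟩ : R) ^ p - ⟨ε, hε⟩ ∈ IsLocalRing.maximalIdeal R := by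
    have h1 : γ ^ p - ε ∈ R := R.sub_mem (R.pow_mem hγ p) hε
    have h2 := H.mem_max c h1 ⟨-(y * g) - (ζ - 1) ^ p * z,
      (V c).sub_mem ((V c).neg_mem ((V c).mul_mem hy hg))
        ((V c).mul_mem ((V c).pow_mem hlamV p) hz), by
        linear_combination (-1 : F) * hgG - hzG - g * hyG⟩
    exact h2
  have hu := wd_isUnit_of_pow R hp.out (wd_isUnit_of_inv_mem R hε hε0 hε') hmem
  exact ⟨wd_ne_zero_of_isUnit R hu, wd_inv_mem_of_isUnit R hu⟩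

/-- **Step** `d → d + 1` below the critical depth. -/
theorem step (H : WdHyp R V p ζ π e₁ u₀) {ε : F} (hε : ε ∈ R) (hε' : ε⁻¹ ∈ R)
    (hε0 : ε ≠ 0) {G : κ → F} (hG : ∀ c, G c ∈ V c)
    (hGε : ∀ c, ∃ y ∈ V c, ε - G c ^ p = (ζ - 1) ^ p * π * y)
    {d : ℕ} (hd : d < e₁) (h : Inv R V π G d) : Inv R V π G (d + 1) := by
  obtain ⟨γ, hγ, hγ0, hγ', hw⟩ := h
  choose w hwV hwG using hw
  obtain ⟨k, hk⟩ : ∃ k, e₁ = d + 1 + k := ⟨e₁ - d - 1, by omega⟩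
  obtain ⟨m, hm⟩ : ∃ m, p = m + 2 := ⟨p - 2, by have := hp.out.two_le; omega⟩
  have hπ0 := H.pi_ne_zero
  have hu0 := H.u₀_ne_zero
  obtain ⟨υ, hυ, q₀, hq₀, hpυ, hυ1⟩ := H.exists_upsilon
  -- `p * π^d = π^(p d + 1) * W`
  have hW : ∃ W ∈ R, (p : F) * π ^ d = π ^ (p * d + 1) * W := by
    refine ⟨-(π ^ (m + (m + 1) * k) * u₀ ^ (m + 1) * υ),
      R.neg_mem (R.mul_mem (R.mul_mem (R.pow_mem H.hπR _) (R.pow_mem H.hu₀ _)) hυ), ?_⟩
    have h1 : (p : F) * (π ^ e₁ * u₀) = -((π ^ e₁ * u₀) ^ p * υ) := by rw [← H.hlam]; exact hpυ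
    have h2 : π ^ (1 + k) * u₀ ≠ 0 := mul_ne_zero (pow_ne_zero _ hπ0) hu0
    apply mul_right_cancel₀ h2
    have h3 : (p : F) * π ^ d * (π ^ (1 + k) * u₀) = (p : F) * (π ^ e₁ * u₀) := by
      rw [hk]; ring
    rw [h3, h1, hk, hm]
    ring
  obtain ⟨W, hWR, hWe⟩ := hW
  -- `λ^p π = π^(p d + 1) * L`
  have hL : ∃ L ∈ R, (ζ - 1) ^ p * π = π ^ (p * d + 1) * L := by
    refine ⟨π ^ (p * (1 + k)) * u₀ ^ p, R.mul_mem (R.pow_mem H.hπR _) (R.pow_mem H.hu₀ _), ?_⟩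
    rw [H.hlam, hk]; ring
  obtain ⟨L, hLR, hLe⟩ := hL
  -- `t_c`
  set t : κ → F := fun c => w c * γ⁻¹ with htdef
  have htV : ∀ c, t c ∈ V c := fun c => (V c).mul_mem (hwV c) (H.hRV c hγ')
  have hGt : ∀ c, G c = γ * (1 + π ^ d * t c) := by
    intro c
    have := hwG c
    simp only [htdef]
    field_simp
    linear_combination this
  -- Claim A
  have hA : ∀ c, ∃ z ∈ V c, ε - γ ^ p = π ^ (p * d) * (γ ^ p * t c ^ p + π * z) := by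
    intro c
    obtain ⟨y, hy, hyG⟩ := hGε c
    obtain ⟨q, hq, hbin⟩ := wd_binom_mem (V c) hp.out
      ((V c).mul_mem ((V c).pow_mem (H.hRV c H.hπR) d) (htV c))
    have hγV : γ ∈ V c := H.hRV c hγ
    have hπV : π ∈ V c := H.hRV c H.hπR
    refine ⟨L * y + γ ^ p * (W * t c * (1 + π ^ d * t c * q)),
      (V c).add_mem ((V c).mul_mem (H.hRV c hLR) hy)
        ((V c).mul_mem ((V c).pow_mem hγV p) ((V c).mul_mem ((V c).mul_mem (H.hRV c hWR) (htV c))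
          ((V c).add_mem (V c).one_mem ((V c).mul_mem ((V c).mul_mem ((V c).pow_mem hπV d)
            (htV c)) hq)))), ?_⟩
    have e1 : G c ^ p = γ ^ p * (1 + π ^ d * t c) ^ p := by rw [hGt c, mul_pow]
    have e2 : (π ^ d * t c) ^ p = π ^ (p * d) * t c ^ p := by
      rw [mul_pow, ← pow_mul, mul_comm d p]
    have e3 : π ^ (p * d + 1) = π ^ (p * d) * π := pow_succ _ _
    rw [e3] at hWe hLe
    have e4 : ε - γ ^ p = (ε - G c ^ p) + γ ^ p * ((1 + π ^ d * t c) ^ p - 1) := by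
      rw [e1]; ring
    rw [e4, hyG, hbin, e2, hLe]
    linear_combination (γ ^ p * t c * (1 + π ^ d * t c * q)) * hWe
  -- `ε - γ^p = π^(pd) γ^p f`
  obtain ⟨a, ha, hae⟩ := H.ss1_iter (p * d) (ε - γ ^ p) (R.sub_mem hε (R.pow_mem hγ p))
    (fun c => by
      obtain ⟨z, hz, hze⟩ := hA c
      exact ⟨γ ^ p * t c ^ p + π * z,
        (V c).add_mem ((V c).mul_mem ((V c).pow_mem (H.hRV c hγ) p) ((V c).pow_mem (htV c) p))
          ((V c).mul_mem (H.hRV c H.hπR) hz), hze⟩)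
  set f : F := a * (γ⁻¹) ^ p with hfdef
  have hfR : f ∈ R := R.mul_mem ha (R.pow_mem hγ' p)
  have hγp0 : γ ^ p ≠ 0 := pow_ne_zero _ hγ0
  have hπpd0 : π ^ (p * d) ≠ 0 := pow_ne_zero _ hπ0
  have haf : a = γ ^ p * f := by
    simp only [hfdef, inv_pow]
    field_simp
  -- `t_c^p ≡ f`
  have htf : ∀ c, ∃ y ∈ V c, t c ^ p - f = π * y := by
    intro c
    obtain ⟨z, hz, hze⟩ := hA c
    refine ⟨-(z * (γ⁻¹) ^ p), (V c).neg_mem ((V c).mul_mem hz ((V c).pow_mem (H.hRV c hγ') p)), ?_⟩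
    have h1 : π ^ (p * d) * (γ ^ p * f) = π ^ (p * d) * (γ ^ p * t c ^ p + π * z) := by
      rw [← haf, ← hae, hze]
    have h2 := mul_left_cancel₀ hπpd0 h1
    simp only [inv_pow]
    field_simp
    linear_combination -h2
  -- (N1)
  have hs : ∀ c, ∃ s ∈ R, ∃ y ∈ V c, t c - s = π * y := fun c =>
    H.hN1 c (t c) (htV c) f hfR (htf c)
  choose s hsR hsy using hs
  -- typed
  have hsf : ∀ c, (⟨s c, hsR c⟩ : R) ^ p - ⟨f, hfR⟩ ∈ IsLocalRing.maximalIdeal R := by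
    intro c
    obtain ⟨y, hy, hye⟩ := hsy c
    obtain ⟨y', hy', hye'⟩ := htf c
    obtain ⟨g, hg, hge⟩ := wd_pow_sub_pow_mem (V c) (htV c) (H.hRV c (hsR c)) p
    have h1 : s c ^ p - f ∈ R := R.sub_mem (R.pow_mem (hsR c) p) hfR
    exact H.mem_max c h1 ⟨y' - y * g, (V c).sub_mem hy' ((V c).mul_mem hy hg), by
      linear_combination hye' - hge - g * hye⟩
  have hss : ∀ c c', (⟨s c, hsR c⟩ : R) - ⟨s c', hsR c'⟩ ∈ IsLocalRing.maximalIdeal R := by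
    intro c c'
    apply wd_frob_inj R hp.out H.p_mem_max
    have := Ideal.sub_mem _ (hsf c) (hsf c')
    have e : (⟨s c, hsR c⟩ : R) ^ p - ⟨s c', hsR c'⟩ ^ p
        = ((⟨s c, hsR c⟩ : R) ^ p - ⟨f, hfR⟩) - (⟨s c', hsR c'⟩ ^ p - ⟨f, hfR⟩) := by ring
    rw [e]; exact this
  obtain ⟨δ, hδ⟩ := H.hX (fun c => ⟨s c, hsR c⟩) hss
  -- the new `γ`
  have hγ'R : γ * (1 + π ^ d * (δ : F)) ∈ R :=
    R.mul_mem hγ (R.add_mem R.one_mem (R.mul_mem (R.pow_mem H.hπR d) δ.2))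
  have hcong : ∀ c, ∃ y ∈ V c, G c - γ * (1 + π ^ d * (δ : F)) = π ^ (d + 1) * y := by
    intro c
    obtain ⟨y, hy, hye⟩ := hsy c
    obtain ⟨y', hy', hye'⟩ := hδ c
    refine ⟨γ * (y - y'), (V c).mul_mem (H.hRV c hγ) ((V c).sub_mem hy hy'), ?_⟩
    rw [hGt c, pow_succ]
    simp only at hye'
    linear_combination (γ * π ^ d) * hye - (γ * π ^ d) * hye'
  have c₀ : κ := Classical.arbitrary κ
  obtain ⟨hne, hinv⟩ := H.unit_of_congr hε hε' hε0 hG hGε hγ'R c₀ (by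
    obtain ⟨y, hy, hye⟩ := hcong c₀
    exact ⟨π ^ d * y, (V c₀).mul_mem ((V c₀).pow_mem (H.hRV c₀ H.hπR) d) hy, by
      rw [hye, pow_succ]; ring⟩)
  exact ⟨_, hγ'R, hne, hinv, hcong⟩

/-- `Inv d` for all `d ≤ e₁` -/
theorem inv_of_le (H : WdHyp R V p ζ π e₁ u₀) {ε : F} (hε : ε ∈ R) (hε' : ε⁻¹ ∈ R)
    (hε0 : ε ≠ 0) {G : κ → F} (hG : ∀ c, G c ∈ V c)
    (hGε : ∀ c, ∃ y ∈ V c, ε - G c ^ p = (ζ - 1) ^ p * π * y) :
    ∀ d, d ≤ e₁ → Inv R V π G d := by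
  intro d
  induction d with
  | zero => exact fun _ => inv_zero G hG
  | succ d ih =>
    intro hd
    exact H.step hε hε' hε0 hG hGε (by omega) (ih (by omega))

end WdHyp

/-! ### the critical depth -/

namespace WdHyp

variable {F : Type*} [Field F] {R : Subring F} [IsLocalRing R] {κ : Type*} [Nonempty κ]
  {V : κ → Subring F} {p : ℕ} [hp : Fact p.Prime] {ζ π : F} {e₁ : ℕ} {u₀ : F}

/-- `(1 + λ t)^p = 1 + λ^p (t^p - t) + λ^p π z` in any subring `T ⊇ R` -/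
theorem critical_binom (H : WdHyp R V p ζ π e₁ u₀) (T : Subring F) (hRT : R ≤ T) {t : F}
    (ht : t ∈ T) :
    ∃ z ∈ T, (1 + (ζ - 1) * t) ^ p = 1 + (ζ - 1) ^ p * ((t ^ p - t) + π * z) := by
  obtain ⟨υ, hυ, q₀, hq₀, hpυ, hυ1⟩ := H.exists_upsilon
  obtain ⟨l₁, hl₁, hl⟩ := H.exists_lam_eq
  obtain ⟨q, hq, hbin⟩ := wd_binom_mem T hp.out (T.mul_mem (hRT H.lam_mem) ht)
  refine ⟨l₁ * (q₀ * υ * t - υ * t ^ 2 * q), T.mul_mem (hRT hl₁)
    (T.sub_mem (T.mul_mem (T.mul_mem (hRT hq₀) (hRT hυ)) ht)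
      (T.mul_mem (T.mul_mem (hRT hυ) (T.pow_mem ht 2)) hq)), ?_⟩
  rw [hbin, mul_pow]
  have h1 : π * (l₁ * (q₀ * υ * t - υ * t ^ 2 * q)) = (ζ - 1) * (q₀ * υ * t - υ * t ^ 2 * q) := by
    rw [hl]; ring
  rw [h1]
  linear_combination (t + (ζ - 1) * t ^ 2 * q) * hpυ - ((ζ - 1) ^ p * t) * hυ1

/-- **Final step** at the critical depth `d = e₁`. -/
theorem final (H : WdHyp R V p ζ π e₁ u₀) {ε : F} (hε : ε ∈ R) (hε' : ε⁻¹ ∈ R)
    (hε0 : ε ≠ 0) {G : κ → F} (hG : ∀ c, G c ∈ V c)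
    (hGε : ∀ c, ∃ y ∈ V c, ε - G c ^ p = (ζ - 1) ^ p * π * y)
    (h : Inv R V π G e₁) :
    ∃ γ ∈ R, γ ≠ 0 ∧ γ⁻¹ ∈ R ∧ ∃ y ∈ R, ε - γ ^ p = (ζ - 1) ^ p * π * y := by
  obtain ⟨γ, hγ, hγ0, hγ', hw⟩ := h
  choose w hwV hwG using hw
  have hπ0 := H.pi_ne_zero
  have hu0 := H.u₀_ne_zero
  have hlam0 := H.lam_ne_zero
  obtain ⟨l₁, hl₁, hl⟩ := H.exists_lam_eq
  obtain ⟨p₁, hp₁, hpe⟩ := H.exists_p_eq
  have hlamR : ζ - 1 ∈ R := H.lam_mem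
  -- `t_c`
  set t : κ → F := fun c => w c * γ⁻¹ * u₀⁻¹ with htdef
  have htV : ∀ c, t c ∈ V c := fun c =>
    (V c).mul_mem ((V c).mul_mem (hwV c) (H.hRV c hγ')) (H.hRV c H.hu₀')
  have hGt : ∀ c, G c = γ * (1 + (ζ - 1) * t c) := by
    intro c
    have := hwG c
    simp only [htdef]
    rw [H.hlam]
    field_simp
    linear_combination this
  -- Claim B
  have hB : ∀ c, ∃ z ∈ V c, ε - γ ^ p = (ζ - 1) ^ p * (γ ^ p * (t c ^ p - t c) + π * z) := by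
    intro c
    obtain ⟨y, hy, hyG⟩ := hGε c
    obtain ⟨z, hz, hze⟩ := H.critical_binom (V c) (H.hRV c) (htV c)
    refine ⟨y + γ ^ p * z, (V c).add_mem hy ((V c).mul_mem ((V c).pow_mem (H.hRV c hγ) p) hz), ?_⟩
    have e1 : G c ^ p = γ ^ p * (1 + (ζ - 1) * t c) ^ p := by rw [hGt c, mul_pow]
    have e4 : ε - γ ^ p = (ε - G c ^ p) + γ ^ p * ((1 + (ζ - 1) * t c) ^ p - 1) := by
      rw [e1]; ring
    rw [e4, hyG, hze]
    ring
  -- `ε - γ^p = λ^p γ^p f`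
  have hlamp : (ζ - 1) ^ p = π ^ (p * e₁) * u₀ ^ p := by
    rw [H.hlam, mul_pow, ← pow_mul, mul_comm e₁ p]
  obtain ⟨a, ha, hae⟩ := H.ss1_iter (p * e₁) (ε - γ ^ p) (R.sub_mem hε (R.pow_mem hγ p))
    (fun c => by
      obtain ⟨z, hz, hze⟩ := hB c
      refine ⟨u₀ ^ p * (γ ^ p * (t c ^ p - t c) + π * z),
        (V c).mul_mem ((V c).pow_mem (H.hRV c H.hu₀) p)
          ((V c).add_mem ((V c).mul_mem ((V c).pow_mem (H.hRV c hγ) p)
            ((V c).sub_mem ((V c).pow_mem (htV c) p) (htV c)))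
          ((V c).mul_mem (H.hRV c H.hπR) hz)), ?_⟩
      rw [hze, hlamp]; ring)
  set f : F := a * (u₀⁻¹) ^ p * (γ⁻¹) ^ p with hfdef
  have hfR : f ∈ R := R.mul_mem (R.mul_mem ha (R.pow_mem H.hu₀' p)) (R.pow_mem hγ' p)
  have hγp0 : γ ^ p ≠ 0 := pow_ne_zero _ hγ0
  have hlamp0 : (ζ - 1) ^ p ≠ 0 := pow_ne_zero _ hlam0
  have hεf : ε - γ ^ p = (ζ - 1) ^ p * (γ ^ p * f) := by
    rw [hae, hlamp]
    simp only [hfdef, inv_pow]
    field_simp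
  -- `℘(t_c) ≡ f`
  have htf : ∀ c, ∃ y ∈ V c, t c ^ p - t c - f = π * y := by
    intro c
    obtain ⟨z, hz, hze⟩ := hB c
    refine ⟨-(z * (γ⁻¹) ^ p), (V c).neg_mem ((V c).mul_mem hz ((V c).pow_mem (H.hRV c hγ') p)), ?_⟩
    have h1 : (ζ - 1) ^ p * (γ ^ p * f) = (ζ - 1) ^ p * (γ ^ p * (t c ^ p - t c) + π * z) := by
      rw [← hεf, hze]
    have h2 := mul_left_cancel₀ hlamp0 h1
    simp only [inv_pow]
    field_simp
    linear_combination -h2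
  -- (N2)
  have hs : ∀ c, ∃ s ∈ R, ∃ y ∈ V c, t c - s = π * y := fun c =>
    H.hN2 c (t c) (htV c) f hfR (htf c)
  choose s hsR hsy using hs
  -- typed: `℘(s_c) ≡ f mod 𝔪`
  have hsf : ∀ c, ((⟨s c, hsR c⟩ : R) ^ p - ⟨s c, hsR c⟩) - ⟨f, hfR⟩
      ∈ IsLocalRing.maximalIdeal R := by
    intro c
    obtain ⟨y, hy, hye⟩ := hsy c
    obtain ⟨y', hy', hye'⟩ := htf c
    obtain ⟨g, hg, hge⟩ := wd_pow_sub_pow_mem (V c) (htV c) (H.hRV c (hsR c)) p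
    have h1 : s c ^ p - s c - f ∈ R := R.sub_mem (R.sub_mem (R.pow_mem (hsR c) p) (hsR c)) hfR
    exact H.mem_max c h1 ⟨y' - y * g + y, (V c).add_mem ((V c).sub_mem hy' ((V c).mul_mem hy hg)) hy,
      by linear_combination hye' - hge - g * hye + hye⟩
  have c₀ : κ := Classical.arbitrary κ
  have hi : ∀ c, ∃ i : ℕ, (⟨s c₀, hsR c₀⟩ : R) - ⟨s c, hsR c⟩ - (i : R)
      ∈ IsLocalRing.maximalIdeal R := by
    intro c
    apply wd_as_diff R H.p_mem_max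
    have := Ideal.sub_mem _ (hsf c₀) (hsf c)
    have e : ((⟨s c₀, hsR c₀⟩ : R) ^ p - ⟨s c₀, hsR c₀⟩) - ((⟨s c, hsR c⟩ : R) ^ p - ⟨s c, hsR c⟩)
        = (((⟨s c₀, hsR c₀⟩ : R) ^ p - ⟨s c₀, hsR c₀⟩) - ⟨f, hfR⟩)
          - (((⟨s c, hsR c⟩ : R) ^ p - ⟨s c, hsR c⟩) - ⟨f, hfR⟩) := by ring
    rw [e]; exact this
  choose i hi using hi
  have hb : ∀ c c', ((⟨s c, hsR c⟩ : R) + (i c : R)) - ((⟨s c', hsR c'⟩ : R) + (i c' : R))
      ∈ IsLocalRing.maximalIdeal R := by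
    intro c c'
    have := Ideal.sub_mem _ (hi c') (hi c)
    have e : ((⟨s c, hsR c⟩ : R) + (i c : R)) - ((⟨s c', hsR c'⟩ : R) + (i c' : R))
        = ((⟨s c₀, hsR c₀⟩ : R) - ⟨s c', hsR c'⟩ - (i c' : R))
          - ((⟨s c₀, hsR c₀⟩ : R) - ⟨s c, hsR c⟩ - (i c : R)) := by ring
    rw [e]; exact this
  obtain ⟨δ, hδ⟩ := H.hX (fun c => (⟨s c, hsR c⟩ : R) + (i c : R)) hb
  -- `℘(δ) ≡ f mod π V_c`
  have hδf : ∀ c, ∃ y ∈ V c, f - ((δ : F) ^ p - (δ : F)) = π * y := by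
    intro c
    obtain ⟨y, hy, hye⟩ := hsy c
    obtain ⟨y', hy', hye'⟩ := hδ c
    obtain ⟨y'', hy'', hye''⟩ := htf c
    have hiV : ((i c : ℕ) : F) ∈ V c := natCast_mem (V c) (i c)
    have htiV : t c + (i c : F) ∈ V c := (V c).add_mem (htV c) hiV
    have hδV : (δ : F) ∈ V c := H.hRV c δ.2
    obtain ⟨g, hg, hge⟩ := wd_pow_sub_pow_mem (V c) hδV htiV p
    obtain ⟨r, hr, hre⟩ := wd_add_pow_mem (V c) hp.out (htV c) hiV
    obtain ⟨n, hn⟩ := wd_flt_field (F := F) p (i c)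
    have hp₁V : p₁ ∈ V c := H.hRV c hp₁
    simp only [Subring.coe_add, Subring.coe_natCast] at hye'
    -- `δ - (t + i) = π (y' - y)`
    have hδt : (δ : F) - (t c + (i c : F)) = π * (y' - y) := by
      linear_combination hye' - hye
    refine ⟨-y'' - (y' - y) * g - p₁ * (r + (n : F)) + (y' - y),
      (V c).add_mem ((V c).sub_mem ((V c).sub_mem ((V c).neg_mem hy'')
        ((V c).mul_mem ((V c).sub_mem hy' hy) hg))
        ((V c).mul_mem hp₁V ((V c).add_mem hr (intCast_mem (V c) n)))) ((V c).sub_mem hy' hy), ?_⟩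
    linear_combination -hye'' - hge - g * hδt - hre - hn + hδt - (r + (n : F)) * hpe
  obtain ⟨g, hgR, hge⟩ := H.hSS1 (f - ((δ : F) ^ p - (δ : F)))
    (R.sub_mem hfR (R.sub_mem (R.pow_mem δ.2 p) δ.2)) hδf
  -- the new `γ`
  have hγ'R : γ * (1 + (ζ - 1) * (δ : F)) ∈ R :=
    R.mul_mem hγ (R.add_mem R.one_mem (R.mul_mem hlamR δ.2))
  obtain ⟨z, hz, hze⟩ := H.critical_binom R le_rfl δ.2
  have hfinal : ε - (γ * (1 + (ζ - 1) * (δ : F))) ^ p = (ζ - 1) ^ p * π * (γ ^ p * (g - z)) := by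
    rw [mul_pow, hze]
    linear_combination hεf + ((ζ - 1) ^ p * γ ^ p) * hge
  have hcong : ∃ y ∈ V c₀, G c₀ - γ * (1 + (ζ - 1) * (δ : F)) = π * y := by
    refine ⟨γ * l₁ * (t c₀ - (δ : F)), (V c₀).mul_mem ((V c₀).mul_mem (H.hRV c₀ hγ) (H.hRV c₀ hl₁))
      ((V c₀).sub_mem (htV c₀) (H.hRV c₀ δ.2)), ?_⟩
    rw [hGt c₀, hl]; ring
  obtain ⟨hne, hinv⟩ := H.unit_of_congr hε hε' hε0 hG hGε hγ'R c₀ hcong
  exact ⟨_, hγ'R, hne, hinv, γ ^ p * (g - z),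
    R.mul_mem (R.pow_mem hγ p) (R.sub_mem hgR hz), hfinal⟩

end WdHyp

/-! ### the main theorem -/

/-- **T2 WildDepth.**  If `ε ∈ R^×` is a `p`-th power modulo `(ζ - 1)^p π` in every `V c`, then
it is the `p`-th power of a unit of `R` modulo `(ζ - 1)^p π R`. -/
theorem wd_main {F : Type*} [Field F] (R : Subring F) [IsLocalRing R]
    {κ : Type*} [Nonempty κ] (V : κ → Subring F) (hRV : ∀ c, R ≤ V c)
    (p : ℕ) [Fact p.Prime]
    (ζ : F) (hζR : ζ ∈ R) (hζ : IsPrimitiveRoot ζ p)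
    (π : F) (hπR : π ∈ R) (hπV : ∀ c, π⁻¹ ∉ V c)
    (e₁ : ℕ) (he₁ : 1 ≤ e₁) (u₀ : F) (hu₀ : u₀ ∈ R) (hu₀' : u₀⁻¹ ∈ R)
    (hlam : ζ - 1 = π ^ e₁ * u₀)
    (hSS1 : ∀ x ∈ R, (∀ c, ∃ y ∈ V c, x = π * y) → ∃ y ∈ R, x = π * y)
    (hN1 : ∀ c, ∀ x ∈ V c, ∀ r ∈ R, (∃ y ∈ V c, x ^ p - r = π * y) →
      ∃ s ∈ R, ∃ y ∈ V c, x - s = π * y)
    (hN2 : ∀ c, ∀ x ∈ V c, ∀ r ∈ R, (∃ y ∈ V c, x ^ p - x - r = π * y) →
      ∃ s ∈ R, ∃ y ∈ V c, x - s = π * y)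
    (hX : ∀ a : κ → R, (∀ c c', a c - a c' ∈ IsLocalRing.maximalIdeal R) →
      ∃ r : R, ∀ c, ∃ y ∈ V c, (r : F) - (a c : F) = π * y)
    (ε : F) (hε : ε ∈ R) (hε' : ε⁻¹ ∈ R) (hε0 : ε ≠ 0)
    (G : κ → F) (hG : ∀ c, G c ∈ V c)
    (hGε : ∀ c, ∃ y ∈ V c, ε - G c ^ p = (ζ - 1) ^ p * π * y) :
    ∃ γ ∈ R, γ ≠ 0 ∧ γ⁻¹ ∈ R ∧ ∃ y ∈ R, ε - γ ^ p = (ζ - 1) ^ p * π * y := by
  have H : WdHyp R V p ζ π e₁ u₀ :=
    ⟨hRV, hζR, hζ, hπR, hπV, he₁, hu₀, hu₀', hlam, hSS1, hN1, hN2, hX⟩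
  exact H.final hε hε' hε0 hG hGε (H.inv_of_le hε hε' hε0 hG hGε e₁ le_rfl)

end Fermat.Agent.S33
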