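/-
S33 v2 — C4 WILD, piece T4 "WildHor" = step (H) of NOTES/S33-C4.md (helper92).

HORIZONTAL FACTORISATION at a closed point `𝔫` of the special fibre:
    `u = ε · G ^ p`,   `ε ∈ O_𝔫^×`,   `G ∈ F^×`.

Abstract setting (everything that T5 has to supply is a hypothesis of the lemmas below):

* `F` a field (the function field), `O : Subring F` the local ring `B_𝔫` (`UNIP.ls_localSubring`);
* `ι` the set of horizontal places with centre in `𝔫` ("the tube"), `ord : ι → F → ℤ` their orders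
  (`hmul` = `Place.ord_mul`);  a *tube-unit* is `z ≠ 0` with `ord j z = 0` for all `j`
  (`WhTubeUnit`);
* `V`, resp. `V₁`, `V₂` : the valuation rings of the vertical primes through `𝔫`;
* `π` : the uniformizer of the base (a tube-unit which generates the value group of `V`, resp. `V₂`);
* coordinates `f_P` at the places of the support of `u` in the tube (`UNIP.unip_tubeOrd_node/disc`);
* Lemma U / normality of `O` (`UNIP.unip_unitCrit_unit`, `UNIP.unip_unitCrit_mem`);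
* at a node: the *branch order* `w` (the order at `𝔫` of the residue of a `V₂`-unit on the branch
  `O/𝔭₂`) and a *winding generator* `X` (tube-unit, `V₂`-unit, `w X = 1`).

Main results
* `wh_tube_factor` : `u = u₀ · G₀ ^ p` with `u₀` a tube-unit.
* `wh_smooth`      : (H) at a point with one vertical component.
* `wh_node`        : (H) at a node, in terms of an abstract branch order `w`.
* `whOrd`, `wh_node_of_winding` : the branch order constructed from a winding generator `X` with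
  `X̄` a uniformizer of the branch `O/𝔭₂` (`hDVR`), and (H) at a node in these terms.
* `wh_branch_of_frac` : `hDVR` for all `V₂`-units from `hDVR` for the elements of `O`.
* `wh_smooth_one`, `wh_node_one`, `wh_node_of_winding_one` : the same for `u ≡ 1` at the vertical
  valuation (normal form (N)).
* `wh_depth_input` : the output in the shape consumed by (D) (T2 WildDepth): `G⁻¹ ∈ V^×` and
  `ε / (G⁻¹) ^ p = u`.
-/
import Mathlib
import Fermat.Agent.UNIP.LocalShape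

set_option autoImplicit false

namespace Fermat.Agent.S33

open Fermat.Agent.UNIP

/-! ### Units of a valuation ring -/

section ValUnit

variable {F : Type*} [Field F]

theorem wh_val_ne_zero (V : ValuationSubring F) {x : F} (hx : V.valuation x = 1) : x ≠ 0 := by
  intro h
  rw [h, map_zero] at hx
  exact zero_ne_one hx

theorem wh_val_mul (V : ValuationSubring F) {x y : F} (hx : V.valuation x = 1)
    (hy : V.valuation y = 1) : V.valuation (x * y) = 1 := by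
  rw [map_mul, hx, hy, one_mul]

theorem wh_val_inv (V : ValuationSubring F) {x : F} (hx : V.valuation x = 1) :
    V.valuation x⁻¹ = 1 := by
  rw [map_inv₀, hx, inv_one]

theorem wh_val_div (V : ValuationSubring F) {x y : F} (hx : V.valuation x = 1)
    (hy : V.valuation y = 1) : V.valuation (x / y) = 1 := by
  rw [map_div₀, hx, hy, div_one]

theorem wh_val_pow (V : ValuationSubring F) {x : F} (hx : V.valuation x = 1) (n : ℕ) :
    V.valuation (x ^ n) = 1 := by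
  rw [map_pow, hx, one_pow]

theorem wh_val_zpow (V : ValuationSubring F) {x : F} (hx : V.valuation x = 1) (n : ℤ) :
    V.valuation (x ^ n) = 1 := by
  rw [map_zpow₀, hx, one_zpow]

/-- A unit of a subring `O ⊆ V` is a unit of `V`. -/
theorem wh_val_of_unit (O : Subring F) (V : ValuationSubring F) (hOV : ∀ x ∈ O, x ∈ V)
    {x : F} (hx0 : x ≠ 0) (hx : x ∈ O) (hx' : x⁻¹ ∈ O) : V.valuation x = 1 := by
  have h1 : V.valuation x ≤ 1 := (V.valuation_le_one_iff x).mpr (hOV x hx)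
  have h2 : V.valuation x⁻¹ ≤ 1 := (V.valuation_le_one_iff x⁻¹).mpr (hOV _ hx')
  have h3 : V.valuation x ≠ 0 := (Valuation.ne_zero_iff _).mpr hx0
  rw [map_inv₀, inv_le_one₀ (zero_lt_iff.mpr h3)] at h2
  exact le_antisymm h1 h2

/-- `1 + 𝔪 ⊆ V^×`. -/
theorem wh_val_of_one (V : ValuationSubring F) {x : F} (hx : V.valuation (x - 1) < 1) :
    V.valuation x = 1 := by
  have h := Valuation.map_add_eq_of_lt_left V.valuation (x := 1) (y := x - 1)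
    (by rw [map_one]; exact hx)
  rw [map_one] at h
  rw [← h]
  congr 1
  ring

/-- `𝔪` is an ideal of `V`. -/
theorem wh_val_mul_lt (V : ValuationSubring F) {x y : F} (hx : V.valuation x ≤ 1)
    (hy : V.valuation y < 1) : V.valuation (x * y) < 1 := by
  rw [map_mul]
  calc V.valuation x * V.valuation y ≤ 1 * V.valuation y := by gcongr
    _ = V.valuation y := one_mul _
    _ < 1 := hy

theorem wh_val_add_lt (V : ValuationSubring F) {x y : F} (hx : V.valuation x < 1)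
    (hy : V.valuation y < 1) : V.valuation (x + y) < 1 :=
  lt_of_le_of_lt (V.valuation.map_add x y) (max_lt hx hy)

theorem wh_val_sub_lt (V : ValuationSubring F) {x y : F} (hx : V.valuation x < 1)
    (hy : V.valuation y < 1) : V.valuation (x - y) < 1 :=
  lt_of_le_of_lt (V.valuation.map_sub x y) (max_lt hx hy)

/-- If `x ^ p` is a unit of `V` (`p ≠ 0`), so is `x`. -/
theorem wh_val_of_pow (V : ValuationSubring F) {x : F} {p : ℕ} (hp : p ≠ 0)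
    (hx : V.valuation (x ^ p) = 1) : V.valuation x = 1 := by
  rw [map_pow] at hx
  exact (pow_eq_one_iff_of_nonneg zero_le hp).mp hx

end ValUnit

/-! ### The tube -/

section Tube

variable {F : Type*} [Field F] {ι : Type*}

/-- `z` is a *tube-unit*: `z ≠ 0` has order `0` at every (horizontal) place of the tube. -/
def WhTubeUnit (ord : ι → F → ℤ) (z : F) : Prop :=
  z ≠ 0 ∧ ∀ j, ord j z = 0

theorem WhTubeUnit.mul {ord : ι → F → ℤ}
    (hmul : ∀ i x y, x ≠ 0 → y ≠ 0 → ord i (x * y) = ord i x + ord i y) {x y : F}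
    (hx : WhTubeUnit ord x) (hy : WhTubeUnit ord y) : WhTubeUnit ord (x * y) :=
  ⟨mul_ne_zero hx.1 hy.1, fun j => by rw [hmul j x y hx.1 hy.1, hx.2 j, hy.2 j, add_zero]⟩

theorem WhTubeUnit.inv {ord : ι → F → ℤ}
    (hmul : ∀ i x y, x ≠ 0 → y ≠ 0 → ord i (x * y) = ord i x + ord i y) {x : F}
    (hx : WhTubeUnit ord x) : WhTubeUnit ord x⁻¹ :=
  ⟨inv_ne_zero hx.1, fun j => by rw [ls_ord_inv ord hmul j hx.1, hx.2 j, neg_zero]⟩

theorem WhTubeUnit.div {ord : ι → F → ℤ}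
    (hmul : ∀ i x y, x ≠ 0 → y ≠ 0 → ord i (x * y) = ord i x + ord i y) {x y : F}
    (hx : WhTubeUnit ord x) (hy : WhTubeUnit ord y) : WhTubeUnit ord (x / y) := by
  rw [div_eq_mul_inv]
  exact hx.mul hmul (hy.inv hmul)

theorem WhTubeUnit.pow {ord : ι → F → ℤ}
    (hmul : ∀ i x y, x ≠ 0 → y ≠ 0 → ord i (x * y) = ord i x + ord i y) {x : F}
    (hx : WhTubeUnit ord x) (n : ℕ) : WhTubeUnit ord (x ^ n) :=
  ⟨pow_ne_zero n hx.1, fun j => by rw [ls_ord_pow ord hmul j hx.1, hx.2 j, mul_zero]⟩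

theorem WhTubeUnit.zpow {ord : ι → F → ℤ}
    (hmul : ∀ i x y, x ≠ 0 → y ≠ 0 → ord i (x * y) = ord i x + ord i y) {x : F}
    (hx : WhTubeUnit ord x) (n : ℤ) : WhTubeUnit ord (x ^ n) :=
  ⟨zpow_ne_zero n hx.1, fun j => by rw [ls_ord_zpow ord hmul j hx.1, hx.2 j, mul_zero]⟩

/-- **(H), bookkeeping in the tube.**  If `p ∣ ord_P u` at every place `P` of the tube and every
place of the support of `u` in the tube has a coordinate function, then `u = u₀ · G₀ ^ p` with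
`u₀` a tube-unit. -/
theorem wh_tube_factor (ord : ι → F → ℤ)
    (hmul : ∀ i x y, x ≠ 0 → y ≠ 0 → ord i (x * y) = ord i x + ord i y)
    {u : F} (hu : u ≠ 0) (p : ℕ)
    (hfin : {i | ord i u ≠ 0}.Finite)
    (hp : ∀ i, (p : ℤ) ∣ ord i u)
    (hcoord : ∀ i, ord i u ≠ 0 → ∃ f : F, f ≠ 0 ∧ ord i f = 1 ∧ ∀ j, j ≠ i → ord j f = 0) :
    ∃ G₀ : F, G₀ ≠ 0 ∧ WhTubeUnit ord (u / G₀ ^ p) := by
  classical
  have hc : ∀ i : ι, ∃ f : F, f ≠ 0 ∧
      (ord i u ≠ 0 → ∀ j, ord j f = if j = i then 1 else 0) := by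
    intro i
    by_cases h1 : ord i u ≠ 0
    · obtain ⟨f, hf0, hf1, hf⟩ := hcoord i h1
      refine ⟨f, hf0, fun _ j => ?_⟩
      by_cases hji : j = i
      · rw [if_pos hji, hji]; exact hf1
      · rw [if_neg hji]; exact hf j hji
    · exact ⟨1, one_ne_zero, fun h2 => absurd h2 h1⟩
  choose f hf0 hf using hc
  set S : Finset ι := hfin.toFinset with hS
  have hmemS : ∀ i, i ∈ S ↔ ord i u ≠ 0 := fun i => by
    rw [hS, Set.Finite.mem_toFinset]; rfl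
  set n : ι → ℤ := fun i => ord i u / (p : ℤ) with hn
  have hmn : ∀ i, (p : ℤ) * n i = ord i u := fun i => Int.mul_ediv_cancel' (hp i)
  set G₀ : F := ∏ i ∈ S, f i ^ n i with hG₀
  have hG₀0 : G₀ ≠ 0 := Finset.prod_ne_zero_iff.mpr fun i _ => zpow_ne_zero _ (hf0 i)
  have hordg : ∀ j, (p : ℤ) * ord j G₀ = ord j u := by
    intro j
    rw [hG₀, ls_ord_prod ord hmul j S _ (fun i _ => zpow_ne_zero _ (hf0 i))]
    have h1 : ∀ i ∈ S, ord j (f i ^ n i) = if j = i then n i else 0 := by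
      intro i hi
      rw [ls_ord_zpow ord hmul j (hf0 i), hf i ((hmemS i).mp hi) j]
      split_ifs <;> simp
    rw [Finset.sum_congr rfl h1, Finset.sum_ite_eq S j]
    by_cases hjS : j ∈ S
    · rw [if_pos hjS, hmn j]
    · rw [if_neg hjS, mul_zero]
      by_contra hne
      exact hjS ((hmemS j).mpr fun h0 => hne h0.symm)
  refine ⟨G₀, hG₀0, div_ne_zero hu (pow_ne_zero _ hG₀0), fun j => ?_⟩
  rw [ls_ord_div ord hmul j hu (pow_ne_zero _ hG₀0), ls_ord_pow ord hmul j hG₀0, hordg j,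
    sub_self]

/-- **(H), normalisation at a vertical valuation.**  `u = u₀ · G₀ ^ p` with `u₀` a tube-unit, and
`h ≠ 0`.  Then `u = u₁ · G₁ ^ p` with `u₁` a tube-unit and `u₁ = (u / h ^ p) · y ^ p` with `y` a
unit of `V` (so `u₁` is a unit of `V` as soon as `u / h ^ p` is). -/
theorem wh_vert_normalise (ord : ι → F → ℤ)
    (hmul : ∀ i x y, x ≠ 0 → y ≠ 0 → ord i (x * y) = ord i x + ord i y)
    (V : ValuationSubring F) {π : F} (hπ : WhTubeUnit ord π)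
    (hπV : ∀ z : F, z ≠ 0 → ∃ k : ℤ, V.valuation (z / π ^ k) = 1)
    {u : F} (hu : u ≠ 0) (p : ℕ) {G₀ : F} (hG₀ : G₀ ≠ 0) (hu₀ : WhTubeUnit ord (u / G₀ ^ p))
    {h : F} (hh : h ≠ 0) :
    ∃ G₁ y : F, G₁ ≠ 0 ∧ WhTubeUnit ord (u / G₁ ^ p) ∧ V.valuation y = 1 ∧
      u / G₁ ^ p = u / h ^ p * y ^ p := by
  obtain ⟨k, hk⟩ := hπV (h / G₀) (div_ne_zero hh hG₀)
  have hπ0 : π ≠ 0 := hπ.1
  have hπk : π ^ k ≠ 0 := zpow_ne_zero k hπ0
  refine ⟨G₀ * π ^ k, h / G₀ / π ^ k, mul_ne_zero hG₀ hπk, ?_, hk, ?_⟩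
  · have e : u / (G₀ * π ^ k) ^ p = u / G₀ ^ p / (π ^ k) ^ p := by
      rw [mul_pow, div_div]
    rw [e]
    exact hu₀.div hmul ((hπ.zpow hmul k).pow hmul p)
  · have h1 : h ^ p ≠ 0 := pow_ne_zero p hh
    have h2 : G₀ ^ p ≠ 0 := pow_ne_zero p hG₀
    have h3 : (π ^ k) ^ p ≠ 0 := pow_ne_zero p hπk
    rw [mul_pow, div_pow, div_pow]
    field_simp

end Tube

/-! ### (H) at a smooth point -/

section Smooth

variable {F : Type*} [Field F] {ι : Type*}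

/-- **(H) at a point with ONE vertical component.**  `O = B_𝔫`, `V` the valuation ring of the
vertical prime through `𝔫`, `π` the uniformizer of the base.
`hU` = Lemma U (`UNIP.unip_unitCrit_unit`); `hcoord` = `UNIP.unip_tubeOrd_disc`;
`hsplit` : `u ∈ V^× · F^{×p}` (e.g. `u` split at `V`, or `u ≡ 1` at `V`). -/
theorem wh_smooth (ord : ι → F → ℤ)
    (hmul : ∀ i x y, x ≠ 0 → y ≠ 0 → ord i (x * y) = ord i x + ord i y)
    (O : Subring F) (V : ValuationSubring F)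
    (hU : ∀ z : F, WhTubeUnit ord z → V.valuation z = 1 → z ∈ O ∧ z⁻¹ ∈ O)
    {π : F} (hπ : WhTubeUnit ord π)
    (hπV : ∀ z : F, z ≠ 0 → ∃ k : ℤ, V.valuation (z / π ^ k) = 1)
    {u : F} (hu : u ≠ 0) (p : ℕ)
    (hfin : {i | ord i u ≠ 0}.Finite)
    (hp : ∀ i, (p : ℤ) ∣ ord i u)
    (hcoord : ∀ i, ord i u ≠ 0 → ∃ f : F, f ≠ 0 ∧ ord i f = 1 ∧ ∀ j, j ≠ i → ord j f = 0)
    (hsplit : ∃ h : F, h ≠ 0 ∧ V.valuation (u / h ^ p) = 1) :
    ∃ G ε : F, G ≠ 0 ∧ ε ≠ 0 ∧ ε ∈ O ∧ ε⁻¹ ∈ O ∧ u = ε * G ^ p := by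
  obtain ⟨G₀, hG₀, hu₀⟩ := wh_tube_factor ord hmul hu p hfin hp hcoord
  obtain ⟨h, hh, hV⟩ := hsplit
  obtain ⟨G₁, y, hG₁, hu₁, hy, e⟩ := wh_vert_normalise ord hmul V hπ hπV hu p hG₀ hu₀ hh
  have hV₁ : V.valuation (u / G₁ ^ p) = 1 := by
    rw [e]
    exact wh_val_mul V hV (wh_val_pow V hy p)
  obtain ⟨h1, h2⟩ := hU _ hu₁ hV₁
  refine ⟨G₁, u / G₁ ^ p, hG₁, hu₁.1, h1, h2, ?_⟩
  rw [div_mul_cancel₀ _ (pow_ne_zero p hG₁)]

/-- `wh_smooth` for `u ≡ 1` at `V` (normal form (N)). -/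
theorem wh_smooth_one (ord : ι → F → ℤ)
    (hmul : ∀ i x y, x ≠ 0 → y ≠ 0 → ord i (x * y) = ord i x + ord i y)
    (O : Subring F) (V : ValuationSubring F)
    (hU : ∀ z : F, WhTubeUnit ord z → V.valuation z = 1 → z ∈ O ∧ z⁻¹ ∈ O)
    {π : F} (hπ : WhTubeUnit ord π)
    (hπV : ∀ z : F, z ≠ 0 → ∃ k : ℤ, V.valuation (z / π ^ k) = 1)
    {u : F} (p : ℕ)
    (hfin : {i | ord i u ≠ 0}.Finite)
    (hp : ∀ i, (p : ℤ) ∣ ord i u)
    (hcoord : ∀ i, ord i u ≠ 0 → ∃ f : F, f ≠ 0 ∧ ord i f = 1 ∧ ∀ j, j ≠ i → ord j f = 0)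
    (hone : V.valuation (u - 1) < 1) :
    ∃ G ε : F, G ≠ 0 ∧ ε ≠ 0 ∧ ε ∈ O ∧ ε⁻¹ ∈ O ∧ u = ε * G ^ p := by
  have hV : V.valuation u = 1 := wh_val_of_one V hone
  exact wh_smooth ord hmul O V hU hπ hπV (wh_val_ne_zero V hV) p hfin hp hcoord
    ⟨1, one_ne_zero, by rw [one_pow, div_one]; exact hV⟩

end Smooth

/-! ### (H) at a node, with an abstract branch order -/

section Node

variable {F : Type*} [Field F] {ι : Type*}

theorem wh_w_one (V₂ : ValuationSubring F) (w : F → ℤ)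
    (hw1 : ∀ x y : F, V₂.valuation x = 1 → V₂.valuation y = 1 → w (x * y) = w x + w y) :
    w 1 = 0 := by
  have h := hw1 1 1 (map_one _) (map_one _)
  rw [mul_one] at h
  linarith

theorem wh_w_inv (V₂ : ValuationSubring F) (w : F → ℤ)
    (hw1 : ∀ x y : F, V₂.valuation x = 1 → V₂.valuation y = 1 → w (x * y) = w x + w y)
    {x : F} (hx : V₂.valuation x = 1) : w x⁻¹ = -w x := by
  have h := hw1 x x⁻¹ hx (wh_val_inv V₂ hx)
  rw [mul_inv_cancel₀ (wh_val_ne_zero V₂ hx), wh_w_one V₂ w hw1] at h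
  linarith

theorem wh_w_pow (V₂ : ValuationSubring F) (w : F → ℤ)
    (hw1 : ∀ x y : F, V₂.valuation x = 1 → V₂.valuation y = 1 → w (x * y) = w x + w y)
    {x : F} (hx : V₂.valuation x = 1) (n : ℕ) : w (x ^ n) = n * w x := by
  induction n with
  | zero => simp [wh_w_one V₂ w hw1]
  | succ n ih =>
    rw [pow_succ, hw1 _ _ (wh_val_pow V₂ hx n) hx, ih]
    push_cast
    ring

theorem wh_w_zpow (V₂ : ValuationSubring F) (w : F → ℤ)
    (hw1 : ∀ x y : F, V₂.valuation x = 1 → V₂.valuation y = 1 → w (x * y) = w x + w y)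
    {x : F} (hx : V₂.valuation x = 1) (n : ℤ) : w (x ^ n) = n * w x := by
  obtain ⟨k, rfl | rfl⟩ := n.eq_nat_or_neg
  · rw [zpow_natCast, wh_w_pow V₂ w hw1 hx]
  · rw [zpow_neg, zpow_natCast, wh_w_inv V₂ w hw1 (wh_val_pow V₂ hx k), wh_w_pow V₂ w hw1 hx]
    ring

/-- **One-sided Lemma U at a node.**  `z` a tube-unit and a unit of `V₂` whose residue on the
branch `O/𝔭₂` has order `0` at `𝔫`.  Then `z ∈ O^×`  (no hypothesis on `V₁`!).
`hN` = normality of `O` (`UNIP.unip_unitCrit_mem`), `hw3` = the branch order is `≥ 0` on `O` and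
`= 0` only on units. -/
theorem wh_node_unit (ord : ι → F → ℤ)
    (hmul : ∀ i x y, x ≠ 0 → y ≠ 0 → ord i (x * y) = ord i x + ord i y)
    (O : Subring F) (V₁ V₂ : ValuationSubring F)
    (hN : ∀ z : F, z ≠ 0 → (∀ j, 0 ≤ ord j z) → z ∈ V₁ → z ∈ V₂ → z ∈ O)
    (w : F → ℤ)
    (hw1 : ∀ x y : F, V₂.valuation x = 1 → V₂.valuation y = 1 → w (x * y) = w x + w y)
    (hw3 : ∀ z : F, z ∈ O → V₂.valuation z = 1 → w z = 0 → z⁻¹ ∈ O)
    {z : F} (hz : WhTubeUnit ord z) (hz₂ : V₂.valuation z = 1) (hwz : w z = 0) :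
    z ∈ O ∧ z⁻¹ ∈ O := by
  have key : ∀ x : F, WhTubeUnit ord x → V₂.valuation x = 1 → w x = 0 → x ∈ V₁ →
      x ∈ O ∧ x⁻¹ ∈ O := by
    intro x hx hx₂ hwx hx₁
    have h1 : x ∈ O := hN x hx.1 (fun j => (hx.2 j).ge) hx₁
      ((V₂.valuation_le_one_iff x).mp hx₂.le)
    exact ⟨h1, hw3 x h1 hx₂ hwx⟩
  rcases V₁.mem_or_inv_mem z with h | h
  · exact key z hz hz₂ hwz h
  · have := key z⁻¹ (hz.inv hmul) (wh_val_inv V₂ hz₂)
      (by rw [wh_w_inv V₂ w hw1 hz₂, hwz, neg_zero]) h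
    rw [inv_inv] at this
    exact ⟨this.2, this.1⟩

/-- **(H) at a node.**  `O = B_𝔫`, `V₁`, `V₂` the valuation rings of the two vertical primes
through `𝔫`, `π` the uniformizer of the base, `w` the branch order on `O/𝔭₂`, `X` a winding
generator.  `hsplit` : `u ∈ V₂^× · F^{×p}` with a residue on the branch of order divisible by `p`
(e.g. `u = c · h ^ p · (1 + z)` with `c ∈ O^×`, `z ∈ 𝔪_{V₂}`: `wh_split_of_const`).
Only the branch `𝔭₂` is used. -/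
theorem wh_node (ord : ι → F → ℤ)
    (hmul : ∀ i x y, x ≠ 0 → y ≠ 0 → ord i (x * y) = ord i x + ord i y)
    (O : Subring F) (V₁ V₂ : ValuationSubring F)
    (hN : ∀ z : F, z ≠ 0 → (∀ j, 0 ≤ ord j z) → z ∈ V₁ → z ∈ V₂ → z ∈ O)
    {π : F} (hπ : WhTubeUnit ord π)
    (hπV : ∀ z : F, z ≠ 0 → ∃ k : ℤ, V₂.valuation (z / π ^ k) = 1)
    (w : F → ℤ)
    (hw1 : ∀ x y : F, V₂.valuation x = 1 → V₂.valuation y = 1 → w (x * y) = w x + w y)
    (hw3 : ∀ z : F, z ∈ O → V₂.valuation z = 1 → w z = 0 → z⁻¹ ∈ O)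
    {X : F} (hX : WhTubeUnit ord X) (hX₂ : V₂.valuation X = 1) (hwX : w X = 1)
    {u : F} (hu : u ≠ 0) (p : ℕ)
    (hfin : {i | ord i u ≠ 0}.Finite)
    (hp : ∀ i, (p : ℤ) ∣ ord i u)
    (hcoord : ∀ i, ord i u ≠ 0 → ∃ f : F, f ≠ 0 ∧ ord i f = 1 ∧ ∀ j, j ≠ i → ord j f = 0)
    (hsplit : ∃ h : F, h ≠ 0 ∧ V₂.valuation (u / h ^ p) = 1 ∧ (p : ℤ) ∣ w (u / h ^ p)) :
    ∃ G ε : F, G ≠ 0 ∧ ε ≠ 0 ∧ ε ∈ O ∧ ε⁻¹ ∈ O ∧ u = ε * G ^ p := by
  obtain ⟨G₀, hG₀, hu₀⟩ := wh_tube_factor ord hmul hu p hfin hp hcoord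
  obtain ⟨h, hh, hV, a₀, ha₀⟩ := hsplit
  obtain ⟨G₁, y, hG₁, hu₁, hy, e⟩ := wh_vert_normalise ord hmul V₂ hπ hπV hu p hG₀ hu₀ hh
  have hV₁ : V₂.valuation (u / G₁ ^ p) = 1 := by
    rw [e]
    exact wh_val_mul V₂ hV (wh_val_pow V₂ hy p)
  -- the branch order of `u₁ := u / G₁ ^ p` is `p * a`
  set a : ℤ := a₀ + w y with ha
  have hwu₁ : w (u / G₁ ^ p) = p * a := by
    rw [e, hw1 _ _ hV (wh_val_pow V₂ hy p), ha₀, wh_w_pow V₂ w hw1 hy, ha]
    ring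
  -- `z := u₁ / (X ^ a) ^ p`
  have hXa : WhTubeUnit ord (X ^ a) := hX.zpow hmul a
  have hXa₂ : V₂.valuation (X ^ a) = 1 := wh_val_zpow V₂ hX₂ a
  have hz : WhTubeUnit ord (u / G₁ ^ p / (X ^ a) ^ p) := hu₁.div hmul (hXa.pow hmul p)
  have hz₂ : V₂.valuation (u / G₁ ^ p / (X ^ a) ^ p) = 1 :=
    wh_val_div V₂ hV₁ (wh_val_pow V₂ hXa₂ p)
  have hwz : w (u / G₁ ^ p / (X ^ a) ^ p) = 0 := by
    rw [div_eq_mul_inv, hw1 _ _ hV₁ (wh_val_inv V₂ (wh_val_pow V₂ hXa₂ p)),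
      wh_w_inv V₂ w hw1 (wh_val_pow V₂ hXa₂ p), wh_w_pow V₂ w hw1 hXa₂,
      wh_w_zpow V₂ w hw1 hX₂, hwX, hwu₁]
    ring
  obtain ⟨h1, h2⟩ := wh_node_unit ord hmul O V₁ V₂ hN w hw1 hw3 hz hz₂ hwz
  refine ⟨G₁ * X ^ a, _, mul_ne_zero hG₁ hXa.1, hz.1, h1, h2, ?_⟩
  rw [mul_pow, div_div, div_mul_cancel₀ _ (mul_ne_zero (pow_ne_zero p hG₁)
    (pow_ne_zero p hXa.1))]

/-- The hypothesis `hsplit` of `wh_node` for `u = c · h ^ p · (1 + z)`, `c ∈ O^×`, `z ∈ 𝔪_{V₂}`.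
`hw2` : the branch order only depends on the residue; `hw0` : it vanishes on `O^×`. -/
theorem wh_split_of_const (O : Subring F) (V₂ : ValuationSubring F) (hOV₂ : ∀ x ∈ O, x ∈ V₂)
    (w : F → ℤ)
    (hw1 : ∀ x y : F, V₂.valuation x = 1 → V₂.valuation y = 1 → w (x * y) = w x + w y)
    (hw2 : ∀ x : F, V₂.valuation (x - 1) < 1 → w x = 0)
    (hw0 : ∀ x : F, x ≠ 0 → x ∈ O → x⁻¹ ∈ O → w x = 0)
    {u : F} (p : ℕ) {c h : F} (hc0 : c ≠ 0) (hc : c ∈ O) (hc' : c⁻¹ ∈ O) (hh : h ≠ 0)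
    (hone : V₂.valuation (u / (c * h ^ p) - 1) < 1) :
    ∃ h : F, h ≠ 0 ∧ V₂.valuation (u / h ^ p) = 1 ∧ (p : ℤ) ∣ w (u / h ^ p) := by
  have hcV : V₂.valuation c = 1 := wh_val_of_unit O V₂ hOV₂ hc0 hc hc'
  have h1 : V₂.valuation (u / (c * h ^ p)) = 1 := wh_val_of_one V₂ hone
  have e : u / h ^ p = c * (u / (c * h ^ p)) := by
    have := pow_ne_zero p hh
    field_simp
  refine ⟨h, hh, ?_, ?_⟩
  · rw [e]
    exact wh_val_mul V₂ hcV h1
  · rw [e, hw1 _ _ hcV h1, hw0 c hc0 hc hc', hw2 _ hone, add_zero]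
    exact dvd_zero _

/-- `wh_node` for `u ≡ 1` at `V₂` (normal form (N)). -/
theorem wh_node_one (ord : ι → F → ℤ)
    (hmul : ∀ i x y, x ≠ 0 → y ≠ 0 → ord i (x * y) = ord i x + ord i y)
    (O : Subring F) (V₁ V₂ : ValuationSubring F)
    (hN : ∀ z : F, z ≠ 0 → (∀ j, 0 ≤ ord j z) → z ∈ V₁ → z ∈ V₂ → z ∈ O)
    {π : F} (hπ : WhTubeUnit ord π)
    (hπV : ∀ z : F, z ≠ 0 → ∃ k : ℤ, V₂.valuation (z / π ^ k) = 1)
    (w : F → ℤ)
    (hw1 : ∀ x y : F, V₂.valuation x = 1 → V₂.valuation y = 1 → w (x * y) = w x + w y)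
    (hw2 : ∀ x : F, V₂.valuation (x - 1) < 1 → w x = 0)
    (hw3 : ∀ z : F, z ∈ O → V₂.valuation z = 1 → w z = 0 → z⁻¹ ∈ O)
    {X : F} (hX : WhTubeUnit ord X) (hX₂ : V₂.valuation X = 1) (hwX : w X = 1)
    {u : F} (p : ℕ)
    (hfin : {i | ord i u ≠ 0}.Finite)
    (hp : ∀ i, (p : ℤ) ∣ ord i u)
    (hcoord : ∀ i, ord i u ≠ 0 → ∃ f : F, f ≠ 0 ∧ ord i f = 1 ∧ ∀ j, j ≠ i → ord j f = 0)
    (hone : V₂.valuation (u - 1) < 1) :
    ∃ G ε : F, G ≠ 0 ∧ ε ≠ 0 ∧ ε ∈ O ∧ ε⁻¹ ∈ O ∧ u = ε * G ^ p := by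
  have hV : V₂.valuation u = 1 := wh_val_of_one V₂ hone
  refine wh_node ord hmul O V₁ V₂ hN hπ hπV w hw1 hw3 hX hX₂ hwX (wh_val_ne_zero V₂ hV) p hfin hp
    hcoord ⟨1, one_ne_zero, ?_, ?_⟩
  · rw [one_pow, div_one]; exact hV
  · rw [one_pow, div_one, hw2 u hone]
    exact dvd_zero _

end Node

/-! ### The branch order constructed from a winding generator -/

section Winding

variable {F : Type*} [Field F]

/-- `z ≡ X ^ m · η` modulo `𝔪_{V₂}` with `η ∈ O^×`: the residue of `z` on the branch `O/𝔭₂` is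
`X̄ ^ m` times a unit. -/
def WhBranch (O : Subring F) (V₂ : ValuationSubring F) (X z : F) (m : ℤ) : Prop :=
  ∃ η : F, η ≠ 0 ∧ η ∈ O ∧ η⁻¹ ∈ O ∧ V₂.valuation (z - X ^ m * η) < 1

/-- **Winding generator.**  `O = B_𝔫 ⊆ V₂ = B_{𝔭₂}`; `X ∈ 𝔪_O`, `X ∉ 𝔭₂`; `𝔭₂ O ⊆ 𝔪_O` (`rad`);
the residue of every unit of `V₂` on the branch `O/𝔭₂` is `X̄ ^ m · unit` (`dvr`: the branch is a
discrete valuation ring with uniformizer `X̄`). -/
structure WhWinding (O : Subring F) (V₂ : ValuationSubring F) (X : F) : Prop where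
  le : ∀ x ∈ O, x ∈ V₂
  mem : X ∈ O
  not_unit : X⁻¹ ∉ O
  val : V₂.valuation X = 1
  rad : ∀ y ∈ O, V₂.valuation (y - 1) < 1 → y⁻¹ ∈ O
  dvr : ∀ z : F, V₂.valuation z = 1 → ∃ m : ℤ, WhBranch O V₂ X z m

/-- The branch order attached to a winding generator. -/
noncomputable def whOrd (O : Subring F) (V₂ : ValuationSubring F) (X z : F) : ℤ :=
  open Classical in if h : ∃ m : ℤ, WhBranch O V₂ X z m then h.choose else 0

variable {O : Subring F} {V₂ : ValuationSubring F} {X : F}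

theorem WhWinding.val_unit (hW : WhWinding O V₂ X) {η : F} (h0 : η ≠ 0) (h1 : η ∈ O)
    (h2 : η⁻¹ ∈ O) : V₂.valuation η = 1 :=
  wh_val_of_unit O V₂ hW.le h0 h1 h2

theorem WhWinding.val_le (hW : WhWinding O V₂ X) {x : F} (hx : x ∈ O) : V₂.valuation x ≤ 1 :=
  (V₂.valuation_le_one_iff x).mpr (hW.le x hx)

/-- an element of `O` congruent to a unit of `O` modulo `𝔪_{V₂}` is a unit of `O`. -/
theorem WhWinding.rad' (hW : WhWinding O V₂ X) {y e : F} (hy : y ∈ O) (he0 : e ≠ 0)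
    (he' : e⁻¹ ∈ O) (h : V₂.valuation (y - e) < 1) : y⁻¹ ∈ O := by
  have h1 : V₂.valuation (y * e⁻¹ - 1) < 1 := by
    have e1 : y * e⁻¹ - 1 = e⁻¹ * (y - e) := by field_simp
    rw [e1]
    exact wh_val_mul_lt V₂ (hW.val_le he') h
  have h2 := hW.rad (y * e⁻¹) (O.mul_mem hy he') h1
  have e2 : y⁻¹ = e⁻¹ * (y * e⁻¹)⁻¹ := by
    rw [mul_inv, inv_inv, ← mul_assoc, mul_comm e⁻¹ y⁻¹, mul_assoc, inv_mul_cancel₀ he0,
      mul_one]
  rw [e2]
  exact O.mul_mem he' h2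

/-- `X ^ (k + 1) · a` is not a unit of `O`. -/
theorem WhWinding.pow_not_unit (hW : WhWinding O V₂ X) (k : ℕ) {a : F} (ha : a ∈ O)
    (h0 : X ^ (k + 1) * a ≠ 0) (h : (X ^ (k + 1) * a)⁻¹ ∈ O) : False := by
  apply hW.not_unit
  have hX0 : X ≠ 0 := wh_val_ne_zero V₂ hW.val
  have e : X⁻¹ = X ^ k * a * (X ^ (k + 1) * a)⁻¹ := by
    have ha0 : a ≠ 0 := right_ne_zero_of_mul h0
    rw [pow_succ]
    field_simp
  rw [e]
  exact O.mul_mem (O.mul_mem (O.pow_mem hW.mem k) ha) h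

theorem WhBranch.val_eq (hW : WhWinding O V₂ X) {z : F} {m : ℤ} (h : WhBranch O V₂ X z m) :
    V₂.valuation z = 1 := by
  obtain ⟨η, h0, h1, h2, h3⟩ := h
  have h4 : V₂.valuation (X ^ m * η) = 1 :=
    wh_val_mul V₂ (wh_val_zpow V₂ hW.val m) (hW.val_unit h0 h1 h2)
  have h5 := Valuation.map_add_eq_of_lt_left V₂.valuation (x := X ^ m * η)
    (y := z - X ^ m * η) (by rw [h4]; exact h3)
  rw [h4] at h5
  rw [← h5]
  congr 1
  ring

theorem WhBranch.mul (hW : WhWinding O V₂ X) {z z' : F} {m m' : ℤ}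
    (h : WhBranch O V₂ X z m) (h' : WhBranch O V₂ X z' m') :
    WhBranch O V₂ X (z * z') (m + m') := by
  have hz : V₂.valuation z = 1 := h.val_eq hW
  obtain ⟨η, h0, h1, h2, h3⟩ := h
  obtain ⟨η', h0', h1', h2', h3'⟩ := h'
  have hX0 : X ≠ 0 := wh_val_ne_zero V₂ hW.val
  refine ⟨η * η', mul_ne_zero h0 h0', O.mul_mem h1 h1', ?_, ?_⟩
  · rw [mul_inv]
    exact O.mul_mem h2 h2'
  · have e : z * z' - X ^ (m + m') * (η * η')
        = z * (z' - X ^ m' * η') + X ^ m' * η' * (z - X ^ m * η) := by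
      rw [zpow_add₀ hX0]
      ring
    rw [e]
    refine wh_val_add_lt V₂ (wh_val_mul_lt V₂ hz.le h3') (wh_val_mul_lt V₂ ?_ h3)
    exact (wh_val_mul V₂ (wh_val_zpow V₂ hW.val m') (hW.val_unit h0' h1' h2')).le

theorem WhBranch.inv (hW : WhWinding O V₂ X) {z : F} {m : ℤ}
    (h : WhBranch O V₂ X z m) : WhBranch O V₂ X z⁻¹ (-m) := by
  have hz : V₂.valuation z = 1 := h.val_eq hW
  obtain ⟨η, h0, h1, h2, h3⟩ := h
  have hX0 : X ≠ 0 := wh_val_ne_zero V₂ hW.val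
  have hz0 : z ≠ 0 := wh_val_ne_zero V₂ hz
  have hXm : X ^ m ≠ 0 := zpow_ne_zero m hX0
  refine ⟨η⁻¹, inv_ne_zero h0, h2, by rw [inv_inv]; exact h1, ?_⟩
  have e : z⁻¹ - X ^ (-m) * η⁻¹ = -(z⁻¹ * (X ^ m * η)⁻¹) * (z - X ^ m * η) := by
    rw [zpow_neg]
    field_simp
    ring
  rw [e]
  refine wh_val_mul_lt V₂ ?_ h3
  rw [Valuation.map_neg]
  exact (wh_val_mul V₂ (wh_val_inv V₂ hz) (wh_val_inv V₂
    (wh_val_mul V₂ (wh_val_zpow V₂ hW.val m) (hW.val_unit h0 h1 h2)))).le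

theorem WhBranch.of_one {z : F} (h : V₂.valuation (z - 1) < 1) :
    WhBranch O V₂ X z 0 :=
  ⟨1, one_ne_zero, O.one_mem, by rw [inv_one]; exact O.one_mem, by
    rw [zpow_zero, one_mul]; exact h⟩

theorem WhBranch.of_unit {z : F} (h0 : z ≠ 0) (h1 : z ∈ O)
    (h2 : z⁻¹ ∈ O) : WhBranch O V₂ X z 0 :=
  ⟨z, h0, h1, h2, by
    rw [zpow_zero, one_mul, sub_self, map_zero]; exact zero_lt_one⟩

theorem WhBranch.self : WhBranch O V₂ X X 1 :=
  ⟨1, one_ne_zero, O.one_mem, by rw [inv_one]; exact O.one_mem, by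
    rw [zpow_one, mul_one, sub_self, map_zero]; exact zero_lt_one⟩

/-- `z ≡ X ^ (k + 1) · η` and `z ≡ η'` is impossible. -/
theorem WhBranch.not_pos (hW : WhWinding O V₂ X) {z : F} {k : ℕ}
    (h : WhBranch O V₂ X z ((k : ℤ) + 1)) (h' : WhBranch O V₂ X z 0) : False := by
  obtain ⟨η, h0, h1, h2, h3⟩ := h
  obtain ⟨η', h0', h1', h2', h3'⟩ := h'
  rw [zpow_zero, one_mul] at h3'
  have e0 : X ^ ((k : ℤ) + 1) = X ^ (k + 1) := by
    rw [← zpow_natCast]; push_cast; rfl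
  rw [e0] at h3
  -- `X ^ (k+1) η ≡ η'`
  have h4 : V₂.valuation (X ^ (k + 1) * η - η') < 1 := by
    have e : X ^ (k + 1) * η - η' = (z - η') - (z - X ^ (k + 1) * η) := by ring
    rw [e]
    exact wh_val_sub_lt V₂ h3' h3
  have hy : X ^ (k + 1) * η ∈ O := O.mul_mem (O.pow_mem hW.mem _) h1
  have h5 := hW.rad' hy h0' h2' h4
  exact hW.pow_not_unit k h1
    (mul_ne_zero (pow_ne_zero _ (wh_val_ne_zero V₂ hW.val)) h0) h5

/-- The exponent `m` in `z ≡ X ^ m · η` is unique. -/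
theorem WhBranch.unique (hW : WhWinding O V₂ X) {z : F} {m m' : ℤ}
    (h : WhBranch O V₂ X z m) (h' : WhBranch O V₂ X z m') : m = m' := by
  have key : ∀ (a b : ℤ), WhBranch O V₂ X z a → WhBranch O V₂ X z b → ¬ a < b := by
    intro a b ha hb hab
    obtain ⟨k, hk⟩ := Int.lt.dest hab
    -- `1 = z · z⁻¹ ≡ X ^ (b - a) · unit`
    have hz0 : z ≠ 0 := wh_val_ne_zero V₂ (ha.val_eq hW)
    have h1 := hb.mul hW (ha.inv hW)
    rw [mul_inv_cancel₀ hz0] at h1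
    have e : b + -a = (k : ℤ) + 1 := by
      rw [← hk]; push_cast; ring
    rw [e] at h1
    exact h1.not_pos hW (WhBranch.of_one (by rw [sub_self, map_zero]; exact zero_lt_one))
  rcases lt_trichotomy m m' with h1 | h1 | h1
  · exact absurd h1 (key m m' h h')
  · exact h1
  · exact absurd h1 (key m' m h' h)

theorem whOrd_eq (hW : WhWinding O V₂ X) {z : F} {m : ℤ} (h : WhBranch O V₂ X z m) :
    whOrd O V₂ X z = m := by
  have hex : ∃ m : ℤ, WhBranch O V₂ X z m := ⟨m, h⟩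
  unfold whOrd
  rw [dif_pos hex]
  exact WhBranch.unique hW hex.choose_spec h

theorem whOrd_spec (hW : WhWinding O V₂ X) {z : F} (hz : V₂.valuation z = 1) :
    WhBranch O V₂ X z (whOrd O V₂ X z) := by
  obtain ⟨m, hm⟩ := hW.dvr z hz
  rw [whOrd_eq hW hm]
  exact hm

/-- (w1) the branch order is additive on the units of `V₂`. -/
theorem whOrd_mul (hW : WhWinding O V₂ X) {x y : F} (hx : V₂.valuation x = 1)
    (hy : V₂.valuation y = 1) :
    whOrd O V₂ X (x * y) = whOrd O V₂ X x + whOrd O V₂ X y :=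
  whOrd_eq hW ((whOrd_spec hW hx).mul hW (whOrd_spec hW hy))

/-- (w2) the branch order vanishes on `1 + 𝔪_{V₂}`. -/
theorem whOrd_of_one (hW : WhWinding O V₂ X) {x : F} (hx : V₂.valuation (x - 1) < 1) :
    whOrd O V₂ X x = 0 :=
  whOrd_eq hW (WhBranch.of_one hx)

/-- (w0) the branch order vanishes on `O^×`. -/
theorem whOrd_of_unit (hW : WhWinding O V₂ X) {x : F} (h0 : x ≠ 0) (h1 : x ∈ O)
    (h2 : x⁻¹ ∈ O) : whOrd O V₂ X x = 0 :=
  whOrd_eq hW (WhBranch.of_unit h0 h1 h2)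

/-- (w3) an element of `O` which is a unit of `V₂` with branch order `0` is a unit of `O`. -/
theorem whOrd_unit (hW : WhWinding O V₂ X) {z : F} (hz : z ∈ O) (hz₂ : V₂.valuation z = 1)
    (hwz : whOrd O V₂ X z = 0) : z⁻¹ ∈ O := by
  have h := whOrd_spec hW hz₂
  rw [hwz] at h
  obtain ⟨η, h0, h1, h2, h3⟩ := h
  rw [zpow_zero, one_mul] at h3
  exact hW.rad' hz h0 h2 h3

/-- the branch order of the winding generator is `1`. -/
theorem whOrd_self (hW : WhWinding O V₂ X) : whOrd O V₂ X X = 1 :=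
  whOrd_eq hW WhBranch.self

/-- the branch order is `≥ 0` on `O`. -/
theorem whOrd_nonneg (hW : WhWinding O V₂ X) {z : F} (hz : z ∈ O) (hz₂ : V₂.valuation z = 1) :
    0 ≤ whOrd O V₂ X z := by
  by_contra hneg
  rw [not_le] at hneg
  obtain ⟨k, hk⟩ := Int.lt.dest hneg
  -- `X ^ (k+1) · z` has branch order `0`, hence is a unit of `O`
  have hXk : V₂.valuation (X ^ (k + 1)) = 1 := wh_val_pow V₂ hW.val _
  have h1 : whOrd O V₂ X (X ^ (k + 1) * z) = 0 := by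
    rw [whOrd_mul hW hXk hz₂]
    have h2 : whOrd O V₂ X (X ^ (k + 1)) = ((k : ℤ) + 1) := by
      have h3 : WhBranch O V₂ X (X ^ (k + 1)) ((k : ℤ) + 1) := by
        refine ⟨1, one_ne_zero, O.one_mem, by rw [inv_one]; exact O.one_mem, ?_⟩
        have e0 : X ^ ((k : ℤ) + 1) = X ^ (k + 1) := by
          rw [← zpow_natCast]; push_cast; rfl
        rw [e0, mul_one, sub_self, map_zero]
        exact zero_lt_one
      exact whOrd_eq hW h3
    rw [h2]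
    push_cast at hk
    linarith
  have h4 := whOrd_unit hW (O.mul_mem (O.pow_mem hW.mem _) hz) (wh_val_mul V₂ hXk hz₂) h1
  exact hW.pow_not_unit k hz
    (mul_ne_zero (pow_ne_zero _ (wh_val_ne_zero V₂ hW.val)) (wh_val_ne_zero V₂ hz₂)) h4

/-- `dvr` for all units of `V₂` from `dvr` for the elements of `O` (`V₂ = O_{𝔭₂}`: every unit of
`V₂` is a quotient of two elements of `O` which are units of `V₂`). -/
theorem wh_branch_of_frac (hle : ∀ x ∈ O, x ∈ V₂) (hval : V₂.valuation X = 1)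
    (hdvr : ∀ z : F, z ∈ O → V₂.valuation z = 1 → ∃ m : ℤ, WhBranch O V₂ X z m)
    (hfrac : ∀ z : F, V₂.valuation z = 1 →
      ∃ a b : F, a ∈ O ∧ b ∈ O ∧ V₂.valuation a = 1 ∧ V₂.valuation b = 1 ∧ z = a / b)
    (z : F) (hz : V₂.valuation z = 1) : ∃ m : ℤ, WhBranch O V₂ X z m := by
  obtain ⟨a, b, ha, hb, ha₂, hb₂, rfl⟩ := hfrac z hz
  obtain ⟨m, η, h0, h1, h2, h3⟩ := hdvr a ha ha₂
  obtain ⟨m', η', h0', h1', h2', h3'⟩ := hdvr b hb hb₂
  have hX0 : X ≠ 0 := wh_val_ne_zero V₂ hval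
  have hb0 : b ≠ 0 := wh_val_ne_zero V₂ hb₂
  have hη : V₂.valuation η = 1 := wh_val_of_unit O V₂ hle h0 h1 h2
  have hη' : V₂.valuation η' = 1 := wh_val_of_unit O V₂ hle h0' h1' h2'
  have hXm' : X ^ m' ≠ 0 := zpow_ne_zero m' hX0
  refine ⟨m - m', η * η'⁻¹, mul_ne_zero h0 (inv_ne_zero h0'), O.mul_mem h1 h2', ?_, ?_⟩
  · rw [mul_inv, inv_inv]
    exact O.mul_mem h2 h1'
  · have e : a / b - X ^ (m - m') * (η * η'⁻¹)
        = b⁻¹ * (a - X ^ m * η) - (b⁻¹ * (X ^ m' * η')⁻¹ * (X ^ m * η)) * (b - X ^ m' * η') := by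
      rw [zpow_sub₀ hX0]
      field_simp
      ring
    rw [e]
    refine wh_val_sub_lt V₂ (wh_val_mul_lt V₂ (wh_val_inv V₂ hb₂).le h3)
      (wh_val_mul_lt V₂ ?_ h3')
    exact (wh_val_mul V₂ (wh_val_mul V₂ (wh_val_inv V₂ hb₂)
      (wh_val_inv V₂ (wh_val_mul V₂ (wh_val_zpow V₂ hval m') hη')))
      (wh_val_mul V₂ (wh_val_zpow V₂ hval m) hη)).le

/-- `dvr` on `O` from: `𝔪_O = (X) + 𝔭₂` (`hgen`) and Krull's intersection theorem on the branch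
(`hkrull`: no unit of `V₂` in `O` is divisible by all powers of `X` modulo `𝔭₂`). -/
theorem wh_branch_of_gen (hval : V₂.valuation X = 1)
    (hgen : ∀ a : F, a ∈ O → a⁻¹ ∉ O → ∃ a' : F, a' ∈ O ∧ V₂.valuation (a - X * a') < 1)
    (hkrull : ∀ z : F, z ∈ O → V₂.valuation z = 1 →
      ∃ M : ℕ, ∀ a : F, a ∈ O → ¬ V₂.valuation (z - X ^ M * a) < 1)
    (z : F) (hz : z ∈ O) (hz₂ : V₂.valuation z = 1) : ∃ m : ℤ, WhBranch O V₂ X z m := by
  classical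
  obtain ⟨M, hM⟩ := hkrull z hz hz₂
  -- the largest `n` with `z ≡ X ^ n a`
  let P : ℕ → Prop := fun n => ∃ a : F, a ∈ O ∧ V₂.valuation (z - X ^ n * a) < 1
  have hP0 : P 0 := ⟨z, hz, by
    rw [pow_zero, one_mul, sub_self, map_zero]; exact zero_lt_one⟩
  have hPM : ¬ P M := fun ⟨a, ha, h⟩ => hM a ha h
  have hex : ∃ n, ¬ P n := ⟨M, hPM⟩
  set n₁ := Nat.find hex with hn₁
  have hn₁P : ¬ P n₁ := Nat.find_spec hex
  have hn₁0 : n₁ ≠ 0 := fun h => hn₁P (h ▸ hP0)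
  obtain ⟨n, hn⟩ := Nat.exists_eq_succ_of_ne_zero hn₁0
  have hPn : P n := by
    by_contra h
    have := Nat.find_min' hex h
    omega
  obtain ⟨a, ha, h⟩ := hPn
  have hXn : V₂.valuation (X ^ n) = 1 := wh_val_pow V₂ hval n
  have ha0 : a ≠ 0 := by
    rintro rfl
    rw [mul_zero, sub_zero, hz₂] at h
    exact lt_irrefl _ h
  refine ⟨n, a, ha0, ha, ?_, by rw [zpow_natCast]; exact h⟩
  by_contra hau
  obtain ⟨a', ha', h'⟩ := hgen a ha hau
  apply hn₁P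
  rw [hn]
  refine ⟨a', ha', ?_⟩
  have e : z - X ^ (n + 1) * a' = (z - X ^ n * a) + X ^ n * (a - X * a') := by ring
  rw [e]
  exact wh_val_add_lt V₂ h (wh_val_mul_lt V₂ hXn.le h')

/-- **A winding generator from primitive data.**  `O ⊆ V₂`, `X ∈ O` a non-unit of `O` and a unit
of `V₂`, `𝔭₂ O ⊆ 𝔪_O` (`hrad`), `𝔪_O = (X) + 𝔭₂` (`hgen`), Krull on the branch (`hkrull`) and
`V₂ = O_{𝔭₂}` (`hfrac`). -/
theorem WhWinding.of_gen (hle : ∀ x ∈ O, x ∈ V₂) (hmem : X ∈ O) (hnu : X⁻¹ ∉ O)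
    (hval : V₂.valuation X = 1)
    (hrad : ∀ y ∈ O, V₂.valuation (y - 1) < 1 → y⁻¹ ∈ O)
    (hgen : ∀ a : F, a ∈ O → a⁻¹ ∉ O → ∃ a' : F, a' ∈ O ∧ V₂.valuation (a - X * a') < 1)
    (hkrull : ∀ z : F, z ∈ O → V₂.valuation z = 1 →
      ∃ M : ℕ, ∀ a : F, a ∈ O → ¬ V₂.valuation (z - X ^ M * a) < 1)
    (hfrac : ∀ z : F, V₂.valuation z = 1 →
      ∃ a b : F, a ∈ O ∧ b ∈ O ∧ V₂.valuation a = 1 ∧ V₂.valuation b = 1 ∧ z = a / b) :
    WhWinding O V₂ X where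
  le := hle
  mem := hmem
  not_unit := hnu
  val := hval
  rad := hrad
  dvr := wh_branch_of_frac hle hval (wh_branch_of_gen hval hgen hkrull) hfrac

end Winding

/-! ### (H) at a node, in terms of a winding generator -/

section NodeWinding

variable {F : Type*} [Field F] {ι : Type*}

/-- **(H) at a node, winding generator form.**  `u = c · h ^ p · (1 + z)` with `c ∈ O^×`,
`z ∈ 𝔪_{V₂}` (split at `V₂`), `p ∣ ord_P u` in the tube, coordinates, normality of `O` and a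
winding generator `X` for the branch `𝔭₂` give `u = ε · G ^ p`, `ε ∈ O^×`. -/
theorem wh_node_of_winding (ord : ι → F → ℤ)
    (hmul : ∀ i x y, x ≠ 0 → y ≠ 0 → ord i (x * y) = ord i x + ord i y)
    (O : Subring F) (V₁ V₂ : ValuationSubring F)
    (hN : ∀ z : F, z ≠ 0 → (∀ j, 0 ≤ ord j z) → z ∈ V₁ → z ∈ V₂ → z ∈ O)
    {π : F} (hπ : WhTubeUnit ord π)
    (hπV : ∀ z : F, z ≠ 0 → ∃ k : ℤ, V₂.valuation (z / π ^ k) = 1)
    {X : F} (hW : WhWinding O V₂ X) (hX : WhTubeUnit ord X)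
    {u : F} (hu : u ≠ 0) (p : ℕ)
    (hfin : {i | ord i u ≠ 0}.Finite)
    (hp : ∀ i, (p : ℤ) ∣ ord i u)
    (hcoord : ∀ i, ord i u ≠ 0 → ∃ f : F, f ≠ 0 ∧ ord i f = 1 ∧ ∀ j, j ≠ i → ord j f = 0)
    (hsplit : ∃ c h : F, c ≠ 0 ∧ c ∈ O ∧ c⁻¹ ∈ O ∧ h ≠ 0 ∧
      V₂.valuation (u / (c * h ^ p) - 1) < 1) :
    ∃ G ε : F, G ≠ 0 ∧ ε ≠ 0 ∧ ε ∈ O ∧ ε⁻¹ ∈ O ∧ u = ε * G ^ p := by
  obtain ⟨c, h, hc0, hc, hc', hh, hone⟩ := hsplit
  exact wh_node ord hmul O V₁ V₂ hN hπ hπV (whOrd O V₂ X)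
    (fun _ _ hx hy => whOrd_mul hW hx hy)
    (fun _ hz hz₂ hwz => whOrd_unit hW hz hz₂ hwz)
    hX hW.val (whOrd_self hW) hu p hfin hp hcoord
    (wh_split_of_const O V₂ hW.le (whOrd O V₂ X)
      (fun _ _ hx hy => whOrd_mul hW hx hy)
      (fun _ hx => whOrd_of_one hW hx)
      (fun _ h0 h1 h2 => whOrd_of_unit hW h0 h1 h2) p hc0 hc hc' hh hone)

/-- `wh_node_of_winding` for `u ≡ 1` at `V₂` (normal form (N)). -/
theorem wh_node_of_winding_one (ord : ι → F → ℤ)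
    (hmul : ∀ i x y, x ≠ 0 → y ≠ 0 → ord i (x * y) = ord i x + ord i y)
    (O : Subring F) (V₁ V₂ : ValuationSubring F)
    (hN : ∀ z : F, z ≠ 0 → (∀ j, 0 ≤ ord j z) → z ∈ V₁ → z ∈ V₂ → z ∈ O)
    {π : F} (hπ : WhTubeUnit ord π)
    (hπV : ∀ z : F, z ≠ 0 → ∃ k : ℤ, V₂.valuation (z / π ^ k) = 1)
    {X : F} (hW : WhWinding O V₂ X) (hX : WhTubeUnit ord X)
    {u : F} (p : ℕ)
    (hfin : {i | ord i u ≠ 0}.Finite)
    (hp : ∀ i, (p : ℤ) ∣ ord i u)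
    (hcoord : ∀ i, ord i u ≠ 0 → ∃ f : F, f ≠ 0 ∧ ord i f = 1 ∧ ∀ j, j ≠ i → ord j f = 0)
    (hone : V₂.valuation (u - 1) < 1) :
    ∃ G ε : F, G ≠ 0 ∧ ε ≠ 0 ∧ ε ∈ O ∧ ε⁻¹ ∈ O ∧ u = ε * G ^ p :=
  wh_node_one ord hmul O V₁ V₂ hN hπ hπV (whOrd O V₂ X)
    (fun _ _ hx hy => whOrd_mul hW hx hy)
    (fun _ hx => whOrd_of_one hW hx)
    (fun _ hz hz₂ hwz => whOrd_unit hW hz hz₂ hwz)
    hX hW.val (whOrd_self hW) p hfin hp hcoord hone

end NodeWinding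

/-! ### The output in the shape consumed by (D) -/

section Depth

variable {F : Type*} [Field F]

/-- **Input of (D) from the output of (H).**  `u = ε · G ^ p` with `ε ∈ O^×`, `O ⊆ V` and `u` a
unit of `V`.  Then `G⁻¹` is a unit of `V` and `ε / (G⁻¹) ^ p = u`; so `ε / (G⁻¹) ^ p - 1` is as
deep at `V` as `u - 1`. -/
theorem wh_depth_input (O : Subring F) (V : ValuationSubring F) (hOV : ∀ x ∈ O, x ∈ V)
    {p : ℕ} (hp : p ≠ 0) {u G ε : F} (hε0 : ε ≠ 0) (hε : ε ∈ O) (hε' : ε⁻¹ ∈ O)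
    (hu : u = ε * G ^ p) (huV : V.valuation u = 1) :
    V.valuation G⁻¹ = 1 ∧ ε / G⁻¹ ^ p = u := by
  have hεV : V.valuation ε = 1 := wh_val_of_unit O V hOV hε0 hε hε'
  have hGp : V.valuation (G ^ p) = 1 := by
    have e : G ^ p = ε⁻¹ * u := by
      rw [hu, ← mul_assoc, inv_mul_cancel₀ hε0, one_mul]
    rw [e]
    exact wh_val_mul V (wh_val_inv V hεV) huV
  refine ⟨wh_val_inv V (wh_val_of_pow V hp hGp), ?_⟩
  rw [hu, inv_pow, div_inv_eq_mul]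

end Depth

end Fermat.Agent.S33
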