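import Fermat.Agent.S33.WildAbs
import Fermat.Agent.S33.WildDepth
import Fermat.Agent.S33.WildHor

/-!
# S33 v2, C4 (WILD): the improved local shape (LS) at a closed point, from T2 + T4

Abstract part (a local subring `O` of a field `F`, valuation subrings `V c ⊇ O` with uniformizer
`π`):

* `WabNormal O V p` : normality of the branch `V` of `O` in the two instances used by T2
  (`x ^ p ≡ r`, `x ^ p − x ≡ r` modulo `𝔪_V`, `r ∈ O` ⇒ `x ≡ s ∈ O`).
* `wab_normal_of_winding` : `WabNormal` from a winding generator (`WhWinding`, T4) of the branch.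
* `wab_unif_of_hπV` : `𝔪_V = π V` from "`π` generates the value group" (the form `hπV` of T4).
* `wab_loc_of_depth` : **(LS)**: `u = ε G ^ p` with `ε ∈ O^×` (T4) and `u / h_c ^ p ≡ 1` modulo
  `(ζ − 1) ^ p π V c` for all `c` (H1) give `g` with `u / g ^ p ∈ 1 + (ζ − 1) ^ p π O` (`wd_main`).
-/

set_option autoImplicit false
set_option linter.unusedSectionVars false
set_option linter.unusedVariables false
set_option linter.style.haveILetI false

namespace Fermat.Agent.S33

section Abstract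

variable {F : Type*} [Field F]

/-- **Normality of a branch**, in the two instances used by the depth lemma (T2): an element of
`V` whose image under `x ↦ x ^ p` resp. `x ↦ x ^ p − x` is congruent modulo `𝔪_V` to an element
of `O` is itself congruent to an element of `O`. -/
def WabNormal (O : Subring F) (V : ValuationSubring F) (p : ℕ) : Prop :=
  (∀ x ∈ V, ∀ r ∈ O, V.valuation (x ^ p - r) < 1 → ∃ s ∈ O, V.valuation (x - s) < 1) ∧
    ∀ x ∈ V, ∀ r ∈ O, V.valuation (x ^ p - x - r) < 1 → ∃ s ∈ O, V.valuation (x - s) < 1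

/-- In a local subring, `η − X a` is invertible if `η` is and `X` is not. -/
theorem wab_unit_sub (O : Subring F) [IsLocalRing O] {η X a : F} (hη0 : η ≠ 0) (hη : η ∈ O)
    (hη' : η⁻¹ ∈ O) (hX : X ∈ O) (hXnu : X⁻¹ ∉ O) (ha : a ∈ O) :
    η - X * a ≠ 0 ∧ (η - X * a)⁻¹ ∈ O := by
  have hηu : IsUnit (⟨η, hη⟩ : O) :=
    IsUnit.of_mul_eq_one ⟨η⁻¹, hη'⟩ (Subtype.ext (mul_inv_cancel₀ hη0))
  have hXa : ¬ IsUnit ((⟨X, hX⟩ : O) * ⟨a, ha⟩) := by
    intro h
    have hXu : IsUnit (⟨X, hX⟩ : O) := isUnit_of_mul_isUnit_left h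
    obtain ⟨v, hv⟩ := hXu.exists_right_inv
    have hv' : X * (v : F) = 1 := congrArg Subtype.val hv
    have hX0 : X ≠ 0 := by
      rintro rfl
      rw [zero_mul] at hv'
      exact zero_ne_one hv'
    apply hXnu
    have : X⁻¹ = (v : F) := by
      rw [← mul_one X⁻¹, ← hv', inv_mul_cancel_left₀ hX0]
    rw [this]
    exact v.2
  have hmem : (⟨X, hX⟩ : O) * ⟨a, ha⟩ ∈ IsLocalRing.maximalIdeal O :=
    (IsLocalRing.mem_maximalIdeal _).2 hXa
  have hu : IsUnit ((⟨η, hη⟩ : O) - (⟨X, hX⟩ : O) * ⟨a, ha⟩) := by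
    by_contra hcon
    have h1 : (⟨η, hη⟩ : O) - (⟨X, hX⟩ : O) * ⟨a, ha⟩ ∈ IsLocalRing.maximalIdeal O :=
      (IsLocalRing.mem_maximalIdeal _).2 hcon
    have h2 := (IsLocalRing.maximalIdeal O).add_mem h1 hmem
    rw [sub_add_cancel] at h2
    exact (IsLocalRing.mem_maximalIdeal _).1 h2 hηu
  obtain ⟨v, hv⟩ := hu.exists_right_inv
  have hv' : (η - X * a) * (v : F) = 1 := congrArg Subtype.val hv
  have h0 : η - X * a ≠ 0 := by
    intro h
    rw [h, zero_mul] at hv'
    exact zero_ne_one hv'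
  refine ⟨h0, ?_⟩
  have : (η - X * a)⁻¹ = (v : F) := by
    rw [← mul_one (η - X * a)⁻¹, ← hv', inv_mul_cancel_left₀ h0]
  rw [this]
  exact v.2

/-- the key computation: if `X ^ k x ≡ η ∈ O^×` modulo `𝔪_V`, then `(X ^ k x) ^ n` is not
congruent to a multiple of `X` in `O`. -/
theorem wab_winding_neg (O : Subring F) [IsLocalRing O] (V : ValuationSubring F) {X : F}
    (hW : WhWinding O V X) {y η : F} (hη0 : η ≠ 0) (hη : η ∈ O)
    (hη' : η⁻¹ ∈ O) (hy : V.valuation (y - η) < 1) {n : ℕ}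
    {c : F} (hc : c ∈ O) (hcy : V.valuation (y ^ n - X * c) < 1) :
    False := by
  have hηV : η ∈ V := hW.le η hη
  have hyV : y ∈ V := by
    have : y = (y - η) + η := by ring
    rw [this]
    exact add_mem ((V.valuation_le_one_iff _).1 hy.le) hηV
  have h1 : V.valuation (y ^ n - η ^ n) < 1 := by
    have hq' : y ^ n - η ^ n
        = (y - η) * ∑ i ∈ Finset.range n, y ^ i * η ^ (n - 1 - i) := by
      rw [mul_comm, ← Commute.geom_sum₂_mul (Commute.all _ _)]
    rw [hq', map_mul]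
    refine mul_lt_one_of_lt_of_le hy ((V.valuation_le_one_iff _).2 ?_)
    exact sum_mem fun i _ => mul_mem (pow_mem hyV i) (pow_mem hηV _)
  have h2 : V.valuation (η ^ n - X * c) < 1 := by
    have e : η ^ n - X * c = (y ^ n - X * c) - (y ^ n - η ^ n) := by ring
    rw [e]
    exact lt_of_le_of_lt (Valuation.map_sub _ _ _) (max_lt hcy h1)
  have hηn0 : η ^ n ≠ 0 := pow_ne_zero n hη0
  have hηn' : (η ^ n)⁻¹ ∈ O := by rw [← inv_pow]; exact O.pow_mem hη' n
  obtain ⟨hy0, hy'⟩ := wab_unit_sub O hηn0 (O.pow_mem hη n) hηn' hW.mem hW.not_unit hc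
  have hyO : η ^ n - X * c ∈ O := O.sub_mem (O.pow_mem hη n) (O.mul_mem hW.mem hc)
  have hv1 : V.valuation (η ^ n - X * c) = 1 := wh_val_of_unit O V hW.le hy0 hyO hy'
  rw [hv1] at h2
  exact lt_irrefl _ h2

/-- **(N) from a winding generator.**  If the branch `V` of the local ring `O` has a winding
generator (the residue ring of the branch is a discrete valuation ring with uniformizer `X̄`),
the branch is normal. -/
theorem wab_normal_of_winding (O : Subring F) [IsLocalRing O] (V : ValuationSubring F) {X : F}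
    (hW : WhWinding O V X) {p : ℕ} (hp : 2 ≤ p) : WabNormal O V p := by
  have hX0 : X ≠ 0 := wh_val_ne_zero V hW.val
  -- the common part: either `x ≡ s ∈ O`, or `X ^ k x ≡ η ∈ O^×` with `k > 0`
  have key : ∀ x ∈ V, (∃ s ∈ O, V.valuation (x - s) < 1) ∨
      ∃ (k : ℕ) (η : F), 0 < k ∧ η ≠ 0 ∧ η ∈ O ∧ η⁻¹ ∈ O ∧ V.valuation (X ^ k * x - η) < 1 := by
    intro x hx
    by_cases hx1 : V.valuation x < 1
    · exact Or.inl ⟨0, O.zero_mem, by rwa [sub_zero]⟩
    have hx1' : V.valuation x = 1 :=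
      le_antisymm ((V.valuation_le_one_iff x).2 hx) (not_lt.mp hx1)
    obtain ⟨m, η, hη0, hη, hη', hmη⟩ := hW.dvr x hx1'
    by_cases hm : 0 ≤ m
    · obtain ⟨k, rfl⟩ := Int.eq_ofNat_of_zero_le hm
      rw [zpow_natCast] at hmη
      exact Or.inl ⟨X ^ k * η, O.mul_mem (O.pow_mem hW.mem k) hη, hmη⟩
    · right
      rw [not_le] at hm
      obtain ⟨k, hk⟩ := Int.exists_eq_neg_ofNat hm.le
      have hk0 : 0 < k := by
        rcases Nat.eq_zero_or_pos k with h | h
        · rw [h] at hk; simp at hk; omega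
        · exact h
      refine ⟨k, η, hk0, hη0, hη, hη', ?_⟩
      rw [hk, zpow_neg, zpow_natCast] at hmη
      have e : X ^ k * x - η = X ^ k * (x - (X ^ k)⁻¹ * η) := by
        field_simp
      rw [e, map_mul, map_pow, hW.val, one_pow, one_mul]
      exact hmη
  have hp0 : 0 < p := by omega
  refine ⟨fun x hx r hr hxr => ?_, fun x hx r hr hxr => ?_⟩
  · rcases key x hx with h | ⟨k, η, hk, hη0, hη, hη', hkη⟩
    · exact h
    · exfalso
      -- `(X^k x)^p = X^{kp} x^p ≡ X^{kp} r = X (X^{kp−1} r)`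
      refine wab_winding_neg O V hW hη0 hη hη' hkη (n := p)
        (c := X ^ (k * p - 1) * r) (O.mul_mem (O.pow_mem hW.mem _) hr) ?_
      have hkp : 0 < k * p := Nat.mul_pos hk hp0
      have e : (X ^ k * x) ^ p - X * (X ^ (k * p - 1) * r) = X ^ (k * p) * (x ^ p - r) := by
        have h1 : X * X ^ (k * p - 1) = X ^ (k * p) := by
          rw [← pow_succ', Nat.sub_add_cancel hkp]
        rw [mul_pow, ← pow_mul, ← mul_assoc, h1]
        ring
      rw [e, map_mul, map_pow, hW.val, one_pow, one_mul]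
      exact hxr
  · rcases key x hx with h | ⟨k, η, hk, hη0, hη, hη', hkη⟩
    · exact h
    · exfalso
      -- `(X^k x)^p ≡ X^{k(p−1)} η + X^{kp} r = X (X^{k(p−1)−1} η + X^{kp−1} r)`
      have hkp : 0 < k * p := Nat.mul_pos hk hp0
      have hkp1 : 0 < k * (p - 1) := Nat.mul_pos hk (by omega)
      refine wab_winding_neg O V hW hη0 hη hη' hkη (n := p)
        (c := X ^ (k * (p - 1) - 1) * η + X ^ (k * p - 1) * r)
        (O.add_mem (O.mul_mem (O.pow_mem hW.mem _) hη) (O.mul_mem (O.pow_mem hW.mem _) hr)) ?_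
      have h1 : X * X ^ (k * p - 1) = X ^ (k * p) := by
        rw [← pow_succ', Nat.sub_add_cancel hkp]
      have h2 : X * X ^ (k * (p - 1) - 1) = X ^ (k * (p - 1)) := by
        rw [← pow_succ', Nat.sub_add_cancel hkp1]
      have h3 : X ^ (k * p) = X ^ (k * (p - 1)) * X ^ k := by
        rw [← pow_add]
        congr 1
        have : p = (p - 1) + 1 := by omega
        conv_lhs => rw [this]
        ring
      have e : (X ^ k * x) ^ p - X * (X ^ (k * (p - 1) - 1) * η + X ^ (k * p - 1) * r)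
          = X ^ (k * p) * (x ^ p - x - r) + X ^ (k * (p - 1)) * (X ^ k * x - η) := by
        rw [mul_add, ← mul_assoc, ← mul_assoc, h1, h2, mul_pow, ← pow_mul, h3]
        ring
      rw [e]
      refine lt_of_le_of_lt (Valuation.map_add _ _ _) (max_lt ?_ ?_)
      · rw [map_mul, map_pow, hW.val, one_pow, one_mul]
        exact hxr
      · rw [map_mul, map_pow, hW.val, one_pow, one_mul]
        exact hkη

/-- `𝔪_V = π V` if `π` generates the value group of `V` (the form `hπV` of T4). -/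
theorem wab_unif_of_hπV (V : ValuationSubring F) {π : F} (hπ : V.valuation π < 1)
    (hπV : ∀ z : F, z ≠ 0 → ∃ k : ℤ, V.valuation (z / π ^ k) = 1) :
    ∀ x : F, V.valuation x < 1 → ∃ y ∈ V, x = π * y := by
  intro x hx
  by_cases hx0 : x = 0
  · exact ⟨0, V.zero_mem, by rw [hx0, mul_zero]⟩
  have hπ0 : π ≠ 0 := by
    rintro rfl
    obtain ⟨k, hk⟩ := hπV x hx0
    by_cases hk0 : k = 0
    · rw [hk0, zpow_zero, div_one] at hk
      rw [hk] at hx
      exact lt_irrefl _ hx
    · rw [zero_zpow k hk0, div_zero, map_zero] at hk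
      exact zero_ne_one hk
  obtain ⟨k, hk⟩ := hπV x hx0
  have hxk : V.valuation x = V.valuation π ^ k := by
    rw [map_div₀, map_zpow₀] at hk
    have h0 : V.valuation π ^ k ≠ 0 := zpow_ne_zero k ((Valuation.ne_zero_iff _).2 hπ0)
    rwa [div_eq_one_iff_eq h0] at hk
  have hk1 : 1 ≤ k := by
    by_contra hcon
    rw [not_le] at hcon
    have hk0 : k ≤ 0 := by omega
    have : 1 ≤ V.valuation π ^ k := by
      obtain ⟨j, hj⟩ := Int.exists_eq_neg_ofNat hk0
      rw [hj, zpow_neg, zpow_natCast]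
      exact (one_le_inv₀ (pow_pos (zero_lt_iff.mpr ((Valuation.ne_zero_iff _).2 hπ0)) j)).2
        (pow_le_one₀ zero_le hπ.le)
    rw [← hxk] at this
    exact absurd hx (not_lt.2 this)
  refine ⟨x / π, ?_, by field_simp⟩
  rw [← V.valuation_le_one_iff, map_div₀, hxk]
  obtain ⟨j, hj⟩ := Int.eq_ofNat_of_zero_le (by omega : 0 ≤ k - 1)
  have hkj : k = (j : ℤ) + 1 := by omega
  rw [hkj, zpow_add_one₀ ((Valuation.ne_zero_iff _).2 hπ0), zpow_natCast,
    mul_div_assoc, div_self ((Valuation.ne_zero_iff _).2 hπ0), mul_one]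
  exact pow_le_one₀ zero_le hπ.le

end Abstract

end Fermat.Agent.S33
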