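/-
S33 v2 / C4 WILD, piece T2 "WildDepth", valuation form (helper53): `wd_main` of
`S33/WildDepth.lean` restated for `ValuationSubring`s with the input/output shapes of
`wt_main` (`S33/WildTwist.lean`): "x ∈ d·V" is `V.valuation x ≤ V.valuation d`, the splitting is
`u / h ^ p - 1`.  `wd_local_shape` is the hypothesis (LS) of `wt_main` at one closed point, from
a horizontal factorisation `u = ε * G₀ ^ p` (T4).  Helpers for (X) and (N).
-/
import Fermat.Agent.S33.WildDepth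

set_option autoImplicit false

namespace Fermat.Agent.S33
section Val

variable {F : Type*} [Field F]

theorem wd_val_le_iff (V : ValuationSubring F) {x d : F} :
    V.valuation x ≤ V.valuation d ↔ ∃ z ∈ V, x = d * z := by
  constructor
  · intro h
    by_cases hd : d = 0
    · subst hd
      rw [map_zero, le_zero_iff, map_eq_zero] at h
      exact ⟨0, V.zero_mem, by rw [h, mul_zero]⟩
    · refine ⟨x / d, ?_, by field_simp⟩
      rw [← V.valuation_le_one_iff, map_div₀]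
      exact div_le_one_of_le₀ h zero_le
  · rintro ⟨z, hz, rfl⟩
    rw [map_mul]
    exact mul_le_of_le_one_right zero_le ((V.valuation_le_one_iff z).2 hz)

theorem wd_inv_not_mem (V : ValuationSubring F) {π : F} (hπ0 : π ≠ 0) (hπ : V.valuation π < 1) :
    π⁻¹ ∉ V := by
  intro h
  have h1 : V.valuation π⁻¹ ≤ 1 := (V.valuation_le_one_iff _).mpr h
  have h2 : V.valuation (π * π⁻¹) < 1 := by
    rw [map_mul]
    calc V.valuation π * V.valuation π⁻¹ ≤ V.valuation π * 1 := mul_le_mul_right h1 _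
      _ = V.valuation π := mul_one _
      _ < 1 := hπ
  rw [mul_inv_cancel₀ hπ0, map_one] at h2
  exact lt_irrefl _ h2

/-- **T2 WildDepth, valuation form.**  Input and output in the division form used by
`wt_main` (`S33/WildTwist.lean`). -/
theorem wd_main_val (R : Subring F) [IsLocalRing R]
    {κ : Type*} [Nonempty κ] (V : κ → ValuationSubring F) (hRV : ∀ c, ∀ x ∈ R, x ∈ V c)
    (p : ℕ) [hp : Fact p.Prime]
    (ζ : F) (hζR : ζ ∈ R) (hζ : IsPrimitiveRoot ζ p)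
    (π : F) (hπR : π ∈ R) (hπV : ∀ c, (V c).valuation π < 1)
    (e₁ : ℕ) (he₁ : 1 ≤ e₁) (u₀ : F) (hu₀ : u₀ ∈ R) (hu₀' : u₀⁻¹ ∈ R)
    (hlam : ζ - 1 = π ^ e₁ * u₀)
    (hSS1 : ∀ x ∈ R, (∀ c, (V c).valuation x ≤ (V c).valuation π) → ∃ y ∈ R, x = π * y)
    (hN1 : ∀ c, ∀ x ∈ V c, ∀ r ∈ R, (V c).valuation (x ^ p - r) ≤ (V c).valuation π →
      ∃ s ∈ R, (V c).valuation (x - s) ≤ (V c).valuation π)
    (hN2 : ∀ c, ∀ x ∈ V c, ∀ r ∈ R, (V c).valuation (x ^ p - x - r) ≤ (V c).valuation π →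
      ∃ s ∈ R, (V c).valuation (x - s) ≤ (V c).valuation π)
    (hX : ∀ a : κ → R, (∀ c c', a c - a c' ∈ IsLocalRing.maximalIdeal R) →
      ∃ r : R, ∀ c, (V c).valuation ((r : F) - (a c : F)) ≤ (V c).valuation π)
    (ε : F) (hε : ε ∈ R) (hε' : ε⁻¹ ∈ R) (hε0 : ε ≠ 0)
    (hsplit : ∀ c, ∃ h : F, h ≠ 0 ∧
      (V c).valuation (ε / h ^ p - 1) ≤ (V c).valuation ((ζ - 1) ^ p * π)) :
    ∃ γ ∈ R, γ ≠ 0 ∧ γ⁻¹ ∈ R ∧ ∃ y ∈ R, ε / γ ^ p - 1 = (ζ - 1) ^ p * π * y := by
  have hlam0 : ζ - 1 ≠ 0 := sub_ne_zero.mpr (hζ.ne_one hp.out.one_lt)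
  have hπ0 : π ≠ 0 := by
    intro h
    apply hlam0
    rw [hlam, h, zero_pow (by omega), zero_mul]
  choose h hh0 hhv using hsplit
  have hz : ∀ c, ∃ z ∈ V c, ε / h c ^ p - 1 = (ζ - 1) ^ p * π * z := fun c =>
    (wd_val_le_iff (V c)).mp (hhv c)
  choose z hzV hze using hz
  have hεh : ∀ c, ε = h c ^ p * (1 + (ζ - 1) ^ p * π * z c) := by
    intro c
    have := hze c
    have hhp : h c ^ p ≠ 0 := pow_ne_zero _ (hh0 c)
    field_simp at this
    linear_combination this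
  have hlamV : ∀ c, ζ - 1 ∈ V c := fun c => hRV c _ (R.sub_mem hζR R.one_mem)
  -- `h c` is a unit of `V c`
  have hhV : ∀ c, h c ∈ V c := by
    intro c
    have hvε : (V c).valuation ε = 1 := by
      apply le_antisymm ((V c).valuation_le_one_iff _ |>.mpr (hRV c _ hε))
      have h1 : (V c).valuation ε⁻¹ ≤ 1 := (V c).valuation_le_one_iff _ |>.mpr (hRV c _ hε')
      rw [map_inv₀] at h1
      have hne : (V c).valuation ε ≠ 0 := (map_ne_zero _).mpr hε0
      exact (inv_le_one₀ (zero_lt_iff.mpr hne)).mp h1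
    have hsmall : (V c).valuation ((ζ - 1) ^ p * π * z c) < 1 := by
      rw [map_mul, map_mul]
      have h1 : (V c).valuation ((ζ - 1) ^ p) ≤ 1 :=
        (V c).valuation_le_one_iff _ |>.mpr ((V c).pow_mem (hlamV c) p)
      have h2 : (V c).valuation (z c) ≤ 1 := (V c).valuation_le_one_iff _ |>.mpr (hzV c)
      calc (V c).valuation ((ζ - 1) ^ p) * (V c).valuation π * (V c).valuation (z c)
          ≤ 1 * (V c).valuation π * 1 := by gcongr
        _ = (V c).valuation π := by rw [one_mul, mul_one]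
        _ < 1 := hπV c
    have h1z : (V c).valuation (1 + (ζ - 1) ^ p * π * z c) = 1 := by
      rw [Valuation.map_add_eq_of_lt_left _ (by rw [map_one]; exact hsmall), map_one]
    have hvh : (V c).valuation (h c) ^ p = 1 := by
      have := congrArg (V c).valuation (hεh c)
      rw [hvε, map_mul, h1z, mul_one, map_pow] at this
      exact this.symm
    have hvh1 : (V c).valuation (h c) = 1 :=
      (pow_eq_one_iff_of_nonneg zero_le hp.out.ne_zero).mp hvh
    exact (V c).valuation_le_one_iff _ |>.mp hvh1.le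
  obtain ⟨γ, hγ, hγ0, hγ', y, hy, hye⟩ := wd_main R (fun c => (V c).toSubring)
    (fun c x hx => hRV c x hx) p ζ hζR hζ π hπR (fun c => wd_inv_not_mem (V c) hπ0 (hπV c))
    e₁ he₁ u₀ hu₀ hu₀' hlam
    (fun x hx hc => hSS1 x hx (fun c => (wd_val_le_iff (V c)).mpr (hc c)))
    (fun c x hx r hr hy => by
      obtain ⟨s, hs, hsv⟩ := hN1 c x hx r hr ((wd_val_le_iff (V c)).mpr hy)
      exact ⟨s, hs, (wd_val_le_iff (V c)).mp hsv⟩)
    (fun c x hx r hr hy => by
      obtain ⟨s, hs, hsv⟩ := hN2 c x hx r hr ((wd_val_le_iff (V c)).mpr hy)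
      exact ⟨s, hs, (wd_val_le_iff (V c)).mp hsv⟩)
    (fun a ha => by
      obtain ⟨r, hr⟩ := hX a ha
      exact ⟨r, fun c => (wd_val_le_iff (V c)).mp (hr c)⟩)
    ε hε hε' hε0 h hhV
    (fun c => ⟨h c ^ p * z c,
      (V c).toSubring.mul_mem ((V c).toSubring.pow_mem (hhV c) p) (hzV c), by
      have := hεh c
      linear_combination this⟩)
  refine ⟨γ, hγ, hγ0, hγ', y * (γ⁻¹) ^ p, R.mul_mem hy (R.pow_mem hγ' p), ?_⟩
  have hγp : γ ^ p ≠ 0 := pow_ne_zero _ hγ0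
  simp only [inv_pow]
  field_simp
  linear_combination hye

/-- **(LS)** for `wt_main`: `u = ε G₀^p` with `ε ∈ R^×` (horizontal factorisation, T4) and
`u` split at the vertical valuations ⇒ `u / g^p ∈ 1 + λ^p π R`. -/
theorem wd_local_shape (R : Subring F) [IsLocalRing R]
    {κ : Type*} [Nonempty κ] (V : κ → ValuationSubring F) (hRV : ∀ c, ∀ x ∈ R, x ∈ V c)
    (p : ℕ) [hp : Fact p.Prime]
    (ζ : F) (hζR : ζ ∈ R) (hζ : IsPrimitiveRoot ζ p)
    (π : F) (hπR : π ∈ R) (hπV : ∀ c, (V c).valuation π < 1)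
    (e₁ : ℕ) (he₁ : 1 ≤ e₁) (u₀ : F) (hu₀ : u₀ ∈ R) (hu₀' : u₀⁻¹ ∈ R)
    (hlam : ζ - 1 = π ^ e₁ * u₀)
    (hSS1 : ∀ x ∈ R, (∀ c, (V c).valuation x ≤ (V c).valuation π) → ∃ y ∈ R, x = π * y)
    (hN1 : ∀ c, ∀ x ∈ V c, ∀ r ∈ R, (V c).valuation (x ^ p - r) ≤ (V c).valuation π →
      ∃ s ∈ R, (V c).valuation (x - s) ≤ (V c).valuation π)
    (hN2 : ∀ c, ∀ x ∈ V c, ∀ r ∈ R, (V c).valuation (x ^ p - x - r) ≤ (V c).valuation π →
      ∃ s ∈ R, (V c).valuation (x - s) ≤ (V c).valuation π)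
    (hX : ∀ a : κ → R, (∀ c c', a c - a c' ∈ IsLocalRing.maximalIdeal R) →
      ∃ r : R, ∀ c, (V c).valuation ((r : F) - (a c : F)) ≤ (V c).valuation π)
    (u ε G₀ : F) (hu : u = ε * G₀ ^ p) (hG₀ : G₀ ≠ 0)
    (hε : ε ∈ R) (hε' : ε⁻¹ ∈ R) (hε0 : ε ≠ 0)
    (hsplit : ∀ c, ∃ h : F, h ≠ 0 ∧
      (V c).valuation (u / h ^ p - 1) ≤ (V c).valuation ((ζ - 1) ^ p * π)) :
    ∃ g : F, g ≠ 0 ∧ ∃ y ∈ R, u / g ^ p - 1 = (ζ - 1) ^ p * π * y := by
  obtain ⟨γ, hγ, hγ0, -, y, hy, hye⟩ := wd_main_val R V hRV p ζ hζR hζ π hπR hπV e₁ he₁ u₀ hu₀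
    hu₀' hlam hSS1 hN1 hN2 hX ε hε hε' hε0 (fun c => by
      obtain ⟨h, hh0, hhv⟩ := hsplit c
      refine ⟨h / G₀, div_ne_zero hh0 hG₀, ?_⟩
      have e : ε / (h / G₀) ^ p = u / h ^ p := by
        rw [hu, div_pow]
        field_simp
      rw [e]; exact hhv)
  refine ⟨γ * G₀, mul_ne_zero hγ0 hG₀, y, hy, ?_⟩
  have e : u / (γ * G₀) ^ p = ε / γ ^ p := by
    rw [hu, mul_pow]
    have := pow_ne_zero p hG₀
    have := pow_ne_zero p hγ0
    field_simp
  rw [e]; exact hye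

/-- (X) for a single branch (smooth point of the special fibre). -/
theorem wd_X_of_subsingleton (R : Subring F) [IsLocalRing R] {κ : Type*} [Nonempty κ]
    [Subsingleton κ] (V : κ → ValuationSubring F) (π : F) (a : κ → R) :
    ∃ r : R, ∀ c, (V c).valuation ((r : F) - (a c : F)) ≤ (V c).valuation π := by
  refine ⟨a (Classical.arbitrary κ), fun c => ?_⟩
  rw [Subsingleton.elim (Classical.arbitrary κ) c, sub_self, map_zero]
  exact zero_le

/-- (X) for two branches (ordinary double point): the pairwise form suffices. -/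
theorem wd_X_of_two (R : Subring F) [IsLocalRing R] {κ : Type*}
    (V : κ → ValuationSubring F) (π : F) (c₁ c₂ : κ) (hκ : ∀ c, c = c₁ ∨ c = c₂)
    (h2 : ∀ a b : R, a - b ∈ IsLocalRing.maximalIdeal R → ∃ r : R,
      (V c₁).valuation ((r : F) - (a : F)) ≤ (V c₁).valuation π ∧
      (V c₂).valuation ((r : F) - (b : F)) ≤ (V c₂).valuation π)
    (a : κ → R) (ha : ∀ c c', a c - a c' ∈ IsLocalRing.maximalIdeal R) :
    ∃ r : R, ∀ c, (V c).valuation ((r : F) - (a c : F)) ≤ (V c).valuation π := by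
  obtain ⟨r, hr₁, hr₂⟩ := h2 (a c₁) (a c₂) (ha c₁ c₂)
  refine ⟨r, fun c => ?_⟩
  rcases hκ c with rfl | rfl
  · exact hr₁
  · exact hr₂

open Polynomial in
/-- (N1) and (N2) from the polynomial form (N): the image of `R` in the residue field of `V`
is integrally closed. -/
theorem wd_N_of_monic (R : Subring F) (V : ValuationSubring F) (π : F) (p : ℕ) (hp0 : p ≠ 0)
    (hp1 : p ≠ 1)
    (hN : ∀ x ∈ V, ∀ P : Polynomial R, P.Monic →
      V.valuation (Polynomial.aeval x P) ≤ V.valuation π →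
      ∃ s ∈ R, V.valuation (x - s) ≤ V.valuation π) :
    (∀ x ∈ V, ∀ r ∈ R, V.valuation (x ^ p - r) ≤ V.valuation π →
      ∃ s ∈ R, V.valuation (x - s) ≤ V.valuation π) ∧
    (∀ x ∈ V, ∀ r ∈ R, V.valuation (x ^ p - x - r) ≤ V.valuation π →
      ∃ s ∈ R, V.valuation (x - s) ≤ V.valuation π) := by
  constructor
  · intro x hx r hr h
    refine hN x hx (X ^ p - C (⟨r, hr⟩ : R)) (monic_X_pow_sub_C _ hp0) ?_
    have e0 : algebraMap R F ⟨r, hr⟩ = r := rfl
    simpa [e0] using h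
  · intro x hx r hr h
    obtain ⟨n, rfl⟩ : ∃ n, p = n + 1 := ⟨p - 1, by omega⟩
    have hmon : (X ^ (n + 1) - (X + C (⟨r, hr⟩ : R)) : Polynomial R).Monic := by
      apply monic_X_pow_sub
      have hn : 1 ≤ n := by omega
      have h1 : (X + C (⟨r, hr⟩ : R) : Polynomial R).degree ≤ 1 := by
        refine (degree_add_le _ _).trans (max_le degree_X_le ?_)
        exact degree_C_le.trans (by norm_num)
      exact lt_of_le_of_lt h1 (by exact_mod_cast (show 1 < n + 1 by omega))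
    refine hN x hx _ hmon ?_
    have e0 : algebraMap R F ⟨r, hr⟩ = r := rfl
    have e : Polynomial.aeval x (X ^ (n + 1) - (X + C (⟨r, hr⟩ : R)) : Polynomial R)
        = x ^ (n + 1) - x - r := by
      simp [sub_sub, e0]
    rw [e]; exact h

end Val

end Fermat.Agent.S33
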