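import Fermat.Agent.S33.WildAbsLoc
import Fermat.Agent.S33.WildDepthVal

/-!
# S33 v2, C4 (WILD): the abstract theorem (T)-wild  (T1 + T2 + T3 + T4 assembled)

Chart setting of `UNIP.at_main_two` over the DVR `A₀` (uniformizer `π`, `π ∣ p`, `ζ ∈ A₀` a
primitive `p`-th root of unity, `π ∣ ζ − 1`), two incomparable vertical valuation rings
`V c₁`, `V c₂` with uniformizer `π`, `σ` a semilinear automorphism, trivial modulo `π` on both
charts, preserving the vertical valuations, `σ ζ = ζ ^ a`.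

* `wab_ss1_loc`    : (SS1) in the local ring of a closed point of the special fibre.
* `wab_hloc_point` : the improved local shape (LS) at a closed point (`wd_local_shape`).
* `wab_main_two`   : **(T)-wild.**  If `u ≠ 0` is split at both vertical valuations (H1 = C3),
  and at every closed point of the special fibre of both charts: `u = ε G ^ p` with `ε` a unit of
  the local ring (`hT4` = T4), the branches through the point are normal (`hN`: `WabNormal`, e.g.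
  from `wab_normal_of_winding`), and at crossing points the maximal ideal is the sum of the two
  branch ideals (`hS` = `STB.stb_cp_sum`), then `σ u / u ^ a = c · h ^ p` with `c ∈ E^×`.
-/

set_option autoImplicit false
set_option linter.unusedSectionVars false
set_option linter.unusedVariables false
set_option linter.style.haveILetI false

namespace Fermat.Agent.S33

open Polynomial IntermediateField Fermat.Agent.INJ Fermat.Agent.UNIP AlgebraicCurve

section Point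

variable {A₀ E F : Type*} [CommRing A₀] [IsDomain A₀] [IsDiscreteValuationRing A₀]
  [Field E] [Algebra A₀ E] [IsFractionRing A₀ E] [CharZero E]
  [Field F] [Algebra E F] [Algebra A₀ F] [IsScalarTower A₀ E F]
  {π : A₀} {κ : Type*}

/-- **(SS1) in the local ring of a closed point**: an element of `(B_u)_𝔫` vanishing on all the
components through `𝔫` is divisible by `π` in `(B_u)_𝔫`. -/
theorem wab_ss1_loc [Finite κ] {u : F} (V : κ → ValuationSubring F)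
    (hBV : ∀ c (b : F), IsIntegral ↥(Algebra.adjoin A₀ {u}) b → b ∈ V c)
    (hSS1 : ∀ b : F, IsIntegral ↥(Algebra.adjoin A₀ {u}) b → (∀ c, b ∈ (V c).nonunits) →
      ∃ b' : F, IsIntegral ↥(Algebra.adjoin A₀ {u}) b' ∧ b = algebraMap A₀ F π * b')
    (𝔫 : AtPt (F := F) π u) {x : F} (hx : x ∈ atLoc 𝔫)
    (hxV : ∀ c, atThrough 𝔫 (V c) → x ∈ (V c).nonunits) :
    ∃ y ∈ atLoc 𝔫, x = algebraMap A₀ F π * y := by
  classical
  haveI : Fintype κ := Fintype.ofFinite κ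
  haveI h𝔫 : 𝔫.1.IsPrime := 𝔫.2.1.isPrime
  obtain ⟨b, s, hs, hsx⟩ := hx
  have hsx' : (s : F) * x = (b : F) := hsx
  have hmemV : ∀ (z : ↥(zchClosure (A₀ := A₀) ({u} : Set F))) (c : κ), (z : F) ∈ V c :=
    fun z c => hBV c _ (mem_zchClosure.mp z.2)
  have h1𝔫 : (1 : ↥(zchClosure (A₀ := A₀) ({u} : Set F))) ∉ 𝔫.1 := fun h =>
    h𝔫.ne_top ((Ideal.eq_top_iff_one 𝔫.1).mpr h)
  have hmult : ∀ c, ∃ m : ↥(zchClosure (A₀ := A₀) ({u} : Set F)), m ∉ 𝔫.1 ∧
      (m : F) * (b : F) ∈ (V c).nonunits := by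
    intro c
    by_cases hc : atThrough 𝔫 (V c)
    · refine ⟨1, h1𝔫, ?_⟩
      push_cast
      rw [one_mul, ← hsx']
      exact pwi_mul_mem_nonunits (V c) (hmemV s c) (hxV c hc)
    · obtain ⟨b', hb', hb'V⟩ := ats_cov (V c) 𝔫.1 hc
      refine ⟨b', hb', ?_⟩
      rw [mul_comm]
      exact pwi_mul_mem_nonunits (V c) (hmemV b c) hb'V
  choose m hm hmV using hmult
  set m₀ : ↥(zchClosure (A₀ := A₀) ({u} : Set F)) := ∏ c, m c with hm₀
  have hm₀𝔫 : m₀ ∉ 𝔫.1 := by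
    intro h
    obtain ⟨c, -, hc⟩ := (Ideal.IsPrime.prod_mem_iff).mp h
    exact hm c hc
  have hall : ∀ c, ((m₀ * b : ↥(zchClosure (A₀ := A₀) ({u} : Set F))) : F) ∈ (V c).nonunits := by
    intro c
    have hprod : m₀ = (∏ c' ∈ Finset.univ.erase c, m c') * m c := by
      rw [hm₀, Finset.prod_erase_mul _ _ (Finset.mem_univ c)]
    have e : ((m₀ * b : ↥(zchClosure (A₀ := A₀) ({u} : Set F))) : F)
        = ((∏ c' ∈ Finset.univ.erase c, m c' : ↥(zchClosure (A₀ := A₀) ({u} : Set F))) : F) *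
          ((m c : F) * (b : F)) := by
      rw [hprod]
      push_cast
      ring
    rw [e]
    exact pwi_mul_mem_nonunits (V c) (hmemV _ c) (hmV c)
  obtain ⟨b', hb', hbb'⟩ := hSS1 _ (mem_zchClosure.mp (m₀ * b).2) hall
  have hms : m₀ * s ∉ 𝔫.1 := fun h => by
    rcases h𝔫.mem_or_mem h with h' | h'
    · exact hm₀𝔫 h'
    · exact hs h'
  have hms0 : ((m₀ * s : ↥(zchClosure (A₀ := A₀) ({u} : Set F))) : F) ≠ 0 := by
    intro h0
    apply hms
    have : m₀ * s = 0 := Subtype.ext h0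
    rw [this]
    exact 𝔫.1.zero_mem
  refine ⟨b' / ((m₀ * s : ↥(zchClosure (A₀ := A₀) ({u} : Set F))) : F),
    ⟨⟨b', mem_zchClosure.mpr hb'⟩, m₀ * s, hms, ?_⟩, ?_⟩
  · change ((m₀ * s : ↥(zchClosure (A₀ := A₀) ({u} : Set F))) : F) *
      (b' / ((m₀ * s : ↥(zchClosure (A₀ := A₀) ({u} : Set F))) : F)) = b'
    rw [mul_div_cancel₀ _ hms0]
  · have e1 : ((m₀ * s : ↥(zchClosure (A₀ := A₀) ({u} : Set F))) : F) * x
        = algebraMap A₀ F π * b' := by
      rw [← hbb']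
      push_cast
      rw [mul_assoc, hsx']
    rw [mul_div_assoc', ← e1, mul_div_cancel_left₀ _ hms0]

/-- **(LS) at a closed point.**  The improved local shape `u / g ^ p ∈ 1 + (ζ−1)^p π (B_u)_𝔫`
from the horizontal factorisation `u = ε G ^ p` (T4), the splitting at the vertical valuations
(H1), normality of the branches through `𝔫` and `𝔫 = 𝔭₁ + 𝔭₂` at crossing points. -/
theorem wab_hloc_point (hπ : Irreducible π) (hinj : Function.Injective (algebraMap A₀ F))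
    [Finite κ] {u' : F} (V : κ → ValuationSubring F)
    (c₁ c₂ : κ) (hκ : ∀ c, c = c₁ ∨ c = c₂)
    (hBV : ∀ c (b : F), IsIntegral ↥(Algebra.adjoin A₀ {u'}) b → b ∈ V c)
    (hπV : ∀ c, algebraMap A₀ F π ∈ (V c).nonunits)
    (hSS1 : ∀ b : F, IsIntegral ↥(Algebra.adjoin A₀ {u'}) b → (∀ c, b ∈ (V c).nonunits) →
      ∃ b' : F, IsIntegral ↥(Algebra.adjoin A₀ {u'}) b' ∧ b = algebraMap A₀ F π * b')
    (hunif : ∀ c, ∀ x ∈ (V c).nonunits, ∃ y ∈ V c, x = algebraMap A₀ F π * y)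
    {p : ℕ} (hp : p.Prime) {ζ : A₀} (hζ : IsPrimitiveRoot ζ p) (hlam : π ∣ ζ - 1)
    (𝔫 : AtPt (F := F) π u')
    (hN : ∀ c, atThrough 𝔫 (V c) → WabNormal (atLoc 𝔫) (V c) p)
    (hS : atThrough 𝔫 (V c₁) → atThrough 𝔫 (V c₂) → ∀ x : atLoc 𝔫, ¬ IsUnit x →
      ∃ a b : atLoc 𝔫, (a : F) ∈ (V c₁).nonunits ∧ (b : F) ∈ (V c₂).nonunits ∧ x = a + b)
    {u : F}
    (hT4 : ∃ G ε : F, G ≠ 0 ∧ ε ≠ 0 ∧ ε ∈ atLoc 𝔫 ∧ ε⁻¹ ∈ atLoc 𝔫 ∧ u = ε * G ^ p)
    (hsplit : ∀ c, ∃ h : F, h ≠ 0 ∧ (V c).valuation (u / h ^ p - 1) ≤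
      (V c).valuation ((algebraMap A₀ F ζ - 1) ^ p * algebraMap A₀ F π)) :
    ∃ g : F, g ≠ 0 ∧ ∃ y ∈ atLoc 𝔫,
      u / g ^ p - 1 = (algebraMap A₀ F ζ - 1) ^ p * algebraMap A₀ F π * y := by
  classical
  haveI h𝔫 : 𝔫.1.IsPrime := 𝔫.2.1.isPrime
  haveI hloc : IsLocalRing (atLoc 𝔫) :=
    ls_localSubring_isLocalRing (F := F) Subtype.val_injective 𝔫.1
  haveI : Fact p.Prime := ⟨hp⟩
  have hζF : IsPrimitiveRoot (algebraMap A₀ F ζ) p := hζ.map_of_injective hinj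
  have hπV' : ∀ c, (V c).valuation (algebraMap A₀ F π) < 1 := fun c =>
    (ValuationSubring.mem_nonunits_iff (V c)).mp (hπV c)
  -- `≤ v(π)` versus `< 1`
  have hlt : ∀ c {x : F}, (V c).valuation x ≤ (V c).valuation (algebraMap A₀ F π) →
      (V c).valuation x < 1 := fun c x hx => lt_of_le_of_lt hx (hπV' c)
  have hle : ∀ c {x : F}, (V c).valuation x < 1 →
      (V c).valuation x ≤ (V c).valuation (algebraMap A₀ F π) := by
    intro c x hx
    obtain ⟨y, hy, rfl⟩ := hunif c x ((ValuationSubring.mem_nonunits_iff (V c)).mpr hx)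
    rw [map_mul]
    exact mul_le_of_le_one_right zero_le ((V c).valuation_le_one_iff y |>.2 hy)
  -- the points
  obtain ⟨c₀, hc₀⟩ := ats_hpt_chart V hBV hSS1 𝔫.1 𝔫.2.2
  haveI : Nonempty {c : κ // atThrough 𝔫 (V c)} := ⟨⟨c₀, hc₀⟩⟩
  -- `ζ − 1 = π ^ e₁ · unit`
  have hlam0 : ζ - 1 ≠ 0 := sub_ne_zero.mpr (hζ.ne_one hp.one_lt)
  obtain ⟨e₁, v, hv⟩ := IsDiscreteValuationRing.eq_unit_mul_pow_irreducible hlam0 hπ
  have he₁ : 1 ≤ e₁ := by
    rcases Nat.eq_zero_or_pos e₁ with h | h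
    · exfalso
      rw [h, pow_zero, mul_one] at hv
      have hu : IsUnit (ζ - 1) := hv ▸ v.isUnit
      exact hπ.not_isUnit (isUnit_of_dvd_unit hlam hu)
    · exact h
  have hlamF : algebraMap A₀ F ζ - 1
      = algebraMap A₀ F π ^ e₁ * algebraMap A₀ F (v : A₀) := by
    rw [← map_one (algebraMap A₀ F), ← map_sub, hv, map_mul, map_pow, mul_comm]
  have hvinv : (algebraMap A₀ F (v : A₀))⁻¹ = algebraMap A₀ F ((v⁻¹ : A₀ˣ) : A₀) := by
    have h1 : algebraMap A₀ F (v : A₀) * algebraMap A₀ F ((v⁻¹ : A₀ˣ) : A₀) = 1 := by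
      rw [← map_mul, Units.mul_inv, map_one]
    exact inv_eq_of_mul_eq_one_right h1
  obtain ⟨G, ε, hG0, hε0, hε, hε', huε⟩ := hT4
  -- (X)
  have hX : ∀ a : {c : κ // atThrough 𝔫 (V c)} → atLoc 𝔫,
      (∀ c c', a c - a c' ∈ IsLocalRing.maximalIdeal (atLoc 𝔫)) →
      ∃ r : atLoc 𝔫, ∀ c : {c : κ // atThrough 𝔫 (V c)},
        (V c.1).valuation ((r : F) - (a c : F)) ≤ (V c.1).valuation (algebraMap A₀ F π) := by
    by_cases h1 : atThrough 𝔫 (V c₁)
    · by_cases h2 : atThrough 𝔫 (V c₂)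
      · intro a ha
        refine wd_X_of_two (atLoc 𝔫) (fun c : {c : κ // atThrough 𝔫 (V c)} => V c.1)
          (algebraMap A₀ F π) ⟨c₁, h1⟩ ⟨c₂, h2⟩ (fun c => ?_) (fun x y hxy => ?_) a ha
        · rcases hκ c.1 with h | h
          · exact Or.inl (Subtype.ext h)
          · exact Or.inr (Subtype.ext h)
        · obtain ⟨a', b', ha', hb', hab⟩ := hS h1 h2 (x - y)
            ((IsLocalRing.mem_maximalIdeal _).1 hxy)
          refine ⟨x - a', hle c₁ ?_, hle c₂ ?_⟩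
          · have e : (((x - a' : atLoc 𝔫)) : F) - (x : F) = -(a' : F) := by
              push_cast; ring
            rw [e, Valuation.map_neg]
            exact (ValuationSubring.mem_nonunits_iff (V c₁)).mp ha'
          · have e : (((x - a' : atLoc 𝔫)) : F) - (y : F) = (b' : F) := by
              have h3 : ((x - y : atLoc 𝔫) : F) = ((a' + b' : atLoc 𝔫) : F) := by rw [hab]
              push_cast at h3 ⊢
              linear_combination h3
            rw [e]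
            exact (ValuationSubring.mem_nonunits_iff (V c₂)).mp hb'
      · haveI : Subsingleton {c : κ // atThrough 𝔫 (V c)} := ⟨fun x y => by
          apply Subtype.ext
          rcases hκ x.1 with hx | hx <;> rcases hκ y.1 with hy | hy
          · rw [hx, hy]
          · exact absurd (hy ▸ y.2) h2
          · exact absurd (hx ▸ x.2) h2
          · rw [hx, hy]⟩
        intro a _
        exact wd_X_of_subsingleton (atLoc 𝔫) (fun c : {c : κ // atThrough 𝔫 (V c)} => V c.1)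
          (algebraMap A₀ F π) a
    · haveI : Subsingleton {c : κ // atThrough 𝔫 (V c)} := ⟨fun x y => by
        apply Subtype.ext
        rcases hκ x.1 with hx | hx <;> rcases hκ y.1 with hy | hy
        · rw [hx, hy]
        · exact absurd (hx ▸ x.2) h1
        · exact absurd (hy ▸ y.2) h1
        · rw [hx, hy]⟩
      intro a _
      exact wd_X_of_subsingleton (atLoc 𝔫) (fun c : {c : κ // atThrough 𝔫 (V c)} => V c.1)
        (algebraMap A₀ F π) a
  refine wd_local_shape (atLoc 𝔫) (fun c : {c : κ // atThrough 𝔫 (V c)} => V c.1)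
    (fun c x hx => wab_atLoc_le 𝔫 (V c.1) (hBV c.1) c.2 hx) p (algebraMap A₀ F ζ)
    (wab_const_mem_atLoc 𝔫 ζ) hζF (algebraMap A₀ F π) (wab_const_mem_atLoc 𝔫 π)
    (fun c => hπV' c.1) e₁ he₁ (algebraMap A₀ F (v : A₀)) (wab_const_mem_atLoc 𝔫 _)
    (by rw [hvinv]; exact wab_const_mem_atLoc 𝔫 _) hlamF ?_ ?_ ?_ hX u ε G huε hG0 hε hε' hε0
    (fun c => hsplit c.1)
  · intro x hx hxV
    exact wab_ss1_loc V hBV hSS1 𝔫 hx (fun c hc =>
      (ValuationSubring.mem_nonunits_iff (V c)).mpr (hlt c (hxV ⟨c, hc⟩)))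
  · intro c x hx r hr hxr
    obtain ⟨s, hs, hxs⟩ := (hN c.1 c.2).1 x hx r hr (hlt c.1 hxr)
    exact ⟨s, hs, hle c.1 hxs⟩
  · intro c x hx r hr hxr
    obtain ⟨s, hs, hxs⟩ := (hN c.1 c.2).2 x hx r hr (hlt c.1 hxr)
    exact ⟨s, hs, hle c.1 hxs⟩

end Point

section Main

variable {A₀ E F : Type*} [CommRing A₀] [IsDomain A₀] [IsDiscreteValuationRing A₀]
  [Field E] [Algebra A₀ E] [IsFractionRing A₀ E] [CharZero E]
  [Field F] [Algebra E F] [Algebra A₀ F] [IsScalarTower A₀ E F]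
  {π : A₀} {κ : Type*}

/-- **(T)-wild, abstract form** (T1 + T2 + T3 + T4).  See the header of this file. -/
theorem wab_main_two (hπ : Irreducible π) {t : F} (ht : Transcendental E t)
    [FiniteDimensional E⟮t⟯ F]
    (hcl : ∀ x : F, IsAlgebraic E x → x ∈ (algebraMap E F).range)
    {p : ℕ} (hp : p.Prime) (hpπ : π ∣ (p : A₀)) {ζ : A₀} (hζ : IsPrimitiveRoot ζ p)
    (hlam : π ∣ ζ - 1)
    [Finite κ] (V : κ → ValuationSubring F) (c₁ c₂ : κ) (hκ : ∀ c, c = c₁ ∨ c = c₂)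
    (h12 : ¬ V c₁ ≤ V c₂) (h21 : ¬ V c₂ ≤ V c₁)
    (hBV₁ : ∀ c (b : F), IsIntegral ↥(Algebra.adjoin A₀ {t}) b → b ∈ V c)
    (hBV₂ : ∀ c (b : F), IsIntegral ↥(Algebra.adjoin A₀ {t⁻¹}) b → b ∈ V c)
    (hπV : ∀ c, algebraMap A₀ F π ∈ (V c).nonunits)
    (hSS1 : ∀ b : F, IsIntegral ↥(Algebra.adjoin A₀ {t}) b → (∀ c, b ∈ (V c).nonunits) →
      ∃ b' : F, IsIntegral ↥(Algebra.adjoin A₀ {t}) b' ∧ b = algebraMap A₀ F π * b')
    (harch : ∀ c (a x : F), a ∈ (V c).nonunits → ∃ N : ℕ, a ^ N * x ∈ (V c).nonunits)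
    (hunif : ∀ c, ∀ x ∈ (V c).nonunits, ∃ y ∈ V c, x = algebraMap A₀ F π * y)
    (σ : SemilinearAut E F)
    (hσB₁ : AtTrivMod π t σ) (hσB₂ : AtTrivMod π t⁻¹ σ)
    (hσV : ∀ c (f : F), f ≠ 0 → (V c).valuation (σ • f / f) = 1)
    {a : ℕ} (hσζ : σ • algebraMap A₀ F ζ = algebraMap A₀ F ζ ^ a)
    {u : F} (hu : u ≠ 0)
    (hsplit : ∀ c, ∃ h : F, h ≠ 0 ∧ (V c).valuation (u / h ^ p - 1) ≤
      (V c).valuation ((algebraMap A₀ F ζ - 1) ^ p * algebraMap A₀ F π))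
    (hT4 : ∀ i, ∃ G ε : F, G ≠ 0 ∧ ε ≠ 0 ∧ ε ∈ atO π t i ∧ ε⁻¹ ∈ atO π t i ∧ u = ε * G ^ p)
    (hN : ∀ i c, atInc π t V i c → WabNormal (atO π t i) (V c) p)
    (hS : ∀ i, atInc π t V i c₁ → atInc π t V i c₂ → ∀ x : atO π t i, ¬ IsUnit x →
      ∃ a b : atO π t i, (a : F) ∈ (V c₁).nonunits ∧ (b : F) ∈ (V c₂).nonunits ∧ x = a + b) :
    ∃ c : E, c ≠ 0 ∧ ∃ h : F, σ • u / u ^ a = algebraMap E F c * h ^ p := by
  have hSS1' := ats_SS1_inv ht hπ V hBV₁ hSS1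
  have hinj : Function.Injective (algebraMap A₀ F) :=
    zch_algebraMap_injective (A₀ := A₀) (E := E)
  refine wab_main_two_of_loc hπ ht hcl hp hpπ hζ hlam V c₁ c₂ hκ h12 h21 hBV₁ hBV₂ hπV hSS1
    harch σ hσB₁ hσB₂ hσV hσζ hu hsplit ?_
  rintro (𝔫 | 𝔫)
  · exact wab_hloc_point hπ hinj V c₁ c₂ hκ hBV₁ hπV hSS1 hunif hp hζ hlam 𝔫
      (hN (Sum.inl 𝔫)) (hS (Sum.inl 𝔫)) (hT4 (Sum.inl 𝔫)) hsplit
  · exact wab_hloc_point hπ hinj V c₁ c₂ hκ hBV₂ hπV hSS1' hunif hp hζ hlam 𝔫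
      (hN (Sum.inr 𝔫)) (hS (Sum.inr 𝔫)) (hT4 (Sum.inr 𝔫)) hsplit

end Main

end Fermat.Agent.S33
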