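import Mathlib

/-!
# S33 v2, C4 (WILD), piece T1, part 0: the Fermat identity

`wi_prod_sub`: in every commutative ring, `∏_{k < p} (z − k) = z ^ p − z + p · q` for some `q`
(`p` prime), from `X ^ p − X = ∏_{a ∈ 𝔽_p} (X − a)`.
-/

set_option autoImplicit false

namespace Fermat.Agent.S33

open Polynomial

/-- `∏_{k < p} (X − k) = X ^ p − X` over `𝔽_p`. -/
theorem wi_zmod_prod (p : ℕ) [hp : Fact p.Prime] :
    ∏ k ∈ Finset.range p, (X - C ((k : ℕ) : ZMod p)) = (X ^ p - X : (ZMod p)[X]) := by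
  classical
  have hmonic : (X ^ p - X : (ZMod p)[X]).Monic := by
    apply monic_X_pow_sub
    rw [degree_X]
    exact_mod_cast hp.out.one_lt
  have hroots : (X ^ p - X : (ZMod p)[X]).roots = Finset.univ.val := by
    have := FiniteField.roots_X_pow_card_sub_X (ZMod p)
    rwa [ZMod.card] at this
  have hdeg : (X ^ p - X : (ZMod p)[X]).natDegree = p :=
    FiniteField.X_pow_card_sub_X_natDegree_eq (ZMod p) hp.out.one_lt
  have hcard : Multiset.card (X ^ p - X : (ZMod p)[X]).roots =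
      (X ^ p - X : (ZMod p)[X]).natDegree := by
    rw [hroots, hdeg]
    simp [ZMod.card]
  have h1 := prod_multiset_X_sub_C_of_monic_of_roots_card_eq hmonic hcard
  rw [hroots] at h1
  rw [← h1]
  -- reindex
  have h2 : (Finset.univ.val.map fun a : ZMod p => X - C a).prod =
      ∏ a : ZMod p, (X - C a) := rfl
  rw [h2]
  refine Finset.prod_bij (fun k _ => ((k : ℕ) : ZMod p)) (fun _ _ => Finset.mem_univ _) ?_ ?_
    (fun _ _ => rfl)
  · intro a ha b hb hab
    rw [Finset.mem_range] at ha hb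
    have := (ZMod.natCast_eq_natCast_iff' a b p).mp hab
    rwa [Nat.mod_eq_of_lt ha, Nat.mod_eq_of_lt hb] at this
  · intro a _
    refine ⟨a.val, Finset.mem_range.mpr (ZMod.val_lt a), ?_⟩
    exact ZMod.natCast_zmod_val a

/-- the same identity over `ℤ`, modulo `p` -/
theorem wi_int_prod (p : ℕ) [hp : Fact p.Prime] :
    ∃ Q : ℤ[X], ∏ k ∈ Finset.range p, (X - C ((k : ℕ) : ℤ)) = X ^ p - X + C (p : ℤ) * Q := by
  have hmap : (∏ k ∈ Finset.range p, (X - C ((k : ℕ) : ℤ)) - (X ^ p - X) : ℤ[X]).map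
      (Int.castRingHom (ZMod p)) = 0 := by
    rw [Polynomial.map_sub, Polynomial.map_prod, Polynomial.map_sub, Polynomial.map_pow, map_X]
    have : ∀ k ∈ Finset.range p, (X - C ((k : ℕ) : ℤ) : ℤ[X]).map (Int.castRingHom (ZMod p)) =
        X - C ((k : ℕ) : ZMod p) := by
      intro k _
      rw [Polynomial.map_sub, map_X, map_C]
      simp
    rw [Finset.prod_congr rfl this, wi_zmod_prod, sub_self]
  have hdvd : C (p : ℤ) ∣ (∏ k ∈ Finset.range p, (X - C ((k : ℕ) : ℤ)) - (X ^ p - X) : ℤ[X]) := by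
    rw [C_dvd_iff_dvd_coeff]
    intro i
    have := congrArg (fun f : (ZMod p)[X] => f.coeff i) hmap
    simp only [coeff_map, coeff_zero] at this
    exact (ZMod.intCast_zmod_eq_zero_iff_dvd _ p).mp this
  obtain ⟨Q, hQ⟩ := hdvd
  exact ⟨Q, by rw [← hQ]; ring⟩

/-- **Fermat's identity** in a commutative ring. -/
theorem wi_prod_sub {p : ℕ} (hp : p.Prime) {R : Type*} [CommRing R] (z : R) :
    ∃ q : R, ∏ k ∈ Finset.range p, (z - (k : R)) = z ^ p - z + (p : R) * q := by
  have hfact : Fact p.Prime := ⟨hp⟩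
  obtain ⟨Q, hQ⟩ := wi_int_prod p
  refine ⟨Q.eval₂ (Int.castRingHom R) z, ?_⟩
  have := congrArg (fun f : ℤ[X] => f.eval₂ (Int.castRingHom R) z) hQ
  simp only [eval₂_finsetProd, eval₂_sub, eval₂_X, eval₂_add, eval₂_pow, eval₂_mul,
    eq_intCast, Int.cast_natCast, eval₂_natCast] at this
  exact this

end Fermat.Agent.S33
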