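import Mathlib
import Fermat.Agent.S33.WildPoly

/-!
# S33 v2, C4 (WILD), piece T1, part 2: the Kummer / Artin–Schreier substitution

`ζ` a primitive `p`-th root of unity, `lam = ζ − 1`, `η_k = 1 + ζ + ⋯ + ζ^{k−1}`.

* `wk_prod_sub_pow`  : `∏_{k<p} (Y − S ζ^k) = Y^p − S^p`;
* `wk_prod_eta`      : if `lam · T = Y − S` then `lam^p · ∏_{k<p} (T − S η_k) = Y^p − S^p`
  (so `z = (y − 1)/lam` satisfies `∏ (z − η_k) = (y^p − 1)/lam^p`);
* `wk_isIntegral_of_prod` : a root of `∏_{k<p} (Z − c_k) − d` with `c_k`, `d` integral is integral.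
-/

set_option autoImplicit false

namespace Fermat.Agent.S33

open Polynomial

section Roots

variable {K : Type*} [Field K]

/-- `η_k (ζ − 1) = ζ^k − 1` -/
theorem wk_eta_mul {R : Type*} [CommRing R] (ζ : R) (k : ℕ) :
    (∑ i ∈ Finset.range k, ζ ^ i) * (ζ - 1) = ζ ^ k - 1 :=
  geom_sum_mul ζ k

/-- `∏_{k<p} (h − ζ^k) = h^p − 1`. -/
theorem wk_prod_sub_one {p : ℕ} (hp : 0 < p) {ζ : K} (hζ : IsPrimitiveRoot ζ p) (h : K) :
    ∏ k ∈ Finset.range p, (h - ζ ^ k) = h ^ p - 1 := by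
  have key := X_pow_sub_C_eq_prod hζ hp (one_pow p)
  have := congrArg (Polynomial.eval h) key
  simp only [eval_sub, eval_pow, eval_X, eval_C, eval_prod, mul_one] at this
  exact this.symm

/-- `∏_{k<p} (Y − S ζ^k) = Y^p − S^p`. -/
theorem wk_prod_sub_pow {p : ℕ} (hp : 0 < p) {ζ : K} (hζ : IsPrimitiveRoot ζ p) (Y S : K) :
    ∏ k ∈ Finset.range p, (Y - S * ζ ^ k) = Y ^ p - S ^ p := by
  by_cases hS : S = 0
  · subst hS
    simp [zero_pow hp.ne']
  · have h1 := wk_prod_sub_one hp hζ (Y / S)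
    have h2 : ∀ k ∈ Finset.range p, Y - S * ζ ^ k = S * (Y / S - ζ ^ k) := by
      intro k _
      field_simp
    rw [Finset.prod_congr rfl h2, Finset.prod_mul_distrib, h1, Finset.prod_const,
      Finset.card_range, mul_sub, mul_one, div_pow, mul_div_cancel₀ _ (pow_ne_zero p hS)]

/-- **The Kummer / Artin–Schreier substitution.** -/
theorem wk_prod_eta {p : ℕ} (hp : 0 < p) {ζ : K} (hζ : IsPrimitiveRoot ζ p) {Y S T : K}
    (hT : (ζ - 1) * T = Y - S) :
    (ζ - 1) ^ p * ∏ k ∈ Finset.range p, (T - S * ∑ i ∈ Finset.range k, ζ ^ i) =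
      Y ^ p - S ^ p := by
  rw [← wk_prod_sub_pow hp hζ Y S]
  have h2 : ∀ k ∈ Finset.range p, Y - S * ζ ^ k =
      (ζ - 1) * (T - S * ∑ i ∈ Finset.range k, ζ ^ i) := by
    intro k _
    have := wk_eta_mul ζ k
    linear_combination -hT + S * this
  rw [Finset.prod_congr rfl h2, Finset.prod_mul_distrib, Finset.prod_const, Finset.card_range]

end Roots

section Integral

variable {R L : Type*} [CommRing R] [CommRing L] [Algebra R L]

/-- A root of `∏_{k<p} (Z − c_k) − d`, with `c_k` and `d` integral over `R`, is integral. -/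
theorem wk_isIntegral_of_prod {p : ℕ} (hp : 0 < p) (c : ℕ → L) (d T : L)
    (hc : ∀ k, IsIntegral R (c k)) (hd : IsIntegral R d)
    (h : ∏ k ∈ Finset.range p, (T - c k) = d) : IsIntegral R T := by
  classical
  nontriviality L
  have hnt : Nontrivial ↥(integralClosure R L) :=
    ⟨⟨0, 1, fun h => zero_ne_one (α := L) (congrArg Subtype.val h)⟩⟩
  set c' : ℕ → ↥(integralClosure R L) := fun k => ⟨c k, hc k⟩ with hc'
  set d' : ↥(integralClosure R L) := ⟨d, hd⟩ with hd'
  set q : (↥(integralClosure R L))[X] := ∏ k ∈ Finset.range p, (X - C (c' k)) - C d' with hq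
  have hmon1 : (∏ k ∈ Finset.range p, (X - C (c' k))).Monic := monic_prod_X_sub_C _ _
  have hdeg1 : (∏ k ∈ Finset.range p, (X - C (c' k))).natDegree = p := by
    rw [natDegree_prod_of_monic _ _ (fun k _ => monic_X_sub_C (c' k))]
    simp
  have hmon : q.Monic := by
    refine hmon1.sub_of_left ?_
    refine lt_of_le_of_lt degree_C_le ?_
    rw [degree_eq_natDegree hmon1.ne_zero, hdeg1]
    exact_mod_cast hp
  have heval : q.eval₂ (algebraMap ↥(integralClosure R L) L) T = 0 := by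
    rw [hq, eval₂_sub, eval₂_finsetProd, eval₂_C]
    simp only [eval₂_sub, eval₂_X, eval₂_C]
    show ∏ k ∈ Finset.range p, (T - c k) - d = 0
    rw [h, sub_self]
  exact isIntegral_trans (A := ↥(integralClosure R L)) T ⟨q, hmon, heval⟩

end Integral

end Fermat.Agent.S33
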