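import Fermat.Agent.UNIP.ExplicitIdem
import Fermat.Agent.S33.WildPoly

/-!
# S33 v2, C4 (WILD), piece T1, part 1: Artin–Schreier idempotents

Wild twin of `UNIP/ExplicitIdem.lean` (`ei_dichotomy`, `ei_main`, `ei_false_of_aut`).
Setting of `INJ.zariski_connected_charts`: `A₀` a DVR with uniformizer `π`, `E = Frac A₀` of
characteristic `0`, `L / E(t)` finite, `E` algebraically closed in `L`, charts `C₁`, `C₂`.
Here the prime `p` is NOT invertible in `A₀` (`p ∈ π A₀`).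

* `wi_dichotomy` / `wi_main`: if `z ^ p ≡ z` on the special fibre and `z` has local
  approximations at every closed point of the special fibre of both charts, then `z ≡ 0` or
  `z ^ (p − 1) ≡ 1` on the special fibre (the idempotent is `1 − z ^ (p − 1)`).
* `wi_false_of_aut`: if moreover a ring endomorphism `ρ` of `L` fixes `A₀` and `t` and
  `ρ z ≡ z − 1` on the special fibre, this is impossible
  (`∏_{k<p} (z − k) ≡ z ^ p − z ≡ 0`, while every `(z − k) ^ (p − 1) ≡ 1`).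
-/

set_option autoImplicit false
set_option linter.unusedSectionVars false
set_option linter.style.haveILetI false

namespace Fermat.Agent.S33

open Polynomial IntermediateField Fermat.Agent.INJ Fermat.Agent.UNIP

section Main

variable {A₀ E L : Type*} [CommRing A₀] [IsDomain A₀] [IsDiscreteValuationRing A₀]
  [Field E] [Algebra A₀ E] [IsFractionRing A₀ E] [CharZero E]
  [Field L] [Algebra E L] [Algebra A₀ L] [IsScalarTower A₀ E L]
  {π : A₀} {t : L}

/-- **Wild Step 2 (c)+(d), integral form.**  `z₁ ∈ C₁`, `z₂ ∈ C₂` with `z_i ^ p ≡ z_i mod π C_i`,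
`z₁ ≡ z₂ mod π C₁₂`.  Then `z₁ ≡ 0` or `z₁ ^ (p − 1) ≡ 1` modulo `π C₁`. -/
theorem wi_dichotomy (hπ : Irreducible π) (ht : Transcendental E t)
    [FiniteDimensional (IntermediateField.adjoin E {t}) L]
    (hcl : ∀ x : L, IsAlgebraic E x → x ∈ (algebraMap E L).range)
    {p : ℕ} (hp2 : 2 ≤ p) {z₁ z₂ : L}
    (hz₁ : IsIntegral (Algebra.adjoin A₀ {t}) z₁)
    (hz₂ : IsIntegral (Algebra.adjoin A₀ {t⁻¹}) z₂)
    (h₁ : EIPiInt π t (z₁ ^ p - z₁)) (h₂ : EIPiInt π t⁻¹ (z₂ ^ p - z₂))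
    (h₁₂ : ∃ c : L, IsIntegral (Algebra.adjoin A₀ {t, t⁻¹}) c ∧
      z₁ - z₂ = algebraMap A₀ L π * c) :
    EIPiInt π t z₁ ∨ EIPiInt π t (z₁ ^ (p - 1) - 1) := by
  obtain ⟨m, rfl⟩ : ∃ m, p = m + 2 := ⟨p - 2, by omega⟩
  obtain ⟨c₁, hc₁, hc₁e⟩ := h₁
  obtain ⟨c₂, hc₂, hc₂e⟩ := h₂
  obtain ⟨c, hc, hce⟩ := h₁₂
  have hm1 : m + 2 - 1 = m + 1 := by omega
  -- the idempotents `1 − z ^ (m + 1)`
  have hid : ∀ (S : Set L) (z c : L), IsIntegral (Algebra.adjoin A₀ S) z →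
      IsIntegral (Algebra.adjoin A₀ S) c → z ^ (m + 2) - z = algebraMap A₀ L π * c →
      ∃ c' : L, IsIntegral (Algebra.adjoin A₀ S) c' ∧
        (1 - z ^ (m + 1)) * (1 - z ^ (m + 1)) - (1 - z ^ (m + 1)) = algebraMap A₀ L π * c' := by
    intro S z c hz hc hzc
    refine ⟨z ^ m * c, (hz.pow m).mul hc, ?_⟩
    linear_combination (z ^ m) * hzc
  have hcomp : ∃ c' : L, IsIntegral (Algebra.adjoin A₀ {t, t⁻¹}) c' ∧
      (1 - z₁ ^ (m + 1)) - (1 - z₂ ^ (m + 1)) = algebraMap A₀ L π * c' := by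
    have hz₁' := zch_isIntegral_mono (ei_adjoin_le_pair_left (A₀ := A₀) t) hz₁
    have hz₂' := zch_isIntegral_mono (ei_adjoin_le_pair_right (A₀ := A₀) t) hz₂
    refine ⟨-(∑ i ∈ Finset.range (m + 1), z₁ ^ i * z₂ ^ (m + 1 - 1 - i)) * c,
      (IsIntegral.neg (IsIntegral.sum _ (fun i _ => (hz₁'.pow i).mul (hz₂'.pow _)))).mul hc, ?_⟩
    have key := geom_sum₂_mul z₁ z₂ (m + 1)
    rw [hce] at key
    linear_combination key
  have he₁ : IsIntegral (Algebra.adjoin A₀ {t}) (1 - z₁ ^ (m + 1)) :=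
    isIntegral_one.sub (hz₁.pow _)
  have he₂ : IsIntegral (Algebra.adjoin A₀ {t⁻¹}) (1 - z₂ ^ (m + 1)) :=
    isIntegral_one.sub (hz₂.pow _)
  rcases zariski_connected_charts hπ ht hcl he₁ he₂
    (hid _ z₁ c₁ hz₁ hc₁ hc₁e) (hid _ z₂ c₂ hz₂ hc₂ hc₂e) hcomp with ⟨y, hy, hye⟩ | ⟨y, hy, hye⟩
  · right
    rw [hm1]
    refine ⟨-y, hy.neg, ?_⟩
    linear_combination -hye
  · left
    refine ⟨-(z₁ * y) - c₁, (hz₁.mul hy).neg.sub hc₁, ?_⟩
    linear_combination -z₁ * hye - hc₁e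

/-- **Wild Step 2 (b)+(c)+(d).**  If `z ^ p ≡ z` on the special fibre and `z` has local
approximations at every closed point of the special fibre of both charts, then `z ≡ 0` or
`z ^ (p − 1) ≡ 1` on the special fibre. -/
theorem wi_main (hπ : Irreducible π) (ht : Transcendental E t)
    [FiniteDimensional (IntermediateField.adjoin E {t}) L]
    (hcl : ∀ x : L, IsAlgebraic E x → x ∈ (algebraMap E L).range)
    {p : ℕ} (hp2 : 2 ≤ p) {z : L} (hz : z ∈ eiLoc ht hπ)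
    (hz1 : EIPiLoc ht hπ (z ^ p - z))
    (hloc₁ : ∀ 𝔑 : Ideal ↥(zchClosure (A₀ := A₀) ({t} : Set L)), 𝔑.IsMaximal →
      algebraMap A₀ ↥(zchClosure (A₀ := A₀) ({t} : Set L)) π ∈ 𝔑 →
      ∃ b T : ↥(zchClosure (A₀ := A₀) ({t} : Set L)),
        b ∉ 𝔑 ∧ EIPiLoc ht hπ ((b : L) * z - (T : L)))
    (hloc₂ : ∀ 𝔑 : Ideal ↥(zchClosure (A₀ := A₀) ({t⁻¹} : Set L)), 𝔑.IsMaximal →
      algebraMap A₀ ↥(zchClosure (A₀ := A₀) ({t⁻¹} : Set L)) π ∈ 𝔑 →
      ∃ b T : ↥(zchClosure (A₀ := A₀) ({t⁻¹} : Set L)),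
        b ∉ 𝔑 ∧ EIPiLoc (zch_transcendental_inv ht) hπ ((b : L) * z - (T : L))) :
    EIPiLoc ht hπ z ∨ EIPiLoc ht hπ (z ^ (p - 1) - 1) := by
  have ht' := zch_transcendental_inv ht
  have hz' : z ∈ eiLoc ht' hπ := by rw [eiLoc_inv_eq ht hπ]; exact hz
  have hz1' : EIPiLoc ht' hπ (z ^ p - z) := (eiPiLoc_inv_iff ht hπ).mpr hz1
  obtain ⟨z₁, hz₁, hd₁⟩ := ei_exists_global ht hπ hz hloc₁
  obtain ⟨z₂, hz₂, hd₂⟩ := ei_exists_global ht' hπ hz' hloc₂
  -- `z_i ^ p ≡ z_i`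
  have hpow : ∀ {u : L} (hu : Transcendental E u) {z' : L},
      IsIntegral (Algebra.adjoin A₀ {u}) z' → EIPiLoc hu hπ (z ^ p - z) →
      EIPiLoc hu hπ (z - z') → EIPiInt π u (z' ^ p - z') := by
    intro u hu z' hz' hzz hd
    have h1 := hd.pow_sub_pow hu hπ (eiLoc_of_isIntegral hu hπ hz') p
    have h2 := (hzz.sub hu hπ h1).add hu hπ hd
    have e : z ^ p - z - (z ^ p - z' ^ p) + (z - z') = z' ^ p - z' := by ring
    rw [e] at h2
    exact h2.piInt hu hπ ((hz'.pow p).sub hz')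
  have hp₁ := hpow ht hz₁ hz1 hd₁
  have hp₂ := hpow ht' hz₂ hz1' hd₂
  have hov : ∃ c : L, IsIntegral (Algebra.adjoin A₀ {t, t⁻¹}) c ∧
      z₁ - z₂ = algebraMap A₀ L π * c := by
    obtain ⟨w₁, hw₁, hw₁e⟩ := hd₁
    obtain ⟨w₂, hw₂, hw₂e⟩ := hd₂
    refine ei_overlap ht hπ hz₁ hz₂ hw₁ hw₂ ?_
    linear_combination hw₂e - hw₁e
  rcases wi_dichotomy hπ ht hcl hp2 hz₁ hz₂ hp₁ hp₂ hov with h | h
  · left
    have := hd₁.add ht hπ (h.piLoc ht hπ)
    have e : z - z₁ + z₁ = z := by ring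
    rwa [e] at this
  · right
    have h1 := hd₁.pow_sub_pow ht hπ (eiLoc_of_isIntegral ht hπ hz₁) (p - 1)
    have := h1.add ht hπ (h.piLoc ht hπ)
    have e : z ^ (p - 1) - z₁ ^ (p - 1) + (z₁ ^ (p - 1) - 1) = z ^ (p - 1) - 1 := by ring
    rwa [e] at this

/-- products of elements `≡ 1` are `≡ 1` -/
theorem wi_prod_congr_one (hπ : Irreducible π) (ht : Transcendental E t) {ι : Type*}
    (s : Finset ι) (f : ι → L) (h : ∀ i ∈ s, EIPiLoc ht hπ (f i - 1)) :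
    EIPiLoc ht hπ (∏ i ∈ s, f i - 1) := by
  classical
  induction s using Finset.induction_on with
  | empty => simpa using eiPiLoc_zero ht hπ
  | insert a s ha ih =>
    rw [Finset.prod_insert ha]
    have h1 := h a (Finset.mem_insert_self a s)
    have h2 := ih fun i hi => h i (Finset.mem_insert_of_mem hi)
    have hfa : f a ∈ eiLoc ht hπ := by
      have := Subring.add_mem _ (h1.mem_loc ht hπ) (Subring.one_mem _)
      simpa using this
    have h3 := (h2.mul_left ht hπ hfa).add ht hπ h1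
    have e : f a * (∏ i ∈ s, f i - 1) + (f a - 1) = f a * ∏ i ∈ s, f i - 1 := by ring
    rwa [e] at h3

/-- **Wild Step 2, final form.**  In the setting of `wi_main`, with `p ∈ π A₀`, a ring
endomorphism `ρ` of `L` fixing `A₀` and `t` with `ρ z ≡ z − 1` on the special fibre cannot
exist. -/
theorem wi_false_of_aut (hπ : Irreducible π) (ht : Transcendental E t)
    [FiniteDimensional (IntermediateField.adjoin E {t}) L]
    (hcl : ∀ x : L, IsAlgebraic E x → x ∈ (algebraMap E L).range)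
    {p : ℕ} (hp : p.Prime) (hpπ : π ∣ (p : A₀)) {z : L} (hz : z ∈ eiLoc ht hπ)
    (hz1 : EIPiLoc ht hπ (z ^ p - z))
    (hloc₁ : ∀ 𝔑 : Ideal ↥(zchClosure (A₀ := A₀) ({t} : Set L)), 𝔑.IsMaximal →
      algebraMap A₀ ↥(zchClosure (A₀ := A₀) ({t} : Set L)) π ∈ 𝔑 →
      ∃ b T : ↥(zchClosure (A₀ := A₀) ({t} : Set L)),
        b ∉ 𝔑 ∧ EIPiLoc ht hπ ((b : L) * z - (T : L)))
    (hloc₂ : ∀ 𝔑 : Ideal ↥(zchClosure (A₀ := A₀) ({t⁻¹} : Set L)), 𝔑.IsMaximal →
      algebraMap A₀ ↥(zchClosure (A₀ := A₀) ({t⁻¹} : Set L)) π ∈ 𝔑 →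
      ∃ b T : ↥(zchClosure (A₀ := A₀) ({t⁻¹} : Set L)),
        b ∉ 𝔑 ∧ EIPiLoc (zch_transcendental_inv ht) hπ ((b : L) * z - (T : L)))
    (ρ : L →+* L) (hρA : ∀ a : A₀, ρ (algebraMap A₀ L a) = algebraMap A₀ L a) (hρt : ρ t = t)
    (hρz : EIPiLoc ht hπ (ρ z - z + 1)) : False := by
  -- `p ≡ 0`
  have hpL : EIPiLoc ht hπ ((p : L)) := by
    obtain ⟨q, hq⟩ := hpπ
    refine ⟨algebraMap A₀ L q, eiLoc_algebraMap ht hπ q, ?_⟩
    rw [← map_mul, ← hq, map_natCast]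
  rcases wi_main hπ ht hcl hp.two_le hz hz1 hloc₁ hloc₂ with h | h
  · -- `z ≡ 0`
    have h1 := h.map ht hπ ρ hρA hρt
    have h2 := (hρz.sub ht hπ h1).add ht hπ h
    have e : ρ z - z + 1 - ρ z + z = 1 := by ring
    rw [e] at h2
    exact ei_not_piLoc_one ht hπ h2
  · -- `z ^ (p − 1) ≡ 1`
    -- the iterates of `ρ`
    have hiter : ∀ j : ℕ, (∀ a : A₀, (ρ ^ j) (algebraMap A₀ L a) = algebraMap A₀ L a) ∧
        (ρ ^ j) t = t ∧ EIPiLoc ht hπ ((ρ ^ j) z - (z - (j : L))) := by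
      intro j
      induction j with
      | zero =>
        refine ⟨fun a => rfl, rfl, ?_⟩
        have e : (ρ ^ 0) z - (z - ((0 : ℕ) : L)) = 0 := by
          rw [pow_zero, Nat.cast_zero, sub_zero]
          exact sub_self _
        rw [e]
        exact eiPiLoc_zero ht hπ
      | succ j ih =>
        obtain ⟨h1, h2, h3⟩ := ih
        refine ⟨fun a => ?_, ?_, ?_⟩
        · rw [pow_succ', RingHom.mul_def, RingHom.comp_apply, h1, hρA]
        · rw [pow_succ', RingHom.mul_def, RingHom.comp_apply, h2, hρt]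
        · have h4 := h3.map ht hπ ρ hρA hρt
          have h5 := h4.add ht hπ hρz
          have e : ρ ((ρ ^ j) z - (z - (j : L))) + (ρ z - z + 1) =
              (ρ ^ (j + 1)) z - (z - ((j + 1 : ℕ) : L)) := by
            rw [pow_succ', RingHom.mul_def, RingHom.comp_apply, map_sub, map_sub, map_natCast]
            push_cast
            ring
          rwa [e] at h5
    have hU : ∀ j ∈ Finset.range p, EIPiLoc ht hπ ((z - (j : L)) ^ (p - 1) - 1) := by
      intro j _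
      obtain ⟨h1, h2, h3⟩ := hiter j
      have h4 := h.map ht hπ (ρ ^ j) h1 h2
      rw [map_sub, map_pow, map_one] at h4
      have hzj : z - (j : L) ∈ eiLoc ht hπ :=
        Subring.sub_mem _ hz (by
          have := eiLoc_algebraMap (L := L) ht hπ ((j : ℕ) : A₀)
          rwa [map_natCast] at this)
      have h5 := h3.pow_sub_pow ht hπ hzj (p - 1)
      have h6 := h4.sub ht hπ h5
      have e : (ρ ^ j) z ^ (p - 1) - 1 - ((ρ ^ j) z ^ (p - 1) - (z - (j : L)) ^ (p - 1)) =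
          (z - (j : L)) ^ (p - 1) - 1 := by ring
      rwa [e] at h6
    have hprod := wi_prod_congr_one hπ ht (Finset.range p) (fun j => (z - (j : L)) ^ (p - 1)) hU
    rw [Finset.prod_pow] at hprod
    -- Fermat's identity in the semilocal ring
    obtain ⟨q, hq⟩ := wi_prod_sub hp (⟨z, hz⟩ : ↥(eiLoc ht hπ))
    have hq' : ∏ k ∈ Finset.range p, (z - (k : L)) = z ^ p - z + (p : L) * (q : L) := by
      have := congrArg (fun x : ↥(eiLoc ht hπ) => (x : L)) hq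
      simpa using this
    have h0 : EIPiLoc ht hπ (∏ k ∈ Finset.range p, (z - (k : L))) := by
      rw [hq']
      exact hz1.add ht hπ (hpL.mul_right ht hπ q.2)
    have h0' : EIPiLoc ht hπ ((∏ k ∈ Finset.range p, (z - (k : L))) ^ (p - 1)) := by
      obtain ⟨n, hn⟩ : ∃ n, p - 1 = n + 1 := ⟨p - 2, by have := hp.two_le; omega⟩
      rw [hn, pow_succ]
      exact h0.mul_left ht hπ (Subring.pow_mem _ (h0.mem_loc ht hπ) n)
    have h1 := h0'.sub ht hπ hprod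
    have e : (∏ k ∈ Finset.range p, (z - (k : L))) ^ (p - 1) -
        ((∏ k ∈ Finset.range p, (z - (k : L))) ^ (p - 1) - 1) = 1 := by ring
    rw [e] at h1
    exact ei_not_piLoc_one ht hπ h1

end Main

end Fermat.Agent.S33
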