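import Fermat.Agent.UNIP.KummerSplit
import Fermat.Agent.S33.WildIdem
import Fermat.Agent.S33.WildAlg

/-!
# S33 v2, C4 (WILD), piece T1 = W6: the wild Kummer glue

Wild twin of `UNIP/KummerSplit.lean` (`ks_main_gen`).  Chart setting of
`INJ.zariski_connected_charts` for a field `F` (`A₀` DVR, `π`, `E = Frac A₀` of characteristic `0`,
`t : F` transcendental, `F / E(t)` finite, `E` algebraically closed in `F`).  Here `p` is a prime
with `p ∈ π A₀` (NOT invertible), `ζ ∈ A₀` a primitive `p`-th root of unity, `lam := ζ − 1 ∈ π A₀`.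

`wk_main_gen`: let `w ∈ F^×` with

* (G) `w ≡ 1 mod lam^p · π` on the special fibre: `w − 1 = lam^p · x`, `EIPiLoc x`;
* (L) `WKLocal` on both charts: at every closed point `𝔫 ∋ π` there are `s ∉ 𝔫` and `g ∈ F` with
  `(g^p w − s^p) / lam^p` integral over the chart and `s ≡ g mod lam · π` on the special fibre.
  (From a local shape `w = ε γ^p`, `ε ∈ 1 + lam^p R_𝔫`, `γ ≡ 1 mod lam π` at the vertical primes
  through `𝔫`: `g := s / γ`, `s ∉ 𝔫` a denominator vanishing to high order on the other vertical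
  primes.)

Then `w = c · h ^ p` with a constant `c ∈ E^×`.

Proof: `L := F[X]/(X^p − w)`, `y` the root, `z := (y − 1)/lam`.  `∏_{k<p} (z − η_k) = x`
(`wk_prod_eta`), so `z` is semilocally integral and `z^p − z ≡ 0` on the special fibre; local
approximations `T := (g y − s)/lam` of `s z` (root of `∏ (Z − s η_k) − (g^p w − s^p)/lam^p`);
`ρ : y ↦ ζ⁻¹ y` has `ρ z − z + 1 = lam ζ⁻¹ (1 − z) ≡ 0`; `wi_false_of_aut`.
-/

set_option autoImplicit false
set_option linter.unusedSectionVars false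
set_option linter.style.haveILetI false

namespace Fermat.Agent.S33

open Polynomial IntermediateField Fermat.Agent.INJ Fermat.Agent.UNIP

section Loc

variable {A₀ E L : Type*} [CommRing A₀] [IsDomain A₀] [IsDiscreteValuationRing A₀]
  [Field E] [Algebra A₀ E] [IsFractionRing A₀ E] [CharZero E]
  [Field L] [Algebra E L] [Algebra A₀ L] [IsScalarTower A₀ E L]
  {π : A₀} {u : L}

/-- constants are integral over the chart -/
theorem wk_isIntegral_const (u : L) (a : A₀) :
    IsIntegral (Algebra.adjoin A₀ ({u} : Set L)) (algebraMap A₀ L a) :=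
  isIntegral_algebraMap (R := ↥(Algebra.adjoin A₀ ({u} : Set L)))
    (x := algebraMap A₀ ↥(Algebra.adjoin A₀ ({u} : Set L)) a)

/-- multiples of `π` in `A₀` vanish on the special fibre -/
theorem wk_piLoc_const (hu : Transcendental E u) (hπ : Irreducible π) {a : A₀} (ha : π ∣ a) :
    EIPiLoc hu hπ (algebraMap A₀ L a) := by
  obtain ⟨q, rfl⟩ := ha
  exact ⟨algebraMap A₀ L q, eiLoc_algebraMap hu hπ q, map_mul _ _ _⟩

/-- products of congruent factors are congruent -/
theorem wk_prod_congr (hu : Transcendental E u) (hπ : Irreducible π) {ι : Type*}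
    (s : Finset ι) (a b : ι → L) (hb : ∀ i ∈ s, b i ∈ eiLoc hu hπ)
    (h : ∀ i ∈ s, EIPiLoc hu hπ (a i - b i)) :
    EIPiLoc hu hπ (∏ i ∈ s, a i - ∏ i ∈ s, b i) := by
  classical
  induction s using Finset.induction_on with
  | empty => simpa using eiPiLoc_zero hu hπ
  | insert c s hc ih =>
    rw [Finset.prod_insert hc, Finset.prod_insert hc]
    have h1 := h c (Finset.mem_insert_self c s)
    have hbc := hb c (Finset.mem_insert_self c s)
    have h2 := ih (fun i hi => hb i (Finset.mem_insert_of_mem hi))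
      (fun i hi => h i (Finset.mem_insert_of_mem hi))
    have hac : a c ∈ eiLoc hu hπ := by
      have := Subring.add_mem _ (h1.mem_loc hu hπ) hbc
      simpa using this
    have hpb : ∏ i ∈ s, b i ∈ eiLoc hu hπ :=
      Subring.prod_mem _ fun i hi => hb i (Finset.mem_insert_of_mem hi)
    have h3 := (h2.mul_left hu hπ hac).add hu hπ (h1.mul_right hu hπ hpb)
    have e : a c * (∏ i ∈ s, a i - ∏ i ∈ s, b i) + (a c - b c) * ∏ i ∈ s, b i =
        a c * ∏ i ∈ s, a i - b c * ∏ i ∈ s, b i := by ring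
    rwa [e] at h3

/-- the geometric sums `η_k` are `≡ k` modulo `ζ − 1` -/
theorem wk_eta_sub_dvd (ζ : A₀) (k : ℕ) :
    (ζ - 1) ∣ (∑ i ∈ Finset.range k, ζ ^ i) - (k : A₀) := by
  have h1 : (∑ i ∈ Finset.range k, ζ ^ i) - (k : A₀) = ∑ i ∈ Finset.range k, (ζ ^ i - 1) := by
    rw [Finset.sum_sub_distrib]
    simp
  rw [h1]
  refine Finset.dvd_sum fun i _ => ?_
  have := sub_dvd_pow_sub_pow ζ 1 i
  rwa [one_pow] at this

/-- **Semilocal integrality and the Artin–Schreier congruence.**  If `lam z = y − 1` and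
`y ^ p − 1 = lam ^ p · x` with `x ≡ 0` on the special fibre, then `z` is semilocally integral and
`z ^ p ≡ z` on the special fibre (`lam = ζ − 1`, `π ∣ lam`, `π ∣ p`). -/
theorem wk_artinSchreier (hu : Transcendental E u) (hπ : Irreducible π)
    {p : ℕ} (hp : p.Prime) (hpπ : π ∣ (p : A₀)) {ζ : A₀} (hζ : IsPrimitiveRoot ζ p)
    (hlam : π ∣ ζ - 1) {y z x : L}
    (hz : algebraMap A₀ L (ζ - 1) * z = y - 1)
    (hx : EIPiLoc hu hπ x) (hyx : y ^ p - 1 = algebraMap A₀ L (ζ - 1) ^ p * x) :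
    z ∈ eiLoc hu hπ ∧ EIPiLoc hu hπ (z ^ p - z) := by
  have hinj : Function.Injective (algebraMap A₀ L) :=
    zch_algebraMap_injective (A₀ := A₀) (E := E)
  have hζL : IsPrimitiveRoot (algebraMap A₀ L ζ) p := hζ.map_of_injective hinj
  have hlam0 : algebraMap A₀ L (ζ - 1) ≠ 0 := by
    rw [Ne, map_eq_zero_iff _ hinj, sub_eq_zero]
    exact hζ.ne_one hp.one_lt
  have hlamL : algebraMap A₀ L (ζ - 1) = algebraMap A₀ L ζ - 1 := by
    rw [map_sub, map_one]
  -- the Kummer / Artin–Schreier substitution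
  have hprod : ∏ k ∈ Finset.range p,
      (z - algebraMap A₀ L (∑ i ∈ Finset.range k, ζ ^ i)) = x := by
    have h1 := wk_prod_eta hp.pos hζL (Y := y) (S := 1) (T := z) (by rw [← hlamL]; exact hz)
    rw [one_pow, hyx, ← hlamL] at h1
    have h2 := mul_left_cancel₀ (pow_ne_zero p hlam0) h1
    rw [← h2]
    refine Finset.prod_congr rfl fun k _ => ?_
    rw [one_mul, map_sum]
    simp only [map_pow]
  -- `z` is semilocally integral
  have hzloc : z ∈ eiLoc hu hπ := by
    obtain ⟨s₀, hs₀, hs₀x⟩ := hx.mem_loc hu hπ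
    have hs₀int : IsIntegral (Algebra.adjoin A₀ {u}) s₀ :=
      isIntegral_algebraMap (R := ↥(Algebra.adjoin A₀ ({u} : Set L))) (x := ⟨s₀, hs₀.1⟩)
    refine ⟨s₀, hs₀, ?_⟩
    refine wk_isIntegral_of_prod hp.pos
      (fun k => s₀ * algebraMap A₀ L (∑ i ∈ Finset.range k, ζ ^ i)) (s₀ ^ (p - 1) * (s₀ * x))
      (s₀ * z) (fun k => hs₀int.mul (wk_isIntegral_const u _)) ((hs₀int.pow _).mul hs₀x) ?_
    have h1 : ∀ k ∈ Finset.range p,
        s₀ * z - s₀ * algebraMap A₀ L (∑ i ∈ Finset.range k, ζ ^ i) =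
          s₀ * (z - algebraMap A₀ L (∑ i ∈ Finset.range k, ζ ^ i)) := fun k _ => by ring
    rw [Finset.prod_congr rfl h1, Finset.prod_mul_distrib, hprod, Finset.prod_const,
      Finset.card_range]
    obtain ⟨n, hn⟩ : ∃ n, p = n + 1 := ⟨p - 1, by have := hp.pos; omega⟩
    rw [hn, Nat.add_sub_cancel]
    ring
  refine ⟨hzloc, ?_⟩
  -- `∏ (z − k) ≡ ∏ (z − η_k) = x ≡ 0`
  have hnat : ∀ k : ℕ, ((k : ℕ) : L) = algebraMap A₀ L (k : A₀) := fun k => by
    rw [map_natCast]
  have hcongr : EIPiLoc hu hπ (∏ k ∈ Finset.range p, (z - (k : L)) -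
      ∏ k ∈ Finset.range p, (z - algebraMap A₀ L (∑ i ∈ Finset.range k, ζ ^ i))) := by
    refine wk_prod_congr hu hπ _ _ _
      (fun k _ => Subring.sub_mem _ hzloc (eiLoc_algebraMap hu hπ _)) fun k _ => ?_
    have e : z - (k : L) - (z - algebraMap A₀ L (∑ i ∈ Finset.range k, ζ ^ i)) =
        algebraMap A₀ L ((∑ i ∈ Finset.range k, ζ ^ i) - (k : A₀)) := by
      rw [map_sub, map_natCast]
      ring
    rw [e]
    exact wk_piLoc_const hu hπ (dvd_trans hlam (wk_eta_sub_dvd ζ k))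
  rw [hprod] at hcongr
  have h0 : EIPiLoc hu hπ (∏ k ∈ Finset.range p, (z - (k : L))) := by
    have := hcongr.add hu hπ hx
    rwa [sub_add_cancel] at this
  -- Fermat's identity in the semilocal ring
  obtain ⟨q, hq⟩ := wi_prod_sub hp (⟨z, hzloc⟩ : ↥(eiLoc hu hπ))
  have hq' : ∏ k ∈ Finset.range p, (z - (k : L)) = z ^ p - z + (p : L) * (q : L) := by
    have := congrArg (fun x : ↥(eiLoc hu hπ) => (x : L)) hq
    simpa using this
  have hpL : EIPiLoc hu hπ ((p : L)) := by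
    have := wk_piLoc_const (L := L) hu hπ hpπ
    rwa [map_natCast] at this
  have h1 := h0.sub hu hπ (hpL.mul_right hu hπ q.2)
  rw [hq'] at h1
  have e : z ^ p - z + (p : L) * (q : L) - (p : L) * (q : L) = z ^ p - z := by ring
  rwa [e] at h1

end Loc

section Transport

variable {A₀ E F L : Type*} [CommRing A₀] [IsDomain A₀] [IsDiscreteValuationRing A₀]
  [Field E] [Algebra A₀ E] [IsFractionRing A₀ E] [CharZero E]
  [Field F] [Algebra E F] [Algebra A₀ F] [IsScalarTower A₀ E F]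
  [Field L] [Algebra E L] [Algebra A₀ L] [IsScalarTower A₀ E L]
  [Algebra F L] [IsScalarTower E F L] [IsScalarTower A₀ F L]
  {π : A₀} {u : F}

/-- **The wild local hypothesis (L)** at the chart `u` of `F`: at every closed point `𝔫 ∋ π` of
the chart there are `s ∉ 𝔫` and `g ∈ F` with `(g ^ p w − s ^ p) / lam ^ p` integral over the chart
and `s ≡ g mod lam · π` on the special fibre. -/
def WKLocal (hu : Transcendental E u) (hπ : Irreducible π) (p : ℕ) (lam : A₀) (w : F) : Prop :=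
  ∀ 𝔫 : Ideal ↥(zchClosure (A₀ := A₀) ({u} : Set F)), 𝔫.IsMaximal →
    algebraMap A₀ ↥(zchClosure (A₀ := A₀) ({u} : Set F)) π ∈ 𝔫 →
    ∃ s : ↥(zchClosure (A₀ := A₀) ({u} : Set F)), s ∉ 𝔫 ∧ ∃ g β x : F,
      g ^ p * w - (s : F) ^ p = algebraMap A₀ F lam ^ p * β ∧
      IsIntegral (Algebra.adjoin A₀ {u}) β ∧
      EIPiLoc hu hπ x ∧ (s : F) - g = algebraMap A₀ F lam * x

/-- Transport of the wild local data from `F` to `L = F(y)`, `y ^ p = w`, `lam z = y − 1`:
`b := s`, `T := (g y − s) / lam`. -/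
theorem wk_local (hu : Transcendental E u) (hπ : Irreducible π) {p : ℕ} (hp : p.Prime)
    {ζ : A₀} (hζ : IsPrimitiveRoot ζ p) {w : F}
    (hloc : WKLocal hu hπ p (ζ - 1) w) {y z : L} (hy : y ^ p = algebraMap F L w)
    (hz : algebraMap A₀ L (ζ - 1) * z = y - 1)
    {uL : L} (huL : algebraMap F L u = uL) (huLt : Transcendental E uL)
    (hyloc : y ∈ eiLoc huLt hπ) :
    ∀ 𝔑 : Ideal ↥(zchClosure (A₀ := A₀) ({uL} : Set L)), 𝔑.IsMaximal →
      algebraMap A₀ ↥(zchClosure (A₀ := A₀) ({uL} : Set L)) π ∈ 𝔑 →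
      ∃ b T : ↥(zchClosure (A₀ := A₀) ({uL} : Set L)),
        b ∉ 𝔑 ∧ EIPiLoc huLt hπ ((b : L) * z - (T : L)) := by
  subst huL
  intro 𝔑 h𝔑 hπ𝔑
  have hinj : Function.Injective (algebraMap A₀ L) :=
    zch_algebraMap_injective (A₀ := A₀) (E := E)
  have hζL : IsPrimitiveRoot (algebraMap A₀ L ζ) p := hζ.map_of_injective hinj
  have hlam0 : algebraMap A₀ L (ζ - 1) ≠ 0 := by
    rw [Ne, map_eq_zero_iff _ hinj, sub_eq_zero]
    exact hζ.ne_one hp.one_lt
  have hlamL : algebraMap A₀ L (ζ - 1) = algebraMap A₀ L ζ - 1 := by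
    rw [map_sub, map_one]
  have hne : 𝔑.comap (ksClosureMap (A₀ := A₀) (L := L) u) ≠ ⊤ :=
    Ideal.comap_ne_top _ h𝔑.ne_top
  obtain ⟨𝔫, h𝔫, hle⟩ := Ideal.exists_le_maximal _ hne
  have hπ𝔫 : algebraMap A₀ ↥(zchClosure (A₀ := A₀) ({u} : Set F)) π ∈ 𝔫 := by
    apply hle
    rw [Ideal.mem_comap]
    have : ksClosureMap (A₀ := A₀) (L := L) u
        (algebraMap A₀ ↥(zchClosure (A₀ := A₀) ({u} : Set F)) π)
        = algebraMap A₀ ↥(zchClosure (A₀ := A₀) ({algebraMap F L u} : Set L)) π :=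
      Subtype.ext (ks_algebraMap_comm π)
    rw [this]
    exact hπ𝔑
  obtain ⟨s, hs, g, β, x, hgw, hβ, hx, hsg⟩ := hloc 𝔫 h𝔫 hπ𝔫
  set sL : L := algebraMap F L (s : F) with hsL
  set gL : L := algebraMap F L g with hgL
  have hsLint : IsIntegral (Algebra.adjoin A₀ {algebraMap F L u}) sL :=
    ks_isIntegral (mem_zchClosure.mp s.2)
  -- the approximation `T₀ = (g y − s) / lam`
  set T₀ : L := (algebraMap A₀ L (ζ - 1))⁻¹ * (gL * y - sL) with hT₀
  have hT₀lam : (algebraMap A₀ L ζ - 1) * T₀ = gL * y - sL := by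
    rw [hT₀, ← hlamL, mul_inv_cancel_left₀ hlam0]
  have hprod : ∏ k ∈ Finset.range p,
      (T₀ - sL * algebraMap A₀ L (∑ i ∈ Finset.range k, ζ ^ i)) = algebraMap F L β := by
    have h1 := wk_prod_eta hp.pos hζL hT₀lam
    have h2 : (gL * y) ^ p - sL ^ p = algebraMap A₀ L (ζ - 1) ^ p * algebraMap F L β := by
      rw [mul_pow, hy, hgL, hsL, ← map_pow, ← map_pow, ← map_mul, ← map_sub, hgw, map_mul,
        map_pow, ks_algebraMap_comm]
    rw [h2, ← hlamL] at h1
    have h3 := mul_left_cancel₀ (pow_ne_zero p hlam0) h1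
    rw [← h3]
    refine Finset.prod_congr rfl fun k _ => ?_
    rw [map_sum]
    simp only [map_pow]
  have hT₀int : IsIntegral (Algebra.adjoin A₀ {algebraMap F L u}) T₀ :=
    wk_isIntegral_of_prod hp.pos
      (fun k => sL * algebraMap A₀ L (∑ i ∈ Finset.range k, ζ ^ i)) (algebraMap F L β) T₀
      (fun k => hsLint.mul (wk_isIntegral_const _ _)) (ks_isIntegral hβ) hprod
  refine ⟨ksClosureMap (A₀ := A₀) (L := L) u s, ⟨T₀, mem_zchClosure.mpr hT₀int⟩, ?_, ?_⟩
  · intro hmem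
    exact hs (hle (Ideal.mem_comap.mpr hmem))
  · have e2 : sL * z - T₀ = algebraMap F L x * y := by
      have h4 : algebraMap A₀ L (ζ - 1) * (sL * z - T₀) =
          algebraMap A₀ L (ζ - 1) * (algebraMap F L x * y) := by
        have h5 : sL - gL = algebraMap A₀ L (ζ - 1) * algebraMap F L x := by
          rw [hsL, hgL, ← map_sub, hsg, map_mul, ks_algebraMap_comm]
        rw [hlamL] at h5 hz ⊢
        linear_combination sL * hz - hT₀lam + y * h5
      exact mul_left_cancel₀ hlam0 h4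
    change EIPiLoc huLt hπ (sL * z - T₀)
    rw [e2]
    exact (ks_piLoc hu hπ hx).mul_right _ hπ hyloc

end Transport

section Main

variable {A₀ E F : Type*} [CommRing A₀] [IsDomain A₀] [IsDiscreteValuationRing A₀]
  [Field E] [Algebra A₀ E] [IsFractionRing A₀ E] [CharZero E]
  [Field F] [Algebra E F] [Algebra A₀ F] [IsScalarTower A₀ E F]
  {π : A₀} {t : F}

/-- **Wild Kummer glue** (S33 C4, T1 = W6).  In the chart setting for `F`, with `p` a prime,
`π ∣ p`, `ζ ∈ A₀` a primitive `p`-th root of unity, `lam := ζ − 1 ∈ π A₀`: a function `w ∈ F^×`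
with `w ≡ 1 mod lam ^ p π` on the special fibre (`hG`) and with the wild local shape `WKLocal` at
every closed point of the special fibre of both charts is a constant times a `p`-th power. -/
theorem wk_main_gen (hπ : Irreducible π) (ht : Transcendental E t)
    [FiniteDimensional (IntermediateField.adjoin E {t}) F]
    (hcl : ∀ x : F, IsAlgebraic E x → x ∈ (algebraMap E F).range)
    {p : ℕ} (hp : p.Prime) (hpπ : π ∣ (p : A₀)) {ζ : A₀} (hζ : IsPrimitiveRoot ζ p)
    (hlam : π ∣ ζ - 1)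
    {w : F} (hw : w ≠ 0)
    (hG : ∃ x : F, EIPiLoc ht hπ x ∧ w - 1 = algebraMap A₀ F (ζ - 1) ^ p * x)
    (hL₁ : WKLocal ht hπ p (ζ - 1) w)
    (hL₂ : WKLocal (zch_transcendental_inv ht) hπ p (ζ - 1) w) :
    ∃ c : E, c ≠ 0 ∧ ∃ h : F, w = algebraMap E F c * h ^ p := by
  classical
  by_cases hirr : Irreducible (X ^ p - C w : F[X])
  swap
  · rw [X_pow_sub_C_irreducible_iff_of_prime hp] at hirr
    simp only [not_forall, not_not] at hirr
    obtain ⟨b, hb⟩ := hirr
    exact ⟨1, one_ne_zero, b, by rw [map_one, one_mul, hb]⟩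
  haveI : Fact (Irreducible (X ^ p - C w : F[X])) := ⟨hirr⟩
  have hy : AdjoinRoot.root (X ^ p - C w : F[X]) ^ p
      = algebraMap F (AdjoinRoot (X ^ p - C w : F[X])) w := by
    rw [root_X_pow_sub_C_pow, AdjoinRoot.algebraMap_eq]
  -- the inverse root of unity
  have hcop : Nat.Coprime (p - 1) p := by
    refine ((Nat.Prime.coprime_iff_not_dvd hp).mpr fun h => ?_).symm
    have h1 := Nat.le_of_dvd (by have := hp.two_le; omega) h
    have := hp.two_le
    omega
  have hζ' : IsPrimitiveRoot (ζ ^ (p - 1)) p := hζ.pow_of_coprime (p - 1) hcop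
  have hζζ' : ζ * ζ ^ (p - 1) = 1 := by
    rw [← pow_succ', Nat.sub_add_cancel hp.one_le, hζ.pow_eq_one]
  have hζE : IsPrimitiveRoot (algebraMap A₀ E (ζ ^ (p - 1))) p :=
    hζ'.map_of_injective (IsFractionRing.injective A₀ E)
  have hζF : IsPrimitiveRoot (algebraMap E F (algebraMap A₀ E (ζ ^ (p - 1)))) p :=
    hζE.map_of_injective (algebraMap E F).injective
  -- the Kummer automorphism `y ↦ ζ⁻¹ y`
  have hρwd : (X ^ p - C w : F[X]).eval₂ (Algebra.ofId F (AdjoinRoot (X ^ p - C w : F[X])))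
      (algebraMap F (AdjoinRoot (X ^ p - C w : F[X]))
          (algebraMap E F (algebraMap A₀ E (ζ ^ (p - 1)))) *
        AdjoinRoot.root (X ^ p - C w : F[X])) = 0 := by
    rw [eval₂_sub, eval₂_pow, eval₂_X, eval₂_C, mul_pow, hy, ← map_pow, hζF.pow_eq_one, map_one,
      one_mul]
    exact sub_self _
  set ρ : AdjoinRoot (X ^ p - C w : F[X]) →ₐ[F] AdjoinRoot (X ^ p - C w : F[X]) :=
    AdjoinRoot.liftAlgHom (X ^ p - C w : F[X])
      (Algebra.ofId F (AdjoinRoot (X ^ p - C w : F[X])))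
      (algebraMap F (AdjoinRoot (X ^ p - C w : F[X]))
          (algebraMap E F (algebraMap A₀ E (ζ ^ (p - 1)))) *
        AdjoinRoot.root (X ^ p - C w : F[X])) hρwd with hρdef
  have hρ : ρ (AdjoinRoot.root (X ^ p - C w : F[X]))
      = algebraMap E (AdjoinRoot (X ^ p - C w : F[X])) (algebraMap A₀ E (ζ ^ (p - 1))) *
        AdjoinRoot.root (X ^ p - C w : F[X]) := by
    rw [hρdef, AdjoinRoot.liftAlgHom_root, ← IsScalarTower.algebraMap_apply]
  rcases ks_dichotomy hcl hp hζE hw hy (ks_gen hp.pos w) ρ hρ with hclL | hres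
  swap
  · exact hres
  exfalso
  haveI : FiniteDimensional F (AdjoinRoot (X ^ p - C w : F[X])) :=
    (AdjoinRoot.powerBasis hirr.ne_zero).finite
  haveI := ks_finiteDimensional (E := E) (L := AdjoinRoot (X ^ p - C w : F[X])) t
  have htL := ks_transcendental (L := AdjoinRoot (X ^ p - C w : F[X])) ht
  have hinjA : Function.Injective (algebraMap A₀ (AdjoinRoot (X ^ p - C w : F[X]))) :=
    zch_algebraMap_injective (A₀ := A₀) (E := E)
  have hlam0 : algebraMap A₀ (AdjoinRoot (X ^ p - C w : F[X])) (ζ - 1) ≠ 0 := by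
    rw [Ne, map_eq_zero_iff _ hinjA, sub_eq_zero]
    exact hζ.ne_one hp.one_lt
  have hρA : ∀ a : A₀, ρ (algebraMap A₀ (AdjoinRoot (X ^ p - C w : F[X])) a)
      = algebraMap A₀ (AdjoinRoot (X ^ p - C w : F[X])) a := by
    intro a
    rw [IsScalarTower.algebraMap_apply A₀ F (AdjoinRoot (X ^ p - C w : F[X])), AlgHom.commutes]
  -- the Artin–Schreier coordinate
  set y : AdjoinRoot (X ^ p - C w : F[X]) := AdjoinRoot.root (X ^ p - C w : F[X]) with hydef
  set z : AdjoinRoot (X ^ p - C w : F[X]) :=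
    (algebraMap A₀ (AdjoinRoot (X ^ p - C w : F[X])) (ζ - 1))⁻¹ * (y - 1) with hzdef
  have hz : algebraMap A₀ (AdjoinRoot (X ^ p - C w : F[X])) (ζ - 1) * z = y - 1 := by
    rw [hzdef, mul_inv_cancel_left₀ hlam0]
  obtain ⟨x, hx, hwx⟩ := hG
  have hxL := ks_piLoc (L := AdjoinRoot (X ^ p - C w : F[X])) ht hπ hx
  have hyx : y ^ p - 1 = algebraMap A₀ (AdjoinRoot (X ^ p - C w : F[X])) (ζ - 1) ^ p *
      algebraMap F (AdjoinRoot (X ^ p - C w : F[X])) x := by
    rw [hy, ← map_one (algebraMap F (AdjoinRoot (X ^ p - C w : F[X]))), ← map_sub, hwx, map_mul,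
      map_pow, ks_algebraMap_comm]
  obtain ⟨hzloc, hz1⟩ := wk_artinSchreier htL hπ hp hpπ hζ hlam hz hxL hyx
  have hyloc : y ∈ eiLoc htL hπ := by
    have e : y = 1 + algebraMap A₀ (AdjoinRoot (X ^ p - C w : F[X])) (ζ - 1) * z := by
      rw [hz]; ring
    rw [e]
    exact add_mem (one_mem _) (mul_mem (eiLoc_algebraMap htL hπ _) hzloc)
  have hyloc' : y ∈ eiLoc (zch_transcendental_inv htL) hπ := by
    rw [eiLoc_inv_eq htL hπ]
    exact hyloc
  refine wi_false_of_aut hπ htL hclL hp hpπ hzloc hz1 ?_ ?_ ρ.toRingHom hρA ?_ ?_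
  · exact wk_local ht hπ hp hζ hL₁ hy hz rfl htL hyloc
  · exact wk_local (zch_transcendental_inv ht) hπ hp hζ hL₂ hy hz (map_inv₀ _ t)
      (zch_transcendental_inv htL) hyloc'
  · change ρ (algebraMap F (AdjoinRoot (X ^ p - C w : F[X])) t) = _
    rw [AlgHom.commutes]
  · -- `ρ z − z + 1 = lam ζ⁻¹ (1 − z)`
    change EIPiLoc htL hπ (ρ z - z + 1)
    have hρy : ρ y = algebraMap A₀ (AdjoinRoot (X ^ p - C w : F[X])) (ζ ^ (p - 1)) * y := by
      rw [hydef, hρ, ← IsScalarTower.algebraMap_apply]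
    have hρz : algebraMap A₀ (AdjoinRoot (X ^ p - C w : F[X])) (ζ - 1) * ρ z
        = algebraMap A₀ (AdjoinRoot (X ^ p - C w : F[X])) (ζ ^ (p - 1)) * y - 1 := by
      have := congrArg ρ hz
      rwa [map_mul, hρA, map_sub ρ, map_one ρ, hρy] at this
    have h1 : algebraMap A₀ (AdjoinRoot (X ^ p - C w : F[X])) ζ *
        algebraMap A₀ (AdjoinRoot (X ^ p - C w : F[X])) (ζ ^ (p - 1)) = 1 := by
      rw [← map_mul, hζζ', map_one]
    have hlamL : algebraMap A₀ (AdjoinRoot (X ^ p - C w : F[X])) (ζ - 1)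
        = algebraMap A₀ (AdjoinRoot (X ^ p - C w : F[X])) ζ - 1 := by
      rw [map_sub, map_one]
    have e : ρ z - z + 1 = algebraMap A₀ (AdjoinRoot (X ^ p - C w : F[X]))
        ((ζ - 1) * ζ ^ (p - 1)) * (1 - z) := by
      apply mul_left_cancel₀ hlam0
      rw [map_mul (algebraMap A₀ (AdjoinRoot (X ^ p - C w : F[X]))) (ζ - 1)]
      rw [hlamL] at hz hρz ⊢
      linear_combination hρz - hz +
        (algebraMap A₀ (AdjoinRoot (X ^ p - C w : F[X])) ζ - 1) *
          algebraMap A₀ (AdjoinRoot (X ^ p - C w : F[X])) (ζ ^ (p - 1)) * hz +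
        (y - algebraMap A₀ (AdjoinRoot (X ^ p - C w : F[X])) ζ + 1) * h1
    rw [e]
    exact (wk_piLoc_const htL hπ (Dvd.dvd.mul_right hlam _)).mul_right _ hπ
      (sub_mem (one_mem _) hzloc)

end Main

end Fermat.Agent.S33
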