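import Fermat.Agent.UNIP.AbstractT
import Fermat.Agent.S33.WildGlue

/-!
# S33 v2, C4 (WILD): the adapter "wild shape ⇒ wild Kummer glue"  (abstract theorem (T′)-wild)

Wild twin of `UNIP/Adapter.lean` (`ad_ksLocal_point`, `ad_ksLocal'`, `ad_hP`) and of
`UNIP.at_hP`.  Chart setting for `F / E(t)` over the DVR `A₀` (uniformizer `π`, `π ∣ p`,
`ζ ∈ A₀` a primitive `p`-th root of unity, `lam = ζ − 1 ∈ π A₀`), `V c` the vertical valuation rings.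

* `WkShape V O inc p lam w` : the **wild local shape**:
  (G) `w − 1 = lam ^ p · x` with `x ∈ 𝔪(V c)` for all `c`;
  (L) at every point `i`: `w = ε · γ ^ p` with `ε − 1 = lam ^ p · r`, `r ∈ O i`, and
      `γ − 1 = lam · x`, `x ∈ 𝔪(V c)` for the components `c` through `i`.
* `wka_local_point` : the adapter at one closed point of a chart.
* `wka_local`       : `WkShape ⇒ WKLocal` at the chart `u`.
* `wka_hP`          : **(T′)-wild**: `WkShape ⇒ w ∈ E^× · F^{× p}`.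
* `wka_hP_at`       : the same for the canonical points `ι = AtPt π t ⊕ AtPt π t⁻¹`,
  `O = atO π t`, `inc = atInc π t V` of `UNIP/AbstractT.lean`.
-/

set_option autoImplicit false
set_option linter.unusedSectionVars false
set_option linter.unusedVariables false
set_option linter.style.haveILetI false

namespace Fermat.Agent.S33

open Polynomial IntermediateField Fermat.Agent.INJ Fermat.Agent.UNIP

section Shape

variable {F : Type*} [Field F] {ι κ : Type*}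

/-- The **wild local shape** of `w` for the prime `p` and the depth parameter `lam = ζ − 1`:
`w ≡ 1 mod lam ^ p 𝔪` at every vertical valuation, and at every closed point `w = ε · γ ^ p` with
`ε ≡ 1 mod lam ^ p O i` and `γ ≡ 1 mod lam 𝔪` at the vertical valuations through the point. -/
def WkShape (V : κ → ValuationSubring F) (O : ι → Subring F) (inc : ι → κ → Prop)
    (p : ℕ) (lam w : F) : Prop :=
  (∃ x : F, (∀ c, x ∈ (V c).nonunits) ∧ w - 1 = lam ^ p * x) ∧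
    ∀ i, ∃ ε γ r : F, r ∈ O i ∧ ε - 1 = lam ^ p * r ∧
      (∀ c, inc i c → ∃ x ∈ (V c).nonunits, γ - 1 = lam * x) ∧ w = ε * γ ^ p

end Shape

section Adapter

variable {A₀ E F : Type*} [CommRing A₀] [IsDomain A₀] [IsDiscreteValuationRing A₀]
  [Field E] [Algebra A₀ E] [IsFractionRing A₀ E] [CharZero E]
  [Field F] [Algebra E F] [Algebra A₀ F] [IsScalarTower A₀ E F]
  {π : A₀} {u : F} {κ ι : Type*}

/-- **WILD ADAPTER at one closed point.**  `𝔫` a prime of the chart `B_u`, `thr c` = "the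
component `c` passes through `𝔫`"; for the other components there is `b ∈ B_u ∖ 𝔫` vanishing on
`c`.  A datum `w = ε · γ ^ p` with `ε − 1 = lam ^ p r`, `r ∈ B_𝔫`, and `γ ≡ 1 mod lam 𝔪(V c)` at
the components through `𝔫` gives the data of `WKLocal` at `𝔫`. -/
theorem wka_local_point (hu : Transcendental E u) (hπ : Irreducible π)
    [Finite κ] (V : κ → ValuationSubring F)
    (hBV : ∀ c (b : F), IsIntegral ↥(Algebra.adjoin A₀ {u}) b → b ∈ V c)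
    (hdict : ∀ x : F, (∀ c, x ∈ (V c).nonunits) → EIPiLoc hu hπ x)
    (harch : ∀ c (a x : F), a ∈ (V c).nonunits → ∃ N : ℕ, a ^ N * x ∈ (V c).nonunits)
    (𝔫 : Ideal ↥(zchClosure (A₀ := A₀) ({u} : Set F))) [h𝔫 : 𝔫.IsPrime]
    (thr : κ → Prop)
    (hthr : ∀ c, ¬ thr c →
      ∃ b : ↥(zchClosure (A₀ := A₀) ({u} : Set F)), b ∉ 𝔫 ∧ (b : F) ∈ (V c).nonunits)
    {p : ℕ} (hp : 0 < p) {lam : A₀} (hlam : lam ≠ 0) {w ε γ r : F} (hγ0 : γ ≠ 0)
    (hε : ε - 1 = algebraMap A₀ F lam ^ p * r)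
    (hr : ∃ b s₁ : ↥(zchClosure (A₀ := A₀) ({u} : Set F)), s₁ ∉ 𝔫 ∧ (s₁ : F) * r = b)
    (hγ : ∀ c, thr c → ∃ x ∈ (V c).nonunits, γ - 1 = algebraMap A₀ F lam * x)
    (hw : w = ε * γ ^ p) :
    ∃ s : ↥(zchClosure (A₀ := A₀) ({u} : Set F)), s ∉ 𝔫 ∧ ∃ g β x : F,
      g ^ p * w - (s : F) ^ p = algebraMap A₀ F lam ^ p * β ∧
      IsIntegral (Algebra.adjoin A₀ {u}) β ∧
      EIPiLoc hu hπ x ∧ (s : F) - g = algebraMap A₀ F lam * x := by
  classical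
  haveI : Fintype κ := Fintype.ofFinite κ
  obtain ⟨b, s₁, hs₁, hsb⟩ := hr
  have hinj : Function.Injective (algebraMap A₀ F) :=
    zch_algebraMap_injective (A₀ := A₀) (E := E)
  have hlamF : algebraMap A₀ F lam ≠ 0 := by
    rwa [Ne, map_eq_zero_iff _ hinj]
  have hlamV : ∀ c, algebraMap A₀ F lam ∈ V c := fun c =>
    hBV c _ (wk_isIntegral_const u lam)
  have h1𝔫 : (1 : ↥(zchClosure (A₀ := A₀) ({u} : Set F))) ∉ 𝔫 := fun h =>
    h𝔫.ne_top ((Ideal.eq_top_iff_one 𝔫).mpr h)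
  -- the multipliers
  have hmult : ∀ c, ∃ bc : ↥(zchClosure (A₀ := A₀) ({u} : Set F)), bc ∉ 𝔫 ∧
      (bc : F) * ((γ - 1) / (algebraMap A₀ F lam * γ)) ∈ (V c).nonunits := by
    intro c
    by_cases hc : thr c
    · refine ⟨1, h1𝔫, ?_⟩
      obtain ⟨x, hx, hγx⟩ := hγ c hc
      have h1 : γ - 1 ∈ (V c).nonunits := by
        rw [hγx]
        exact pwi_mul_mem_nonunits (V c) (hlamV c) hx
      have h2 : (V c).valuation γ = 1 := pwi_val_eq_one (V c) h1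
      have e : (γ - 1) / (algebraMap A₀ F lam * γ) = x / γ := by
        rw [hγx]
        field_simp
      rw [e]
      rw [ValuationSubring.mem_nonunits_iff] at hx ⊢
      push_cast
      rw [one_mul, map_div₀, h2, div_one]
      exact hx
    · obtain ⟨b', hb', hb'V⟩ := hthr c hc
      obtain ⟨N, hN⟩ := harch c (b' : F) ((γ - 1) / (algebraMap A₀ F lam * γ)) hb'V
      refine ⟨b' ^ N, fun h => hb' (h𝔫.mem_of_pow_mem N h), ?_⟩
      push_cast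
      exact hN
  choose bc hbc hbcV using hmult
  set b₀ : ↥(zchClosure (A₀ := A₀) ({u} : Set F)) := ∏ c, bc c with hb₀
  have hb₀𝔫 : b₀ ∉ 𝔫 := by
    intro h
    obtain ⟨c, -, hc⟩ := (Ideal.IsPrime.prod_mem_iff).mp h
    exact hbc c hc
  have hmemV : ∀ (x : ↥(zchClosure (A₀ := A₀) ({u} : Set F))) (c : κ), (x : F) ∈ V c :=
    fun x c => hBV c _ (mem_zchClosure.mp x.2)
  refine ⟨b₀ * s₁, fun h => ?_, ((b₀ * s₁ : ↥(zchClosure (A₀ := A₀) ({u} : Set F))) : F) / γ,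
    ((b₀ ^ p * s₁ ^ (p - 1) * b : ↥(zchClosure (A₀ := A₀) ({u} : Set F))) : F),
    ((b₀ * s₁ : ↥(zchClosure (A₀ := A₀) ({u} : Set F))) : F) *
      ((γ - 1) / (algebraMap A₀ F lam * γ)), ?_, ?_, ?_, ?_⟩
  · rcases h𝔫.mem_or_mem h with h' | h'
    · exact hb₀𝔫 h'
    · exact hs₁ h'
  · -- `g ^ p * w − s ^ p = lam ^ p * (b₀ ^ p * s₁ ^ (p - 1) * b)`
    have h2 : (s₁ : F) ^ p = (s₁ : F) ^ (p - 1) * (s₁ : F) := by
      rw [← pow_succ, Nat.sub_add_cancel hp]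
    have h3 : ε = 1 + algebraMap A₀ F lam ^ p * r := by
      rw [← hε]; ring
    push_cast
    rw [hw, div_pow, mul_pow, h2, ← hsb, h3]
    field_simp
    ring
  · exact mem_zchClosure.mp (b₀ ^ p * s₁ ^ (p - 1) * b).2
  · apply hdict
    intro c
    have e : ((b₀ * s₁ : ↥(zchClosure (A₀ := A₀) ({u} : Set F))) : F) *
          ((γ - 1) / (algebraMap A₀ F lam * γ))
        = ((s₁ * ∏ c' ∈ Finset.univ.erase c, bc c' :
            ↥(zchClosure (A₀ := A₀) ({u} : Set F))) : F) *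
          ((bc c : F) * ((γ - 1) / (algebraMap A₀ F lam * γ))) := by
      have hprod : b₀ = bc c * ∏ c' ∈ Finset.univ.erase c, bc c' := by
        rw [hb₀, Finset.mul_prod_erase _ _ (Finset.mem_univ c)]
      rw [hprod]
      push_cast
      ring
    rw [e]
    exact pwi_mul_mem_nonunits (V c) (hmemV _ c) (hbcV c)
  · field_simp

/-- **WILD ADAPTER** `WkShape ⇒ WKLocal` at the chart `u`.  `hcov`: every maximal ideal `𝔫 ∋ π`
of `B_u` is a point `i` of the shape, with `O i ⊆ B_𝔫`, and every component `c` with `¬ inc i c`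
carries some `b ∈ B_u ∖ 𝔫` vanishing on `c`. -/
theorem wka_local (hu : Transcendental E u) (hπ : Irreducible π)
    [Finite κ] (V : κ → ValuationSubring F) (O : ι → Subring F) (inc : ι → κ → Prop)
    (hBV : ∀ c (b : F), IsIntegral ↥(Algebra.adjoin A₀ {u}) b → b ∈ V c)
    (hdict : ∀ x : F, (∀ c, x ∈ (V c).nonunits) → EIPiLoc hu hπ x)
    (harch : ∀ c (a x : F), a ∈ (V c).nonunits → ∃ N : ℕ, a ^ N * x ∈ (V c).nonunits)
    (hcov : ∀ 𝔫 : Ideal ↥(zchClosure (A₀ := A₀) ({u} : Set F)), 𝔫.IsMaximal →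
      algebraMap A₀ ↥(zchClosure (A₀ := A₀) ({u} : Set F)) π ∈ 𝔫 → ∃ i : ι,
        (∀ x ∈ O i, ∃ b s : ↥(zchClosure (A₀ := A₀) ({u} : Set F)), s ∉ 𝔫 ∧ (s : F) * x = b) ∧
        (∀ c, ¬ inc i c →
          ∃ b : ↥(zchClosure (A₀ := A₀) ({u} : Set F)), b ∉ 𝔫 ∧ (b : F) ∈ (V c).nonunits))
    {p : ℕ} (hp : 0 < p) {lam : A₀} (hlam : lam ≠ 0) {w : F} (hw0 : w ≠ 0)
    (hw : WkShape V O inc p (algebraMap A₀ F lam) w) :
    WKLocal hu hπ p lam w := by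
  intro 𝔫 h𝔫 hπ𝔫
  haveI := h𝔫.isPrime
  obtain ⟨i, hOi, hinc⟩ := hcov 𝔫 h𝔫 hπ𝔫
  obtain ⟨ε, γ, r, hr, hε, hγ, hwε⟩ := hw.2 i
  have hγ0 : γ ≠ 0 := by
    rintro rfl
    rw [zero_pow hp.ne', mul_zero] at hwε
    exact hw0 hwε
  exact wka_local_point hu hπ V hBV hdict harch 𝔫 (inc i) hinc hp hlam hγ0 hε (hOi r hr) hγ hwε

/-- **(T′)-wild.**  In the chart setting for `F` (charts `t`, `t⁻¹`), under the dictionary
hypotheses, every `w ≠ 0` of wild shape is a constant times a `p`-th power. -/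
theorem wka_hP (hπ : Irreducible π) {t : F} (ht : Transcendental E t)
    [FiniteDimensional E⟮t⟯ F]
    (hcl : ∀ x : F, IsAlgebraic E x → x ∈ (algebraMap E F).range)
    {p : ℕ} (hp : p.Prime) (hpπ : π ∣ (p : A₀)) {ζ : A₀} (hζ : IsPrimitiveRoot ζ p)
    (hlam : π ∣ ζ - 1)
    [Finite κ] (V : κ → ValuationSubring F) (O : ι → Subring F) (inc : ι → κ → Prop)
    (hBV₁ : ∀ c (b : F), IsIntegral ↥(Algebra.adjoin A₀ {t}) b → b ∈ V c)
    (hBV₂ : ∀ c (b : F), IsIntegral ↥(Algebra.adjoin A₀ {t⁻¹}) b → b ∈ V c)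
    (hSS1 : ∀ b : F, IsIntegral ↥(Algebra.adjoin A₀ {t}) b → (∀ c, b ∈ (V c).nonunits) →
      ∃ b' : F, IsIntegral ↥(Algebra.adjoin A₀ {t}) b' ∧ b = algebraMap A₀ F π * b')
    (harch : ∀ c (a x : F), a ∈ (V c).nonunits → ∃ N : ℕ, a ^ N * x ∈ (V c).nonunits)
    (hcov₁ : ∀ 𝔫 : Ideal ↥(zchClosure (A₀ := A₀) ({t} : Set F)), 𝔫.IsMaximal →
      algebraMap A₀ ↥(zchClosure (A₀ := A₀) ({t} : Set F)) π ∈ 𝔫 → ∃ i : ι,
        (∀ x ∈ O i, ∃ b s : ↥(zchClosure (A₀ := A₀) ({t} : Set F)), s ∉ 𝔫 ∧ (s : F) * x = b) ∧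
        (∀ c, ¬ inc i c →
          ∃ b : ↥(zchClosure (A₀ := A₀) ({t} : Set F)), b ∉ 𝔫 ∧ (b : F) ∈ (V c).nonunits))
    (hcov₂ : ∀ 𝔫 : Ideal ↥(zchClosure (A₀ := A₀) ({t⁻¹} : Set F)), 𝔫.IsMaximal →
      algebraMap A₀ ↥(zchClosure (A₀ := A₀) ({t⁻¹} : Set F)) π ∈ 𝔫 → ∃ i : ι,
        (∀ x ∈ O i, ∃ b s : ↥(zchClosure (A₀ := A₀) ({t⁻¹} : Set F)), s ∉ 𝔫 ∧ (s : F) * x = b) ∧
        (∀ c, ¬ inc i c →
          ∃ b : ↥(zchClosure (A₀ := A₀) ({t⁻¹} : Set F)), b ∉ 𝔫 ∧ (b : F) ∈ (V c).nonunits))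
    {w : F} (hw0 : w ≠ 0) (hw : WkShape V O inc p (algebraMap A₀ F (ζ - 1)) w) :
    ∃ c : E, c ≠ 0 ∧ ∃ h : F, w = algebraMap E F c * h ^ p := by
  have hdict₁ : ∀ x : F, (∀ c, x ∈ (V c).nonunits) → EIPiLoc ht hπ x := fun x hx =>
    ad_piLoc_of_vertical ht hπ V hBV₁ hSS1 hx
  have hdict₂ : ∀ x : F, (∀ c, x ∈ (V c).nonunits) →
      EIPiLoc (zch_transcendental_inv ht) hπ x := fun x hx =>
    (eiPiLoc_inv_iff ht hπ).mpr (hdict₁ x hx)
  have hlam0 : ζ - 1 ≠ 0 := sub_ne_zero.mpr (hζ.ne_one hp.one_lt)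
  obtain ⟨x, hx, hwx⟩ := hw.1
  exact wk_main_gen hπ ht hcl hp hpπ hζ hlam hw0 ⟨x, hdict₁ x hx, hwx⟩
    (wka_local ht hπ V O inc hBV₁ hdict₁ harch hcov₁ hp.pos hlam0 hw0 hw)
    (wka_local (zch_transcendental_inv ht) hπ V O inc hBV₂ hdict₂ harch hcov₂ hp.pos hlam0 hw0 hw)

/-- **(T′)-wild at the canonical points** `ι = AtPt π t ⊕ AtPt π t⁻¹`, `O = atO π t` (the local
rings of the closed points of the special fibre of the two charts), `inc = atInc π t V`. -/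
theorem wka_hP_at (hπ : Irreducible π) {t : F} (ht : Transcendental E t)
    [FiniteDimensional E⟮t⟯ F]
    (hcl : ∀ x : F, IsAlgebraic E x → x ∈ (algebraMap E F).range)
    {p : ℕ} (hp : p.Prime) (hpπ : π ∣ (p : A₀)) {ζ : A₀} (hζ : IsPrimitiveRoot ζ p)
    (hlam : π ∣ ζ - 1)
    [Finite κ] (V : κ → ValuationSubring F)
    (hBV₁ : ∀ c (b : F), IsIntegral ↥(Algebra.adjoin A₀ {t}) b → b ∈ V c)
    (hBV₂ : ∀ c (b : F), IsIntegral ↥(Algebra.adjoin A₀ {t⁻¹}) b → b ∈ V c)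
    (hSS1 : ∀ b : F, IsIntegral ↥(Algebra.adjoin A₀ {t}) b → (∀ c, b ∈ (V c).nonunits) →
      ∃ b' : F, IsIntegral ↥(Algebra.adjoin A₀ {t}) b' ∧ b = algebraMap A₀ F π * b')
    (harch : ∀ c (a x : F), a ∈ (V c).nonunits → ∃ N : ℕ, a ^ N * x ∈ (V c).nonunits)
    {w : F} (hw0 : w ≠ 0)
    (hw : WkShape V (atO π t) (atInc π t V) p (algebraMap A₀ F (ζ - 1)) w) :
    ∃ c : E, c ≠ 0 ∧ ∃ h : F, w = algebraMap E F c * h ^ p := by
  refine wka_hP hπ ht hcl hp hpπ hζ hlam V (atO π t) (atInc π t V) hBV₁ hBV₂ hSS1 harch ?_ ?_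
    hw0 hw
  · intro 𝔫 h𝔫 hπ𝔫
    refine ⟨Sum.inl ⟨𝔫, h𝔫, hπ𝔫⟩, fun x hx => ?_, fun c hc => ats_cov (V c) 𝔫 hc⟩
    obtain ⟨b, s, hs, hsx⟩ := hx
    exact ⟨b, s, hs, hsx⟩
  · intro 𝔫 h𝔫 hπ𝔫
    refine ⟨Sum.inr ⟨𝔫, h𝔫, hπ𝔫⟩, fun x hx => ?_, fun c hc => ats_cov (V c) 𝔫 hc⟩
    obtain ⟨b, s, hs, hsx⟩ := hx
    exact ⟨b, s, hs, hsx⟩

end Adapter

end Fermat.Agent.S33
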