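import Fermat.Agent.S33.WildCubeGen
import Fermat.Agent.ES.G2.HeckeDeg
import Fermat.Agent.INJ.HMMem

/-!
# S33 v2 / C4 / T5j — CUBE DESCENT from level `2N` to level `N` (`N` odd)  (helper61)

`wcu_cube_descent` : `N` odd, `w ∈ F_N`, `h ∈ F_{N·2}` (inside `ℚ̄((q))`), `h³ = w`  ⇒  `∃ g ∈ F_N, g³ = w`.

Proof.  Otherwise `F_{2N} = F_N(h)` is a Kummer extension of degree `3 = [F_{2N} : F_N]`
(`ES.G2.hdeg_relfinrank`), hence Galois.  For `d ∣ N` the dilated Hauptmodul `t_d = hm2(q^d) ∈ F_{2N}`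
is a root of `j_d X² = (X + 256)³` (`INJ.hm2_j`); so are its conjugates, which lie in `ℚ̄((q))`; by the
`q`-order argument of `wcu_root_unique` (`d` is odd) that cubic has only one root in `ℚ̄((q))`: `t_d ∈ F_N`.
Then `j_{2d} = (t_d + 16)³ / t_d ∈ F_N` (`INJ.hm2_j2`), so `F_{2N} ≤ F_N`: contradiction with the degree.
-/

set_option autoImplicit false

noncomputable section

namespace Fermat.Agent.S33

open ModularCurve IntermediateField Fermat.Agent.ES.G2 Fermat.Agent.INJ Fermat.Agent.S24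

/-- `F_N = ℚ̄(j(q^d) : d ∣ N)`. -/
theorem wcu_bar_eq (N : ℕ) : modularFunctionFieldBar N = modularFunctionFieldFullC Kb N :=
  hdeg_laurentBaseChange_full Kb N

/-- the dilated Hauptmodul `hm2(q^d)` lies in `F_{N·2}` for `d ∣ N`. -/
theorem wcu_td_mem (N : ℕ) [NeZero N] {d : ℕ} [NeZero d] (hd : d ∣ N) :
    qExpand Kb d (hm2 Kb) ∈ modularFunctionFieldBar (N * 2) := by
  have h2 : hm2 Kb ∈ modularFunctionFieldFullC Kb 2 := by
    rw [← wcu_bar_eq]
    exact hm2_mem_two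
  have h3 : qExpand Kb d (hm2 Kb) ∈ modularFunctionFieldFullC Kb (2 * d) :=
    full_degeneracyC_map_le Kb 2 d ⟨hm2 Kb, h2, rfl⟩
  rw [wcu_bar_eq]
  have hdvd : 2 * d ∣ N * 2 := by
    rw [mul_comm 2 d]
    exact Nat.mul_dvd_mul_right hd 2
  exact full_degeneracyC_le Kb hdvd h3

theorem wcu_qExpand_congr {e e' : ℕ} [NeZero e] [NeZero e'] (h : e = e')
    (f : LaurentSeries Kb) : qExpand Kb e f = qExpand Kb e' f := by
  subst h
  rfl

theorem wcu_td_ne_zero (d : ℕ) [NeZero d] : qExpand Kb d (hm2 Kb) ≠ 0 :=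
  Fermat.Agent.S28.qExpand_ne_zero hm2_ne_zero

/-- `j_d t_d² = (t_d + 256)³`. -/
theorem wcu_td_j (d : ℕ) [NeZero d] :
    qExpand Kb d (jqModC Kb) * qExpand Kb d (hm2 Kb) ^ 2 = (qExpand Kb d (hm2 Kb) + 256) ^ 3 := by
  have h := congrArg (qExpand Kb d) (hm2_j Kb)
  simpa only [map_mul, map_pow, map_add, map_ofNat] using h

/-- `j_{2d} t_d = (t_d + 16)³`. -/
theorem wcu_td_j2 (d : ℕ) [NeZero d] [NeZero (d * 2)] :
    qExpand Kb (d * 2) (jqModC Kb) * qExpand Kb d (hm2 Kb) = (qExpand Kb d (hm2 Kb) + 16) ^ 3 := by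
  have h := congrArg (qExpand Kb d) (hm2_j2 Kb)
  rw [jqNModC, map_mul, qExpand_qExpand] at h
  simpa only [map_pow, map_add, map_ofNat] using h

/-- the `q`-order valuation of `j(q^d)` is `-d`. -/
theorem wcu_val_jd (d : ℕ) [NeZero d] :
    HahnSeries.addVal ℤ Kb (qExpand Kb d (jqModC Kb)) = ((-(d : ℤ) : ℤ) : WithTop ℤ) := by
  have hne : qExpand Kb d (jqModC Kb) ≠ 0 :=
    Fermat.Agent.S28.qExpand_ne_zero (Fermat.Agent.S28.jqModC_ne_zero Kb)
  rw [HahnSeries.addVal_apply_of_ne hne, Fermat.Agent.S28.order_qExpand,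
    Fermat.Agent.S28.order_jqModC, mul_neg, mul_one]

theorem wcu_val_256 : HahnSeries.addVal ℤ Kb (256 : LaurentSeries Kb) = 0 := by
  have h3 : (256 : LaurentSeries Kb) = HahnSeries.C (256 : Kb) :=
    (map_ofNat (HahnSeries.C : Kb →+* LaurentSeries Kb) 256).symm
  have hne : (256 : LaurentSeries Kb) ≠ 0 := by
    rw [h3, Ne, map_eq_zero]
    norm_num
  rw [HahnSeries.addVal_apply_of_ne hne, h3, HahnSeries.order_C]
  rfl

/-- **Key step**: if `w = h³` is not a cube in `F_N`, the dilated Hauptmoduln lie in `F_N`. -/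
theorem wcu_td_mem_low (N : ℕ) [NeZero N] (hN : ¬ 2 ∣ N) {h : LaurentSeries Kb}
    (hh : h ∈ modularFunctionFieldBar (N * 2)) (hw : h ^ 3 ∈ modularFunctionFieldBar N)
    (hno : ∀ g ∈ modularFunctionFieldBar N, g ^ 3 ≠ h ^ 3) {d : ℕ} [NeZero d] (hd : d ∣ N) :
    qExpand Kb d (hm2 Kb) ∈ modularFunctionFieldBar N := by
  by_contra htK
  have hKL : modularFunctionFieldBar N ≤ modularFunctionFieldBar (N * 2) := hdeg_bar_le N 2
  have hdeg : (modularFunctionFieldBar N).relfinrank (modularFunctionFieldBar (N * 2)) = 3 :=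
    hdeg_relfinrank N 2 Nat.prime_two hN
  have hζ : (primitiveRoots 3 Kb).Nonempty := by
    obtain ⟨ζ, hζ⟩ := HasEnoughRootsOfUnity.exists_primitiveRoot Kb 3
    exact ⟨ζ, (mem_primitiveRoots (by norm_num)).mpr hζ⟩
  have ht := wcu_td_mem N hd
  obtain ⟨σ, hσ⟩ := wcu_exists_aut_int hKL hdeg hζ hh hw hno ht htK
  have hjK : qExpand Kb d (jqModC Kb) ∈ modularFunctionFieldBar N := by
    rw [wcu_bar_eq]
    exact jqModCd_mem_full Kb N hd
  -- the equation in `L`
  have heq : algebraMap (modularFunctionFieldBar N) (IntermediateField.extendScalars hKL)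
      ⟨qExpand Kb d (jqModC Kb), hjK⟩ *
        (⟨qExpand Kb d (hm2 Kb), ht⟩ : IntermediateField.extendScalars hKL) ^ 2 =
      ((⟨qExpand Kb d (hm2 Kb), ht⟩ : IntermediateField.extendScalars hKL) + 256) ^ 3 := by
    apply Subtype.ext
    exact wcu_td_j d
  have heq' := congrArg σ heq
  rw [map_mul, AlgEquiv.commutes, map_pow, map_pow, map_add, map_ofNat] at heq'
  have heq'' := congrArg (Subtype.val) heq'
  have hx : qExpand Kb d (jqModC Kb) *
      ((σ ⟨qExpand Kb d (hm2 Kb), ht⟩ : IntermediateField.extendScalars hKL) : LaurentSeries Kb) ^ 2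
      = (((σ ⟨qExpand Kb d (hm2 Kb), ht⟩ : IntermediateField.extendScalars hKL) :
          LaurentSeries Kb) + 256) ^ 3 := heq''
  have hodd : Odd d := by
    rw [← Nat.not_even_iff_odd]
    intro he
    exact hN (he.two_dvd.trans hd)
  exact hσ (wcu_root_unique (HahnSeries.addVal ℤ Kb) hodd (wcu_val_jd d) wcu_val_256 hx (wcu_td_j d))

/-- **CUBE DESCENT** (`p = 3`, `2 ∤ N`): a cube in `F_{N·2}` of an element of `F_N` is a cube in `F_N`. -/
theorem wcu_cube_descent (N : ℕ) [NeZero N] (hN : ¬ 2 ∣ N) {w h : LaurentSeries Kb}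
    (hw : w ∈ modularFunctionFieldBar N) (hh : h ∈ modularFunctionFieldBar (N * 2))
    (hwh : h ^ 3 = w) : ∃ g ∈ modularFunctionFieldBar N, g ^ 3 = w := by
  by_contra hcon
  subst hwh
  have hno : ∀ g ∈ modularFunctionFieldBar N, g ^ 3 ≠ h ^ 3 := fun g hg hg3 => hcon ⟨g, hg, hg3⟩
  have hdeg : (modularFunctionFieldBar N).relfinrank (modularFunctionFieldBar (N * 2)) = 3 :=
    hdeg_relfinrank N 2 Nat.prime_two hN
  have hle : modularFunctionFieldBar (N * 2) ≤ modularFunctionFieldBar N := by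
    rw [wcu_bar_eq (N * 2), modularFunctionFieldFullC, IntermediateField.adjoin_le_iff]
    rintro _ ⟨e, hne, he, rfl⟩
    have := hne
    by_cases h2 : 2 ∣ e
    · obtain ⟨d, rfl⟩ := h2
      have hd : d ∣ N := by
        rw [mul_comm N 2] at he
        exact Nat.dvd_of_mul_dvd_mul_left (by norm_num) he
      have hd0 : d ≠ 0 := fun h0 => NeZero.ne (2 * d) (by rw [h0, mul_zero])
      have : NeZero d := ⟨hd0⟩
      have : NeZero (d * 2) := ⟨Nat.mul_ne_zero hd0 (by norm_num)⟩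
      have ht := wcu_td_mem_low N hN hh hw hno hd
      have hj2 := wcu_td_j2 d
      have h3 : qExpand Kb (2 * d) (jqModC Kb) =
          (qExpand Kb d (hm2 Kb) + 16) ^ 3 / qExpand Kb d (hm2 Kb) := by
        rw [eq_div_iff (wcu_td_ne_zero d), ← hj2, wcu_qExpand_congr (mul_comm 2 d)]
      show qExpand Kb (2 * d) (jqModC Kb) ∈ modularFunctionFieldBar N
      rw [h3]
      refine div_mem (pow_mem (add_mem ht ?_) 3) ht
      exact ofNat_mem _ 16
    · have hcop : Nat.Coprime e 2 := by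
        rw [Nat.coprime_comm, Nat.Prime.coprime_iff_not_dvd Nat.prime_two]
        exact h2
      have he' : e ∣ N := hcop.dvd_of_dvd_mul_right he
      show qExpand Kb e (jqModC Kb) ∈ modularFunctionFieldBar N
      rw [wcu_bar_eq]
      exact jqModCd_mem_full Kb N he'
  have h1 : (modularFunctionFieldBar N).relfinrank (modularFunctionFieldBar (N * 2)) = 1 :=
    IntermediateField.relfinrank_eq_one_of_le hle
  rw [hdeg] at h1
  norm_num at h1

/-- **CUBE DESCENT**, subtype form (`F_N ⊂ F_{N·2}` through `heckeAlphaBar`). -/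
theorem wcu_cube_descent_sub (N : ℕ) [NeZero N] (hN : ¬ 2 ∣ N) (w : modularFunctionFieldBar N)
    (h : modularFunctionFieldBar (N * 2)) (hwh : h ^ 3 = heckeAlphaBar Kb N 2 w) :
    ∃ g : modularFunctionFieldBar N, g ^ 3 = w := by
  have h1 : (h : LaurentSeries Kb) ^ 3 = (w : LaurentSeries Kb) := by
    have := congrArg Subtype.val hwh
    rw [coe_heckeAlphaBar] at this
    rw [← this]
    exact (SubmonoidClass.coe_pow h 3).symm
  obtain ⟨g, hg, hg3⟩ := wcu_cube_descent N hN w.2 h.2 h1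
  refine ⟨⟨g, hg⟩, ?_⟩
  apply Subtype.ext
  rw [← hg3]
  exact SubmonoidClass.coe_pow (⟨g, hg⟩ : modularFunctionFieldBar N) 3

end Fermat.Agent.S33
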