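import Fermat.Agent.S33.WildThickChart

/-!
# S33 v2, C4 (WILD), piece T5f-cusp: the cusps are not crossing points

Chart `B_u = zchClosure {u}` over `A₀` (think `u = 1 / j`), `V₁ = V_∞`, `V₂ = V_0` the two
vertical valuation rings.  The modular unit `U = q¹² Δ(qz)/Δ(z)` and `V' = q¹²/U` are integral over
`A₀[j]`, but have poles at the cusps (`u = 0`).  So the tube-unit hypothesis `U, V' ∈ B_𝔫` of
`wthc_final` needs `u ∉ 𝔫` at the crossing points `𝔫` of the chart `u`.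

* `wcp_not_mem` : **the cusps are not crossing points.**  If `e ∈ B_u` with `e ≡ 1` on `V₁` and
  `e ^ k ≡ u ^ m` on `V₂` (`m ≠ 0`), then `u ∉ 𝔫` for every prime `𝔫` of `B_u` through which both
  `V₁` and `V₂` pass.  (Modular: `e = j_p / j ^ p`, `k = p`, `m = p² − 1`:
  `j_p ≡ j ^ p` on `V_∞`, `j ≡ j_p ^ p` on `V_0`; `e` is integral over `ℤ[1/j]` by the shape of
  the modular equation at infinity.)
* `wcp_mem_loc` : `u ∉ 𝔫`, `U` integral over `A₀[u⁻¹]` ⇒ `U ∈ B_𝔫`.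
* `wcp_mem_loc_self` : `U` integral over `A₀[u]` ⇒ `U ∈ B_𝔫`.
* `wcp_of_nodes`, `wcp_of_nodes_inv` : `wthc_of_nodes` on the chart `t` resp. `t⁻¹` for a
  tube-unit which is integral over `A₀[t]`.
-/

set_option autoImplicit false
set_option linter.style.haveILetI false
set_option linter.unusedSectionVars false
set_option linter.unusedVariables false

namespace Fermat.Agent.S33

open Polynomial IntermediateField Fermat.Agent.INJ AlgebraicCurve Fermat.Agent.UNIP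
  Fermat.Agent.STB

section Cusp

variable {A₀ E F : Type*} [CommRing A₀] [IsDomain A₀] [IsDiscreteValuationRing A₀]
  [Field E] [Algebra A₀ E] [IsFractionRing A₀ E] [CharZero E]
  [Field F] [Algebra E F] [Algebra A₀ F] [IsScalarTower A₀ E F]
  {π : A₀} {κ : Type*}

/-- **The cusps are not crossing points.** -/
theorem wcp_not_mem {u : F} (V₁ V₂ : ValuationSubring F)
    (𝔫 : Ideal ↥(zchClosure (A₀ := A₀) ({u} : Set F))) [h𝔫 : 𝔫.IsPrime]
    (h₁ : ∀ b : ↥(zchClosure (A₀ := A₀) ({u} : Set F)), (b : F) ∈ V₁.nonunits → b ∈ 𝔫)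
    (h₂ : ∀ b : ↥(zchClosure (A₀ := A₀) ({u} : Set F)), (b : F) ∈ V₂.nonunits → b ∈ 𝔫)
    {e : F} (he : IsIntegral ↥(Algebra.adjoin A₀ ({u} : Set F)) e)
    (he₁ : e - 1 ∈ V₁.nonunits) {k m : ℕ} (hm : m ≠ 0) (he₂ : e ^ k - u ^ m ∈ V₂.nonunits)
    (ū : ↥(zchClosure (A₀ := A₀) ({u} : Set F))) (hū : (ū : F) = u) : ū ∉ 𝔫 := by
  intro hu
  set ē : ↥(zchClosure (A₀ := A₀) ({u} : Set F)) := ⟨e, mem_zchClosure.mpr he⟩ with hē
  have e1 : ē - 1 ∈ 𝔫 := h₁ _ he₁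
  have e2 : ē ^ k - ū ^ m ∈ 𝔫 := by
    apply h₂
    have : ((ē ^ k - ū ^ m : ↥(zchClosure (A₀ := A₀) ({u} : Set F))) : F) =
        e ^ k - (ū : F) ^ m := rfl
    rw [this, hū]
    exact he₂
  have e3 : ū ^ m ∈ 𝔫 := Ideal.pow_mem_of_mem _ hu _ (Nat.pos_of_ne_zero hm)
  have e4 : ē ^ k ∈ 𝔫 := by
    have : ē ^ k = (ē ^ k - ū ^ m) + ū ^ m := by ring
    rw [this]
    exact 𝔫.add_mem e2 e3
  have e5 : ē ∈ 𝔫 := h𝔫.mem_of_pow_mem k e4
  have e6 : (1 : ↥(zchClosure (A₀ := A₀) ({u} : Set F))) ∈ 𝔫 := by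
    have : (1 : ↥(zchClosure (A₀ := A₀) ({u} : Set F))) = ē - (ē - 1) := by ring
    rw [this]
    exact 𝔫.sub_mem e5 e1
  exact h𝔫.ne_top ((Ideal.eq_top_iff_one 𝔫).mpr e6)

/-- the constants lie in `B_𝔫` -/
theorem wcp_const_mem {u : F} (𝔫 : Ideal ↥(zchClosure (A₀ := A₀) ({u} : Set F))) [𝔫.IsPrime]
    (a : A₀) : algebraMap A₀ F a ∈ ls_localSubring (F := F) 𝔫 :=
  ls_algebraMap_mem 𝔫 (algebraMap A₀ ↥(zchClosure (A₀ := A₀) ({u} : Set F)) a)

/-- an element which is integral over a subalgebra contained in `B_𝔫` lies in `B_𝔫` -/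
theorem wcp_mem_of_le {u : F} (𝔫 : Ideal ↥(zchClosure (A₀ := A₀) ({u} : Set F))) [𝔫.IsPrime]
    (S : Subalgebra A₀ F) (hS : ∀ x ∈ S, x ∈ ls_localSubring (F := F) 𝔫)
    {U : F} (hU : IsIntegral ↥S U) : U ∈ ls_localSubring (F := F) 𝔫 := by
  apply ls_isIntegral_mem_localSubring (fun x hx => at_chart_integrallyClosed u x hx) 𝔫
  obtain ⟨q, hq, hqx⟩ := hU
  let f : ↥S →+* ↥(ls_localSubring (F := F) 𝔫) :=
    { toFun := fun b => ⟨b.1, hS b.1 b.2⟩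
      map_one' := rfl
      map_mul' := fun _ _ => rfl
      map_zero' := rfl
      map_add' := fun _ _ => rfl }
  refine ⟨q.map f, hq.map f, ?_⟩
  rw [eval₂_map]
  exact hqx

/-- `U` integral over `A₀[u]` lies in `B_𝔫` -/
theorem wcp_mem_loc_self {u : F} (𝔫 : Ideal ↥(zchClosure (A₀ := A₀) ({u} : Set F))) [𝔫.IsPrime]
    {U : F} (hU : IsIntegral ↥(Algebra.adjoin A₀ ({u} : Set F)) U) :
    U ∈ ls_localSubring (F := F) 𝔫 :=
  ls_algebraMap_mem 𝔫 (⟨U, mem_zchClosure.mpr hU⟩ : ↥(zchClosure (A₀ := A₀) ({u} : Set F)))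

/-- `u ∉ 𝔫`, `U` integral over `A₀[u⁻¹]` ⇒ `U ∈ B_𝔫` -/
theorem wcp_mem_loc {u : F} (𝔫 : Ideal ↥(zchClosure (A₀ := A₀) ({u} : Set F))) [𝔫.IsPrime]
    (ū : ↥(zchClosure (A₀ := A₀) ({u} : Set F))) (hū : (ū : F) = u) (hu𝔫 : ū ∉ 𝔫)
    {U : F} (hU : IsIntegral ↥(Algebra.adjoin A₀ ({u⁻¹} : Set F)) U) :
    U ∈ ls_localSubring (F := F) 𝔫 := by
  have hinj : Function.Injective (algebraMap ↥(zchClosure (A₀ := A₀) ({u} : Set F)) F) :=
    Subtype.val_injective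
  have hu0 : algebraMap ↥(zchClosure (A₀ := A₀) ({u} : Set F)) F ū ≠ 0 :=
    stb_gc_algebraMap_ne_zero hinj 𝔫 hu𝔫
  have hinv : u⁻¹ ∈ ls_localSubring (F := F) 𝔫 := by
    have := wthc_inv_mem (F := F) 𝔫 hu𝔫 hu0
    have e : algebraMap ↥(zchClosure (A₀ := A₀) ({u} : Set F)) F ū = u := hū
    rwa [e] at this
  refine wcp_mem_of_le 𝔫 (Algebra.adjoin A₀ ({u⁻¹} : Set F)) ?_ hU
  intro x hx
  induction hx using Algebra.adjoin_induction with
  | mem y hy =>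
    rw [Set.mem_singleton_iff] at hy
    rw [hy]
    exact hinv
  | algebraMap a => exact wcp_const_mem 𝔫 a
  | add y z _ _ hy hz => exact Subring.add_mem _ hy hz
  | mul y z _ _ hy hz => exact Subring.mul_mem _ hy hz

end Cusp

end Fermat.Agent.S33
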