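/-
S33 v2 — C4 WILD, piece T4c "WildHorChart" (helper92): step (H) at a CROSSING point, chart level.

Twin of `STB.stb_smooth_factor_at` (smooth points; it holds for every `m`, also `m = p` = the
residue characteristic, so (H) at smooth points is `STB.stb_smooth_facAt` as it is).

* `whc_branch_pow`  : `B` noetherian, `𝔭 ≤ 𝔫` primes, `𝔫 = 𝔭 + (X)` locally: every `b ∉ 𝔭` is
                      `≡ unit · X ^ m` modulo `𝔭`, locally at `𝔫`  (the branch `(B/𝔭)_𝔫` is a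
                      discrete valuation ring with uniformizer `X̄`; Krull).
* `whc_winding`     : the hypothesis `WhWinding B_𝔫 V X` of `wh_node_of_winding` from chart data.
* `whc_node_factor` : **(H) at a crossing point** of the chart `B_u = zchClosure {u}`:
                      finite-thickness datum `X Y = q′ G`, `G ∉ 𝔫`, `𝔫 = (π, X, Y)` locally,
                      `X ∉ 𝔭₂ ∋ Y`;  `p ∣ ord_P y` on the tube, support rational, `y` split at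
                      `V c₂`  ⇒  `y = ε γ ^ p`, `ε ∈ (B_u)_𝔫^×`.
* `whc_node_facAt`, `whc_node_facAt_inl/inr` : the same in the form `STB.StbFacAt (atLoc 𝔫) p y`
                      resp. for `atO π t i`.
-/
import Fermat.Agent.S33.WildHor
import Fermat.Agent.STB.SmoothPoint

set_option autoImplicit false
set_option linter.style.haveILetI false
set_option linter.unusedSectionVars false
set_option linter.unusedVariables false

namespace Fermat.Agent.S33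

open Polynomial IntermediateField Fermat.Agent.INJ AlgebraicCurve Fermat.Agent.UNIP
  Fermat.Agent.STB

section Algebra

variable {B : Type*} [CommRing B]

/-- **The branch is a discrete valuation ring with uniformizer `X̄`** (element form).
`B` noetherian, `𝔭 ≤ 𝔫` primes, `X ∈ 𝔫`, `𝔫 = 𝔭 + (X)` locally at `𝔫` (`hgen`).  Every `b ∉ 𝔭` is,
locally at `𝔫` and modulo `𝔭`, a unit times a power of `X`:  `u b ≡ e X ^ m mod 𝔭` with
`u, e ∉ 𝔫`. -/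
theorem whc_branch_pow [IsNoetherianRing B] (𝔭 𝔫 : Ideal B) [h𝔭 : 𝔭.IsPrime] [h𝔫 : 𝔫.IsPrime]
    (h𝔭𝔫 : 𝔭 ≤ 𝔫) (X : B) (hX : X ∈ 𝔫)
    (hgen : ∀ b ∈ 𝔫, ∃ u : B, u ∉ 𝔫 ∧ ∃ c : B, u * b - c * X ∈ 𝔭)
    {b : B} (hb : b ∉ 𝔭) :
    ∃ (m : ℕ) (u e : B), u ∉ 𝔫 ∧ e ∉ 𝔫 ∧ u * b - e * X ^ m ∈ 𝔭 := by
  classical
  let R := B ⧸ 𝔭
  let mk : B →+* R := Ideal.Quotient.mk 𝔭
  have hmk : Function.Surjective mk := Ideal.Quotient.mk_surjective
  let 𝔫' : Ideal R := 𝔫.map mk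
  have hmem : ∀ x : B, mk x ∈ 𝔫' ↔ x ∈ 𝔫 := fun x => Ideal.mem_quotient_iff_mem h𝔭𝔫
  have h𝔫' : 𝔫'.IsPrime :=
    Ideal.map_isPrime_of_surjective hmk (by rw [Ideal.mk_ker]; exact h𝔭𝔫)
  let S := Localization.AtPrime 𝔫'
  have hinjS : Function.Injective (algebraMap R S) :=
    IsLocalization.injective S (Ideal.primeCompl_le_nonZeroDivisors 𝔫')
  have : IsDomain S := IsLocalization.isDomain_localization (Ideal.primeCompl_le_nonZeroDivisors 𝔫')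
  have : IsNoetherianRing S := IsLocalization.isNoetherianRing 𝔫'.primeCompl S inferInstance
  have hunit : ∀ x : B, x ∉ 𝔫 → IsUnit (algebraMap R S (mk x)) := fun x hx =>
    (IsLocalization.AtPrime.isUnit_to_map_iff S 𝔫' (mk x)).2 (fun h => hx ((hmem x).1 h))
  set ξ : S := algebraMap R S (mk X) with hξ
  -- the maximal ideal of `S` is generated by `ξ`
  have hmax : IsLocalRing.maximalIdeal S = Ideal.span {ξ} := by
    apply le_antisymm
    · intro x hx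
      obtain ⟨r, t, rfl⟩ := IsLocalization.exists_mk'_eq 𝔫'.primeCompl x
      have hr : r ∈ 𝔫' := by
        have h1 : algebraMap R S r ∈ IsLocalRing.maximalIdeal S := by
          have h2 : algebraMap R S r = IsLocalization.mk' S r t * algebraMap R S t := by
            rw [IsLocalization.mk'_spec]
          rw [h2]
          exact Ideal.mul_mem_right _ _ hx
        exact (IsLocalization.AtPrime.to_map_mem_maximal_iff S 𝔫' r).1 h1
      obtain ⟨b₀, rfl⟩ := hmk r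
      have hb₀ : b₀ ∈ 𝔫 := (hmem b₀).1 hr
      obtain ⟨u, hu, c, huc⟩ := hgen b₀ hb₀
      have e1 : mk u * mk b₀ = mk c * mk X := by
        rw [← map_mul, ← map_mul, ← sub_eq_zero, ← map_sub]
        exact Ideal.Quotient.eq_zero_iff_mem.2 huc
      obtain ⟨v, hv⟩ := hunit u hu
      have e2 : algebraMap R S (mk b₀) = ((v⁻¹ : Sˣ) : S) * algebraMap R S (mk c) * ξ := by
        have e3 : (v : S) * algebraMap R S (mk b₀) = algebraMap R S (mk c) * ξ := by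
          rw [hv, hξ, ← map_mul, e1, map_mul]
        rw [mul_assoc, ← e3, ← mul_assoc, Units.inv_mul, one_mul]
      rw [Ideal.mem_span_singleton']
      obtain ⟨w, hw⟩ := IsLocalization.map_units S t
      refine ⟨((w⁻¹ : Sˣ) : S) * (((v⁻¹ : Sˣ) : S) * algebraMap R S (mk c)), ?_⟩
      have e4 : IsLocalization.mk' S (mk b₀) t = ((w⁻¹ : Sˣ) : S) * algebraMap R S (mk b₀) := by
        rw [IsLocalization.mk'_eq_iff_eq_mul, mul_comm _ (algebraMap R S (t : R)), ← hw,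
          ← mul_assoc, Units.mul_inv, one_mul]
      rw [e4, e2]
      ring
    · rw [Ideal.span_le, Set.singleton_subset_iff]
      exact (IsLocalization.AtPrime.to_map_mem_maximal_iff S 𝔫' (mk X)).2 ((hmem X).2 hX)
  -- the image of `b`
  set b' : S := algebraMap R S (mk b) with hb'
  have hb'0 : b' ≠ 0 := by
    intro h0
    have h1 : mk b = 0 := hinjS (by rw [← hb', h0, map_zero])
    exact hb (Ideal.Quotient.eq_zero_iff_mem.1 h1)
  -- Krull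
  have hkrull : ∃ n : ℕ, b' ∉ IsLocalRing.maximalIdeal S ^ n := by
    by_contra hcon
    push Not at hcon
    have h1 : b' ∈ (⨅ n : ℕ, IsLocalRing.maximalIdeal S ^ n : Ideal S) := by
      rw [Ideal.mem_iInf]
      exact hcon
    rw [Ideal.iInf_pow_eq_bot_of_isLocalRing (IsLocalRing.maximalIdeal S)
      Ideal.IsPrime.ne_top'] at h1
    exact hb'0 (by simpa using h1)
  set n := Nat.find hkrull with hn
  have hn1 : b' ∉ IsLocalRing.maximalIdeal S ^ n := Nat.find_spec hkrull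
  have hn0 : n ≠ 0 := by
    intro h0
    rw [h0, pow_zero, Ideal.one_eq_top] at hn1
    exact hn1 Submodule.mem_top
  obtain ⟨m, hm⟩ := Nat.exists_eq_succ_of_ne_zero hn0
  have hmem_m : b' ∈ IsLocalRing.maximalIdeal S ^ m := by
    by_contra h
    have := Nat.find_min' hkrull h
    omega
  rw [hmax, Ideal.span_singleton_pow, Ideal.mem_span_singleton'] at hmem_m
  obtain ⟨y, hy⟩ := hmem_m
  -- `y` is a unit
  have hyu : IsUnit y := by
    by_contra hnu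
    have hy' : y ∈ IsLocalRing.maximalIdeal S := (IsLocalRing.mem_maximalIdeal y).2 hnu
    apply hn1
    have e0 : b' = ξ ^ m * y := by rw [← hy]; ring
    have hξm : ξ ^ m ∈ IsLocalRing.maximalIdeal S ^ m := by
      rw [hmax, Ideal.span_singleton_pow]
      exact Ideal.mem_span_singleton_self _
    rw [hm, pow_succ, e0]
    exact Ideal.mul_mem_mul hξm hy'
  obtain ⟨r, t, rfl⟩ := IsLocalization.exists_mk'_eq 𝔫'.primeCompl y
  have hr : r ∉ 𝔫' := by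
    intro h
    have h1 : algebraMap R S r ∈ IsLocalRing.maximalIdeal S :=
      (IsLocalization.AtPrime.to_map_mem_maximal_iff S 𝔫' r).2 h
    have h2 : algebraMap R S r = IsLocalization.mk' S r t * algebraMap R S t := by
      rw [IsLocalization.mk'_spec]
    rw [h2] at h1
    exact (IsLocalRing.mem_maximalIdeal _).1 h1
      (hyu.mul (IsLocalization.map_units S t))
  obtain ⟨e, rfl⟩ := hmk r
  obtain ⟨u, hu⟩ := hmk (t : R)
  have hu𝔫 : u ∉ 𝔫 := fun h0 => t.2 (by rw [← hu]; exact (hmem u).2 h0)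
  have he𝔫 : e ∉ 𝔫 := fun h0 => hr ((hmem e).2 h0)
  refine ⟨m, u, e, hu𝔫, he𝔫, ?_⟩
  apply Ideal.Quotient.eq_zero_iff_mem.1
  apply hinjS
  rw [map_zero, map_sub, map_sub, map_mul, map_mul, map_mul, map_mul, sub_eq_zero, hu, map_pow,
    map_pow]
  show algebraMap R S (t : R) * b' = algebraMap R S (mk e) * ξ ^ m
  rw [← hy]
  have e5 : algebraMap R S (t : R) * IsLocalization.mk' S (mk e) t = algebraMap R S (mk e) := by
    rw [mul_comm, IsLocalization.mk'_spec]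
  rw [← mul_assoc, e5]

end Algebra

section Chart

variable {F : Type*} [Field F] {B : Type*} [CommRing B] [Algebra B F]

/-- **The winding generator from chart data.**  `B` a noetherian chart, `𝔫` a prime, `V = B_𝔭` a
valuation ring through `𝔫` (`hBV`, `hthrough`, `hVloc`), `X ∈ 𝔫`, `X ∉ 𝔭`, `𝔫 = 𝔭 + (X)` locally
at `𝔫` (`hgen`).  Then `X` is a winding generator for the branch `𝔭` at `𝔫`. -/
theorem whc_winding [IsNoetherianRing B] (hinj : Function.Injective (algebraMap B F))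
    (𝔫 : Ideal B) [h𝔫 : 𝔫.IsPrime] (V : ValuationSubring F)
    (hBV : ∀ b : B, algebraMap B F b ∈ V)
    (hthrough : ∀ b : B, algebraMap B F b ∈ V.nonunits → b ∈ 𝔫)
    (hVloc : ∀ x ∈ V, ∃ b s : B, algebraMap B F s ∉ V.nonunits ∧
      algebraMap B F s * x = algebraMap B F b)
    (X : B) (hX : X ∈ 𝔫) (hXV : algebraMap B F X ∉ V.nonunits)
    (hgen : ∀ b ∈ 𝔫, ∃ u : B, u ∉ 𝔫 ∧ ∃ c : B, algebraMap B F (u * b - c * X) ∈ V.nonunits) :
    WhWinding (ls_localSubring (F := F) 𝔫) V (algebraMap B F X) := by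
  have hle : ∀ x ∈ ls_localSubring (F := F) 𝔫, x ∈ V := stb_gc_le 𝔫 V hBV hthrough
  have hval : V.valuation (algebraMap B F X) = 1 := stb_gc_val_eq_one V (hBV X) hXV
  have hX0 : algebraMap B F X ≠ 0 := wh_val_ne_zero V hval
  have hne0 : ∀ s : B, s ∉ 𝔫 → algebraMap B F s ≠ 0 := fun s hs =>
    stb_gc_algebraMap_ne_zero hinj 𝔫 hs
  have hvs : ∀ s : B, s ∉ 𝔫 → V.valuation (algebraMap B F s) = 1 := fun s hs =>
    stb_gc_val_eq_one V (hBV s) (fun h => hs (hthrough s h))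
  -- the vertical prime
  haveI h𝔭 : (stbGcVert V hBV).IsPrime := stb_gc_vert_isPrime V hBV
  have h𝔭𝔫 : stbGcVert V hBV ≤ 𝔫 := fun b hb => hthrough b hb
  have hdvrO : ∀ z : F, z ∈ ls_localSubring (F := F) 𝔫 → V.valuation z = 1 →
      ∃ m : ℤ, WhBranch (ls_localSubring (F := F) 𝔫) V (algebraMap B F X) z m := by
    rintro z ⟨b, s, hs, hsz⟩ hz
    have hs0 := hne0 s hs
    have hbV : V.valuation (algebraMap B F b) = 1 := by
      rw [← hsz, map_mul, hvs s hs, hz, one_mul]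
    have hb𝔭 : b ∉ stbGcVert V hBV := by
      intro h
      have h1 : V.valuation (algebraMap B F b) < 1 :=
        (ValuationSubring.mem_nonunits_iff V).1 h
      rw [hbV] at h1
      exact lt_irrefl _ h1
    obtain ⟨m, u, e, hu, he, h⟩ := whc_branch_pow (stbGcVert V hBV) 𝔫 h𝔭𝔫 X hX
      (fun b hb => hgen b hb) hb𝔭
    have hu0 := hne0 u hu
    have he0 := hne0 e he
    have hus : u * s ∉ 𝔫 := fun h' => (h𝔫.mem_or_mem h').elim hu hs
    refine ⟨m, algebraMap B F e / (algebraMap B F u * algebraMap B F s),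
      div_ne_zero he0 (mul_ne_zero hu0 hs0), ⟨e, u * s, hus, ?_⟩, ⟨u * s, e, he, ?_⟩, ?_⟩
    · rw [map_mul]; field_simp
    · rw [map_mul]; field_simp
    · have hz' : z = algebraMap B F b / algebraMap B F s := by
        rw [← hsz]; field_simp
      have e1 : z - algebraMap B F X ^ (m : ℤ) *
          (algebraMap B F e / (algebraMap B F u * algebraMap B F s))
          = (algebraMap B F u * algebraMap B F s)⁻¹ * algebraMap B F (u * b - e * X ^ m) := by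
        rw [hz', zpow_natCast, map_sub, map_mul, map_mul, map_pow]
        field_simp
      rw [e1]
      refine wh_val_mul_lt V ?_ ((ValuationSubring.mem_nonunits_iff V).1 h)
      rw [map_inv₀, map_mul, hvs u hu, hvs s hs, one_mul, inv_one]
  have hfrac : ∀ z : F, V.valuation z = 1 → ∃ a b : F, a ∈ ls_localSubring (F := F) 𝔫 ∧
      b ∈ ls_localSubring (F := F) 𝔫 ∧ V.valuation a = 1 ∧ V.valuation b = 1 ∧ z = a / b := by
    intro z hz
    obtain ⟨b, s, hs, hsz⟩ := hVloc z ((V.valuation_le_one_iff z).1 hz.le)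
    have hs1 : V.valuation (algebraMap B F s) = 1 := stb_gc_val_eq_one V (hBV s) hs
    have hs0 : algebraMap B F s ≠ 0 := wh_val_ne_zero V hs1
    refine ⟨algebraMap B F b, algebraMap B F s, ls_algebraMap_mem 𝔫 b, ls_algebraMap_mem 𝔫 s,
      ?_, hs1, ?_⟩
    · rw [← hsz, map_mul, hs1, hz, one_mul]
    · rw [← hsz]; field_simp
  refine ⟨hle, ls_algebraMap_mem 𝔫 X, ?_, hval, ?_, wh_branch_of_frac hle hval hdvrO hfrac⟩
  · rintro ⟨b, s, hs, hsx⟩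
    apply hs
    have e : algebraMap B F s = algebraMap B F (b * X) := by
      rw [map_mul, ← hsx]; field_simp
    rw [hinj e]
    exact 𝔫.mul_mem_left _ hX
  · rintro y ⟨b, s, hs, hsy⟩ hy
    have hy1 : V.valuation y = 1 := wh_val_of_one V hy
    have hy0 : y ≠ 0 := wh_val_ne_zero V hy1
    have hbs : b - s ∈ 𝔫 := by
      apply hthrough
      rw [ValuationSubring.mem_nonunits_iff]
      have e : algebraMap B F (b - s) = algebraMap B F s * (y - 1) := by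
        rw [map_sub, ← hsy]; ring
      rw [e]
      exact wh_val_mul_lt V (hvs s hs).le hy
    have hb : b ∉ 𝔫 := by
      intro hb
      apply hs
      have : s = b - (b - s) := by ring
      rw [this]
      exact 𝔫.sub_mem hb hbs
    refine ⟨s, b, hb, ?_⟩
    rw [← hsy]; field_simp

end Chart

section CoordNode

variable {A₀ E Lf B : Type*} [CommRing A₀] [IsDomain A₀] [IsDiscreteValuationRing A₀]
  [Field E] [CharZero E] [Algebra A₀ E] [IsFractionRing A₀ E]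
  [Field Lf] [Algebra E Lf] [Algebra A₀ Lf] [IsScalarTower A₀ E Lf]
  [CommRing B] [Algebra B Lf] [Algebra A₀ B] [IsScalarTower A₀ B Lf]

/-- **Coordinate function at a rational point of the tube of a crossing point of finite
thickness.**  `X Y = q′ G`, `G ∉ 𝔫`, `𝔫 = (π, X, Y)` locally: `X` is a unit at every place of the
tube, and `X − X(P)` has a simple zero at `P` and no other zero or pole on the tube. -/
theorem whc_coord_node [IsNoetherianRing B] {π : A₀} (hπ : Irreducible π) (t : Lf)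
    (ht : Transcendental E t) [FiniteDimensional E⟮t⟯ Lf]
    (hinj : Function.Injective (algebraMap B Lf))
    (hB : ∀ x : Lf, x ∈ (algebraMap B Lf).range ↔ IsIntegral (Algebra.adjoin A₀ {t}) x)
    (𝔫 : Ideal B) [𝔫.IsPrime] (hπ𝔫 : algebraMap A₀ B π ∈ 𝔫)
    (X Y G : B) (q' : A₀) (hq' : q' ≠ 0) (hX : X ∈ 𝔫) (hY : Y ∈ 𝔫)
    (hXY : X * Y = algebraMap A₀ B q' * G) (hG : G ∉ 𝔫)
    (hgen : NodesLocGen 𝔫 {algebraMap A₀ B π, X, Y}) :
    (∀ Q : Place E Lf, LsTube B t 𝔫 Q → Q.ord (algebraMap B Lf X) = 0) ∧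
    ∀ P : Place E Lf, UnipTubePoint t 𝔫 P → ∃ f : Lf, f ≠ 0 ∧ P.ord f = 1 ∧
      ∀ Q : Place E Lf, LsTube B t 𝔫 Q → Q ≠ P → Q.ord f = 0 := by
  have hG0 : G ≠ 0 := fun h => hG (by rw [h]; exact 𝔫.zero_mem)
  have hqB : algebraMap A₀ B q' ≠ 0 := by
    intro h
    apply hq'
    have h1 : algebraMap A₀ Lf q' = 0 := by
      rw [IsScalarTower.algebraMap_apply A₀ B Lf, h, map_zero]
    exact unip_algebraMap_injective E (by rw [h1, map_zero])
  have hqF : algebraMap B Lf (algebraMap A₀ B q') ≠ 0 := fun h =>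
    hqB (hinj (by rw [h, map_zero]))
  have hGF : algebraMap B Lf G ≠ 0 := fun h => hG0 (hinj (by rw [h, map_zero]))
  have hXYF : algebraMap B Lf X * algebraMap B Lf Y ≠ 0 := by
    rw [← map_mul, hXY, map_mul]
    exact mul_ne_zero hqF hGF
  have hXF : algebraMap B Lf X ≠ 0 := left_ne_zero_of_mul hXYF
  have hYF : algebraMap B Lf Y ≠ 0 := right_ne_zero_of_mul hXYF
  have htube : ∀ Q : Place E Lf, LsTube B t 𝔫 Q → Q.ord (algebraMap B Lf X) = 0 := by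
    intro Q hQ
    have h1 := unip_ord_chart_nonneg t hB Q hQ.1 X
    have h2 := unip_ord_chart_nonneg t hB Q hQ.1 Y
    have h3 : Q.ord (algebraMap B Lf (X * Y)) = 0 := by
      rw [hXY, map_mul, Place.ord_mul Q hqF hGF,
        unip_ord_eq_zero_of_notMem t hB 𝔫 Q hQ.1 hQ.2 hG, add_zero,
        ← IsScalarTower.algebraMap_apply A₀ B Lf, unip_ord_const]
    rw [map_mul, Place.ord_mul Q hXF hYF] at h3
    omega
  refine ⟨htube, fun P hP => ?_⟩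
  obtain ⟨ev, hev⟩ := unip_exists_tubeEv hπ t hinj hB 𝔫 hπ𝔫 P hP
  have hPtube : LsTube B t 𝔫 P := ⟨hP.ord_nonneg, hP.centre⟩
  -- `a = X(P) ≠ 0`
  have ha : ev X ≠ 0 := by
    intro h0
    have h1 := (unip_tubeEv_eq_zero_iff P ev hev X).1 h0
    rcases (unip_mem_nonunits_iff P _).1 h1 with h2 | h2
    · exact hXF h2
    · rw [htube P hPtube] at h2
      exact lt_irrefl _ h2
  -- `G(P)` is a unit
  have hGu : IsUnit (ev G) := by
    by_contra hnu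
    have h1 : ev G ∈ IsLocalRing.maximalIdeal A₀ := (IsLocalRing.mem_maximalIdeal _).2 hnu
    rw [hπ.maximalIdeal_eq, Ideal.mem_span_singleton] at h1
    obtain ⟨c, hc⟩ := h1
    apply hG
    have h2 : G - algebraMap A₀ B (ev G) ∈ 𝔫 := by
      apply unip_tubeEv_ker hinj hP ev hev
      rw [map_sub, AlgHom.commutes, Algebra.algebraMap_self_apply, sub_self]
    have h3 : algebraMap A₀ B (ev G) ∈ 𝔫 := by
      rw [hc, map_mul]
      exact 𝔫.mul_mem_right _ hπ𝔫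
    have : G = (G - algebraMap A₀ B (ev G)) + algebraMap A₀ B (ev G) := by ring
    rw [this]
    exact 𝔫.add_mem h2 h3
  obtain ⟨g', hg'⟩ := hGu.exists_right_inv
  obtain ⟨y', hy'⟩ := unip_tubeEv_dvd hπ hinj hP ev hev Y hY
  have hevXY : ev X * ev Y = q' * ev G := by
    rw [← map_mul, hXY, map_mul, AlgHom.commutes, Algebra.algebraMap_self_apply]
  have hq : q' = ev X * (π * (y' * g')) := by
    have : q' = q' * (ev G * g') := by rw [hg', mul_one]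
    rw [this, ← mul_assoc, ← hevXY, hy']
    ring
  have hd := unip_dense_of_tubePoint hπ t hinj hB 𝔫 hπ𝔫 P hP {X, Y}
    (fun x hx => by
      rcases hx with rfl | rfl
      · exact hX
      · exact hY) hgen
  obtain ⟨h1, h2⟩ := unip_tubeOrd_node hπ t ht hinj hB 𝔫 hπ𝔫 X Y G q' (ev X) (π * (y' * g')) hq
    (Dvd.intro _ rfl) ha hXY hd P hP (hev X)
  refine ⟨algebraMap B Lf X - algebraMap A₀ Lf (ev X), ?_, h1,
    fun Q hQ hQP => h2 Q hQ.1 hQ.2 hQP⟩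
  intro h0
  rw [h0, Place.ord_zero] at h1
  exact zero_ne_one h1

end CoordNode

section NodeAT

variable {A₀ E F : Type*} [CommRing A₀] [IsDomain A₀] [IsDiscreteValuationRing A₀]
  [Field E] [Algebra A₀ E] [IsFractionRing A₀ E] [CharZero E]
  [Field F] [Algebra E F] [Algebra A₀ F] [IsScalarTower A₀ E F]
  {π : A₀} {κ : Type*}

/-- **(H) at a crossing point of finite thickness**, chart `B_u = zchClosure {u}`.
`c₂` the branch used (`V c₂` goes through `𝔫`), `c₁` the other one; `X ∈ 𝔫`, `X ∉ 𝔪(V c₂)`,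
`Y ∈ 𝔪(V c₂)`, `X Y = q′ G` with `q′ ∈ A₀ ∖ {0}`, `G ∉ 𝔫`, `𝔫 = (π, X, Y)` locally.
`y ≠ 0` with `p ∣ ord_P y` on the tube of `𝔫`, the points of the tube in the support of `y`
rational, `y = c · h ^ p · (1 + z)` with `c ∈ (B_u)_𝔫^×`, `z ∈ 𝔪(V c₂)`.
Then `y = ε · γ ^ p` with `ε ∈ (B_u)_𝔫^×`. -/
theorem whc_node_factor (hπ : Irreducible π) {u : F} (hu : Transcendental E u)
    [FiniteDimensional E⟮u⟯ F] [Finite κ]
    [IsNoetherianRing ↥(zchClosure (A₀ := A₀) ({u} : Set F))]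
    (V : κ → ValuationSubring F)
    (hBV : ∀ c (b : F), IsIntegral ↥(Algebra.adjoin A₀ {u}) b → b ∈ V c)
    (hπV : ∀ c, algebraMap A₀ F π ∈ (V c).nonunits)
    (hSS1 : ∀ b : F, IsIntegral ↥(Algebra.adjoin A₀ {u}) b → (∀ c, b ∈ (V c).nonunits) →
      ∃ b' : F, IsIntegral ↥(Algebra.adjoin A₀ {u}) b' ∧ b = algebraMap A₀ F π * b')
    (hVloc : ∀ c (x : F), x ∈ V c → ∃ b s : F, IsIntegral ↥(Algebra.adjoin A₀ {u}) b ∧
      IsIntegral ↥(Algebra.adjoin A₀ {u}) s ∧ s ∉ (V c).nonunits ∧ s * x = b)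
    (hne : ∀ c c', c ≠ c' → V c ≠ V c')
    (harch : ∀ c (a x : F), a ∈ (V c).nonunits → ∃ N : ℕ, a ^ N * x ∈ (V c).nonunits)
    (𝔫 : Ideal ↥(zchClosure (A₀ := A₀) ({u} : Set F))) [𝔫.IsPrime]
    (hπ𝔫 : algebraMap A₀ ↥(zchClosure (A₀ := A₀) ({u} : Set F)) π ∈ 𝔫)
    (c₁ c₂ : κ)
    (hthr : ∀ c, (∀ b : ↥(zchClosure (A₀ := A₀) ({u} : Set F)),
      (b : F) ∈ (V c).nonunits → b ∈ 𝔫) → c = c₁ ∨ c = c₂)
    (h₂ : ∀ b : ↥(zchClosure (A₀ := A₀) ({u} : Set F)), (b : F) ∈ (V c₂).nonunits → b ∈ 𝔫)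
    (X Y G : ↥(zchClosure (A₀ := A₀) ({u} : Set F))) (q' : A₀) (hq' : q' ≠ 0)
    (hX : X ∈ 𝔫) (hX₂ : (X : F) ∉ (V c₂).nonunits) (hY₂ : (Y : F) ∈ (V c₂).nonunits)
    (hXY : X * Y = algebraMap A₀ ↥(zchClosure (A₀ := A₀) ({u} : Set F)) q' * G) (hG : G ∉ 𝔫)
    (hgen : NodesLocGen 𝔫 {algebraMap A₀ ↥(zchClosure (A₀ := A₀) ({u} : Set F)) π, X, Y})
    {y : F} (hy : y ≠ 0) (p : ℕ)
    (hfin : {P : Place E F | LsTube ↥(zchClosure (A₀ := A₀) ({u} : Set F)) u 𝔫 P ∧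
      P.ord y ≠ 0}.Finite)
    (hm : ∀ P : Place E F, LsTube ↥(zchClosure (A₀ := A₀) ({u} : Set F)) u 𝔫 P →
      (p : ℤ) ∣ P.ord y)
    (hrat : ∀ P : Place E F, LsTube ↥(zchClosure (A₀ := A₀) ({u} : Set F)) u 𝔫 P →
      P.ord y ≠ 0 → ∀ f ∈ P.toValuationSubring,
        ∃ c : E, f - algebraMap E F c ∈ P.toValuationSubring.nonunits)
    (hsplit : ∃ c h : F, c ≠ 0 ∧ c ∈ ls_localSubring (F := F) 𝔫 ∧
      c⁻¹ ∈ ls_localSubring (F := F) 𝔫 ∧ h ≠ 0 ∧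
      (V c₂).valuation (y / (c * h ^ p) - 1) < 1) :
    ∃ γ ε : F, γ ≠ 0 ∧ ε ∈ ls_localSubring (F := F) 𝔫 ∧ ε⁻¹ ∈ ls_localSubring (F := F) 𝔫 ∧
      y = ε * γ ^ p := by
  classical
  haveI : Fintype κ := Fintype.ofFinite κ
  have hinj : Function.Injective (algebraMap ↥(zchClosure (A₀ := A₀) ({u} : Set F)) F) :=
    Subtype.val_injective
  have hB := unip_chart_range (A₀ := A₀) u
  have hπ0 : algebraMap A₀ F π ≠ 0 := unip_algebraMap_irreducible_ne_zero E hπ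
  have hY : Y ∈ 𝔫 := h₂ Y hY₂
  have hBV' : ∀ c (b : ↥(zchClosure (A₀ := A₀) ({u} : Set F))),
      algebraMap ↥(zchClosure (A₀ := A₀) ({u} : Set F)) F b ∈ V c :=
    fun c b => hBV c _ (mem_zchClosure.mp b.2)
  -- the tube
  set T := {P : Place E F // LsTube ↥(zchClosure (A₀ := A₀) ({u} : Set F)) u 𝔫 P} with hT
  have hmul : ∀ (P : T) (x z : F), x ≠ 0 → z ≠ 0 →
      P.1.ord (x * z) = P.1.ord x + P.1.ord z := fun P x z hx hz => Place.ord_mul P.1 hx hz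
  -- coordinates
  obtain ⟨hXtube, hcoordP⟩ := whc_coord_node hπ u hu hinj hB 𝔫 hπ𝔫 X Y G q' hq' hX hY hXY hG
    hgen
  have hXF : (X : F) ≠ 0 := by
    intro h
    apply hX₂
    rw [h]
    exact (V c₂).nonunits.zero_mem
  -- normality
  set ϖ : ↥(zchClosure (A₀ := A₀) ({u} : Set F)) :=
    algebraMap A₀ ↥(zchClosure (A₀ := A₀) ({u} : Set F)) π with hϖdef
  have hϖ : algebraMap ↥(zchClosure (A₀ := A₀) ({u} : Set F)) F ϖ = algebraMap A₀ F π := rfl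
  set vert : Finset (Ideal ↥(zchClosure (A₀ := A₀) ({u} : Set F))) :=
    Finset.univ.image (fun c : κ => crossingIdeal (A₀ := A₀) {u} (V c) (hBV c)) with hvert
  have hvert_mem : ∀ 𝔭 ∈ vert, ∃ c : κ, 𝔭 = crossingIdeal (A₀ := A₀) {u} (V c) (hBV c) := by
    intro 𝔭 h𝔭
    obtain ⟨c, -, hc⟩ := Finset.mem_image.mp h𝔭
    exact ⟨c, hc.symm⟩
  have hprime : ∀ 𝔭 ∈ vert, 𝔭.IsPrime := by
    intro 𝔭 h𝔭
    obtain ⟨c, rfl⟩ := hvert_mem 𝔭 h𝔭
    exact at_crossingIdeal_isPrime (V c) (hBV c)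
  have hϖv : ∀ 𝔭 ∈ vert, ϖ ∈ 𝔭 := by
    intro 𝔭 h𝔭
    obtain ⟨c, rfl⟩ := hvert_mem 𝔭 h𝔭
    exact hπV c
  have hSS1' : ∀ b : ↥(zchClosure (A₀ := A₀) ({u} : Set F)), (∀ 𝔭 ∈ vert, b ∈ 𝔭) → ϖ ∣ b := by
    intro b hb
    obtain ⟨b', hb', hbb'⟩ := hSS1 (b : F) (mem_zchClosure.mp b.2) (fun c =>
      hb _ (Finset.mem_image.mpr ⟨c, Finset.mem_univ c, rfl⟩))
    exact ⟨⟨b', mem_zchClosure.mpr hb'⟩, Subtype.ext hbb'⟩
  have hN : ∀ z : F, z ≠ 0 → (∀ P : T, 0 ≤ P.1.ord z) → z ∈ V c₁ → z ∈ V c₂ →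
      z ∈ ls_localSubring (F := F) 𝔫 := by
    intro z hz0 hzT hz₁ hz₂
    obtain ⟨s, hs, b, hb⟩ := unip_unitCrit_mem hπ u hu hinj hB ϖ hϖ 𝔫 vert hprime hϖv hSS1' z
      (fun P hP hc => hzT ⟨P, hP, hc⟩)
      (fun 𝔭 h𝔭 hle => by
        obtain ⟨c, rfl⟩ := hvert_mem 𝔭 h𝔭
        have hzc : z ∈ V c := by
          rcases hthr c (fun b hb => hle hb) with h | h
          · rw [h]; exact hz₁
          · rw [h]; exact hz₂
        obtain ⟨b, d, hb, hd, hdV, hdz⟩ := hVloc c z hzc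
        exact ⟨⟨d, mem_zchClosure.mpr hd⟩, hdV, ⟨b, mem_zchClosure.mpr hb⟩, hdz.symm⟩)
    exact ⟨b, s, hs, hb.symm⟩
  -- `π` is a uniformizer of `V c₂`
  have hπunif := stb_sp_hunif (A₀ := A₀) hπ0 V hBV hπV hSS1 hVloc hne harch c₂
  have hπtube : WhTubeUnit (fun (P : T) x => P.1.ord x) (algebraMap A₀ F π) :=
    ⟨hπ0, fun P => unip_ord_const P.1 π⟩
  -- the winding generator
  have hW : WhWinding (ls_localSubring (F := F) 𝔫) (V c₂) (X : F) := by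
    refine whc_winding hinj 𝔫 (V c₂) (hBV' c₂) h₂ ?_ X hX hX₂ ?_
    · intro x hx
      obtain ⟨b, d, hb, hd, hdV, hdx⟩ := hVloc c₂ x hx
      exact ⟨⟨b, mem_zchClosure.mpr hb⟩, ⟨d, mem_zchClosure.mpr hd⟩, hdV, hdx⟩
    · exact stb_gc_gen_node' 𝔫 (V c₂) (hBV' c₂) hgen (hπV c₂) hY₂
  have hXtubeU : WhTubeUnit (fun (P : T) x => P.1.ord x) (X : F) :=
    ⟨hXF, fun P => hXtube P.1 P.2⟩
  -- finiteness of the support on the tube
  have hfinT : {P : T | P.1.ord y ≠ 0}.Finite := by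
    refine Set.Finite.of_finite_image (f := Subtype.val) (hfin.subset ?_)
      Subtype.val_injective.injOn
    rintro _ ⟨P, hP, rfl⟩
    exact ⟨P.2, hP⟩
  obtain ⟨γ, ε, hγ, -, hε, hε', h⟩ := wh_node_of_winding (fun (P : T) x => P.1.ord x) hmul
    (ls_localSubring (F := F) 𝔫) (V c₁) (V c₂) hN hπtube hπunif hW hXtubeU hy p hfinT
    (fun P => hm P.1 P.2)
    (fun P hP => by
      obtain ⟨f, hf0, hf1, hf⟩ := hcoordP P.1 ⟨P.2.1, P.2.2, hrat P.1 P.2 hP⟩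
      exact ⟨f, hf0, hf1, fun Q hQ => hf Q.1 Q.2 fun h => hQ (Subtype.ext h)⟩)
    hsplit
  exact ⟨γ, ε, hγ, hε, hε', h⟩

/-- `whc_node_factor` for `y ≡ 1` at `V c₂` (normal form (N)). -/
theorem whc_node_factor_one (hπ : Irreducible π) {u : F} (hu : Transcendental E u)
    [FiniteDimensional E⟮u⟯ F] [Finite κ]
    [IsNoetherianRing ↥(zchClosure (A₀ := A₀) ({u} : Set F))]
    (V : κ → ValuationSubring F)
    (hBV : ∀ c (b : F), IsIntegral ↥(Algebra.adjoin A₀ {u}) b → b ∈ V c)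
    (hπV : ∀ c, algebraMap A₀ F π ∈ (V c).nonunits)
    (hSS1 : ∀ b : F, IsIntegral ↥(Algebra.adjoin A₀ {u}) b → (∀ c, b ∈ (V c).nonunits) →
      ∃ b' : F, IsIntegral ↥(Algebra.adjoin A₀ {u}) b' ∧ b = algebraMap A₀ F π * b')
    (hVloc : ∀ c (x : F), x ∈ V c → ∃ b s : F, IsIntegral ↥(Algebra.adjoin A₀ {u}) b ∧
      IsIntegral ↥(Algebra.adjoin A₀ {u}) s ∧ s ∉ (V c).nonunits ∧ s * x = b)
    (hne : ∀ c c', c ≠ c' → V c ≠ V c')
    (harch : ∀ c (a x : F), a ∈ (V c).nonunits → ∃ N : ℕ, a ^ N * x ∈ (V c).nonunits)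
    (𝔫 : Ideal ↥(zchClosure (A₀ := A₀) ({u} : Set F))) [𝔫.IsPrime]
    (hπ𝔫 : algebraMap A₀ ↥(zchClosure (A₀ := A₀) ({u} : Set F)) π ∈ 𝔫)
    (c₁ c₂ : κ)
    (hthr : ∀ c, (∀ b : ↥(zchClosure (A₀ := A₀) ({u} : Set F)),
      (b : F) ∈ (V c).nonunits → b ∈ 𝔫) → c = c₁ ∨ c = c₂)
    (h₂ : ∀ b : ↥(zchClosure (A₀ := A₀) ({u} : Set F)), (b : F) ∈ (V c₂).nonunits → b ∈ 𝔫)
    (X Y G : ↥(zchClosure (A₀ := A₀) ({u} : Set F))) (q' : A₀) (hq' : q' ≠ 0)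
    (hX : X ∈ 𝔫) (hX₂ : (X : F) ∉ (V c₂).nonunits) (hY₂ : (Y : F) ∈ (V c₂).nonunits)
    (hXY : X * Y = algebraMap A₀ ↥(zchClosure (A₀ := A₀) ({u} : Set F)) q' * G) (hG : G ∉ 𝔫)
    (hgen : NodesLocGen 𝔫 {algebraMap A₀ ↥(zchClosure (A₀ := A₀) ({u} : Set F)) π, X, Y})
    {y : F} (p : ℕ)
    (hfin : {P : Place E F | LsTube ↥(zchClosure (A₀ := A₀) ({u} : Set F)) u 𝔫 P ∧
      P.ord y ≠ 0}.Finite)
    (hm : ∀ P : Place E F, LsTube ↥(zchClosure (A₀ := A₀) ({u} : Set F)) u 𝔫 P →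
      (p : ℤ) ∣ P.ord y)
    (hrat : ∀ P : Place E F, LsTube ↥(zchClosure (A₀ := A₀) ({u} : Set F)) u 𝔫 P →
      P.ord y ≠ 0 → ∀ f ∈ P.toValuationSubring,
        ∃ c : E, f - algebraMap E F c ∈ P.toValuationSubring.nonunits)
    (hone : (V c₂).valuation (y - 1) < 1) :
    ∃ γ ε : F, γ ≠ 0 ∧ ε ∈ ls_localSubring (F := F) 𝔫 ∧ ε⁻¹ ∈ ls_localSubring (F := F) 𝔫 ∧
      y = ε * γ ^ p := by
  have hy1 : (V c₂).valuation y = 1 := wh_val_of_one (V c₂) hone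
  refine whc_node_factor hπ hu V hBV hπV hSS1 hVloc hne harch 𝔫 hπ𝔫 c₁ c₂ hthr h₂ X Y G q' hq'
    hX hX₂ hY₂ hXY hG hgen (wh_val_ne_zero (V c₂) hy1) p hfin hm hrat
    ⟨1, 1, one_ne_zero, Subring.one_mem _, by rw [inv_one]; exact Subring.one_mem _,
      one_ne_zero, by rw [one_pow, mul_one, div_one]; exact hone⟩

/-- **(H) at a crossing point**, in the form `StbFacAt (atLoc 𝔫) p y` (closed point `𝔫` of the
chart `u`). -/
theorem whc_node_facAt (hπ : Irreducible π) {u : F} (hu : Transcendental E u)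
    [FiniteDimensional E⟮u⟯ F] [Finite κ]
    [IsNoetherianRing ↥(zchClosure (A₀ := A₀) ({u} : Set F))]
    (V : κ → ValuationSubring F)
    (hBV : ∀ c (b : F), IsIntegral ↥(Algebra.adjoin A₀ {u}) b → b ∈ V c)
    (hπV : ∀ c, algebraMap A₀ F π ∈ (V c).nonunits)
    (hSS1 : ∀ b : F, IsIntegral ↥(Algebra.adjoin A₀ {u}) b → (∀ c, b ∈ (V c).nonunits) →
      ∃ b' : F, IsIntegral ↥(Algebra.adjoin A₀ {u}) b' ∧ b = algebraMap A₀ F π * b')
    (hVloc : ∀ c (x : F), x ∈ V c → ∃ b s : F, IsIntegral ↥(Algebra.adjoin A₀ {u}) b ∧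
      IsIntegral ↥(Algebra.adjoin A₀ {u}) s ∧ s ∉ (V c).nonunits ∧ s * x = b)
    (hne : ∀ c c', c ≠ c' → V c ≠ V c')
    (harch : ∀ c (a x : F), a ∈ (V c).nonunits → ∃ N : ℕ, a ^ N * x ∈ (V c).nonunits)
    (𝔫 : AtPt (F := F) π u) (c₁ c₂ : κ)
    (hthr : ∀ c, atThrough 𝔫 (V c) → c = c₁ ∨ c = c₂) (h₂ : atThrough 𝔫 (V c₂))
    (X Y G : ↥(zchClosure (A₀ := A₀) ({u} : Set F))) (q' : A₀) (hq' : q' ≠ 0)
    (hX : X ∈ 𝔫.1) (hX₂ : (X : F) ∉ (V c₂).nonunits) (hY₂ : (Y : F) ∈ (V c₂).nonunits)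
    (hXY : X * Y = algebraMap A₀ ↥(zchClosure (A₀ := A₀) ({u} : Set F)) q' * G)
    (hG : G ∉ 𝔫.1)
    (hgen : NodesLocGen 𝔫.1 {algebraMap A₀ ↥(zchClosure (A₀ := A₀) ({u} : Set F)) π, X, Y})
    {y : F} (hy : y ≠ 0) (p : ℕ)
    (hfin : {P : Place E F | LsTube ↥(zchClosure (A₀ := A₀) ({u} : Set F)) u 𝔫.1 P ∧
      P.ord y ≠ 0}.Finite)
    (hm : ∀ P : Place E F, LsTube ↥(zchClosure (A₀ := A₀) ({u} : Set F)) u 𝔫.1 P →
      (p : ℤ) ∣ P.ord y)
    (hrat : ∀ P : Place E F, LsTube ↥(zchClosure (A₀ := A₀) ({u} : Set F)) u 𝔫.1 P →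
      P.ord y ≠ 0 → ∀ f ∈ P.toValuationSubring,
        ∃ c : E, f - algebraMap E F c ∈ P.toValuationSubring.nonunits)
    (hsplit : ∃ c h : F, c ≠ 0 ∧ c ∈ atLoc 𝔫 ∧ c⁻¹ ∈ atLoc 𝔫 ∧ h ≠ 0 ∧
      (V c₂).valuation (y / (c * h ^ p) - 1) < 1) :
    StbFacAt (atLoc 𝔫) p y := by
  haveI := 𝔫.2.1.isPrime
  obtain ⟨γ, ε, -, hε, hε', h⟩ := whc_node_factor hπ hu V hBV hπV hSS1 hVloc hne harch 𝔫.1 𝔫.2.2
    c₁ c₂ hthr h₂ X Y G q' hq' hX hX₂ hY₂ hXY hG hgen hy p hfin hm hrat hsplit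
  exact stb_facAt_of_mem _ hy hε hε' h

end NodeAT

section NodeATO

variable {A₀ E F : Type*} [CommRing A₀] [IsDomain A₀] [IsDiscreteValuationRing A₀]
  [Field E] [Algebra A₀ E] [IsFractionRing A₀ E] [CharZero E]
  [Field F] [Algebra E F] [Algebra A₀ F] [IsScalarTower A₀ E F]
  {π : A₀} {κ : Type*}

/-- `whc_node_facAt` for a crossing point of the chart `t`, as a point of
`AtPt π t ⊕ AtPt π t⁻¹`. -/
theorem whc_node_facAt_inl (hπ : Irreducible π) {t : F} (ht : Transcendental E t)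
    [FiniteDimensional E⟮t⟯ F] [Finite κ]
    [IsNoetherianRing ↥(zchClosure (A₀ := A₀) ({t} : Set F))]
    (V : κ → ValuationSubring F)
    (hBV : ∀ c (b : F), IsIntegral ↥(Algebra.adjoin A₀ {t}) b → b ∈ V c)
    (hπV : ∀ c, algebraMap A₀ F π ∈ (V c).nonunits)
    (hSS1 : ∀ b : F, IsIntegral ↥(Algebra.adjoin A₀ {t}) b → (∀ c, b ∈ (V c).nonunits) →
      ∃ b' : F, IsIntegral ↥(Algebra.adjoin A₀ {t}) b' ∧ b = algebraMap A₀ F π * b')
    (hVloc : ∀ c (x : F), x ∈ V c → ∃ b s : F, IsIntegral ↥(Algebra.adjoin A₀ {t}) b ∧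
      IsIntegral ↥(Algebra.adjoin A₀ {t}) s ∧ s ∉ (V c).nonunits ∧ s * x = b)
    (hne : ∀ c c', c ≠ c' → V c ≠ V c')
    (harch : ∀ c (a x : F), a ∈ (V c).nonunits → ∃ N : ℕ, a ^ N * x ∈ (V c).nonunits)
    (𝔫 : AtPt (F := F) π t) (c₁ c₂ : κ)
    (hthr : ∀ c, atInc π t V (Sum.inl 𝔫) c → c = c₁ ∨ c = c₂)
    (h₂ : atInc π t V (Sum.inl 𝔫) c₂)
    (X Y G : ↥(zchClosure (A₀ := A₀) ({t} : Set F))) (q' : A₀) (hq' : q' ≠ 0)
    (hX : X ∈ 𝔫.1) (hX₂ : (X : F) ∉ (V c₂).nonunits) (hY₂ : (Y : F) ∈ (V c₂).nonunits)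
    (hXY : X * Y = algebraMap A₀ ↥(zchClosure (A₀ := A₀) ({t} : Set F)) q' * G)
    (hG : G ∉ 𝔫.1)
    (hgen : NodesLocGen 𝔫.1 {algebraMap A₀ ↥(zchClosure (A₀ := A₀) ({t} : Set F)) π, X, Y})
    {y : F} (hy : y ≠ 0) (p : ℕ)
    (hfin : {P : Place E F | LsTube ↥(zchClosure (A₀ := A₀) ({t} : Set F)) t 𝔫.1 P ∧
      P.ord y ≠ 0}.Finite)
    (hm : ∀ P : Place E F, LsTube ↥(zchClosure (A₀ := A₀) ({t} : Set F)) t 𝔫.1 P →
      (p : ℤ) ∣ P.ord y)
    (hrat : ∀ P : Place E F, LsTube ↥(zchClosure (A₀ := A₀) ({t} : Set F)) t 𝔫.1 P →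
      P.ord y ≠ 0 → ∀ f ∈ P.toValuationSubring,
        ∃ c : E, f - algebraMap E F c ∈ P.toValuationSubring.nonunits)
    (hsplit : ∃ c h : F, c ≠ 0 ∧ c ∈ atO π t (Sum.inl 𝔫) ∧ c⁻¹ ∈ atO π t (Sum.inl 𝔫) ∧ h ≠ 0 ∧
      (V c₂).valuation (y / (c * h ^ p) - 1) < 1) :
    StbFacAt (atO π t (Sum.inl 𝔫)) p y :=
  whc_node_facAt hπ ht V hBV hπV hSS1 hVloc hne harch 𝔫 c₁ c₂ hthr h₂ X Y G q' hq' hX hX₂ hY₂
    hXY hG hgen hy p hfin hm hrat hsplit

/-- `whc_node_facAt` for a crossing point of the chart `t⁻¹`, as a point of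
`AtPt π t ⊕ AtPt π t⁻¹`. -/
theorem whc_node_facAt_inr (hπ : Irreducible π) {t : F} (ht' : Transcendental E t⁻¹)
    [FiniteDimensional E⟮t⁻¹⟯ F] [Finite κ]
    [IsNoetherianRing ↥(zchClosure (A₀ := A₀) ({t⁻¹} : Set F))]
    (V : κ → ValuationSubring F)
    (hBV : ∀ c (b : F), IsIntegral ↥(Algebra.adjoin A₀ {t⁻¹}) b → b ∈ V c)
    (hπV : ∀ c, algebraMap A₀ F π ∈ (V c).nonunits)
    (hSS1 : ∀ b : F, IsIntegral ↥(Algebra.adjoin A₀ {t⁻¹}) b → (∀ c, b ∈ (V c).nonunits) →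
      ∃ b' : F, IsIntegral ↥(Algebra.adjoin A₀ {t⁻¹}) b' ∧ b = algebraMap A₀ F π * b')
    (hVloc : ∀ c (x : F), x ∈ V c → ∃ b s : F, IsIntegral ↥(Algebra.adjoin A₀ {t⁻¹}) b ∧
      IsIntegral ↥(Algebra.adjoin A₀ {t⁻¹}) s ∧ s ∉ (V c).nonunits ∧ s * x = b)
    (hne : ∀ c c', c ≠ c' → V c ≠ V c')
    (harch : ∀ c (a x : F), a ∈ (V c).nonunits → ∃ N : ℕ, a ^ N * x ∈ (V c).nonunits)
    (𝔫 : AtPt (F := F) π t⁻¹) (c₁ c₂ : κ)
    (hthr : ∀ c, atInc π t V (Sum.inr 𝔫) c → c = c₁ ∨ c = c₂)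
    (h₂ : atInc π t V (Sum.inr 𝔫) c₂)
    (X Y G : ↥(zchClosure (A₀ := A₀) ({t⁻¹} : Set F))) (q' : A₀) (hq' : q' ≠ 0)
    (hX : X ∈ 𝔫.1) (hX₂ : (X : F) ∉ (V c₂).nonunits) (hY₂ : (Y : F) ∈ (V c₂).nonunits)
    (hXY : X * Y = algebraMap A₀ ↥(zchClosure (A₀ := A₀) ({t⁻¹} : Set F)) q' * G)
    (hG : G ∉ 𝔫.1)
    (hgen : NodesLocGen 𝔫.1 {algebraMap A₀ ↥(zchClosure (A₀ := A₀) ({t⁻¹} : Set F)) π, X, Y})
    {y : F} (hy : y ≠ 0) (p : ℕ)
    (hfin : {P : Place E F | LsTube ↥(zchClosure (A₀ := A₀) ({t⁻¹} : Set F)) t⁻¹ 𝔫.1 P ∧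
      P.ord y ≠ 0}.Finite)
    (hm : ∀ P : Place E F, LsTube ↥(zchClosure (A₀ := A₀) ({t⁻¹} : Set F)) t⁻¹ 𝔫.1 P →
      (p : ℤ) ∣ P.ord y)
    (hrat : ∀ P : Place E F, LsTube ↥(zchClosure (A₀ := A₀) ({t⁻¹} : Set F)) t⁻¹ 𝔫.1 P →
      P.ord y ≠ 0 → ∀ f ∈ P.toValuationSubring,
        ∃ c : E, f - algebraMap E F c ∈ P.toValuationSubring.nonunits)
    (hsplit : ∃ c h : F, c ≠ 0 ∧ c ∈ atO π t (Sum.inr 𝔫) ∧ c⁻¹ ∈ atO π t (Sum.inr 𝔫) ∧ h ≠ 0 ∧
      (V c₂).valuation (y / (c * h ^ p) - 1) < 1) :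
    StbFacAt (atO π t (Sum.inr 𝔫)) p y :=
  whc_node_facAt hπ ht' V hBV hπV hSS1 hVloc hne harch 𝔫 c₁ c₂ hthr h₂ X Y G q' hq' hX hX₂ hY₂
    hXY hG hgen hy p hfin hm hrat hsplit

end NodeATO

end Fermat.Agent.S33
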