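import Fermat.Agent.STB.CrossPoint
import Fermat.Agent.S33.WildAbsLoc

/-!
# S33 v2, C4 (WILD), piece T5g: normality of the branches (`hN` of `wab_main_two`) (helper90)

`B` a noetherian chart (`B ⊆ F`), `𝔫` a prime of `B`, `V = B_𝔭` a valuation ring through `𝔫`
(`hBV`, `hthrough`, `hVloc`), `𝔫 = 𝔭 + (Y)` locally at `𝔫` (`hgen`, e.g. from
`NodesLocGen 𝔫 {π, s}` at a smooth point, `NodesLocGen 𝔫 {π, X, Y}` at a crossing:
`STB.stb_gc_gen_disc`, `stb_gc_gen_node`, `stb_gc_gen_node'`).  Then the branch `(B/𝔭)_𝔫` is a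
valuation ring (`STB.stb_gc_dvd`), hence integrally closed:

* `wn_dvd_total` (pure algebra): for `b, s ∈ B`, `s ∉ 𝔭`: either `s ∣ b` in `(B/𝔭)_𝔫`, or
  `s = d b` there with `d ∈ 𝔫`;
* `wn_normal_chart` : `WabNormal (ls_localSubring 𝔫) V p` (`2 ≤ p`);
* `wn_normal_point`, `wn_normal_smooth`, `wn_normal_cross₁`, `wn_normal_cross₂` : the same at a
  closed point `𝔫 : AtPt π u` of the chart `u`, from `NodesLocGen` data;
* `WnPtData V 𝔫` : the local datum (smooth or crossing) at `𝔫`; `wn_normal_of_ptData`;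
* `wn_hN` : the hypothesis `hN` of `wab_main_two` from `WnPtData` at all closed points of both
  charts.

No winding generator is needed (no hypothesis `X ∉ 𝔭`).
-/

set_option autoImplicit false
set_option linter.style.haveILetI false
set_option linter.unusedSectionVars false
set_option linter.unusedVariables false

namespace Fermat.Agent.S33

open Polynomial IntermediateField Fermat.Agent.INJ AlgebraicCurve Fermat.Agent.UNIP
  Fermat.Agent.STB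

section Algebra

variable {B : Type*} [CommRing B]

/-- **Dichotomy on the branch.**  `B` noetherian, `𝔭 ≤ 𝔫` primes, `𝔫 = 𝔭 + (Y)` locally at `𝔫`.
For `b, s ∈ B` with `s ∉ 𝔭`: either `u b ≡ c s mod 𝔭` with `u ∉ 𝔫` (`s` divides `b` in
`(B/𝔭)_𝔫`), or `u s ≡ d b mod 𝔭` with `u ∉ 𝔫`, `d ∈ 𝔫`. -/
theorem wn_dvd_total [IsNoetherianRing B] (𝔭 𝔫 : Ideal B) [h𝔭 : 𝔭.IsPrime] [h𝔫 : 𝔫.IsPrime]
    (h𝔭𝔫 : 𝔭 ≤ 𝔫) (Y : B) (hY : Y ∈ 𝔫)
    (hgen : ∀ b ∈ 𝔫, ∃ u : B, u ∉ 𝔫 ∧ ∃ c : B, u * b - c * Y ∈ 𝔭)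
    (b s : B) (hs : s ∉ 𝔭) :
    (∃ u c : B, u ∉ 𝔫 ∧ u * b - c * s ∈ 𝔭) ∨
      ∃ u d : B, u ∉ 𝔫 ∧ d ∈ 𝔫 ∧ u * s - d * b ∈ 𝔭 := by
  classical
  -- the branch `R = B / 𝔭` and its prime `𝔫̄`
  let R := B ⧸ 𝔭
  let mk : B →+* R := Ideal.Quotient.mk 𝔭
  have hmk : Function.Surjective mk := Ideal.Quotient.mk_surjective
  let 𝔫' : Ideal R := 𝔫.map mk
  have hmem : ∀ x : B, mk x ∈ 𝔫' ↔ x ∈ 𝔫 := fun x => Ideal.mem_quotient_iff_mem h𝔭𝔫
  have h𝔫' : 𝔫'.IsPrime :=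
    Ideal.map_isPrime_of_surjective hmk (by rw [Ideal.mk_ker]; exact h𝔭𝔫)
  let S := Localization.AtPrime 𝔫'
  have hinjS : Function.Injective (algebraMap R S) :=
    IsLocalization.injective S (Ideal.primeCompl_le_nonZeroDivisors 𝔫')
  have : IsDomain S := IsLocalization.isDomain_localization (Ideal.primeCompl_le_nonZeroDivisors 𝔫')
  have : IsNoetherianRing S := IsLocalization.isNoetherianRing 𝔫'.primeCompl S inferInstance
  have hunit : ∀ x : B, x ∉ 𝔫 → IsUnit (algebraMap R S (mk x)) := fun x hx =>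
    (IsLocalization.AtPrime.isUnit_to_map_iff S 𝔫' (mk x)).2 (fun h => hx ((hmem x).1 h))
  -- the maximal ideal of `S` is generated by the image of `Y`
  have hprinc : (IsLocalRing.maximalIdeal S).IsPrincipal := by
    refine ⟨⟨algebraMap R S (mk Y), ?_⟩⟩
    apply le_antisymm
    · intro x hx
      obtain ⟨r, t, rfl⟩ := IsLocalization.exists_mk'_eq 𝔫'.primeCompl x
      have hr : r ∈ 𝔫' := by
        have h1 : algebraMap R S r ∈ IsLocalRing.maximalIdeal S := by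
          have h2 : algebraMap R S r = IsLocalization.mk' S r t * algebraMap R S t := by
            rw [IsLocalization.mk'_spec]
          rw [h2]
          exact Ideal.mul_mem_right _ _ hx
        exact (IsLocalization.AtPrime.to_map_mem_maximal_iff S 𝔫' r).1 h1
      obtain ⟨b₀, rfl⟩ := hmk r
      have hb₀ : b₀ ∈ 𝔫 := (hmem b₀).1 hr
      obtain ⟨u, hu, c, huc⟩ := hgen b₀ hb₀
      have e1 : mk u * mk b₀ = mk c * mk Y := by
        rw [← map_mul, ← map_mul, ← sub_eq_zero, ← map_sub]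
        exact Ideal.Quotient.eq_zero_iff_mem.2 huc
      obtain ⟨v, hv⟩ := hunit u hu
      have e2 : algebraMap R S (mk b₀) = ((v⁻¹ : Sˣ) : S) * algebraMap R S (mk c)
          * algebraMap R S (mk Y) := by
        have e3 : (v : S) * algebraMap R S (mk b₀) =
            algebraMap R S (mk c) * algebraMap R S (mk Y) := by
          rw [hv, ← map_mul, e1, map_mul]
        rw [mul_assoc, ← e3, ← mul_assoc, Units.inv_mul, one_mul]
      rw [Submodule.mem_span_singleton]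
      obtain ⟨w, hw⟩ := IsLocalization.map_units S t
      refine ⟨((w⁻¹ : Sˣ) : S) * (((v⁻¹ : Sˣ) : S) * algebraMap R S (mk c)), ?_⟩
      have e4 : IsLocalization.mk' S (mk b₀) t = ((w⁻¹ : Sˣ) : S) * algebraMap R S (mk b₀) := by
        rw [IsLocalization.mk'_eq_iff_eq_mul, mul_comm _ (algebraMap R S (t : R)), ← hw,
          ← mul_assoc, Units.mul_inv, one_mul]
      rw [e4, e2, smul_eq_mul]
      ring
    · rw [Submodule.span_le, Set.singleton_subset_iff]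
      exact (IsLocalization.AtPrime.to_map_mem_maximal_iff S 𝔫' (mk Y)).2 ((hmem Y).2 hY)
  have hval : ValuationRing S :=
    ((tfae_of_isNoetherianRing_of_isLocalRing_of_isDomain S).out 4 1).1 hprinc
  -- the images of `b`, `s`
  set b' : S := algebraMap R S (mk b) with hb'
  set s' : S := algebraMap R S (mk s) with hs'
  -- from a divisibility in `S` to a congruence in `B`
  have hback : ∀ (x y z : B) (q : S), algebraMap R S (mk x) = algebraMap R S (mk y) * q →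
      ∃ u c : B, u ∉ 𝔫 ∧ u * x - c * y ∈ 𝔭 ∧
        (q ∈ IsLocalRing.maximalIdeal S → c ∈ 𝔫) := by
    intro x y z q hq
    obtain ⟨r, t, rfl⟩ := IsLocalization.exists_mk'_eq 𝔫'.primeCompl q
    obtain ⟨c, rfl⟩ := hmk r
    obtain ⟨u, hu⟩ := hmk (t : R)
    have hu𝔫 : u ∉ 𝔫 := fun h0 => t.2 (by rw [← hu]; exact (hmem u).2 h0)
    refine ⟨u, c, hu𝔫, ?_, ?_⟩
    · apply Ideal.Quotient.eq_zero_iff_mem.1
      apply hinjS
      rw [map_zero, map_sub, map_sub, map_mul, map_mul, map_mul, map_mul, sub_eq_zero, hu, hq]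
      have e5 : algebraMap R S (t : R) * IsLocalization.mk' S (mk c) t =
          algebraMap R S (mk c) := by
        rw [mul_comm, IsLocalization.mk'_spec]
      rw [mul_comm (algebraMap R S (mk y)), ← mul_assoc, e5]
    · intro hqm
      have h1 : algebraMap R S (mk c) ∈ IsLocalRing.maximalIdeal S := by
        have h2 : algebraMap R S (mk c) = IsLocalization.mk' S (mk c) t * algebraMap R S t := by
          rw [IsLocalization.mk'_spec]
        rw [h2]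
        exact Ideal.mul_mem_right _ _ hqm
      exact (hmem c).1 ((IsLocalization.AtPrime.to_map_mem_maximal_iff S 𝔫' (mk c)).1 h1)
  rcases ValuationRing.dvd_total s' b' with ⟨q, hq⟩ | ⟨q, hq⟩
  · obtain ⟨u, c, hu, huc, -⟩ := hback b s 0 q hq
    exact Or.inl ⟨u, c, hu, huc⟩
  · by_cases hqu : IsUnit q
    · obtain ⟨qu, rfl⟩ := hqu
      have hq' : b' = s' * ((qu⁻¹ : Sˣ) : S) := by
        rw [hq, mul_assoc, Units.mul_inv, mul_one]
      obtain ⟨u, c, hu, huc, -⟩ := hback b s 0 _ hq'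
      exact Or.inl ⟨u, c, hu, huc⟩
    · have hqm : q ∈ IsLocalRing.maximalIdeal S := (IsLocalRing.mem_maximalIdeal q).2 hqu
      obtain ⟨u, d, hu, hud, hd⟩ := hback s b 0 q hq
      exact Or.inr ⟨u, d, hu, hd hqm, hud⟩

end Algebra

section Chart

variable {F : Type*} [Field F] {B : Type*} [CommRing B] [Algebra B F]

/-- the reduction `B → k(V)` -/
noncomputable def wnRed (V : ValuationSubring F) (hBV : ∀ b : B, algebraMap B F b ∈ V) :
    B →+* IsLocalRing.ResidueField V :=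
  (IsLocalRing.residue V).comp ((algebraMap B F).codRestrict V.toSubring hBV)

theorem wnRed_eq_zero_iff (V : ValuationSubring F) (hBV : ∀ b : B, algebraMap B F b ∈ V)
    (b : B) : wnRed V hBV b = 0 ↔ algebraMap B F b ∈ V.nonunits := by
  unfold wnRed
  rw [RingHom.comp_apply, IsLocalRing.residue_eq_zero_iff]
  exact (ValuationSubring.coe_mem_nonunits_iff
    (a := (⟨algebraMap B F b, hBV b⟩ : V))).symm

/-- the reduction of an element of `V` -/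
theorem wn_res_eq_zero_iff (V : ValuationSubring F) {x : F} (hx : x ∈ V) :
    IsLocalRing.residue V ⟨x, hx⟩ = 0 ↔ x ∈ V.nonunits := by
  rw [IsLocalRing.residue_eq_zero_iff]
  exact (ValuationSubring.coe_mem_nonunits_iff (a := (⟨x, hx⟩ : V))).symm

theorem wn_nonunits_iff (V : ValuationSubring F) (x : F) :
    V.valuation x < 1 ↔ x ∈ V.nonunits := (ValuationSubring.mem_nonunits_iff V).symm

variable (hinj : Function.Injective (algebraMap B F)) (𝔫 : Ideal B) [h𝔫 : 𝔫.IsPrime]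

include hinj in
/-- **(N), chart form, wild.**  `V` a valuation ring through the prime `𝔫` of the noetherian chart
`B`, `V = B_𝔭` (`hVloc`), `𝔫 = 𝔭 + (Y)` locally at `𝔫` (`hgen`): the branch is normal. -/
theorem wn_normal_chart [IsNoetherianRing B] (V : ValuationSubring F)
    (hBV : ∀ b : B, algebraMap B F b ∈ V)
    (hthrough : ∀ b : B, algebraMap B F b ∈ V.nonunits → b ∈ 𝔫)
    (hVloc : ∀ x : F, x ∈ V → ∃ b s : B, algebraMap B F s ∉ V.nonunits ∧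
      algebraMap B F s * x = algebraMap B F b)
    (Y : B) (hY : Y ∈ 𝔫)
    (hgen : ∀ b ∈ 𝔫, ∃ u : B, u ∉ 𝔫 ∧ ∃ c : B, algebraMap B F (u * b - c * Y) ∈ V.nonunits)
    {p : ℕ} (hp : 2 ≤ p) : WabNormal (ls_localSubring (F := F) 𝔫) V p := by
  haveI := stb_gc_vert_isPrime V hBV
  have hOV := stb_gc_le 𝔫 V hBV hthrough
  have h𝔭𝔫 : stbGcVert V hBV ≤ 𝔫 := fun x hx => hthrough x hx
  -- the reduction maps
  set φ := wnRed V hBV with hφ
  have hφ0 : ∀ b : B, φ b = 0 ↔ algebraMap B F b ∈ V.nonunits := wnRed_eq_zero_iff V hBV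
  have hφres : ∀ (b : B), φ b = IsLocalRing.residue V ⟨algebraMap B F b, hBV b⟩ := fun b => rfl
  -- the common part: `x ≡ α ∈ O`, or `d̄ x̄ = ū` with `u ∉ 𝔫`, `d ∈ 𝔫`
  have key : ∀ x : F, ∀ hx : x ∈ V,
      (∃ s ∈ ls_localSubring (F := F) 𝔫, V.valuation (x - s) < 1) ∨
        ∃ u d : B, u ∉ 𝔫 ∧ d ∈ 𝔫 ∧ φ d * IsLocalRing.residue V ⟨x, hx⟩ = φ u := by
    intro x hx
    obtain ⟨b, s, hs, hsx⟩ := hVloc x hx
    have hvs : V.valuation (algebraMap B F s) = 1 := stb_gc_val_eq_one V (hBV s) hs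
    have hs0 : algebraMap B F s ≠ 0 := fun h0 => by
      rw [h0, map_zero] at hvs
      exact zero_ne_one hvs
    rcases wn_dvd_total (stbGcVert V hBV) 𝔫 h𝔭𝔫 Y hY
      (fun b hb => by
        obtain ⟨u, hu, c, hc⟩ := hgen b hb
        exact ⟨u, hu, c, hc⟩) b s hs with ⟨u, c, hu, huc⟩ | ⟨u, d, hu, hd, hud⟩
    · left
      have hu0 : algebraMap B F u ≠ 0 := stb_gc_algebraMap_ne_zero hinj 𝔫 hu
      have hvu : V.valuation (algebraMap B F u) = 1 :=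
        stb_gc_val_eq_one V (hBV u) (fun h => hu (hthrough u h))
      refine ⟨algebraMap B F c / algebraMap B F u, ⟨c, u, hu, by field_simp⟩, ?_⟩
      rw [wn_nonunits_iff]
      have e : x - algebraMap B F c / algebraMap B F u
          = (algebraMap B F s * algebraMap B F u)⁻¹ * algebraMap B F (u * b - c * s) := by
        rw [map_sub, map_mul, map_mul, ← hsx]
        field_simp
      rw [e]
      refine pwi_mul_mem_nonunits V ?_ huc
      rw [← V.valuation_le_one_iff, map_inv₀, map_mul, hvs, hvu, one_mul, inv_one]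
    · right
      refine ⟨u, d, hu, hd, ?_⟩
      -- `φ s (φ u - φ d x̄) = 0`
      have h1 : φ (u * s - d * b) = 0 := (hφ0 _).2 hud
      have h2 : φ b = φ s * IsLocalRing.residue V ⟨x, hx⟩ := by
        rw [hφres, hφres, ← map_mul]
        congr 1
        exact Subtype.ext hsx.symm
      have h3 : φ s ≠ 0 := fun h0 => hs ((hφ0 s).1 h0)
      rw [map_sub, map_mul, map_mul, h2] at h1
      have h4 : φ s * (φ u - φ d * IsLocalRing.residue V ⟨x, hx⟩) = 0 := by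
        linear_combination h1
      rcases mul_eq_zero.1 h4 with h5 | h5
      · exact absurd h5 h3
      · exact (sub_eq_zero.1 h5).symm
  -- an element of `O` in the residue field
  have hO : ∀ r ∈ ls_localSubring (F := F) 𝔫, ∀ hr : r ∈ V,
      ∃ r₁ r₂ : B, r₂ ∉ 𝔫 ∧ φ r₂ * IsLocalRing.residue V ⟨r, hr⟩ = φ r₁ := by
    rintro r ⟨r₁, r₂, hr₂, hrr⟩ hr
    refine ⟨r₁, r₂, hr₂, ?_⟩
    rw [hφres, hφres, ← map_mul]
    congr 1
    exact Subtype.ext hrr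
  have hne : ∀ z : B, z ∉ 𝔫 → φ z ≠ 0 := fun z hz h0 => hz (hthrough z ((hφ0 z).1 h0))
  have hin : ∀ z : B, z ∈ 𝔫 → ∀ w : B, φ z = φ w → w ∈ 𝔫 := by
    intro z hz w hzw
    have h1 : φ (w - z) = 0 := by rw [map_sub, hzw, sub_self]
    have h2 : w - z ∈ 𝔫 := hthrough _ ((hφ0 _).1 h1)
    have h3 : w = (w - z) + z := by ring
    rw [h3]
    exact 𝔫.add_mem h2 hz
  have hp0 : p ≠ 0 := by omega
  have hp1 : p - 1 ≠ 0 := by omega
  refine ⟨?_, ?_⟩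
  · intro x hx r hr hxr
    rcases key x hx with h | ⟨u, d, hu, hd, hud⟩
    · exact h
    exfalso
    have hrV : r ∈ V := hOV r hr
    obtain ⟨r₁, r₂, hr₂, hrr⟩ := hO r hr hrV
    -- `x̄ ^ p = r̄`
    have hxr' : IsLocalRing.residue V ⟨x, hx⟩ ^ p = IsLocalRing.residue V ⟨r, hrV⟩ := by
      rw [← map_pow, ← sub_eq_zero, ← map_sub]
      exact (wn_res_eq_zero_iff V (V.sub_mem (V.pow_mem hx p) hrV)).2
        ((wn_nonunits_iff V _).1 hxr)
    -- `r̄₂ ū ^ p = r̄₁ d̄ ^ p`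
    have h1 : φ (r₂ * u ^ p) = φ (r₁ * d ^ p) := by
      rw [map_mul, map_mul, map_pow, map_pow, ← hud, ← hrr, ← hxr']
      ring
    have h2 : r₂ * u ^ p ∈ 𝔫 := hin (r₁ * d ^ p) (𝔫.mul_mem_left _ (𝔫.pow_mem_of_mem hd p
      (Nat.pos_of_ne_zero hp0))) _ h1.symm
    rcases h𝔫.mem_or_mem h2 with h3 | h3
    · exact hr₂ h3
    · exact hu (h𝔫.mem_of_pow_mem p h3)
  · intro x hx r hr hxr
    rcases key x hx with h | ⟨u, d, hu, hd, hud⟩
    · exact h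
    exfalso
    have hrV : r ∈ V := hOV r hr
    obtain ⟨r₁, r₂, hr₂, hrr⟩ := hO r hr hrV
    -- `x̄ ^ p - x̄ = r̄`
    have hxr' : IsLocalRing.residue V ⟨x, hx⟩ ^ p - IsLocalRing.residue V ⟨x, hx⟩ =
        IsLocalRing.residue V ⟨r, hrV⟩ := by
      rw [← map_pow, ← map_sub, ← sub_eq_zero, ← map_sub]
      exact (wn_res_eq_zero_iff V
        (V.sub_mem (V.sub_mem (V.pow_mem hx p) hx) hrV)).2 ((wn_nonunits_iff V _).1 hxr)
    -- `r̄₂ ū ^ p = d̄ (r̄₂ d̄ ^ (p - 2) ū + r̄₁ d̄ ^ (p - 1))`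
    obtain ⟨k, rfl⟩ : ∃ k, p = k + 2 := ⟨p - 2, by omega⟩
    have h1 : φ (r₂ * u ^ (k + 2)) = φ (d * (r₂ * d ^ k * u + r₁ * d ^ (k + 1))) := by
      simp only [map_mul, map_add, map_pow]
      rw [← hud, ← hrr, ← hxr']
      ring
    have h2 : r₂ * u ^ (k + 2) ∈ 𝔫 := hin _ (𝔫.mul_mem_right _ hd) _ h1.symm
    rcases h𝔫.mem_or_mem h2 with h3 | h3
    · exact hr₂ h3
    · exact hu (h𝔫.mem_of_pow_mem _ h3)

end Chart

section Point

variable {A₀ E F : Type*} [CommRing A₀] [IsDomain A₀] [IsDiscreteValuationRing A₀]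
  [Field E] [Algebra A₀ E] [IsFractionRing A₀ E] [CharZero E]
  [Field F] [Algebra E F] [Algebra A₀ F] [IsScalarTower A₀ E F]
  {π : A₀} {κ : Type*}

/-- **(N), wild, at a closed point of the chart `u`**: branch `V` through `𝔫`, `V = (B_u)_𝔭`,
`𝔫 = 𝔭 + (Y)` locally at `𝔫`. -/
theorem wn_normal_point {u : F} [IsNoetherianRing ↥(zchClosure (A₀ := A₀) ({u} : Set F))]
    (V : ValuationSubring F)
    (hBV : ∀ b : F, IsIntegral ↥(Algebra.adjoin A₀ {u}) b → b ∈ V)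
    (hVloc : ∀ x : F, x ∈ V → ∃ b s : F, IsIntegral ↥(Algebra.adjoin A₀ {u}) b ∧
      IsIntegral ↥(Algebra.adjoin A₀ {u}) s ∧ s ∉ V.nonunits ∧ s * x = b)
    (𝔫 : AtPt (F := F) π u) (hthr : atThrough 𝔫 V)
    (Y : ↥(zchClosure (A₀ := A₀) ({u} : Set F))) (hY : Y ∈ 𝔫.1)
    (hgen : ∀ b ∈ 𝔫.1, ∃ w : ↥(zchClosure (A₀ := A₀) ({u} : Set F)), w ∉ 𝔫.1 ∧
      ∃ c : ↥(zchClosure (A₀ := A₀) ({u} : Set F)),
        algebraMap ↥(zchClosure (A₀ := A₀) ({u} : Set F)) F (w * b - c * Y) ∈ V.nonunits)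
    {p : ℕ} (hp : 2 ≤ p) : WabNormal (atLoc 𝔫) V p := by
  haveI := 𝔫.2.1.isPrime
  exact wn_normal_chart (B := ↥(zchClosure (A₀ := A₀) ({u} : Set F))) Subtype.val_injective 𝔫.1 V
    (fun b => hBV _ (mem_zchClosure.mp b.2)) hthr
    (fun x hx => by
      obtain ⟨b, s, hb, hs, hsV, hsx⟩ := hVloc x hx
      exact ⟨⟨b, mem_zchClosure.mpr hb⟩, ⟨s, mem_zchClosure.mpr hs⟩, hsV, hsx⟩)
    Y hY hgen hp

/-- **(N), wild, at a smooth closed point**: `𝔫 = (π, s)` locally. -/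
theorem wn_normal_smooth {u : F} [IsNoetherianRing ↥(zchClosure (A₀ := A₀) ({u} : Set F))]
    (V : ValuationSubring F)
    (hBV : ∀ b : F, IsIntegral ↥(Algebra.adjoin A₀ {u}) b → b ∈ V)
    (hπV : algebraMap A₀ F π ∈ V.nonunits)
    (hVloc : ∀ x : F, x ∈ V → ∃ b s : F, IsIntegral ↥(Algebra.adjoin A₀ {u}) b ∧
      IsIntegral ↥(Algebra.adjoin A₀ {u}) s ∧ s ∉ V.nonunits ∧ s * x = b)
    (𝔫 : AtPt (F := F) π u) (hthr : atThrough 𝔫 V)
    (s : ↥(zchClosure (A₀ := A₀) ({u} : Set F))) (hs : s ∈ 𝔫.1)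
    (hgen : NodesLocGen 𝔫.1 {algebraMap A₀ ↥(zchClosure (A₀ := A₀) ({u} : Set F)) π, s})
    {p : ℕ} (hp : 2 ≤ p) : WabNormal (atLoc 𝔫) V p := by
  haveI := 𝔫.2.1.isPrime
  exact wn_normal_point V hBV hVloc 𝔫 hthr s hs
    (stb_gc_gen_disc (B := ↥(zchClosure (A₀ := A₀) ({u} : Set F))) 𝔫.1 V
      (fun b => hBV _ (mem_zchClosure.mp b.2)) hgen hπV) hp

/-- **(N), wild, at a crossing point**, branch `V₁ ∋ π, X` (parameter `Y`). -/
theorem wn_normal_cross₁ {u : F} [IsNoetherianRing ↥(zchClosure (A₀ := A₀) ({u} : Set F))]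
    (V₁ : ValuationSubring F)
    (hBV₁ : ∀ b : F, IsIntegral ↥(Algebra.adjoin A₀ {u}) b → b ∈ V₁)
    (hπV₁ : algebraMap A₀ F π ∈ V₁.nonunits)
    (hVloc₁ : ∀ x : F, x ∈ V₁ → ∃ b s : F, IsIntegral ↥(Algebra.adjoin A₀ {u}) b ∧
      IsIntegral ↥(Algebra.adjoin A₀ {u}) s ∧ s ∉ V₁.nonunits ∧ s * x = b)
    (𝔫 : AtPt (F := F) π u) (hthr₁ : atThrough 𝔫 V₁)
    (X Y : ↥(zchClosure (A₀ := A₀) ({u} : Set F))) (hX : (X : F) ∈ V₁.nonunits) (hY : Y ∈ 𝔫.1)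
    (hgen : NodesLocGen 𝔫.1 {algebraMap A₀ ↥(zchClosure (A₀ := A₀) ({u} : Set F)) π, X, Y})
    {p : ℕ} (hp : 2 ≤ p) : WabNormal (atLoc 𝔫) V₁ p := by
  haveI := 𝔫.2.1.isPrime
  exact wn_normal_point V₁ hBV₁ hVloc₁ 𝔫 hthr₁ Y hY
    (stb_gc_gen_node (B := ↥(zchClosure (A₀ := A₀) ({u} : Set F))) 𝔫.1 V₁
      (fun b => hBV₁ _ (mem_zchClosure.mp b.2)) hgen hπV₁ hX) hp

/-- **(N), wild, at a crossing point**, branch `V₂ ∋ π, Y` (parameter `X`). -/
theorem wn_normal_cross₂ {u : F} [IsNoetherianRing ↥(zchClosure (A₀ := A₀) ({u} : Set F))]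
    (V₂ : ValuationSubring F)
    (hBV₂ : ∀ b : F, IsIntegral ↥(Algebra.adjoin A₀ {u}) b → b ∈ V₂)
    (hπV₂ : algebraMap A₀ F π ∈ V₂.nonunits)
    (hVloc₂ : ∀ x : F, x ∈ V₂ → ∃ b s : F, IsIntegral ↥(Algebra.adjoin A₀ {u}) b ∧
      IsIntegral ↥(Algebra.adjoin A₀ {u}) s ∧ s ∉ V₂.nonunits ∧ s * x = b)
    (𝔫 : AtPt (F := F) π u) (hthr₂ : atThrough 𝔫 V₂)
    (X Y : ↥(zchClosure (A₀ := A₀) ({u} : Set F))) (hX : X ∈ 𝔫.1) (hY : (Y : F) ∈ V₂.nonunits)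
    (hgen : NodesLocGen 𝔫.1 {algebraMap A₀ ↥(zchClosure (A₀ := A₀) ({u} : Set F)) π, X, Y})
    {p : ℕ} (hp : 2 ≤ p) : WabNormal (atLoc 𝔫) V₂ p := by
  haveI := 𝔫.2.1.isPrime
  exact wn_normal_point V₂ hBV₂ hVloc₂ 𝔫 hthr₂ X hX
    (stb_gc_gen_node' (B := ↥(zchClosure (A₀ := A₀) ({u} : Set F))) 𝔫.1 V₂
      (fun b => hBV₂ _ (mem_zchClosure.mp b.2)) hgen hπV₂ hY) hp

/-- **The local datum at a closed point `𝔫` of the chart `u`** used for (N): either `𝔫` is a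
smooth point (`𝔫 = (π, s)` locally), or `𝔫` is a crossing of two components `c₁, c₂`
(`𝔫 = (π, X, Y)` locally, `X ∈ 𝔪(V c₁)`, `Y ∈ 𝔪(V c₂)`, no other component through `𝔫`). -/
def WnPtData {u : F} (V : κ → ValuationSubring F) (𝔫 : AtPt (F := F) π u) : Prop :=
  (∃ s : ↥(zchClosure (A₀ := A₀) ({u} : Set F)), s ∈ 𝔫.1 ∧
      NodesLocGen 𝔫.1 {algebraMap A₀ ↥(zchClosure (A₀ := A₀) ({u} : Set F)) π, s}) ∨
    ∃ (c₁ c₂ : κ) (X Y : ↥(zchClosure (A₀ := A₀) ({u} : Set F))),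
      (∀ c, atThrough 𝔫 (V c) → c = c₁ ∨ c = c₂) ∧ X ∈ 𝔫.1 ∧ Y ∈ 𝔫.1 ∧
      (X : F) ∈ (V c₁).nonunits ∧ (Y : F) ∈ (V c₂).nonunits ∧
      NodesLocGen 𝔫.1 {algebraMap A₀ ↥(zchClosure (A₀ := A₀) ({u} : Set F)) π, X, Y}

/-- **(N), wild, at every closed point of the chart `u` and every branch through it.** -/
theorem wn_normal_of_ptData {u : F} [IsNoetherianRing ↥(zchClosure (A₀ := A₀) ({u} : Set F))]
    (V : κ → ValuationSubring F)
    (hBV : ∀ c (b : F), IsIntegral ↥(Algebra.adjoin A₀ {u}) b → b ∈ V c)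
    (hπV : ∀ c, algebraMap A₀ F π ∈ (V c).nonunits)
    (hVloc : ∀ c (x : F), x ∈ V c → ∃ b s : F, IsIntegral ↥(Algebra.adjoin A₀ {u}) b ∧
      IsIntegral ↥(Algebra.adjoin A₀ {u}) s ∧ s ∉ (V c).nonunits ∧ s * x = b)
    (𝔫 : AtPt (F := F) π u) (hdat : WnPtData V 𝔫) {p : ℕ} (hp : 2 ≤ p)
    (c : κ) (hthr : atThrough 𝔫 (V c)) : WabNormal (atLoc 𝔫) (V c) p := by
  rcases hdat with ⟨s, hs, hgen⟩ | ⟨c₁, c₂, X, Y, h12, hX, hY, hX₁, hY₂, hgen⟩
  · exact wn_normal_smooth (V c) (hBV c) (hπV c) (hVloc c) 𝔫 hthr s hs hgen hp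
  · rcases h12 c hthr with rfl | rfl
    · exact wn_normal_cross₁ (V c) (hBV c) (hπV c) (hVloc c) 𝔫 hthr X Y hX₁ hY hgen hp
    · exact wn_normal_cross₂ (V c) (hBV c) (hπV c) (hVloc c) 𝔫 hthr X Y hX hY₂ hgen hp

/-- **`hN` of `wab_main_two`** from the local data at the closed points of both charts. -/
theorem wn_hN {t : F} [IsNoetherianRing ↥(zchClosure (A₀ := A₀) ({t} : Set F))]
    [IsNoetherianRing ↥(zchClosure (A₀ := A₀) ({t⁻¹} : Set F))]
    (V : κ → ValuationSubring F)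
    (hBV₁ : ∀ c (b : F), IsIntegral ↥(Algebra.adjoin A₀ {t}) b → b ∈ V c)
    (hBV₂ : ∀ c (b : F), IsIntegral ↥(Algebra.adjoin A₀ {t⁻¹}) b → b ∈ V c)
    (hπV : ∀ c, algebraMap A₀ F π ∈ (V c).nonunits)
    (hVloc₁ : ∀ c (x : F), x ∈ V c → ∃ b s : F, IsIntegral ↥(Algebra.adjoin A₀ {t}) b ∧
      IsIntegral ↥(Algebra.adjoin A₀ {t}) s ∧ s ∉ (V c).nonunits ∧ s * x = b)
    (hVloc₂ : ∀ c (x : F), x ∈ V c → ∃ b s : F, IsIntegral ↥(Algebra.adjoin A₀ {t⁻¹}) b ∧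
      IsIntegral ↥(Algebra.adjoin A₀ {t⁻¹}) s ∧ s ∉ (V c).nonunits ∧ s * x = b)
    (hdat₁ : ∀ 𝔫 : AtPt (F := F) π t, WnPtData V 𝔫)
    (hdat₂ : ∀ 𝔫 : AtPt (F := F) π t⁻¹, WnPtData V 𝔫)
    {p : ℕ} (hp : 2 ≤ p) :
    ∀ i c, atInc π t V i c → WabNormal (atO π t i) (V c) p := by
  rintro (𝔫 | 𝔫) c hc
  · exact wn_normal_of_ptData V hBV₁ hπV hVloc₁ 𝔫 (hdat₁ 𝔫) hp c hc
  · exact wn_normal_of_ptData V hBV₂ hπV hVloc₂ 𝔫 (hdat₂ 𝔫) hp c hc

end Point

end Fermat.Agent.S33
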