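import Fermat.Agent.S33.WildThick
import Fermat.Agent.S33.WildHorChart
import Fermat.Agent.UNIP.CoordTransport

/-!
# S33 v2, C4 (WILD), piece T5f, chart level: the crossing points have FINITE THICKNESS

Chart `B_u = zchClosure {u}` over the (ramified) base `A₀`, `𝔫 ∋ π` a prime, `V c₁`, `V c₂` the
two vertical valuation rings through `𝔫`.

* `wthc_inv_notMem` : `b ∈ 𝔫`, `b ≠ 0` ⇒ `b⁻¹ ∉ B_𝔫`.
* `wthc_final` : stage data for every `n` (the form `hstage` of `UNIP.unip_hcoord_node`, i.e. the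
  output of `unip_morse_iter_vert`) + a tube-unit `U ∈ B_𝔫`, `U · V' = q ^ N`, `V' ∈ B_𝔫`,
  `U ∈ 𝔪(V c₁)`, `U ∉ 𝔪(V c₂)` (the modular unit `q¹² Δ(qz)/Δ(z)`, `N = 12`)
  ⇒ a FINAL stage datum `X Y = q ^ n' G`, `G ∉ 𝔫`, `𝔫 = (π, X, Y)` locally,
  `X ∈ 𝔪(V c₁) ∖ 𝔪(V c₂)`, `Y ∈ 𝔪(V c₂) ∖ 𝔪(V c₁)`: the input of `whc_node_factor` (T4c), for
  both branches.
* `wthc_of_nodes` : the same from the output of U5 at `𝔫.comap j` on the unramified chart `R`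
  (`MgcRamified j π p`, `j p = q`): smooth point or crossing of finite thickness.
-/

set_option autoImplicit false
set_option linter.style.haveILetI false
set_option linter.unusedSectionVars false
set_option linter.unusedVariables false

namespace Fermat.Agent.S33

open Polynomial IntermediateField Fermat.Agent.INJ AlgebraicCurve Fermat.Agent.UNIP
  Fermat.Agent.STB

section Loc

variable {F : Type*} [Field F] {B : Type*} [CommRing B] [Algebra B F]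

/-- a nonzero element of `𝔫` is not a unit of `B_𝔫` -/
theorem wthc_inv_notMem (hinj : Function.Injective (algebraMap B F)) (𝔫 : Ideal B) [𝔫.IsPrime]
    {b : B} (hb : b ∈ 𝔫) (hb0 : algebraMap B F b ≠ 0) :
    (algebraMap B F b)⁻¹ ∉ ls_localSubring (F := F) 𝔫 := by
  rintro ⟨c, s, hs, hsx⟩
  apply hs
  have e : algebraMap B F s = algebraMap B F (c * b) := by
    rw [map_mul, ← hsx]; field_simp
  rw [hinj e]
  exact 𝔫.mul_mem_left _ hb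

/-- an element of `B` outside `𝔫` is a unit of `B_𝔫` -/
theorem wthc_inv_mem (𝔫 : Ideal B) [h𝔫 : 𝔫.IsPrime] {b : B} (hb : b ∉ 𝔫)
    (hb0 : algebraMap B F b ≠ 0) :
    (algebraMap B F b)⁻¹ ∈ ls_localSubring (F := F) 𝔫 :=
  ⟨1, b, hb, by rw [map_one]; exact mul_inv_cancel₀ hb0⟩

end Loc

section ThickChart

variable {A₀ E F : Type*} [CommRing A₀] [IsDomain A₀] [IsDiscreteValuationRing A₀]
  [Field E] [Algebra A₀ E] [IsFractionRing A₀ E] [CharZero E]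
  [Field F] [Algebra E F] [Algebra A₀ F] [IsScalarTower A₀ E F]
  {π : A₀} {κ : Type*}

/-- **Finite thickness at a crossing point, chart level.** -/
theorem wthc_final (hπ : Irreducible π) {u : F} (hu : Transcendental E u)
    [FiniteDimensional E⟮u⟯ F] [Finite κ]
    [IsNoetherianRing ↥(zchClosure (A₀ := A₀) ({u} : Set F))]
    (V : κ → ValuationSubring F)
    (hBV : ∀ c (b : F), IsIntegral ↥(Algebra.adjoin A₀ {u}) b → b ∈ V c)
    (hπV : ∀ c, algebraMap A₀ F π ∈ (V c).nonunits)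
    (hSS1 : ∀ b : F, IsIntegral ↥(Algebra.adjoin A₀ {u}) b → (∀ c, b ∈ (V c).nonunits) →
      ∃ b' : F, IsIntegral ↥(Algebra.adjoin A₀ {u}) b' ∧ b = algebraMap A₀ F π * b')
    (hVloc : ∀ c (x : F), x ∈ V c → ∃ b s : F, IsIntegral ↥(Algebra.adjoin A₀ {u}) b ∧
      IsIntegral ↥(Algebra.adjoin A₀ {u}) s ∧ s ∉ (V c).nonunits ∧ s * x = b)
    (𝔫 : Ideal ↥(zchClosure (A₀ := A₀) ({u} : Set F))) [𝔫.IsPrime]
    (hπ𝔫 : algebraMap A₀ ↥(zchClosure (A₀ := A₀) ({u} : Set F)) π ∈ 𝔫)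
    (c₁ c₂ : κ)
    (hthr : ∀ c, (∀ b : ↥(zchClosure (A₀ := A₀) ({u} : Set F)),
      (b : F) ∈ (V c).nonunits → b ∈ 𝔫) → c = c₁ ∨ c = c₂)
    (h₁ : ∀ b : ↥(zchClosure (A₀ := A₀) ({u} : Set F)), (b : F) ∈ (V c₁).nonunits → b ∈ 𝔫)
    (h₂ : ∀ b : ↥(zchClosure (A₀ := A₀) ({u} : Set F)), (b : F) ∈ (V c₂).nonunits → b ∈ 𝔫)
    (q : A₀) (hq0 : q ≠ 0) (hqπ : π ∣ q)
    {U V' : F} {N : ℕ} (hU : U ∈ ls_localSubring (F := F) 𝔫)
    (hV' : V' ∈ ls_localSubring (F := F) 𝔫) (hUV : U * V' = algebraMap A₀ F q ^ N)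
    (hU₁ : U ∈ (V c₁).nonunits) (hU₂ : U ∉ (V c₂).nonunits)
    (hstage : ∀ n : ℕ, 1 ≤ n → ∃ (n' : ℕ) (X Y G : ↥(zchClosure (A₀ := A₀) ({u} : Set F))),
      (X : F) ∈ (V c₁).nonunits ∧ (Y : F) ∈ (V c₂).nonunits ∧
      (X : F) ∉ (V c₂).nonunits ∧ (Y : F) ∉ (V c₁).nonunits ∧
      X * Y = algebraMap A₀ ↥(zchClosure (A₀ := A₀) ({u} : Set F)) q ^ n' * G ∧
      NodesLocGen 𝔫 {algebraMap A₀ ↥(zchClosure (A₀ := A₀) ({u} : Set F)) π, X, Y} ∧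
      (n ≤ n' ∨ G ∉ 𝔫)) :
    ∃ (n' : ℕ) (X Y G : ↥(zchClosure (A₀ := A₀) ({u} : Set F))),
      (X : F) ∈ (V c₁).nonunits ∧ (Y : F) ∈ (V c₂).nonunits ∧
      (X : F) ∉ (V c₂).nonunits ∧ (Y : F) ∉ (V c₁).nonunits ∧
      X * Y = algebraMap A₀ ↥(zchClosure (A₀ := A₀) ({u} : Set F)) (q ^ n') * G ∧
      NodesLocGen 𝔫 {algebraMap A₀ ↥(zchClosure (A₀ := A₀) ({u} : Set F)) π, X, Y} ∧
      G ∉ 𝔫 := by
  classical
  haveI : Fintype κ := Fintype.ofFinite κ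
  have hinj : Function.Injective (algebraMap ↥(zchClosure (A₀ := A₀) ({u} : Set F)) F) :=
    Subtype.val_injective
  have hB := unip_chart_range (A₀ := A₀) u
  have hπ0 : algebraMap A₀ F π ≠ 0 := unip_algebraMap_irreducible_ne_zero E hπ
  have hBV' : ∀ c (b : ↥(zchClosure (A₀ := A₀) ({u} : Set F))),
      algebraMap ↥(zchClosure (A₀ := A₀) ({u} : Set F)) F b ∈ V c :=
    fun c b => hBV c _ (mem_zchClosure.mp b.2)
  -- the tube
  set T := {P : Place E F // LsTube ↥(zchClosure (A₀ := A₀) ({u} : Set F)) u 𝔫 P} with hT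
  have hmul : ∀ (P : T) (x z : F), x ≠ 0 → z ≠ 0 →
      P.1.ord (x * z) = P.1.ord x + P.1.ord z := fun P x z hx hz => Place.ord_mul P.1 hx hz
  -- normality
  set ϖ : ↥(zchClosure (A₀ := A₀) ({u} : Set F)) :=
    algebraMap A₀ ↥(zchClosure (A₀ := A₀) ({u} : Set F)) π with hϖdef
  have hϖ : algebraMap ↥(zchClosure (A₀ := A₀) ({u} : Set F)) F ϖ = algebraMap A₀ F π := rfl
  set vert : Finset (Ideal ↥(zchClosure (A₀ := A₀) ({u} : Set F))) :=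
    Finset.univ.image (fun c : κ => crossingIdeal (A₀ := A₀) {u} (V c) (hBV c)) with hvert
  have hvert_mem : ∀ 𝔭 ∈ vert, ∃ c : κ, 𝔭 = crossingIdeal (A₀ := A₀) {u} (V c) (hBV c) := by
    intro 𝔭 h𝔭
    obtain ⟨c, -, hc⟩ := Finset.mem_image.mp h𝔭
    exact ⟨c, hc.symm⟩
  have hprime : ∀ 𝔭 ∈ vert, 𝔭.IsPrime := by
    intro 𝔭 h𝔭
    obtain ⟨c, rfl⟩ := hvert_mem 𝔭 h𝔭
    exact at_crossingIdeal_isPrime (V c) (hBV c)
  have hϖv : ∀ 𝔭 ∈ vert, ϖ ∈ 𝔭 := by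
    intro 𝔭 h𝔭
    obtain ⟨c, rfl⟩ := hvert_mem 𝔭 h𝔭
    exact hπV c
  have hSS1' : ∀ b : ↥(zchClosure (A₀ := A₀) ({u} : Set F)), (∀ 𝔭 ∈ vert, b ∈ 𝔭) → ϖ ∣ b := by
    intro b hb
    obtain ⟨b', hb', hbb'⟩ := hSS1 (b : F) (mem_zchClosure.mp b.2) (fun c =>
      hb _ (Finset.mem_image.mpr ⟨c, Finset.mem_univ c, rfl⟩))
    exact ⟨⟨b', mem_zchClosure.mpr hb'⟩, Subtype.ext hbb'⟩
  have hN : ∀ z : F, z ≠ 0 → (∀ P : T, 0 ≤ P.1.ord z) → z ∈ V c₁ → z ∈ V c₂ →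
      z ∈ ls_localSubring (F := F) 𝔫 := by
    intro z hz0 hzT hz₁ hz₂
    obtain ⟨s, hs, b, hb⟩ := unip_unitCrit_mem hπ u hu hinj hB ϖ hϖ 𝔫 vert hprime hϖv hSS1' z
      (fun P hP hc => hzT ⟨P, hP, hc⟩)
      (fun 𝔭 h𝔭 hle => by
        obtain ⟨c, rfl⟩ := hvert_mem 𝔭 h𝔭
        have hzc : z ∈ V c := by
          rcases hthr c (fun b hb => hle hb) with h | h
          · rw [h]; exact hz₁
          · rw [h]; exact hz₂
        obtain ⟨b, d, hb, hd, hdV, hdz⟩ := hVloc c z hzc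
        exact ⟨⟨d, mem_zchClosure.mpr hd⟩, hdV, ⟨b, mem_zchClosure.mpr hb⟩, hdz.symm⟩)
    exact ⟨b, s, hs, hb.symm⟩
  have hOV₁ : ∀ x ∈ ls_localSubring (F := F) 𝔫, x ∈ V c₁ := stb_gc_le 𝔫 (V c₁) (hBV' c₁) h₁
  have hOV₂ : ∀ x ∈ ls_localSubring (F := F) 𝔫, x ∈ V c₂ := stb_gc_le 𝔫 (V c₂) (hBV' c₂) h₂
  have hordO : ∀ z ∈ ls_localSubring (F := F) 𝔫, z ≠ 0 → ∀ P : T, 0 ≤ P.1.ord z := by
    rintro z ⟨b, s, hs, hsz⟩ hz P
    have hs0 : algebraMap ↥(zchClosure (A₀ := A₀) ({u} : Set F)) F s ≠ 0 :=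
      stb_gc_algebraMap_ne_zero hinj 𝔫 hs
    have h1 := unip_ord_chart_nonneg u hB P.1 P.2.1 b
    have h2 := unip_ord_eq_zero_of_notMem u hB 𝔫 P.1 P.2.1 P.2.2 hs
    rw [← hsz, Place.ord_mul P.1 hs0 hz, h2, zero_add] at h1
    exact h1
  have hqF0 : algebraMap A₀ F q ≠ 0 := fun h =>
    hq0 (unip_algebraMap_injective E (by rw [h, map_zero]))
  have hq₁ : (V c₁).valuation (algebraMap A₀ F q) < 1 := by
    obtain ⟨r, rfl⟩ := hqπ
    rw [map_mul]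
    have hr : algebraMap A₀ F r ∈ V c₁ := by
      have := hBV' c₁ (algebraMap A₀ ↥(zchClosure (A₀ := A₀) ({u} : Set F)) r)
      exact this
    rw [← ValuationSubring.mem_nonunits_iff, mul_comm]
    exact pwi_mul_mem_nonunits (V c₁) hr (hπV c₁)
  have hqN0 : algebraMap A₀ F q ^ N ≠ 0 := pow_ne_zero N hqF0
  have hU0 : U ≠ 0 := fun h => hqN0 (by rw [← hUV, h, zero_mul])
  have hV0 : V' ≠ 0 := fun h => hqN0 (by rw [← hUV, h, mul_zero])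
  have hUtube : ∀ P : T, P.1.ord U = 0 := by
    intro P
    have h1 := hordO U hU hU0 P
    have h2 := hordO V' hV' hV0 P
    have h3 : P.1.ord (U * V') = 0 := by
      rw [hUV, ← map_pow]
      exact unip_ord_const P.1 (q ^ N)
    rw [Place.ord_mul P.1 hU0 hV0] at h3
    omega
  have hU₁' : (V c₁).valuation U < 1 := (ValuationSubring.mem_nonunits_iff (V c₁)).1 hU₁
  have hU₂' : (V c₂).valuation U = 1 := stb_gc_val_eq_one (V c₂) (hOV₂ U hU) hU₂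
  obtain ⟨n', X, Y, G, ⟨X', Y', G', hXe, hYe, hGe, hX1, hY2, hX2, hY1, hXY', hgen⟩, hW, hY, hG,
      hGinv, hXY⟩ :=
    wth_final_stage (fun (P : T) x => P.1.ord x) hmul (ls_localSubring (F := F) 𝔫) (V c₁) (V c₂)
      hOV₁ hN hordO hqF0 hq₁ hU hV' hUV hUtube hU₁' hU₂'
      (fun X Y G n' => ∃ X' Y' G' : ↥(zchClosure (A₀ := A₀) ({u} : Set F)),
        (X' : F) = X ∧ (Y' : F) = Y ∧ (G' : F) = G ∧
        (X' : F) ∈ (V c₁).nonunits ∧ (Y' : F) ∈ (V c₂).nonunits ∧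
        (X' : F) ∉ (V c₂).nonunits ∧ (Y' : F) ∉ (V c₁).nonunits ∧
        X' * Y' = algebraMap A₀ ↥(zchClosure (A₀ := A₀) ({u} : Set F)) q ^ n' * G' ∧
        NodesLocGen 𝔫 {algebraMap A₀ ↥(zchClosure (A₀ := A₀) ({u} : Set F)) π, X', Y'})
      (by
        intro n hn
        obtain ⟨n', X, Y, G, hX1, hY2, hX2, hY1, hXY, hgen, hthin⟩ := hstage n hn
        have hXF : (X : F) ≠ 0 := fun h => hX2 (by rw [h]; exact (V c₂).nonunits.zero_mem)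
        have hYF : (Y : F) ≠ 0 := fun h => hY1 (by rw [h]; exact (V c₁).nonunits.zero_mem)
        have hXYF : (X : F) * (Y : F) = algebraMap A₀ F q ^ n' * (G : F) := by
          have := congrArg (algebraMap ↥(zchClosure (A₀ := A₀) ({u} : Set F)) F) hXY
          rw [map_mul, map_mul, map_pow] at this
          exact this
        have hGF : (G : F) ≠ 0 := by
          intro h
          rw [h, mul_zero] at hXYF
          exact mul_ne_zero hXF hYF hXYF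
        refine ⟨n', (X : F), (Y : F), (G : F),
          ⟨X, Y, G, rfl, rfl, rfl, hX1, hY2, hX2, hY1, hXY, hgen⟩, ?_, ?_, ?_, hXYF, ?_⟩
        · refine whc_winding hinj 𝔫 (V c₂) (hBV' c₂) h₂ ?_ X (h₁ X hX1) hX2 ?_
          · intro x hx
            obtain ⟨b, d, hb, hd, hdV, hdx⟩ := hVloc c₂ x hx
            exact ⟨⟨b, mem_zchClosure.mpr hb⟩, ⟨d, mem_zchClosure.mpr hd⟩, hdV, hdx⟩
          · exact stb_gc_gen_node' 𝔫 (V c₂) (hBV' c₂) hgen (hπV c₂) hY2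
        · exact stb_gc_val_eq_one (V c₁) (hBV' c₁ Y) hY1
        · exact ls_algebraMap_mem 𝔫 G
        · rcases hthin with h | h
          · exact Or.inl h
          · exact Or.inr (wthc_inv_mem 𝔫 h hGF))
  refine ⟨n', X', Y', G', hX1, hY2, hX2, hY1, ?_, hgen, ?_⟩
  · rw [map_pow]; exact hXY'
  · intro hG'
    have hGF : (G' : F) ≠ 0 := by
      intro h
      have hXF : (X' : F) ≠ 0 := fun h => hX2 (by rw [h]; exact (V c₂).nonunits.zero_mem)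
      have hYF : (Y' : F) ≠ 0 := fun h => hY1 (by rw [h]; exact (V c₁).nonunits.zero_mem)
      have := congrArg (algebraMap ↥(zchClosure (A₀ := A₀) ({u} : Set F)) F) hXY'
      rw [map_mul, map_mul] at this
      have h' : algebraMap ↥(zchClosure (A₀ := A₀) ({u} : Set F)) F G' = 0 := h
      rw [h', mul_zero] at this
      exact mul_ne_zero hXF hYF this
    refine wthc_inv_notMem hinj 𝔫 hG' hGF ?_
    have : algebraMap ↥(zchClosure (A₀ := A₀) ({u} : Set F)) F G' = G := hGe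
    rw [this]
    exact hGinv

/-- **Smooth point or crossing of finite thickness**, from the output of U5 at `𝔫.comap j` on the
unramified chart `R` (`MgcRamified j π p`, `j p = q`) and the tube-unit `U`. -/
theorem wthc_of_nodes (hπ : Irreducible π) {u : F} (hu : Transcendental E u)
    [FiniteDimensional E⟮u⟯ F] [Finite κ]
    [IsNoetherianRing ↥(zchClosure (A₀ := A₀) ({u} : Set F))]
    (V : κ → ValuationSubring F)
    (hBV : ∀ c (b : F), IsIntegral ↥(Algebra.adjoin A₀ {u}) b → b ∈ V c)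
    (hπV : ∀ c, algebraMap A₀ F π ∈ (V c).nonunits)
    (hSS1 : ∀ b : F, IsIntegral ↥(Algebra.adjoin A₀ {u}) b → (∀ c, b ∈ (V c).nonunits) →
      ∃ b' : F, IsIntegral ↥(Algebra.adjoin A₀ {u}) b' ∧ b = algebraMap A₀ F π * b')
    (hVloc : ∀ c (x : F), x ∈ V c → ∃ b s : F, IsIntegral ↥(Algebra.adjoin A₀ {u}) b ∧
      IsIntegral ↥(Algebra.adjoin A₀ {u}) s ∧ s ∉ (V c).nonunits ∧ s * x = b)
    (𝔫 : Ideal ↥(zchClosure (A₀ := A₀) ({u} : Set F))) [𝔫.IsPrime]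
    (hπ𝔫 : algebraMap A₀ ↥(zchClosure (A₀ := A₀) ({u} : Set F)) π ∈ 𝔫)
    (q : A₀) (hq0 : q ≠ 0) (hqπ : π ∣ q)
    {R : Type*} [CommRing R] (j : R →+* ↥(zchClosure (A₀ := A₀) ({u} : Set F))) (p : R)
    (hram : MgcRamified j (algebraMap A₀ ↥(zchClosure (A₀ := A₀) ({u} : Set F)) π) p)
    (hjp : j p = algebraMap A₀ ↥(zchClosure (A₀ := A₀) ({u} : Set F)) q)
    (c₁ c₂ : κ) (hκ : ∀ c, c = c₁ ∨ c = c₂)
    {U V' : F} {N : ℕ}
    (hUO : (∀ x : R, ((j x : ↥(zchClosure (A₀ := A₀) ({u} : Set F))) : F) ∈ (V c₁).nonunits →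
          j x ∈ 𝔫) →
       (∀ x : R, ((j x : ↥(zchClosure (A₀ := A₀) ({u} : Set F))) : F) ∈ (V c₂).nonunits →
          j x ∈ 𝔫) → U ∈ ls_localSubring (F := F) 𝔫 ∧ V' ∈ ls_localSubring (F := F) 𝔫)
    (hUV : U * V' = algebraMap A₀ F q ^ N)
    (hU₁ : U ∈ (V c₁).nonunits) (hU₂ : U ∉ (V c₂).nonunits)
    (hnode : (∃ s : R, j s ∈ 𝔫 ∧ NodesLocGen (𝔫.comap j) {p, s}) ∨
      ((∀ x : R, ((j x : ↥(zchClosure (A₀ := A₀) ({u} : Set F))) : F) ∈ (V c₁).nonunits →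
          j x ∈ 𝔫) ∧
       (∀ x : R, ((j x : ↥(zchClosure (A₀ := A₀) ({u} : Set F))) : F) ∈ (V c₂).nonunits →
          j x ∈ 𝔫) ∧
       ∃ X Y : R, ((j X : ↥(zchClosure (A₀ := A₀) ({u} : Set F))) : F) ∈ (V c₁).nonunits ∧
         ((j Y : ↥(zchClosure (A₀ := A₀) ({u} : Set F))) : F) ∈ (V c₂).nonunits ∧
         NodesLocGen (𝔫.comap j) {p, X, Y})) :
    (∃ s : ↥(zchClosure (A₀ := A₀) ({u} : Set F)), s ∈ 𝔫 ∧
      NodesLocGen 𝔫 {algebraMap A₀ ↥(zchClosure (A₀ := A₀) ({u} : Set F)) π, s}) ∨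
    ((∀ b : ↥(zchClosure (A₀ := A₀) ({u} : Set F)), (b : F) ∈ (V c₁).nonunits → b ∈ 𝔫) ∧
     (∀ b : ↥(zchClosure (A₀ := A₀) ({u} : Set F)), (b : F) ∈ (V c₂).nonunits → b ∈ 𝔫) ∧
     ∃ (n' : ℕ) (X Y G : ↥(zchClosure (A₀ := A₀) ({u} : Set F))),
      (X : F) ∈ (V c₁).nonunits ∧ (Y : F) ∈ (V c₂).nonunits ∧
      (X : F) ∉ (V c₂).nonunits ∧ (Y : F) ∉ (V c₁).nonunits ∧
      X * Y = algebraMap A₀ ↥(zchClosure (A₀ := A₀) ({u} : Set F)) (q ^ n') * G ∧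
      NodesLocGen 𝔫 {algebraMap A₀ ↥(zchClosure (A₀ := A₀) ({u} : Set F)) π, X, Y} ∧
      G ∉ 𝔫) := by
  set B := ↥(zchClosure (A₀ := A₀) ({u} : Set F)) with hBdef
  rcases hnode with ⟨s, hs, hgen⟩ | ⟨hthr₁, hthr₂, X, Y, hX, hY, hgen⟩
  · exact Or.inl ⟨j s, hs, hram.mgg_locGen_pair hπ𝔫 s hgen⟩
  -- the two branches on `R`
  haveI h1p := at_crossingIdeal_isPrime (A₀ := A₀) (S := {u}) (V c₁) (hBV c₁)
  haveI h2p := at_crossingIdeal_isPrime (A₀ := A₀) (S := {u}) (V c₂) (hBV c₂)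
  set 𝔭₁ : Ideal R := (crossingIdeal (A₀ := A₀) {u} (V c₁) (hBV c₁)).comap j with h𝔭₁
  set 𝔭₂ : Ideal R := (crossingIdeal (A₀ := A₀) {u} (V c₂) (hBV c₂)).comap j with h𝔭₂
  haveI : 𝔭₁.IsPrime := Ideal.comap_isPrime j _
  haveI : 𝔭₂.IsPrime := Ideal.comap_isPrime j _
  haveI : (𝔫.comap j).IsPrime := Ideal.comap_isPrime j _
  have hϖ1 : algebraMap A₀ B π ∈ crossingIdeal (A₀ := A₀) {u} (V c₁) (hBV c₁) := hπV c₁
  have hϖ2 : algebraMap A₀ B π ∈ crossingIdeal (A₀ := A₀) {u} (V c₂) (hBV c₂) := hπV c₂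
  have hp1 : p ∈ 𝔭₁ := by
    rw [h𝔭₁, Ideal.mem_comap]
    obtain ⟨z, hz⟩ := hram.dvd
    rw [hz]
    exact Ideal.mul_mem_right _ _ hϖ1
  have hp2 : p ∈ 𝔭₂ := by
    rw [h𝔭₂, Ideal.mem_comap]
    obtain ⟨z, hz⟩ := hram.dvd
    rw [hz]
    exact Ideal.mul_mem_right _ _ hϖ2
  have hSS1R : ∀ y : R, y ∈ 𝔭₁ → y ∈ 𝔭₂ → p ∣ y := by
    intro y hy1 hy2
    apply hram.cancel
    obtain ⟨b', hb', hyb'⟩ := hSS1 ((j y : B) : F) (mem_zchClosure.mp (j y).2) (fun c => by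
      rcases hκ c with rfl | rfl
      · exact hy1
      · exact hy2)
    exact ⟨⟨b', mem_zchClosure.mpr hb'⟩, Subtype.ext hyb'⟩
  rcases unip_stage_or_disc (𝔫.comap j) 𝔭₁ 𝔭₂ (fun y hy => hthr₁ y hy) (fun y hy => hthr₂ y hy)
    p hp1 hp2 hSS1R X Y hX hY hgen with ⟨s, hs, hgen'⟩ | hstage
  · exact Or.inl ⟨j s, hs, hram.mgg_locGen_pair hπ𝔫 s hgen'⟩
  -- "through" on `B`
  have hthrB : ∀ c : κ, (∀ y : R, ((j y : B) : F) ∈ (V c).nonunits → j y ∈ 𝔫) →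
      ∀ b : B, (b : F) ∈ (V c).nonunits → b ∈ 𝔫 := by
    intro c hthr b hb
    obtain ⟨y, z, rfl⟩ := hram.decomp b
    have hϖz : algebraMap A₀ B π * z ∈ crossingIdeal (A₀ := A₀) {u} (V c) (hBV c) :=
      Ideal.mul_mem_right _ _ (hπV c)
    have hjy : j y ∈ crossingIdeal (A₀ := A₀) {u} (V c) (hBV c) := by
      have : j y = (j y + algebraMap A₀ B π * z) - algebraMap A₀ B π * z := by ring
      rw [this]
      exact Ideal.sub_mem _ hb hϖz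
    exact Ideal.add_mem _ (hthr y hjy) (Ideal.mul_mem_right _ _ hπ𝔫)
  obtain ⟨hU, hV'⟩ := hUO hthr₁ hthr₂
  refine Or.inr ⟨hthrB c₁ hthr₁, hthrB c₂ hthr₂, ?_⟩
  refine wthc_final hπ hu V hBV hπV hSS1 hVloc 𝔫 hπ𝔫 c₁ c₂ (fun c _ => hκ c)
    (hthrB c₁ hthr₁) (hthrB c₂ hthr₂) q hq0 hqπ hU hV' hUV hU₁ hU₂ ?_
  intro n hn
  obtain ⟨n', X', Y', G', -, hX1', hY2', hX2', hY1', hXY', hgen', hthin⟩ := hstage n hn
  refine ⟨n', j X', j Y', j G', hX1', hY2', hX2', hY1', ?_,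
    hram.mgg_locGen_triple hπ𝔫 X' Y' hgen', ?_⟩
  · rw [← map_mul, hXY', map_mul, map_pow, hjp]
  · rcases hthin with h | h
    · exact Or.inl h
    · exact Or.inr (fun hG => h (Ideal.mem_comap.mpr hG))

end ThickChart

end Fermat.Agent.S33
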