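import Fermat.Agent.S33.WildAbsMain
import Fermat.Agent.S33.WildHorChart
import Fermat.Agent.S33.WildNormal
import Fermat.Agent.S33.WildThickChart
import Fermat.Agent.STB.SmoothOnly
import Fermat.Agent.STB.SmoothFac
import Fermat.Agent.STB.CrossPoint
import Fermat.Agent.INJ.ChartFinite

/-!
# S33 v2, C4 (WILD), pieces T5d + T5e (assembly): the local hypotheses of `wab_main_two` from the
dichotomy "smooth point / crossing of finite thickness" at every closed point (helper92)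

Chart `B_u = zchClosure {u}` over the (ramified) base `A₀` (uniformizer `π`), vertical valuation
rings `V c` (`c = c₁` or `c = c₂`), `𝔫 : AtPt π u` a closed point of the special fibre.

* `WhtPtData V c₁ c₂ 𝔫` : the local datum at `𝔫` — EXACTLY the conclusion of
  `wthc_of_nodes` (T5f, helper29) with `q ^ n'` replaced by any `q' ≠ 0`:
  `𝔫 = (π, s)` locally (smooth point), or both components pass through `𝔫`,
  `𝔫 = (π, X, Y)` locally, `X ∈ 𝔪(V c₁) ∖ 𝔪(V c₂)`, `Y ∈ 𝔪(V c₂) ∖ 𝔪(V c₁)`, `X Y = q' G`,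
  `G ∉ 𝔫` (crossing of finite thickness).
* `whtPtData_of_nodes` : `WhtPtData` from the output of U5 on the unramified chart and a
  tube-unit (wrapper of `wthc_of_nodes`).
* `wht_wnPtData` : `WhtPtData → WnPtData` (the datum of T5g, helper90).
* `wht_facAt` : **(H)** `StbFacAt (atLoc 𝔫) p y` at every closed point with `WhtPtData`, for `y`
  with `p ∣ ord_P y` on the tube, rational support on the tube, and `y ≡ h_c ^ p` at every
  vertical valuation (`hsplit`, only `< 1` is used).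
  Smooth point: `STB.stb_smooth_facAt` (the vertical multiplicity of `y` is `p k` by `hsplit`).
  Crossing: `whc_node_facAt` (T4c).
* `wht_hT4_of_facAt`, `wht_hT4` : the hypothesis `hT4` of `wab_main_two`.
* `wht_hS_point` : the hypothesis `hS` of `wab_main_two` at a point (`STB.stb_cp_sum`; at a
  smooth point only one component passes).
* `wht_main` : **(T)-wild from point data** = `wab_main_two` with `hunif`, `hT4`, `hN`, `hS`
  replaced by `hVloc₁`, `hVloc₂`, `WhtPtData` at all closed points of both charts and the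
  divisor hypotheses `hfin`, `hm`, `hrat` on `u`.
-/

set_option autoImplicit false
set_option linter.style.haveILetI false
set_option linter.unusedSectionVars false
set_option linter.unusedVariables false

namespace Fermat.Agent.S33

open Polynomial IntermediateField Fermat.Agent.INJ AlgebraicCurve Fermat.Agent.UNIP
  Fermat.Agent.STB

section PtData

variable {A₀ E F : Type*} [CommRing A₀] [IsDomain A₀] [IsDiscreteValuationRing A₀]
  [Field E] [Algebra A₀ E] [IsFractionRing A₀ E] [CharZero E]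
  [Field F] [Algebra E F] [Algebra A₀ F] [IsScalarTower A₀ E F]
  {π : A₀} {κ : Type*}

/-- **The local datum at a closed point `𝔫` of the chart `u`** for (H), (N), (S): `𝔫` is a smooth
point (`𝔫 = (π, s)` locally), or `𝔫` is a crossing of finite thickness of the two components
`c₁`, `c₂`. -/
def WhtPtData {u : F} (V : κ → ValuationSubring F) (c₁ c₂ : κ) (𝔫 : AtPt (F := F) π u) : Prop :=
  (∃ s : ↥(zchClosure (A₀ := A₀) ({u} : Set F)), s ∈ 𝔫.1 ∧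
      NodesLocGen 𝔫.1 {algebraMap A₀ ↥(zchClosure (A₀ := A₀) ({u} : Set F)) π, s}) ∨
    (atThrough 𝔫 (V c₁) ∧ atThrough 𝔫 (V c₂) ∧
      ∃ (q' : A₀) (X Y G : ↥(zchClosure (A₀ := A₀) ({u} : Set F))), q' ≠ 0 ∧
        (X : F) ∈ (V c₁).nonunits ∧ (Y : F) ∈ (V c₂).nonunits ∧
        (X : F) ∉ (V c₂).nonunits ∧ (Y : F) ∉ (V c₁).nonunits ∧
        X * Y = algebraMap A₀ ↥(zchClosure (A₀ := A₀) ({u} : Set F)) q' * G ∧
        NodesLocGen 𝔫.1 {algebraMap A₀ ↥(zchClosure (A₀ := A₀) ({u} : Set F)) π, X, Y} ∧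
        G ∉ 𝔫.1)

/-- `WhtPtData` from the output of U5 at `𝔫.comap j` on the unramified chart `R`
(`MgcRamified j π p`, `j p = q`) and a tube-unit `U` (`U · V' = q ^ N`): wrapper of
`wthc_of_nodes`. -/
theorem whtPtData_of_nodes (hπ : Irreducible π) {u : F} (hu : Transcendental E u)
    [FiniteDimensional E⟮u⟯ F] [Finite κ]
    [IsNoetherianRing ↥(zchClosure (A₀ := A₀) ({u} : Set F))]
    (V : κ → ValuationSubring F)
    (hBV : ∀ c (b : F), IsIntegral ↥(Algebra.adjoin A₀ {u}) b → b ∈ V c)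
    (hπV : ∀ c, algebraMap A₀ F π ∈ (V c).nonunits)
    (hSS1 : ∀ b : F, IsIntegral ↥(Algebra.adjoin A₀ {u}) b → (∀ c, b ∈ (V c).nonunits) →
      ∃ b' : F, IsIntegral ↥(Algebra.adjoin A₀ {u}) b' ∧ b = algebraMap A₀ F π * b')
    (hVloc : ∀ c (x : F), x ∈ V c → ∃ b s : F, IsIntegral ↥(Algebra.adjoin A₀ {u}) b ∧
      IsIntegral ↥(Algebra.adjoin A₀ {u}) s ∧ s ∉ (V c).nonunits ∧ s * x = b)
    (𝔫 : AtPt (F := F) π u)
    (q : A₀) (hq0 : q ≠ 0) (hqπ : π ∣ q)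
    {R : Type*} [CommRing R] (j : R →+* ↥(zchClosure (A₀ := A₀) ({u} : Set F))) (p : R)
    (hram : MgcRamified j (algebraMap A₀ ↥(zchClosure (A₀ := A₀) ({u} : Set F)) π) p)
    (hjp : j p = algebraMap A₀ ↥(zchClosure (A₀ := A₀) ({u} : Set F)) q)
    (c₁ c₂ : κ) (hκ : ∀ c, c = c₁ ∨ c = c₂)
    {U V' : F} {N : ℕ}
    (hUO : (∀ x : R, ((j x : ↥(zchClosure (A₀ := A₀) ({u} : Set F))) : F) ∈ (V c₁).nonunits →
          j x ∈ 𝔫.1) →
       (∀ x : R, ((j x : ↥(zchClosure (A₀ := A₀) ({u} : Set F))) : F) ∈ (V c₂).nonunits →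
          j x ∈ 𝔫.1) → U ∈ atLoc 𝔫 ∧ V' ∈ atLoc 𝔫)
    (hUV : U * V' = algebraMap A₀ F q ^ N)
    (hU₁ : U ∈ (V c₁).nonunits) (hU₂ : U ∉ (V c₂).nonunits)
    (hnode : (∃ s : R, j s ∈ 𝔫.1 ∧ NodesLocGen (𝔫.1.comap j) {p, s}) ∨
      ((∀ x : R, ((j x : ↥(zchClosure (A₀ := A₀) ({u} : Set F))) : F) ∈ (V c₁).nonunits →
          j x ∈ 𝔫.1) ∧
       (∀ x : R, ((j x : ↥(zchClosure (A₀ := A₀) ({u} : Set F))) : F) ∈ (V c₂).nonunits →
          j x ∈ 𝔫.1) ∧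
       ∃ X Y : R, ((j X : ↥(zchClosure (A₀ := A₀) ({u} : Set F))) : F) ∈ (V c₁).nonunits ∧
         ((j Y : ↥(zchClosure (A₀ := A₀) ({u} : Set F))) : F) ∈ (V c₂).nonunits ∧
         NodesLocGen (𝔫.1.comap j) {p, X, Y})) :
    WhtPtData V c₁ c₂ 𝔫 := by
  haveI := 𝔫.2.1.isPrime
  rcases wthc_of_nodes hπ hu V hBV hπV hSS1 hVloc 𝔫.1 𝔫.2.2 q hq0 hqπ j p hram hjp c₁ c₂ hκ
    hUO hUV hU₁ hU₂ hnode with h | ⟨h₁, h₂, n', X, Y, G, hX1, hY2, hX2, hY1, hXY, hgen, hG⟩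
  · exact Or.inl h
  · exact Or.inr ⟨h₁, h₂, q ^ n', X, Y, G, pow_ne_zero n' hq0, hX1, hY2, hX2, hY1, hXY, hgen, hG⟩

/-- the datum of (N) (T5g) from the datum of (H) -/
theorem wht_wnPtData {u : F} (V : κ → ValuationSubring F) (c₁ c₂ : κ)
    (hκ : ∀ c, c = c₁ ∨ c = c₂) (𝔫 : AtPt (F := F) π u) (hdat : WhtPtData V c₁ c₂ 𝔫) :
    WnPtData V 𝔫 := by
  rcases hdat with h | ⟨h₁, h₂, q', X, Y, G, -, hX1, hY2, -, -, -, hgen, -⟩
  · exact Or.inl h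
  · exact Or.inr ⟨c₁, c₂, X, Y, fun c _ => hκ c, h₁ X hX1, h₂ Y hY2, hX1, hY2, hgen⟩

/-- distinct vertical valuation rings are incomparable -/
theorem wht_hnle (hπ0 : algebraMap A₀ F π ≠ 0) (V : κ → ValuationSubring F)
    (hπV : ∀ c, algebraMap A₀ F π ∈ (V c).nonunits)
    (hne : ∀ c c', c ≠ c' → V c ≠ V c')
    (harch : ∀ c (a x : F), a ∈ (V c).nonunits → ∃ N : ℕ, a ^ N * x ∈ (V c).nonunits) :
    ∀ c c', c ≠ c' → ¬ V c ≤ V c' := by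
  have harch' : ∀ c, StbArch (V c) := fun c x a ha => by
    obtain ⟨N, hN⟩ := harch c a x ha
    exact ⟨N, by rw [mul_comm]; exact hN⟩
  exact fun c c' hcc' => stb_not_le_of_ne (harch' c) hπ0 (hπV c') (hne c c' hcc')

/-- **(H) at every closed point with `WhtPtData`**, in the form `StbFacAt (atLoc 𝔫) p y`. -/
theorem wht_facAt (hπ : Irreducible π) {u : F} (hu : Transcendental E u)
    [FiniteDimensional E⟮u⟯ F] [Finite κ]
    [IsNoetherianRing ↥(zchClosure (A₀ := A₀) ({u} : Set F))]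
    (V : κ → ValuationSubring F) (c₁ c₂ : κ) (hκ : ∀ c, c = c₁ ∨ c = c₂)
    (hBV : ∀ c (b : F), IsIntegral ↥(Algebra.adjoin A₀ {u}) b → b ∈ V c)
    (hπV : ∀ c, algebraMap A₀ F π ∈ (V c).nonunits)
    (hSS1 : ∀ b : F, IsIntegral ↥(Algebra.adjoin A₀ {u}) b → (∀ c, b ∈ (V c).nonunits) →
      ∃ b' : F, IsIntegral ↥(Algebra.adjoin A₀ {u}) b' ∧ b = algebraMap A₀ F π * b')
    (hVloc : ∀ c (x : F), x ∈ V c → ∃ b s : F, IsIntegral ↥(Algebra.adjoin A₀ {u}) b ∧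
      IsIntegral ↥(Algebra.adjoin A₀ {u}) s ∧ s ∉ (V c).nonunits ∧ s * x = b)
    (hne : ∀ c c', c ≠ c' → V c ≠ V c')
    (harch : ∀ c (a x : F), a ∈ (V c).nonunits → ∃ N : ℕ, a ^ N * x ∈ (V c).nonunits)
    (𝔫 : AtPt (F := F) π u) (hdat : WhtPtData V c₁ c₂ 𝔫)
    {y : F} (hy : y ≠ 0) (p : ℕ)
    (hfin : {P : Place E F | LsTube ↥(zchClosure (A₀ := A₀) ({u} : Set F)) u 𝔫.1 P ∧
      P.ord y ≠ 0}.Finite)
    (hm : ∀ P : Place E F, LsTube ↥(zchClosure (A₀ := A₀) ({u} : Set F)) u 𝔫.1 P →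
      (p : ℤ) ∣ P.ord y)
    (hrat : ∀ P : Place E F, LsTube ↥(zchClosure (A₀ := A₀) ({u} : Set F)) u 𝔫.1 P →
      P.ord y ≠ 0 → ∀ f ∈ P.toValuationSubring,
        ∃ c : E, f - algebraMap E F c ∈ P.toValuationSubring.nonunits)
    (hsplit : ∀ c, ∃ h : F, h ≠ 0 ∧ (V c).valuation (y / h ^ p - 1) < 1) :
    StbFacAt (atLoc 𝔫) p y := by
  have hπ0 : algebraMap A₀ F π ≠ 0 := unip_algebraMap_irreducible_ne_zero E hπ
  rcases hdat with ⟨s, hs, hgen⟩ |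
    ⟨h₁, h₂, q', X, Y, G, hq', hX1, hY2, hX2, hY1, hXY, hgen, hG⟩
  · -- smooth point
    obtain ⟨c, hc, honly⟩ := stb_sx_exists_unique V hBV hπV hSS1 hVloc
      (wht_hnle hπ0 V hπV hne harch) 𝔫 s hs hgen
    obtain ⟨h, hh0, hval⟩ := hsplit c
    obtain ⟨k, hk⟩ := stb_sp_hunif hπ0 V hBV hπV hSS1 hVloc hne harch c h hh0
    refine stb_smooth_facAt hπ hu V hBV hπV hSS1 hVloc 𝔫 s hs hgen hy p k ?_ hfin hm hrat
    intro c' hc'
    rw [honly c' hc']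
    have h1 : (V c).valuation (y / h ^ p) = 1 := wh_val_of_one (V c) hval
    have hπk : algebraMap A₀ F π ^ k ≠ 0 := zpow_ne_zero k hπ0
    have e : y / (algebraMap A₀ F π ^ k) ^ p = y / h ^ p * (h / algebraMap A₀ F π ^ k) ^ p := by
      rw [div_pow]
      field_simp
    rw [e, map_mul, h1, map_pow, hk, one_pow, mul_one]
  · -- crossing of finite thickness
    obtain ⟨h, hh0, hval⟩ := hsplit c₂
    refine whc_node_facAt hπ hu V hBV hπV hSS1 hVloc hne harch 𝔫 c₁ c₂ (fun c _ => hκ c) h₂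
      X Y G q' hq' (h₁ X hX1) hX2 hY2 hXY hG hgen hy p hfin hm hrat ?_
    refine ⟨1, h, one_ne_zero, Subring.one_mem _, ?_, hh0, ?_⟩
    · rw [inv_one]; exact Subring.one_mem _
    · rw [one_mul]; exact hval

/-- from `StbFacAt O p y` to the form of `hT4` in `wab_main_two` -/
theorem wht_hT4_of_facAt (O : Subring F) {p : ℕ} (hp : p ≠ 0) {y : F} (hy : y ≠ 0)
    (h : StbFacAt O p y) :
    ∃ G ε : F, G ≠ 0 ∧ ε ≠ 0 ∧ ε ∈ O ∧ ε⁻¹ ∈ O ∧ y = ε * G ^ p := by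
  obtain ⟨γ, ε, hε, hyε⟩ := h
  have hε0 : (ε : F) ≠ 0 := by
    intro h0
    rw [h0, zero_mul] at hyε
    exact hy hyε
  have hγ0 : γ ≠ 0 := by
    rintro rfl
    rw [zero_pow hp, mul_zero] at hyε
    exact hy hyε
  obtain ⟨ε', hε'⟩ := hε.exists_right_inv
  have hinv : (ε : F)⁻¹ = (ε' : F) := by
    have h1 : (ε : F) * (ε' : F) = 1 := by
      have := congrArg (fun x : O => (x : F)) hε'
      simpa using this
    exact inv_eq_of_mul_eq_one_right h1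
  refine ⟨γ, (ε : F), hγ0, hε0, ε.2, ?_, hyε⟩
  rw [hinv]
  exact ε'.2

end PtData

section Main

universe u

variable {A₀ E F : Type u} [CommRing A₀] [IsDomain A₀] [IsDiscreteValuationRing A₀]
  [Field E] [Algebra A₀ E] [IsFractionRing A₀ E] [CharZero E]
  [Field F] [Algebra E F] [Algebra A₀ F] [IsScalarTower A₀ E F]
  {π : A₀} {κ : Type*}

/-- **`hT4` of `wab_main_two`** from `WhtPtData` at all closed points of both charts. -/
theorem wht_hT4 (hπ : Irreducible π) {t : F} (ht : Transcendental E t)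
    [FiniteDimensional E⟮t⟯ F] [Finite κ]
    (V : κ → ValuationSubring F) (c₁ c₂ : κ) (hκ : ∀ c, c = c₁ ∨ c = c₂)
    (hBV₁ : ∀ c (b : F), IsIntegral ↥(Algebra.adjoin A₀ {t}) b → b ∈ V c)
    (hBV₂ : ∀ c (b : F), IsIntegral ↥(Algebra.adjoin A₀ {t⁻¹}) b → b ∈ V c)
    (hπV : ∀ c, algebraMap A₀ F π ∈ (V c).nonunits)
    (hSS1 : ∀ b : F, IsIntegral ↥(Algebra.adjoin A₀ {t}) b → (∀ c, b ∈ (V c).nonunits) →
      ∃ b' : F, IsIntegral ↥(Algebra.adjoin A₀ {t}) b' ∧ b = algebraMap A₀ F π * b')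
    (hVloc₁ : ∀ c (x : F), x ∈ V c → ∃ b s : F, IsIntegral ↥(Algebra.adjoin A₀ {t}) b ∧
      IsIntegral ↥(Algebra.adjoin A₀ {t}) s ∧ s ∉ (V c).nonunits ∧ s * x = b)
    (hVloc₂ : ∀ c (x : F), x ∈ V c → ∃ b s : F, IsIntegral ↥(Algebra.adjoin A₀ {t⁻¹}) b ∧
      IsIntegral ↥(Algebra.adjoin A₀ {t⁻¹}) s ∧ s ∉ (V c).nonunits ∧ s * x = b)
    (hne : ∀ c c', c ≠ c' → V c ≠ V c')
    (harch : ∀ c (a x : F), a ∈ (V c).nonunits → ∃ N : ℕ, a ^ N * x ∈ (V c).nonunits)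
    (hdat₁ : ∀ 𝔫 : AtPt (F := F) π t, WhtPtData V c₁ c₂ 𝔫)
    (hdat₂ : ∀ 𝔫 : AtPt (F := F) π t⁻¹, WhtPtData V c₁ c₂ 𝔫)
    {u : F} (hu : u ≠ 0) {p : ℕ} (hp : p ≠ 0)
    (hfin : {P : Place E F | P.ord u ≠ 0}.Finite)
    (hm : ∀ P : Place E F, (p : ℤ) ∣ P.ord u)
    (hrat : ∀ P : Place E F, P.ord u ≠ 0 → ∀ f ∈ P.toValuationSubring,
      ∃ c : E, f - algebraMap E F c ∈ P.toValuationSubring.nonunits)
    (hsplit : ∀ c, ∃ h : F, h ≠ 0 ∧ (V c).valuation (u / h ^ p - 1) < 1) :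
    ∀ i, ∃ G ε : F, G ≠ 0 ∧ ε ≠ 0 ∧ ε ∈ atO π t i ∧ ε⁻¹ ∈ atO π t i ∧ u = ε * G ^ p := by
  have ht' : Transcendental E t⁻¹ := zch_transcendental_inv ht
  haveI : FiniteDimensional E⟮t⁻¹⟯ F := at_finiteDimensional_inv t
  haveI : IsNoetherianRing ↥(zchClosure (A₀ := A₀) ({t} : Set F)) :=
    chart_closure_isNoetherianRing (A₀ := A₀) (E := E) ht
  haveI : IsNoetherianRing ↥(zchClosure (A₀ := A₀) ({t⁻¹} : Set F)) :=
    chart_closure_isNoetherianRing (A₀ := A₀) (E := E) ht'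
  have hSS1' := ats_SS1_inv ht hπ V hBV₁ hSS1
  rintro (𝔫 | 𝔫)
  · exact wht_hT4_of_facAt (atLoc 𝔫) hp hu
      (wht_facAt hπ ht V c₁ c₂ hκ hBV₁ hπV hSS1 hVloc₁ hne harch 𝔫 (hdat₁ 𝔫) hu p
        (hfin.subset fun P hP => hP.2) (fun P _ => hm P) (fun P _ hP => hrat P hP) hsplit)
  · exact wht_hT4_of_facAt (atLoc 𝔫) hp hu
      (wht_facAt hπ ht' V c₁ c₂ hκ hBV₂ hπV hSS1' hVloc₂ hne harch 𝔫 (hdat₂ 𝔫) hu p
        (hfin.subset fun P hP => hP.2) (fun P _ => hm P) (fun P _ hP => hrat P hP) hsplit)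

/-- **(S) at a closed point with `WhtPtData`** through which both components pass. -/
theorem wht_hS_point (hπ0 : algebraMap A₀ F π ≠ 0) {u : F} [Finite κ]
    [IsNoetherianRing ↥(zchClosure (A₀ := A₀) ({u} : Set F))]
    (V : κ → ValuationSubring F) (c₁ c₂ : κ) (hc : c₁ ≠ c₂)
    (hBV : ∀ c (b : F), IsIntegral ↥(Algebra.adjoin A₀ {u}) b → b ∈ V c)
    (hπV : ∀ c, algebraMap A₀ F π ∈ (V c).nonunits)
    (hSS1 : ∀ b : F, IsIntegral ↥(Algebra.adjoin A₀ {u}) b → (∀ c, b ∈ (V c).nonunits) →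
      ∃ b' : F, IsIntegral ↥(Algebra.adjoin A₀ {u}) b' ∧ b = algebraMap A₀ F π * b')
    (hVloc : ∀ c (x : F), x ∈ V c → ∃ b s : F, IsIntegral ↥(Algebra.adjoin A₀ {u}) b ∧
      IsIntegral ↥(Algebra.adjoin A₀ {u}) s ∧ s ∉ (V c).nonunits ∧ s * x = b)
    (hne : ∀ c c', c ≠ c' → V c ≠ V c')
    (harch : ∀ c (a x : F), a ∈ (V c).nonunits → ∃ N : ℕ, a ^ N * x ∈ (V c).nonunits)
    (𝔫 : AtPt (F := F) π u) (hdat : WhtPtData V c₁ c₂ 𝔫)
    (hthr₁ : atThrough 𝔫 (V c₁)) (hthr₂ : atThrough 𝔫 (V c₂)) :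
    ∀ x : atLoc 𝔫, ¬ IsUnit x →
      ∃ a b : atLoc 𝔫, (a : F) ∈ (V c₁).nonunits ∧ (b : F) ∈ (V c₂).nonunits ∧ x = a + b := by
  rcases hdat with ⟨s, hs, hgen⟩ | ⟨-, -, q', X, Y, G, -, hX1, hY2, -, -, -, hgen, -⟩
  · exfalso
    obtain ⟨c, -, honly⟩ := stb_sx_exists_unique V hBV hπV hSS1 hVloc
      (wht_hnle hπ0 V hπV hne harch) 𝔫 s hs hgen
    exact hc ((honly c₁ hthr₁).trans (honly c₂ hthr₂).symm)
  · exact stb_cp_sum (V c₁) (V c₂) (hBV c₁) (hBV c₂) (hπV c₁) 𝔫 hthr₁ hthr₂ X Y hX1 hY2 hgen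

/-- **(T)-wild from point data**: `wab_main_two` with the local hypotheses `hunif`, `hT4`, `hN`,
`hS` replaced by `hVloc₁`, `hVloc₂`, the datum `WhtPtData` (smooth point or crossing of finite
thickness) at every closed point of both charts, and the divisor hypotheses on `u`
(`p ∣ div u`, finite and rational support). -/
theorem wht_main (hπ : Irreducible π) {t : F} (ht : Transcendental E t)
    [FiniteDimensional E⟮t⟯ F]
    (hcl : ∀ x : F, IsAlgebraic E x → x ∈ (algebraMap E F).range)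
    {p : ℕ} (hp : p.Prime) (hpπ : π ∣ (p : A₀)) {ζ : A₀} (hζ : IsPrimitiveRoot ζ p)
    (hlam : π ∣ ζ - 1)
    [Finite κ] (V : κ → ValuationSubring F) (c₁ c₂ : κ) (hκ : ∀ c, c = c₁ ∨ c = c₂)
    (hne : V c₁ ≠ V c₂)
    (hBV₁ : ∀ c (b : F), IsIntegral ↥(Algebra.adjoin A₀ {t}) b → b ∈ V c)
    (hBV₂ : ∀ c (b : F), IsIntegral ↥(Algebra.adjoin A₀ {t⁻¹}) b → b ∈ V c)
    (hπV : ∀ c, algebraMap A₀ F π ∈ (V c).nonunits)
    (hSS1 : ∀ b : F, IsIntegral ↥(Algebra.adjoin A₀ {t}) b → (∀ c, b ∈ (V c).nonunits) →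
      ∃ b' : F, IsIntegral ↥(Algebra.adjoin A₀ {t}) b' ∧ b = algebraMap A₀ F π * b')
    (harch : ∀ c (a x : F), a ∈ (V c).nonunits → ∃ N : ℕ, a ^ N * x ∈ (V c).nonunits)
    (hVloc₁ : ∀ c (x : F), x ∈ V c → ∃ b s : F, IsIntegral ↥(Algebra.adjoin A₀ {t}) b ∧
      IsIntegral ↥(Algebra.adjoin A₀ {t}) s ∧ s ∉ (V c).nonunits ∧ s * x = b)
    (hVloc₂ : ∀ c (x : F), x ∈ V c → ∃ b s : F, IsIntegral ↥(Algebra.adjoin A₀ {t⁻¹}) b ∧
      IsIntegral ↥(Algebra.adjoin A₀ {t⁻¹}) s ∧ s ∉ (V c).nonunits ∧ s * x = b)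
    (σ : SemilinearAut E F)
    (hσB₁ : AtTrivMod π t σ) (hσB₂ : AtTrivMod π t⁻¹ σ)
    (hσV : ∀ c (f : F), f ≠ 0 → (V c).valuation (σ • f / f) = 1)
    {a : ℕ} (hσζ : σ • algebraMap A₀ F ζ = algebraMap A₀ F ζ ^ a)
    {u : F} (hu : u ≠ 0)
    (hsplit : ∀ c, ∃ h : F, h ≠ 0 ∧ (V c).valuation (u / h ^ p - 1) ≤
      (V c).valuation ((algebraMap A₀ F ζ - 1) ^ p * algebraMap A₀ F π))
    (hfin : {P : Place E F | P.ord u ≠ 0}.Finite)
    (hm : ∀ P : Place E F, (p : ℤ) ∣ P.ord u)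
    (hrat : ∀ P : Place E F, P.ord u ≠ 0 → ∀ f ∈ P.toValuationSubring,
      ∃ c : E, f - algebraMap E F c ∈ P.toValuationSubring.nonunits)
    (hdat₁ : ∀ 𝔫 : AtPt (F := F) π t, WhtPtData V c₁ c₂ 𝔫)
    (hdat₂ : ∀ 𝔫 : AtPt (F := F) π t⁻¹, WhtPtData V c₁ c₂ 𝔫) :
    ∃ c : E, c ≠ 0 ∧ ∃ h : F, σ • u / u ^ a = algebraMap E F c * h ^ p := by
  have hπ0 : algebraMap A₀ F π ≠ 0 := unip_algebraMap_irreducible_ne_zero E hπ
  have ht' : Transcendental E t⁻¹ := zch_transcendental_inv ht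
  haveI : FiniteDimensional E⟮t⁻¹⟯ F := at_finiteDimensional_inv t
  haveI : IsNoetherianRing ↥(zchClosure (A₀ := A₀) ({t} : Set F)) :=
    chart_closure_isNoetherianRing (A₀ := A₀) (E := E) ht
  haveI : IsNoetherianRing ↥(zchClosure (A₀ := A₀) ({t⁻¹} : Set F)) :=
    chart_closure_isNoetherianRing (A₀ := A₀) (E := E) ht'
  have hSS1' := ats_SS1_inv ht hπ V hBV₁ hSS1
  have hc : c₁ ≠ c₂ := fun h => hne (by rw [h])
  have hne' : ∀ c c', c ≠ c' → V c ≠ V c' := by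
    intro c c' hcc' h
    rcases hκ c with rfl | rfl <;> rcases hκ c' with rfl | rfl
    · exact hcc' rfl
    · exact hne h
    · exact hne h.symm
    · exact hcc' rfl
  have hnle := wht_hnle hπ0 V hπV hne' harch
  -- `hsplit` in the weak form
  have hsplit' : ∀ c, ∃ h : F, h ≠ 0 ∧ (V c).valuation (u / h ^ p - 1) < 1 := by
    intro c
    obtain ⟨h, hh0, hval⟩ := hsplit c
    refine ⟨h, hh0, lt_of_le_of_lt hval ?_⟩
    have h1 : (algebraMap A₀ F ζ - 1) ^ p ∈ V c := by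
      have e : (algebraMap A₀ F ζ - 1) ^ p = algebraMap A₀ F ((ζ - 1) ^ p) := by
        rw [map_pow, map_sub, map_one]
      rw [e]
      exact hBV₁ c _ (mem_zchClosure.mp
        (algebraMap A₀ ↥(zchClosure (A₀ := A₀) ({t} : Set F)) ((ζ - 1) ^ p)).2)
    exact wh_val_mul_lt (V c) ((V c).valuation_le_one_iff _ |>.2 h1)
      ((ValuationSubring.mem_nonunits_iff (V c)).1 (hπV c))
  refine wab_main_two hπ ht hcl hp hpπ hζ hlam V c₁ c₂ hκ (hnle c₁ c₂ hc) (hnle c₂ c₁ hc.symm)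
    hBV₁ hBV₂ hπV hSS1 harch ?_ σ hσB₁ hσB₂ hσV hσζ hu hsplit ?_ ?_ ?_
  · -- `hunif`
    intro c
    exact stb_sp_princ V hBV₁ hSS1 hVloc₁ c fun c' hc' => hnle c c' (Ne.symm hc')
  · -- `hT4`
    exact wht_hT4 hπ ht V c₁ c₂ hκ hBV₁ hBV₂ hπV hSS1 hVloc₁ hVloc₂ hne' harch hdat₁ hdat₂ hu
      hp.ne_zero hfin hm hrat hsplit'
  · -- `hN`
    exact wn_hN V hBV₁ hBV₂ hπV hVloc₁ hVloc₂ (fun 𝔫 => wht_wnPtData V c₁ c₂ hκ 𝔫 (hdat₁ 𝔫))
      (fun 𝔫 => wht_wnPtData V c₁ c₂ hκ 𝔫 (hdat₂ 𝔫)) hp.two_le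
  · -- `hS`
    rintro (𝔫 | 𝔫) h₁ h₂
    · exact wht_hS_point hπ0 V c₁ c₂ hc hBV₁ hπV hSS1 hVloc₁ hne' harch 𝔫 (hdat₁ 𝔫) h₁ h₂
    · exact wht_hS_point hπ0 V c₁ c₂ hc hBV₂ hπV hSS1' hVloc₂ hne' harch 𝔫 (hdat₂ 𝔫) h₁ h₂

end Main

end Fermat.Agent.S33
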