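import Fermat.Agent.S33.WildCusp
import Fermat.Agent.S33.WildHT4

/-!
# S33 v2, C4 (WILD), piece T5f-cusp, part 2: `WhtPtData` on the two charts from U5 + the tube-unit

`t` the coordinate (`j`), charts `t` and `t⁻¹`; `V c₁ = V_∞`, `V c₂ = V_0`; `U`, `V'` integral over
`A₀[t]`, `U · V' = q ^ N`, `U ∈ 𝔪(V c₁)`, `U ∉ 𝔪(V c₂)` (the modular unit); `e` integral over
`A₀[t⁻¹]`, `e ≡ 1` on `V c₁`, `e ^ k ≡ (t⁻¹) ^ m` on `V c₂` (`e = j_p / j ^ p`).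

* `wcp_through_of_ram` : "through" on `B_u` from "through" on the unramified chart `R`.
* `wcp_ptData`     : `WhtPtData V c₁ c₂ 𝔫` at every closed point of the chart `t`.
* `wcp_ptData_inv` : `WhtPtData V c₁ c₂ 𝔫` at every closed point of the chart `t⁻¹`.

`hnode` is `STB.StbNodeAt (V c₁) (V c₂) 𝔫 j p` unfolded (`STB/MainTwo.lean`; output of
`STB.stbmn_hnode₁`, `STB.stbmn_hnode₂`).
-/

set_option autoImplicit false
set_option linter.style.haveILetI false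
set_option linter.unusedSectionVars false
set_option linter.unusedVariables false

namespace Fermat.Agent.S33

open Polynomial IntermediateField Fermat.Agent.INJ AlgebraicCurve Fermat.Agent.UNIP
  Fermat.Agent.STB

section CuspPt

variable {A₀ E F : Type*} [CommRing A₀] [IsDomain A₀] [IsDiscreteValuationRing A₀]
  [Field E] [Algebra A₀ E] [IsFractionRing A₀ E] [CharZero E]
  [Field F] [Algebra E F] [Algebra A₀ F] [IsScalarTower A₀ E F]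
  {π : A₀} {κ : Type*}

/-- "through" on `B_u` from "through" on the unramified chart -/
theorem wcp_through_of_ram {u : F} (W : ValuationSubring F)
    (hBW : ∀ b : F, IsIntegral ↥(Algebra.adjoin A₀ {u}) b → b ∈ W)
    (hπW : algebraMap A₀ F π ∈ W.nonunits)
    (𝔫 : Ideal ↥(zchClosure (A₀ := A₀) ({u} : Set F)))
    (hπ𝔫 : algebraMap A₀ ↥(zchClosure (A₀ := A₀) ({u} : Set F)) π ∈ 𝔫)
    {R : Type*} [CommRing R] (j : R →+* ↥(zchClosure (A₀ := A₀) ({u} : Set F))) (p : R)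
    (hram : MgcRamified j (algebraMap A₀ ↥(zchClosure (A₀ := A₀) ({u} : Set F)) π) p)
    (hthr : ∀ x : R, ((j x : ↥(zchClosure (A₀ := A₀) ({u} : Set F))) : F) ∈ W.nonunits →
      j x ∈ 𝔫) :
    ∀ b : ↥(zchClosure (A₀ := A₀) ({u} : Set F)), (b : F) ∈ W.nonunits → b ∈ 𝔫 := by
  intro b hb
  obtain ⟨y, z, rfl⟩ := hram.decomp b
  have hz : (z : F) ∈ W := hBW _ (mem_zchClosure.mp z.2)
  have hϖz : ((algebraMap A₀ ↥(zchClosure (A₀ := A₀) ({u} : Set F)) π * z :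
      ↥(zchClosure (A₀ := A₀) ({u} : Set F))) : F) ∈ W.nonunits := by
    have e : ((algebraMap A₀ ↥(zchClosure (A₀ := A₀) ({u} : Set F)) π * z :
        ↥(zchClosure (A₀ := A₀) ({u} : Set F))) : F) = (z : F) * algebraMap A₀ F π := by
      rw [mul_comm]; rfl
    rw [e]
    exact pwi_mul_mem_nonunits W hz hπW
  have hjy : ((j y : ↥(zchClosure (A₀ := A₀) ({u} : Set F))) : F) ∈ W.nonunits := by
    have e : ((j y : ↥(zchClosure (A₀ := A₀) ({u} : Set F))) : F) =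
        ((j y + algebraMap A₀ ↥(zchClosure (A₀ := A₀) ({u} : Set F)) π * z :
          ↥(zchClosure (A₀ := A₀) ({u} : Set F))) : F) -
        ((algebraMap A₀ ↥(zchClosure (A₀ := A₀) ({u} : Set F)) π * z :
          ↥(zchClosure (A₀ := A₀) ({u} : Set F))) : F) := by
      push_cast
      ring
    rw [e]
    exact W.nonunits.sub_mem hb hϖz
  exact Ideal.add_mem _ (hthr y hjy) (Ideal.mul_mem_right _ _ hπ𝔫)

/-- **`WhtPtData` at the closed points of the chart `t`**: the tube-unit is integral over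
`A₀[t]`. -/
theorem wcp_ptData (hπ : Irreducible π) {t : F} (ht : Transcendental E t)
    [FiniteDimensional E⟮t⟯ F] [Finite κ]
    [IsNoetherianRing ↥(zchClosure (A₀ := A₀) ({t} : Set F))]
    (V : κ → ValuationSubring F)
    (hBV : ∀ c (b : F), IsIntegral ↥(Algebra.adjoin A₀ {t}) b → b ∈ V c)
    (hπV : ∀ c, algebraMap A₀ F π ∈ (V c).nonunits)
    (hSS1 : ∀ b : F, IsIntegral ↥(Algebra.adjoin A₀ {t}) b → (∀ c, b ∈ (V c).nonunits) →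
      ∃ b' : F, IsIntegral ↥(Algebra.adjoin A₀ {t}) b' ∧ b = algebraMap A₀ F π * b')
    (hVloc : ∀ c (x : F), x ∈ V c → ∃ b s : F, IsIntegral ↥(Algebra.adjoin A₀ {t}) b ∧
      IsIntegral ↥(Algebra.adjoin A₀ {t}) s ∧ s ∉ (V c).nonunits ∧ s * x = b)
    (𝔫 : AtPt (F := F) π t)
    (q : A₀) (hq0 : q ≠ 0) (hqπ : π ∣ q)
    {R : Type*} [CommRing R] (j : R →+* ↥(zchClosure (A₀ := A₀) ({t} : Set F))) (p : R)
    (hram : MgcRamified j (algebraMap A₀ ↥(zchClosure (A₀ := A₀) ({t} : Set F)) π) p)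
    (hjp : j p = algebraMap A₀ ↥(zchClosure (A₀ := A₀) ({t} : Set F)) q)
    (c₁ c₂ : κ) (hκ : ∀ c, c = c₁ ∨ c = c₂)
    {U V' : F} {N : ℕ}
    (hU : IsIntegral ↥(Algebra.adjoin A₀ ({t} : Set F)) U)
    (hV' : IsIntegral ↥(Algebra.adjoin A₀ ({t} : Set F)) V')
    (hUV : U * V' = algebraMap A₀ F q ^ N)
    (hU₁ : U ∈ (V c₁).nonunits) (hU₂ : U ∉ (V c₂).nonunits)
    (hnode : (∃ s : R, j s ∈ 𝔫.1 ∧ NodesLocGen (𝔫.1.comap j) {p, s}) ∨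
      ((∀ x : R, ((j x : ↥(zchClosure (A₀ := A₀) ({t} : Set F))) : F) ∈ (V c₁).nonunits →
          j x ∈ 𝔫.1) ∧
       (∀ x : R, ((j x : ↥(zchClosure (A₀ := A₀) ({t} : Set F))) : F) ∈ (V c₂).nonunits →
          j x ∈ 𝔫.1) ∧
       ∃ X Y : R, ((j X : ↥(zchClosure (A₀ := A₀) ({t} : Set F))) : F) ∈ (V c₁).nonunits ∧
         ((j Y : ↥(zchClosure (A₀ := A₀) ({t} : Set F))) : F) ∈ (V c₂).nonunits ∧
         NodesLocGen (𝔫.1.comap j) {p, X, Y})) :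
    WhtPtData V c₁ c₂ 𝔫 := by
  haveI := 𝔫.2.1.isPrime
  exact whtPtData_of_nodes hπ ht V hBV hπV hSS1 hVloc 𝔫 q hq0 hqπ j p hram hjp c₁ c₂ hκ
    (fun _ _ => ⟨wcp_mem_loc_self 𝔫.1 hU, wcp_mem_loc_self 𝔫.1 hV'⟩) hUV hU₁ hU₂ hnode

/-- **`WhtPtData` at the closed points of the chart `t⁻¹`**: the tube-unit is integral over
`A₀[t]`, and the cusps are not crossing points (`e`). -/
theorem wcp_ptData_inv (hπ : Irreducible π) {t : F} (ht' : Transcendental E t⁻¹)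
    [FiniteDimensional E⟮t⁻¹⟯ F] [Finite κ]
    [IsNoetherianRing ↥(zchClosure (A₀ := A₀) ({t⁻¹} : Set F))]
    (V : κ → ValuationSubring F)
    (hBV : ∀ c (b : F), IsIntegral ↥(Algebra.adjoin A₀ {t⁻¹}) b → b ∈ V c)
    (hπV : ∀ c, algebraMap A₀ F π ∈ (V c).nonunits)
    (hSS1 : ∀ b : F, IsIntegral ↥(Algebra.adjoin A₀ {t⁻¹}) b → (∀ c, b ∈ (V c).nonunits) →
      ∃ b' : F, IsIntegral ↥(Algebra.adjoin A₀ {t⁻¹}) b' ∧ b = algebraMap A₀ F π * b')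
    (hVloc : ∀ c (x : F), x ∈ V c → ∃ b s : F, IsIntegral ↥(Algebra.adjoin A₀ {t⁻¹}) b ∧
      IsIntegral ↥(Algebra.adjoin A₀ {t⁻¹}) s ∧ s ∉ (V c).nonunits ∧ s * x = b)
    (𝔫 : AtPt (F := F) π t⁻¹)
    (q : A₀) (hq0 : q ≠ 0) (hqπ : π ∣ q)
    {R : Type*} [CommRing R] (j : R →+* ↥(zchClosure (A₀ := A₀) ({t⁻¹} : Set F))) (p : R)
    (hram : MgcRamified j (algebraMap A₀ ↥(zchClosure (A₀ := A₀) ({t⁻¹} : Set F)) π) p)
    (hjp : j p = algebraMap A₀ ↥(zchClosure (A₀ := A₀) ({t⁻¹} : Set F)) q)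
    (c₁ c₂ : κ) (hκ : ∀ c, c = c₁ ∨ c = c₂)
    {U V' : F} {N : ℕ}
    (hU : IsIntegral ↥(Algebra.adjoin A₀ ({t} : Set F)) U)
    (hV' : IsIntegral ↥(Algebra.adjoin A₀ ({t} : Set F)) V')
    (hUV : U * V' = algebraMap A₀ F q ^ N)
    (hU₁ : U ∈ (V c₁).nonunits) (hU₂ : U ∉ (V c₂).nonunits)
    {e : F} (he : IsIntegral ↥(Algebra.adjoin A₀ ({t⁻¹} : Set F)) e)
    (he₁ : e - 1 ∈ (V c₁).nonunits) {k m : ℕ} (hm : m ≠ 0)
    (he₂ : e ^ k - t⁻¹ ^ m ∈ (V c₂).nonunits)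
    (hnode : (∃ s : R, j s ∈ 𝔫.1 ∧ NodesLocGen (𝔫.1.comap j) {p, s}) ∨
      ((∀ x : R, ((j x : ↥(zchClosure (A₀ := A₀) ({t⁻¹} : Set F))) : F) ∈ (V c₁).nonunits →
          j x ∈ 𝔫.1) ∧
       (∀ x : R, ((j x : ↥(zchClosure (A₀ := A₀) ({t⁻¹} : Set F))) : F) ∈ (V c₂).nonunits →
          j x ∈ 𝔫.1) ∧
       ∃ X Y : R, ((j X : ↥(zchClosure (A₀ := A₀) ({t⁻¹} : Set F))) : F) ∈ (V c₁).nonunits ∧
         ((j Y : ↥(zchClosure (A₀ := A₀) ({t⁻¹} : Set F))) : F) ∈ (V c₂).nonunits ∧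
         NodesLocGen (𝔫.1.comap j) {p, X, Y})) :
    WhtPtData V c₁ c₂ 𝔫 := by
  haveI := 𝔫.2.1.isPrime
  refine whtPtData_of_nodes hπ ht' V hBV hπV hSS1 hVloc 𝔫 q hq0 hqπ j p hram hjp c₁ c₂ hκ
    ?_ hUV hU₁ hU₂ hnode
  intro hthr₁ hthr₂
  have h₁ := wcp_through_of_ram (V c₁) (hBV c₁) (hπV c₁) 𝔫.1 𝔫.2.2 j p hram hthr₁
  have h₂ := wcp_through_of_ram (V c₂) (hBV c₂) (hπV c₂) 𝔫.1 𝔫.2.2 j p hram hthr₂
  -- the coordinate of the chart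
  have htint : IsIntegral ↥(Algebra.adjoin A₀ ({t⁻¹} : Set F)) t⁻¹ := by
    have : t⁻¹ = algebraMap ↥(Algebra.adjoin A₀ ({t⁻¹} : Set F)) F
        ⟨t⁻¹, Algebra.subset_adjoin (Set.mem_singleton _)⟩ := rfl
    rw [this]
    exact isIntegral_algebraMap
  set ū : ↥(zchClosure (A₀ := A₀) ({t⁻¹} : Set F)) := ⟨t⁻¹, mem_zchClosure.mpr htint⟩ with hū
  have hu𝔫 : ū ∉ 𝔫.1 := wcp_not_mem (V c₁) (V c₂) 𝔫.1 h₁ h₂ he he₁ hm he₂ ū rfl
  have hU' : IsIntegral ↥(Algebra.adjoin A₀ ({(t⁻¹)⁻¹} : Set F)) U := by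
    rw [inv_inv]; exact hU
  have hV'' : IsIntegral ↥(Algebra.adjoin A₀ ({(t⁻¹)⁻¹} : Set F)) V' := by
    rw [inv_inv]; exact hV'
  exact ⟨wcp_mem_loc 𝔫.1 ū rfl hu𝔫 hU', wcp_mem_loc 𝔫.1 ū rfl hu𝔫 hV''⟩

end CuspPt

end Fermat.Agent.S33
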