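import Fermat.Agent.S33.WildDeepCore
import Fermat.Agent.S33.PlanGeo
import Fermat.Agent.STB.ToricTransfer
import Fermat.Agent.UNIP.MGVertInertia

/-!
# S33 v2, C4 / T5: the DEEP bridge  `ℚ̄`-level `CongrOneMod`  ⇒  `E′`-level valuation form

`A` a valuation subring of `ℚ̄`, `E′` an intermediate field of `ℚ̄ / ℚ`, `hB : VtBase ι r π` a
discrete base with fraction field `E′` compatible with `A`
(`(c1)` `ι a ∈ A`, `(c2)` `ι a ∈ 𝔪_A → r a = 0`, `(c3)` `ι π ∈ 𝔪_A`), `d ∈ A₀`, `d ≠ 0`, and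
`ϖ ∈ ℚ̄` with `d ∣ ϖ` in `A`.

* `wdb_inf`  : `CongrOneMod A N ϖ (nfEmb E′ N x₀) → v_∞ (x₀ - 1) ≤ v_∞ (d)`  (`vtInf hB N`);
* `wdb_fam`  : the same at `vtFam hB ιC hq hqM c` (`c = false`: with `w_q`);
* `wdb_mgv`, `wdb_mgv_true`, `wdb_mgv_false` : for the base `A ∩ K₀` and `mgvV hπ ιC hq hqM c`;
* `wdb_hsplit` : the hypothesis `hsplit` of `wab_main_two` (S33/WildAbsMain.lean);
* `wdb_pack` : `hsplit` from `DepthInf` and `DepthZero` (S33/PlanGeo.lean) over a large enough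
  field.
-/

set_option autoImplicit false
set_option linter.unusedSectionVars false
set_option linter.unusedVariables false
set_option linter.style.haveILetI false

noncomputable section

namespace Fermat.Agent.S33

open ModularCurve Fermat.Agent.INJ Fermat.Agent.ES Fermat.Agent.ES.G2 Fermat.Agent.UNIP
  Fermat.Agent.STB

section Transfer

variable {A₀ k : Type*} [CommRing A₀] [Field k] {E' : IntermediateField ℚ Qb}
  {ι : A₀ →+* ↥E'} {r : A₀ →+* k} {π : A₀} (hB : VtBase ι r π) (A : ValuationSubring Qb)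

/-- **deep bridge at `∞`**, level `N` -/
theorem wdb_inf (h1 : ∀ a, algebraMap ↥E' Qb (ι a) ∈ A)
    (h2 : ∀ a, algebraMap ↥E' Qb (ι a) ∈ A.nonunits → r a = 0)
    (h3 : algebraMap ↥E' Qb (ι π) ∈ A.nonunits)
    (N : ℕ) [NeZero N] {d : A₀} (hd : d ≠ 0) {ϖ : Qb}
    (hϖ : ∃ a ∈ A, ϖ = algebraMap ↥E' Qb (ι d) * a)
    {x₀ : modularFunctionFieldFullC ↥E' N}
    (hx : CongrOneMod A N ϖ (nfEmb E' N x₀)) :
    (vtInf hB N).valuation (x₀ - 1) ≤ (vtInf hB N).valuation (mgaConst ↥E' N (ι d)) := by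
  obtain ⟨y₁, y₂, -, -, hy₁, hy₂, hc, hxy⟩ := hx
  obtain ⟨a, ha, hϖ⟩ := hϖ
  have hc' : NdaCongr A (algebraMap ↥E' Qb (ι d)) y₁ y₂ := hc.of_dvd ha hϖ
  have key := wdb_core (ψ := algebraMap ↥E' Qb) hB h1 h2 h3 hd (vt_frac_fullC hB N x₀.2)
    hy₁ hy₂ hc' hxy
  exact wdb_vtSub hB (vtEmb ↥E' N) _ (algebraMap_laurentSeries_eq_single ↥E' (ι d)) key

variable (ιC : ↥E' →+* ℂ) {q M : ℕ} [NeZero q] [NeZero M] [NeZero (M * q)]
  (hq : q.Prime) (hqM : ¬ q ∣ M)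

/-- **deep bridge at `∞`**, in the family -/
theorem wdb_true (h1 : ∀ a, algebraMap ↥E' Qb (ι a) ∈ A)
    (h2 : ∀ a, algebraMap ↥E' Qb (ι a) ∈ A.nonunits → r a = 0)
    (h3 : algebraMap ↥E' Qb (ι π) ∈ A.nonunits)
    {d : A₀} (hd : d ≠ 0) {ϖ : Qb} (hϖ : ∃ a ∈ A, ϖ = algebraMap ↥E' Qb (ι d) * a)
    {x₀ : modularFunctionFieldFullC ↥E' (M * q)}
    (hx : CongrOneMod A (M * q) ϖ (nfEmb E' (M * q) x₀)) :
    (vtFam hB ιC hq hqM true).valuation (x₀ - 1) ≤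
      (vtFam hB ιC hq hqM true).valuation (mgaConst ↥E' (M * q) (ι d)) :=
  wdb_inf hB A h1 h2 h3 (M * q) hd hϖ hx

/-- **deep bridge at `0`** -/
theorem wdb_false (h1 : ∀ a, algebraMap ↥E' Qb (ι a) ∈ A)
    (h2 : ∀ a, algebraMap ↥E' Qb (ι a) ∈ A.nonunits → r a = 0)
    (h3 : algebraMap ↥E' Qb (ι π) ∈ A.nonunits)
    {d : A₀} (hd : d ≠ 0) {ϖ : Qb} (hϖ : ∃ a ∈ A, ϖ = algebraMap ↥E' Qb (ι d) * a)
    {x₀ : modularFunctionFieldFullC ↥E' (M * q)}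
    (hx : CongrOneMod A (M * q) ϖ (atkinLehnerBar hq hqM (nfEmb E' (M * q) x₀))) :
    (vtFam hB ιC hq hqM false).valuation (x₀ - 1) ≤
      (vtFam hB ιC hq hqM false).valuation (mgaConst ↥E' (M * q) (ι d)) := by
  obtain ⟨y₁, y₂, -, -, hy₁, hy₂, hc, hxy⟩ := hx
  obtain ⟨a, ha, hϖ⟩ := hϖ
  have hc' : NdaCongr A (algebraMap ↥E' Qb (ι d)) y₁ y₂ := hc.of_dvd ha hϖ
  rw [stb_mgt_atkinLehnerBar_nfEmb ιC hq hqM x₀] at hxy
  have hfr : VtFrac ι ((Fermat.Agent.AL.atkinLehner ↥E' ιC hq hqM x₀ :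
      modularFunctionFieldFullC ↥E' (M * q)) : LaurentSeries ↥E') :=
    vt_frac_fullC hB (M * q) (Fermat.Agent.AL.atkinLehner ↥E' ιC hq hqM x₀).2
  have key := wdb_core (ψ := algebraMap ↥E' Qb) hB h1 h2 h3 hd hfr hy₁ hy₂ hc' hxy
  exact wdb_vtSub hB (vtEmbFam ιC hq hqM false) _ (vtEmbFam_const ιC hq hqM false (ι d)) key

/-- **deep bridge**, both cusps -/
theorem wdb_fam (h1 : ∀ a, algebraMap ↥E' Qb (ι a) ∈ A)
    (h2 : ∀ a, algebraMap ↥E' Qb (ι a) ∈ A.nonunits → r a = 0)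
    (h3 : algebraMap ↥E' Qb (ι π) ∈ A.nonunits)
    {d : A₀} (hd : d ≠ 0) {ϖ : Qb} (hϖ : ∃ a ∈ A, ϖ = algebraMap ↥E' Qb (ι d) * a)
    {x₀ : modularFunctionFieldFullC ↥E' (M * q)} (c : Bool)
    (hx : CongrOneMod A (M * q) ϖ
      (bif c then nfEmb E' (M * q) x₀ else atkinLehnerBar hq hqM (nfEmb E' (M * q) x₀))) :
    (vtFam hB ιC hq hqM c).valuation (x₀ - 1) ≤
      (vtFam hB ιC hq hqM c).valuation (mgaConst ↥E' (M * q) (ι d)) := by
  cases c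
  · exact wdb_false hB A ιC hq hqM h1 h2 h3 hd hϖ hx
  · exact wdb_true hB A ιC hq hqM h1 h2 h3 hd hϖ hx

end Transfer

/-! ### The base `A ∩ K₀` and the vertical valuations `mgvV` -/

section Mgv

variable {A : ValuationSubring Qb} {K₀ : IntermediateField ℚ Qb}
  [IsDiscreteValuationRing ↥(beta0Ring A K₀)] {π : ↥(beta0Ring A K₀)} (hπ : Irreducible π)
  (ιC : ↥K₀ →+* ℂ) {q M : ℕ} [NeZero q] [NeZero M] [NeZero (M * q)]
  (hq : q.Prime) (hqM : ¬ q ∣ M)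

/-- `(c3)` for the base `A ∩ K₀` -/
theorem wdb_c3 {π : ↥(beta0Ring A K₀)} (hπ : Irreducible π) :
    algebraMap ↥K₀ Qb (algebraMap ↥(beta0Ring A K₀) ↥K₀ π) ∈ A.nonunits :=
  (beta0Ring_mem_maximalIdeal_iff π).1
    ((IsLocalRing.mem_maximalIdeal π).2 (mem_nonunits_iff.2 hπ.not_isUnit))

/-- **deep bridge** for `mgvV`, both cusps -/
theorem wdb_mgv {d : ↥(beta0Ring A K₀)} (hd : d ≠ 0) {ϖ : Qb}
    (hϖ : ∃ a ∈ A, ϖ = (((d : ↥K₀) : Qb)) * a)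
    {x₀ : ↥(modularFunctionFieldFullC ↥K₀ (M * q))} (c : Bool)
    (hx : CongrOneMod A (M * q) ϖ
      (bif c then nfEmb K₀ (M * q) x₀ else atkinLehnerBar hq hqM (nfEmb K₀ (M * q) x₀))) :
    (mgvV hπ ιC hq hqM c).valuation (x₀ - 1) ≤
      (mgvV hπ ιC hq hqM c).valuation
        (algebraMap ↥(beta0Ring A K₀) ↥(modularFunctionFieldFullC ↥K₀ (M * q)) d) :=
  wdb_fam (vtBase_residue hπ) A ιC hq hqM (stb_mgt_c1 A K₀) (stb_mgt_c2 A K₀) (wdb_c3 hπ) hd hϖ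
    c hx

/-- **deep bridge at `∞`** for `mgvV` -/
theorem wdb_mgv_true {d : ↥(beta0Ring A K₀)} (hd : d ≠ 0) {ϖ : Qb}
    (hϖ : ∃ a ∈ A, ϖ = (((d : ↥K₀) : Qb)) * a)
    {x₀ : ↥(modularFunctionFieldFullC ↥K₀ (M * q))}
    (hx : CongrOneMod A (M * q) ϖ (nfEmb K₀ (M * q) x₀)) :
    (mgvV hπ ιC hq hqM true).valuation (x₀ - 1) ≤
      (mgvV hπ ιC hq hqM true).valuation
        (algebraMap ↥(beta0Ring A K₀) ↥(modularFunctionFieldFullC ↥K₀ (M * q)) d) :=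
  wdb_mgv hπ ιC hq hqM hd hϖ true hx

/-- **deep bridge at `0`** for `mgvV` -/
theorem wdb_mgv_false {d : ↥(beta0Ring A K₀)} (hd : d ≠ 0) {ϖ : Qb}
    (hϖ : ∃ a ∈ A, ϖ = (((d : ↥K₀) : Qb)) * a)
    {x₀ : ↥(modularFunctionFieldFullC ↥K₀ (M * q))}
    (hx : CongrOneMod A (M * q) ϖ (atkinLehnerBar hq hqM (nfEmb K₀ (M * q) x₀))) :
    (mgvV hπ ιC hq hqM false).valuation (x₀ - 1) ≤
      (mgvV hπ ιC hq hqM false).valuation
        (algebraMap ↥(beta0Ring A K₀) ↥(modularFunctionFieldFullC ↥K₀ (M * q)) d) :=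
  wdb_mgv hπ ιC hq hqM hd hϖ false hx

/-- **The hypothesis `hsplit` of `wab_main_two`** (`V = mgvV hπ ιC hq hqM`) from the congruences
over `ℚ̄`, for descents `u₀, tt true, tt false ∈ F_{Mq}(K₀)`. -/
theorem wdb_hsplit {p : ℕ} {ζ : ↥(beta0Ring A K₀)} (hζ : ζ ≠ 1) {ϖ : Qb}
    (hϖ : ∃ a ∈ A, ϖ = ((((ζ - 1) ^ p * π : ↥(beta0Ring A K₀)) : ↥K₀) : Qb) * a)
    {u₀ : ↥(modularFunctionFieldFullC ↥K₀ (M * q))}
    (tt : Bool → ↥(modularFunctionFieldFullC ↥K₀ (M * q))) (htt : ∀ c, tt c ≠ 0)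
    (k1 : CongrOneMod A (M * q) ϖ
      (nfEmb K₀ (M * q) u₀ / nfEmb K₀ (M * q) (tt true) ^ p))
    (k2 : CongrOneMod A (M * q) ϖ
      (atkinLehnerBar hq hqM (nfEmb K₀ (M * q) u₀ / nfEmb K₀ (M * q) (tt false) ^ p))) :
    ∀ c, ∃ h : ↥(modularFunctionFieldFullC ↥K₀ (M * q)), h ≠ 0 ∧
      (mgvV hπ ιC hq hqM c).valuation (u₀ / h ^ p - 1) ≤
        (mgvV hπ ιC hq hqM c).valuation
          ((algebraMap ↥(beta0Ring A K₀) ↥(modularFunctionFieldFullC ↥K₀ (M * q)) ζ - 1) ^ p *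
            algebraMap ↥(beta0Ring A K₀) ↥(modularFunctionFieldFullC ↥K₀ (M * q)) π) := by
  have hd : (ζ - 1) ^ p * π ≠ 0 :=
    mul_ne_zero (pow_ne_zero p (sub_ne_zero.2 hζ)) hπ.ne_zero
  have hconst : (algebraMap ↥(beta0Ring A K₀) ↥(modularFunctionFieldFullC ↥K₀ (M * q)) ζ - 1) ^ p *
      algebraMap ↥(beta0Ring A K₀) ↥(modularFunctionFieldFullC ↥K₀ (M * q)) π =
      algebraMap ↥(beta0Ring A K₀) ↥(modularFunctionFieldFullC ↥K₀ (M * q))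
        ((ζ - 1) ^ p * π) := by
    rw [map_mul, map_pow, map_sub, map_one]
  intro c
  refine ⟨tt c, htt c, ?_⟩
  rw [hconst]
  cases c
  · refine wdb_mgv_false hπ ιC hq hqM hd hϖ ?_
    rw [map_div₀, map_pow]
    exact k2
  · refine wdb_mgv_true hπ ιC hq hqM hd hϖ ?_
    rw [map_div₀, map_pow]
    exact k1

end Mgv

/-! ### Pack: `hsplit` from `DepthInf` and `DepthZero` -/

section Pack

variable {p M : ℕ} [NeZero p] [NeZero M] [NeZero (M * p)] (hp : p.Prime) (hpM : ¬ p ∣ M)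

/-- the constant of `DepthInf` is absorbed in the `p`-th power -/
theorem wdb_depthInf_iff_exists (A : ValuationSubring Qb) (N : ℕ) [NeZero N] {ϖ : Qb}
    {u : modularFunctionFieldBar N} (hp0 : 0 < p) (h : DepthInf A N p ϖ u) :
    ∃ H : modularFunctionFieldBar N, H ≠ 0 ∧ CongrOneMod A N ϖ (u / H ^ p) := by
  obtain ⟨c, h, hc, hh, k⟩ := h
  obtain ⟨c₁, hc₁⟩ := IsAlgClosed.exists_pow_nat_eq c hp0
  have hc₁0 : c₁ ≠ 0 := by
    rintro rfl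
    rw [zero_pow hp0.ne'] at hc₁
    exact hc hc₁.symm
  refine ⟨algebraMap Qb (modularFunctionFieldBar N) c₁ * h,
    mul_ne_zero ((map_ne_zero _).2 hc₁0) hh, ?_⟩
  rw [mul_pow, ← map_pow, hc₁]
  exact k

/-- **Deep bridge, pack**: if `u ∈ F_{Mp}(ℚ̄)` has depth `ϖ` at `v_∞` and at `v_0`, there is a
number field `K₀` such that over every `E′ ⊇ K₀` with `A ∩ E′` discrete there are
`tt c ∈ F_{Mp}(E′)^×` with `v_c (u₀ / tt c ^ p - 1) ≤ v_c (d)` for every descent `u₀` of `u` and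
every `d ∈ A ∩ E′`, `d ≠ 0`, dividing `ϖ` in `A`. -/
theorem wdb_pack (A : ValuationSubring Qb) {ϖ : Qb} {u : modularFunctionFieldBar (M * p)}
    (hinf : DepthInf A (M * p) p ϖ u) (hzero : DepthZero hp hpM A ϖ u) :
    ∃ K₀ : IntermediateField ℚ Qb, FiniteDimensional ℚ K₀ ∧
      ∀ E' : IntermediateField ℚ Qb, K₀ ≤ E' →
        ∃ tt : Bool → modularFunctionFieldFullC ↥E' (M * p), (∀ c, tt c ≠ 0) ∧
          ∀ [IsDiscreteValuationRing ↥(beta0Ring A E')] {π' : ↥(beta0Ring A E')}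
            (hπ : Irreducible π') (ιC : ↥E' →+* ℂ) {d : ↥(beta0Ring A E')}, d ≠ 0 →
            (∃ a ∈ A, ϖ = (((d : ↥E') : Qb)) * a) →
            ∀ u₀ : modularFunctionFieldFullC ↥E' (M * p), nfEmb E' (M * p) u₀ = u →
            ∀ c : Bool, (mgvV hπ ιC hp hpM c).valuation (u₀ / tt c ^ p - 1) ≤
              (mgvV hπ ιC hp hpM c).valuation
                (algebraMap ↥(beta0Ring A E') ↥(modularFunctionFieldFullC ↥E' (M * p)) d) := by
  obtain ⟨H, hH, k1⟩ := wdb_depthInf_iff_exists A (M * p) hp.pos hinf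
  obtain ⟨H', hH', k2⟩ := wdb_depthInf_iff_exists A (M * p) hp.pos hzero
  -- `H'' := w H'`, so that `w (u / H'' ^ p) = w u / H' ^ p`
  obtain ⟨K₀, hK₀, hdesc⟩ := stb_mgt_exists_descent (M * p) H (atkinLehnerBar hp hpM H')
  refine ⟨K₀, hK₀, fun E' hE => ?_⟩
  obtain ⟨t₀, t₀', e, e'⟩ := hdesc E' hE
  refine ⟨fun c => bif c then t₀ else t₀', ?_, ?_⟩
  · intro c
    cases c
    · show t₀' ≠ 0
      rintro rfl
      rw [map_zero] at e'
      exact (map_ne_zero (atkinLehnerBar hp hpM)).2 hH' e'.symm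
    · show t₀ ≠ 0
      rintro rfl
      rw [map_zero] at e
      exact hH e.symm
  · intro _ π' hπ ιC d hd hϖ u₀ hu c
    cases c
    · refine wdb_mgv_false hπ ιC hp hpM hd hϖ ?_
      show CongrOneMod A (M * p) ϖ
        (atkinLehnerBar hp hpM (nfEmb E' (M * p) (u₀ / t₀' ^ p)))
      rw [map_div₀, map_pow, hu, e', map_div₀, map_pow, atkinLehnerBar_invol]
      exact k2
    · refine wdb_mgv_true hπ ιC hp hpM hd hϖ ?_
      show CongrOneMod A (M * p) ϖ (nfEmb E' (M * p) (u₀ / t₀ ^ p))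
      rw [map_div₀, map_pow, hu, e]
      exact k1

/-- **Deep bridge, pack, in the shape of `hsplit` of `wab_main_two`.** -/
theorem wdb_pack_hsplit (A : ValuationSubring Qb) {ϖ : Qb}
    {u : modularFunctionFieldBar (M * p)}
    (hinf : DepthInf A (M * p) p ϖ u) (hzero : DepthZero hp hpM A ϖ u) :
    ∃ K₀ : IntermediateField ℚ Qb, FiniteDimensional ℚ K₀ ∧
      ∀ E' : IntermediateField ℚ Qb, K₀ ≤ E' →
          ∀ [IsDiscreteValuationRing ↥(beta0Ring A E')] {π' : ↥(beta0Ring A E')}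
            (hπ : Irreducible π') (ιC : ↥E' →+* ℂ) {ζ : ↥(beta0Ring A E')}, ζ ≠ 1 →
            (∃ a ∈ A, ϖ = ((((ζ - 1) ^ p * π' : ↥(beta0Ring A E')) : ↥E') : Qb) * a) →
            ∀ u₀ : modularFunctionFieldFullC ↥E' (M * p), nfEmb E' (M * p) u₀ = u →
            ∀ c : Bool, ∃ h : ↥(modularFunctionFieldFullC ↥E' (M * p)), h ≠ 0 ∧
              (mgvV hπ ιC hp hpM c).valuation (u₀ / h ^ p - 1) ≤
                (mgvV hπ ιC hp hpM c).valuation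
                  ((algebraMap ↥(beta0Ring A E') ↥(modularFunctionFieldFullC ↥E' (M * p)) ζ
                      - 1) ^ p *
                    algebraMap ↥(beta0Ring A E') ↥(modularFunctionFieldFullC ↥E' (M * p)) π') := by
  obtain ⟨K₀, hK₀, h⟩ := wdb_pack hp hpM A hinf hzero
  refine ⟨K₀, hK₀, fun E' hE => ?_⟩
  obtain ⟨tt, htt, h'⟩ := h E' hE
  intro _ π' hπ ιC ζ hζ hϖ u₀ hu c
  have hd : (ζ - 1) ^ p * π' ≠ 0 :=
    mul_ne_zero (pow_ne_zero p (sub_ne_zero.2 hζ)) hπ.ne_zero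
  have hconst :
      (algebraMap ↥(beta0Ring A E') ↥(modularFunctionFieldFullC ↥E' (M * p)) ζ - 1) ^ p *
        algebraMap ↥(beta0Ring A E') ↥(modularFunctionFieldFullC ↥E' (M * p)) π' =
      algebraMap ↥(beta0Ring A E') ↥(modularFunctionFieldFullC ↥E' (M * p))
        ((ζ - 1) ^ p * π') := by
    rw [map_mul, map_pow, map_sub, map_one]
  refine ⟨tt c, htt c, ?_⟩
  rw [hconst]
  exact h' hπ ιC hd hϖ u₀ hu c

/-- `(ζ - 1) ^ p · π ∣ p ^ 2` in `A`, for `ζ, π ∈ A ∩ E′` -/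
theorem wdb_hϖ_p_sq (A : ValuationSubring Qb) (E' : IntermediateField ℚ Qb) (hp3 : 3 ≤ p)
    {ζ π' : ↥(beta0Ring A E')} (hζ : IsPrimitiveRoot ζ p) (hlam : π' ∣ ζ - 1) :
    ∃ a ∈ A, ((p : Qb)) ^ 2 = ((((ζ - 1) ^ p * π' : ↥(beta0Ring A E')) : ↥E') : Qb) * a := by
  obtain ⟨a, ha⟩ := wdb_dvd_p_sq hp3 hζ hlam
  refine ⟨((a : ↥E') : Qb), a.2, ?_⟩
  have h1 := congrArg (fun z : ↥(beta0Ring A E') => (((z : ↥E') : Qb))) ha
  simpa using h1

/-- **`hsplit` of `wab_main_two` from `IsSplitFn`** (the output of C3): over every `E′` containing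
a suitable number field, with `A ∩ E′` discrete, `ζ ∈ A ∩ E′` a primitive `p`-th root of unity
and `π′ ∣ ζ - 1`. -/
theorem wdb_hsplit_of_isSplitFn (hp3 : 3 ≤ p) (A : ValuationSubring Qb)
    {u : modularFunctionFieldBar (M * p)} (hs : IsSplitFn hp hpM A u) :
    ∃ K₀ : IntermediateField ℚ Qb, FiniteDimensional ℚ K₀ ∧
      ∀ E' : IntermediateField ℚ Qb, K₀ ≤ E' →
          ∀ [IsDiscreteValuationRing ↥(beta0Ring A E')] {π' : ↥(beta0Ring A E')}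
            (hπ : Irreducible π') (ιC : ↥E' →+* ℂ) {ζ : ↥(beta0Ring A E')},
            IsPrimitiveRoot ζ p → π' ∣ ζ - 1 →
            ∀ u₀ : modularFunctionFieldFullC ↥E' (M * p), nfEmb E' (M * p) u₀ = u →
            ∀ c : Bool, ∃ h : ↥(modularFunctionFieldFullC ↥E' (M * p)), h ≠ 0 ∧
              (mgvV hπ ιC hp hpM c).valuation (u₀ / h ^ p - 1) ≤
                (mgvV hπ ιC hp hpM c).valuation
                  ((algebraMap ↥(beta0Ring A E') ↥(modularFunctionFieldFullC ↥E' (M * p)) ζ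
                      - 1) ^ p *
                    algebraMap ↥(beta0Ring A E') ↥(modularFunctionFieldFullC ↥E' (M * p)) π') := by
  obtain ⟨hinf, hzero⟩ := hs 2
  obtain ⟨K₀, hK₀, h⟩ := wdb_pack_hsplit hp hpM A hinf hzero
  refine ⟨K₀, hK₀, fun E' hE => ?_⟩
  intro _ π' hπ ιC ζ hζ hlam u₀ hu c
  have hζ1 : ζ ≠ 1 := hζ.ne_one (by omega)
  exact h E' hE hπ ιC hζ1 (wdb_hϖ_p_sq A E' hp3 hζ hlam) u₀ hu c

end Pack

end Fermat.Agent.S33
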