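import Fermat.Agent.STB.ToricTransferCore
import Fermat.Agent.S33.NormAlg

/-!
# S33 v2, C4 / T5: the DEEP bridge, generic core

Twin of `STB/ToricTransferCore.lean` (`stb_mgt_core`) with depth.

`hB : VtBase ι r π` a discrete base (`ι : A₀ → E` the fraction field, `r : A₀ → k` the residue
map), `ψ : E →+* L` an embedding into a field with a valuation subring `AL` (not necessarily
discrete) compatible with the base:

* `(c1)` `ψ (ι a) ∈ AL`;  `(c2)` `ψ (ι a) ∈ 𝔪_AL → r a = 0`;  `(c3)` `ψ (ι π) ∈ 𝔪_AL`.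

`wdb_core` : if `x ∈ E((Q))` is a quotient of series over `A₀` and `ψ̂ x · y₂ = y₁` with
`y₁, y₂ ∈ L((Q))` `AL`-primitive and `y₁ ≡ y₂` modulo `ψ (ι d) · AL`, `d ∈ A₀`, `d ≠ 0`, then
`x - 1 = d · y` with `y` in the Gauss ring of the base.
-/

set_option autoImplicit false
set_option linter.unusedSectionVars false
set_option linter.unusedVariables false
set_option linter.style.haveILetI false

noncomputable section

namespace Fermat.Agent.S33

open ModularCurve Fermat.Agent.INJ Fermat.Agent.ES Fermat.Agent.UNIP Fermat.Agent.STB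

section Core

variable {A₀ E k : Type*} [CommRing A₀] [Field E] [Field k]
  {ι : A₀ →+* E} {r : A₀ →+* k} {π : A₀}
  {L : Type*} [Field L] {AL : ValuationSubring L} {ψ : E →+* L}

/-- every nonzero element of the base is `π ^ k` times an element with nonzero residue -/
theorem wdb_exists_prim (hB : VtBase ι r π) {d : A₀} (hd : d ≠ 0) :
    ∃ (k : ℕ) (d' : A₀), d = π ^ k * d' ∧ r d' ≠ 0 := by
  obtain ⟨N, hN⟩ := hB.fin d hd
  induction N generalizing d with
  | zero => exact absurd (by rw [pow_zero]; exact one_dvd d) hN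
  | succ N ih =>
      by_cases hr : r d = 0
      · obtain ⟨d₁, rfl⟩ := hB.ker d hr
        have hd₁ : d₁ ≠ 0 := by
          rintro rfl
          exact hd (mul_zero _)
        have hN₁ : ¬ π ^ N ∣ d₁ := by
          rintro ⟨c, rfl⟩
          apply hN
          exact ⟨c, by rw [pow_succ]; ring⟩
        obtain ⟨k, d', rfl, hd'⟩ := ih hd₁ hN₁
        exact ⟨k + 1, d', by rw [pow_succ]; ring, hd'⟩
      · exact ⟨0, d, by rw [pow_zero, one_mul], hr⟩

/-- `c ∈ 𝔪_AL`, `W` integral ⇒ `c · W ≡ 0` -/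
theorem wdb_congr_zero_C_mul {c : L} (hc : c ∈ AL.nonunits) {W : LaurentSeries L}
    (hW : KronInt AL W) : KronCongr AL (HahnSeries.C c * W) 0 := fun n => by
  rw [HahnSeries.coeff_zero, sub_zero, HahnSeries.C_mul_eq_smul, HahnSeries.coeff_smul,
    smul_eq_mul, ValuationSubring.mem_nonunits_iff, map_mul]
  exact mul_lt_one_of_nonneg_of_lt_one_left zero_le
    (AL.mem_nonunits_iff.1 hc) ((AL.valuation_le_one_iff _).2 (hW n))

/-- `c ∈ 𝔪_AL`, `W` integral ⇒ `c ^ (j + 1) · W ≡ 0` -/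
theorem wdb_congr_zero_C_pow_mul {c : L} (hc : c ∈ AL.nonunits) (hcA : c ∈ AL) (j : ℕ)
    {W : LaurentSeries L} (hW : KronInt AL W) :
    KronCongr AL (HahnSeries.C c ^ (j + 1) * W) 0 := by
  have e : (HahnSeries.C c : LaurentSeries L) ^ (j + 1) * W =
      HahnSeries.C c * (HahnSeries.C c ^ j * W) := by
    rw [pow_succ]
    ring
  rw [e]
  exact wdb_congr_zero_C_mul hc (((stb_mgt_int_C hcA).pow j).mul hW)

theorem wdb_C_ne_zero {c : L} (hc : c ≠ 0) : (HahnSeries.C c : LaurentSeries L) ≠ 0 := by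
  intro h
  apply hc
  have := congrArg (fun z : LaurentSeries L => z.coeff 0) h
  simpa using this

/-- **Deep bridge, generic core.** -/
theorem wdb_core (hB : VtBase ι r π) (h1 : ∀ a, ψ (ι a) ∈ AL)
    (h2 : ∀ a, ψ (ι a) ∈ AL.nonunits → r a = 0) (h3 : ψ (ι π) ∈ AL.nonunits)
    {d : A₀} (hd : d ≠ 0)
    {x : LaurentSeries E} (hx : VtFrac ι x) {y₁ y₂ : LaurentSeries L}
    (hy₁ : KronPrim AL y₁) (hy₂ : KronPrim AL y₂) (hc : NdaCongr AL (ψ (ι d)) y₁ y₂)
    (hxy : coeffMap ψ x * y₂ = y₁) :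
    ∃ y ∈ gaussRing ι r, x - 1 = HahnSeries.C (ι d) * y := by
  obtain ⟨k, d', rfl, hd'⟩ := wdb_exists_prim hB hd
  obtain ⟨δ, hδi, hδ⟩ := hc.exists_eq_add
  -- `ψ̂ (x - 1) · y₂ = π ^ k · (d' · δ)`
  have hCd : (HahnSeries.C (ψ (ι (π ^ k * d'))) : LaurentSeries L) =
      HahnSeries.C (ψ (ι π)) ^ k * HahnSeries.C (ψ (ι d')) := by
    rw [map_mul, map_mul, map_pow, map_pow, map_mul, map_pow]
  have hCd' : (HahnSeries.C (ι (π ^ k * d')) : LaurentSeries E) =
      HahnSeries.C (ι π) ^ k * HahnSeries.C (ι d') := by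
    rw [map_mul, map_pow, map_mul, map_pow]
  have hz : coeffMap ψ (x - 1) * y₂ =
      HahnSeries.C (ψ (ι π)) ^ k * (HahnSeries.C (ψ (ι d')) * δ) := by
    rw [map_sub, map_one, sub_mul, one_mul, hxy, hδ, hCd]
    ring
  have hd'i : KronInt AL (HahnSeries.C (ψ (ι d')) * δ) := (stb_mgt_int_C (h1 d')).mul hδi
  have hπ0 : ψ (ι π) ≠ 0 := (map_ne_zero ψ).mpr hB.ιπ_ne
  have hCπ : (HahnSeries.C (ψ (ι π)) : LaurentSeries L) ≠ 0 := wdb_C_ne_zero hπ0
  have hud' : VtUnit ι r (HahnSeries.C (ι d') : LaurentSeries E) := vtUnit_C hd'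
  have hCd'0 : (HahnSeries.C (ι d') : LaurentSeries E) ≠ 0 := hud'.ne_zero hB.inj
  have hfr : VtFrac ι (x - 1) := by
    rw [sub_eq_add_neg]
    exact hx.add hB.inj VtFrac.one.neg
  by_cases hz0 : x - 1 = 0
  · exact ⟨0, (gaussRing ι r).zero_mem, by rw [hz0, mul_zero]⟩
  obtain ⟨e, u, ⟨T, b, hT, hb, hu⟩, h | h⟩ := vt_exists_pow_mul (r := r) hB hz0 hfr
  · -- `x - 1 = π ^ e · u`
    have h4 : coeffMap ι b * (x - 1) = HahnSeries.C (ι π) ^ e * coeffMap ι T := by
      rw [h, ← hu]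
      ring
    have h5 := congrArg (coeffMap ψ) h4
    rw [map_mul, map_mul, map_pow, coeffMap_hahnC] at h5
    have key : HahnSeries.C (ψ (ι π)) ^ k *
        (coeffMap ψ (coeffMap ι b) * (HahnSeries.C (ψ (ι d')) * δ)) =
        HahnSeries.C (ψ (ι π)) ^ e * (coeffMap ψ (coeffMap ι T) * y₂) := by
      have : coeffMap ψ (coeffMap ι b) * (coeffMap ψ (x - 1) * y₂) =
          HahnSeries.C (ψ (ι π)) ^ e * (coeffMap ψ (coeffMap ι T) * y₂) := by
        rw [← mul_assoc, h5]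
        ring
      rw [← this, hz]
      ring
    have hprim : KronPrim AL (coeffMap ψ (coeffMap ι T) * y₂) :=
      (stb_mgt_prim h1 h2 hT).mul hy₂
    have hWi : KronInt AL (coeffMap ψ (coeffMap ι b) * (HahnSeries.C (ψ (ι d')) * δ)) :=
      (stb_mgt_int h1 b).mul hd'i
    rcases lt_or_ge e k with hek | hek
    · exfalso
      obtain ⟨j, rfl⟩ : ∃ j, k = e + (j + 1) := ⟨k - e - 1, by omega⟩
      rw [pow_add, mul_assoc] at key
      have key' := mul_left_cancel₀ (pow_ne_zero e hCπ) key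
      rw [← key'] at hprim
      exact stb_mgt_not_prim_of_congr_zero hprim (wdb_congr_zero_C_pow_mul h3 (h1 π) j hWi)
    · obtain ⟨j, rfl⟩ : ∃ j, e = k + j := ⟨e - k, by omega⟩
      refine ⟨(HahnSeries.C (ι d'))⁻¹ * (HahnSeries.C (ι π) ^ j * u), ?_, ?_⟩
      · exact (gaussRing ι r).mul_mem (hud'.inv hB.inj).mem
          ((gaussRing ι r).mul_mem ((gaussRing ι r).pow_mem (hahnC_mem_gaussRing r π) j)
            (VtUnit.mem ⟨T, b, hT, hb, hu⟩))
      · rw [h, hCd', pow_add]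
        field_simp
  · -- `(x - 1)⁻¹ = π ^ e · u`
    have h3' : (x - 1) * (HahnSeries.C (ι π) ^ e * u) = 1 := by
      rw [← h]
      exact mul_inv_cancel₀ hz0
    have h4 : coeffMap ι b = (x - 1) * (HahnSeries.C (ι π) ^ e * coeffMap ι T) := by
      rw [← hu]
      linear_combination (-(coeffMap ι b)) * h3'
    have h5 := congrArg (coeffMap ψ) h4
    rw [map_mul, map_mul, map_pow, coeffMap_hahnC] at h5
    have key : coeffMap ψ (coeffMap ι b) * y₂ =
        HahnSeries.C (ψ (ι π)) ^ (k + e) *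
          (HahnSeries.C (ψ (ι d')) * δ * coeffMap ψ (coeffMap ι T)) := by
      have : coeffMap ψ (coeffMap ι b) * y₂ =
          (coeffMap ψ (x - 1) * y₂) * (HahnSeries.C (ψ (ι π)) ^ e * coeffMap ψ (coeffMap ι T)) := by
        rw [h5]
        ring
      rw [this, hz, pow_add]
      ring
    have hprim : KronPrim AL (coeffMap ψ (coeffMap ι b) * y₂) :=
      (stb_mgt_prim h1 h2 hb).mul hy₂
    have hWi : KronInt AL (HahnSeries.C (ψ (ι d')) * δ * coeffMap ψ (coeffMap ι T)) :=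
      hd'i.mul (stb_mgt_int h1 T)
    rcases Nat.eq_zero_or_pos (k + e) with hke | hke
    · have hk : k = 0 := by omega
      have he : e = 0 := by omega
      subst hk he
      rw [pow_zero, one_mul] at h
      have hu' : VtUnit ι r (x - 1) := by
        have := (VtUnit.inv hB.inj ⟨T, b, hT, hb, hu⟩ : VtUnit ι r u⁻¹)
        rwa [← h, inv_inv] at this
      refine ⟨(HahnSeries.C (ι d'))⁻¹ * (x - 1), ?_, ?_⟩
      · exact (gaussRing ι r).mul_mem (hud'.inv hB.inj).mem hu'.mem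
      · rw [pow_zero, one_mul]
        field_simp
    · exfalso
      obtain ⟨j, hj⟩ : ∃ j, k + e = j + 1 := ⟨k + e - 1, by omega⟩
      rw [hj] at key
      rw [key] at hprim
      exact stb_mgt_not_prim_of_congr_zero hprim (wdb_congr_zero_C_pow_mul h3 (h1 π) j hWi)

end Core

/-! ### Numerology: `(ζ - 1) ^ p · π ∣ p ^ 2` -/

section Num

variable {R : Type*} [CommRing R] [IsDomain R]

/-- `ζ` a primitive `p`-th root of unity, `p ≥ 3`, `π ∣ ζ - 1`  ⇒  `(ζ - 1) ^ p · π ∣ p ^ 2`. -/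
theorem wdb_dvd_p_sq {p : ℕ} (hp3 : 3 ≤ p) {ζ π : R} (hζ : IsPrimitiveRoot ζ p)
    (hlam : π ∣ ζ - 1) : (ζ - 1) ^ p * π ∣ (p : R) ^ 2 := by
  obtain ⟨z, -, hz⟩ := hζ.self_sub_one_pow_dvd_order (k := p - 1) (by omega)
  obtain ⟨c, hc⟩ := hlam
  obtain ⟨j, rfl⟩ : ∃ j, p = j + 3 := ⟨p - 3, by omega⟩
  have e1 : j + 3 - 1 = j + 2 := by omega
  rw [e1] at hz
  refine ⟨z ^ 2 * (ζ - 1) ^ j * c, ?_⟩
  rw [hz]
  have e2 : (ζ - 1) ^ (j + 3) * π * (z ^ 2 * (ζ - 1) ^ j * c) =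
      z ^ 2 * (ζ - 1) ^ (j + 3) * (ζ - 1) ^ j * (π * c) := by ring
  rw [e2, ← hc]
  ring

end Num

/-! ### Valuation form -/

section Val

variable {A₀ E k : Type*} [CommRing A₀] [Field E] [Field k]
  {ι : A₀ →+* E} {r : A₀ →+* k} {π : A₀} {F : Type*} [Field F]
  (hB : VtBase ι r π) (e : F →+* LaurentSeries E) (hfrac : ∀ x : F, VtFrac ι (e x))

/-- from `e x₀ - 1 = d · y`, `y` in the Gauss ring, to the valuation form -/
theorem wdb_vtSub {x₀ dF : F} {D : LaurentSeries E} (hD : e dF = D)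
    (h : ∃ y ∈ gaussRing ι r, e x₀ - 1 = D * y) :
    (vtSub hB e hfrac).valuation (x₀ - 1) ≤ (vtSub hB e hfrac).valuation dF := by
  obtain ⟨y, hy, hxy⟩ := h
  by_cases hd0 : dF = 0
  · have : x₀ - 1 = 0 := by
      apply e.injective
      rw [map_sub, map_one, map_zero, hxy, ← hD, hd0, map_zero, zero_mul]
    rw [this, map_zero]
    exact zero_le
  have hmem : (x₀ - 1) / dF ∈ vtSub hB e hfrac := by
    rw [mem_vtSub, map_div₀, map_sub, map_one, hxy, hD]
    have hD0 : D ≠ 0 := by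
      rw [← hD]
      exact (map_ne_zero e).mpr hd0
    rw [mul_div_cancel_left₀ y hD0]
    exact hy
  have hle := ((vtSub hB e hfrac).valuation_le_one_iff _).2 hmem
  rw [map_div₀] at hle
  have hv0 : (vtSub hB e hfrac).valuation dF ≠ 0 :=
    (Valuation.ne_zero_iff _).2 hd0
  exact (div_le_one₀ (zero_lt_iff.2 hv0)).1 hle

end Val

end Fermat.Agent.S33
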