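import Fermat.Agent.S33.WildTopField
import Fermat.Agent.S33.WildPtsFinal

/-!
# S33 v2, C4 (WILD): the Kummer form, unconditional

* `stmtWildFieldAt` : (T) at `E′`-level at the levels `M p`, `p` odd, `p ∤ M`, `p = 3 → 2 ∣ M`;
* `stmtWildKummerAux : StmtWildKummerAux`, `stmtWildKummer : StmtWildKummer` — **(C4) in Kummer
  form**: for `A ∣ p`, `σ` in the inertia group of `A` acting on `μ_p` through `ζ ↦ ζ ^ a`, and
  `u ∈ F_{Mp}(ℚ̄)^×` with `p ∣ div u`, split at `A`: `σ u / u ^ a` is a `p`-th power.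

(The statement `stmtWildT : StmtWildT` for classes is in `S33/WildFinal.lean`.)
-/

set_option autoImplicit false

noncomputable section

namespace Fermat.Agent.S33

open Fermat.Agent.UNIP

/-- **(T) at `E′`-level**, unconditional. -/
theorem stmtWildFieldAt {p M : ℕ} [NeZero p] [NeZero M] [NeZero (M * p)] (hp : p.Prime)
    (hpM : ¬ p ∣ M) (hp2 : p ≠ 2) (h3 : p = 3 → 2 ∣ M) : StmtWildFieldAt hp hpM :=
  stmtWildFieldAt_of_pts hp hpM hp2 h3 fun A hA K₁ _ _ _ _ hπ =>
    ⟨wpt_pts₁ K₁ hp hpM hA (fun h => absurd h hp2) h3 hπ (mgdIota (mgcE A K₁)),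
      wpt_pts₂ K₁ hp hpM hA (fun h => absurd h hp2) h3 hπ (mgdIota (mgcE A K₁))⟩

/-- **(C4) in Kummer form** at the levels with a base line. -/
theorem stmtWildKummerAux : StmtWildKummerAux :=
  stmtWildKummerAux_of_field fun _ _ _ _ _ hp hpM hp2 h3 => stmtWildFieldAt hp hpM hp2 h3

/-- **(C4) in Kummer form**, all levels `M p`, `p` odd, `p ∤ M`. -/
theorem stmtWildKummer : StmtWildKummer :=
  stmtWildKummer_of_aux stmtWildKummerAux

end Fermat.Agent.S33
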