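import Fermat.Agent.S33.WildAbsMain
import Fermat.Agent.UNIP.MGMain
import Fermat.Agent.UNIP.MGVloc
import Fermat.Agent.UNIP.MGData

/-!
# S33 v2, C4 (WILD), piece T5 "WildMG", part 1: `wab_main_two` in the concrete setting

Setting of `UNIP/MGConcrete.lean` at residue characteristic `p`: `A ⊂ ℚ̄` a valuation ring over
`p`, `K₁ ⊂ ℚ̄` a field with `A′ = A ∩ E′` (`mgcA A K₁`, `E′ = ℚ̄^I · K₁ = mgcE A K₁`) a discrete
valuation ring, `F′ = F_{Mp}(E′) = mgcF A K₁ (M * p)`, charts `j`, `1 / j`, the two vertical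
valuation rings `V = mgvV hπ (mgdIota E′) hp hpM` (`true ↦ V_∞`, `false ↦ V_0`).

* `wmg_zeta`, `wmg_zeta_prim`, `wmg_dvd_zeta_sub_one`, `wmg_dvd_p` : a primitive `p`-th root of
  unity `ζ ∈ E′` lies in `A′`, `π ∣ ζ − 1`, `π ∣ p`.
* `wmg_smul_zeta` : `σ̂ ζ = ζ ^ a` on `F′` if `σ ζ = ζ ^ a`.
* `wmg_h12`, `wmg_h21` : `V_∞`, `V_0` are incomparable.
* `wmg_hunif` : `π` is a uniformizer of `V_∞`, `V_0`.
* `wmg_main` : `wab_main_two` for `V = mgvV`, with the hypotheses which do not depend on the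
  special fibre discharged.  Remaining hypotheses: (SS1), `AtTrivMod` on the two charts, the split
  hypothesis (H1), and the local hypotheses `hT4`, `hN`, `hS` at the closed points.
-/

set_option autoImplicit false
set_option linter.style.haveILetI false
set_option linter.unusedSectionVars false
set_option linter.unusedVariables false

noncomputable section

namespace Fermat.Agent.S33

open ModularCurve AlgebraicCurve Fermat.Agent.ES Fermat.Agent.ES.G2 Fermat.Agent.INJ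
open Fermat.Agent.UNIP IntermediateField

section Zeta

variable {A : ValuationSubring Qb} {K₀ : IntermediateField ℚ Qb}

/-- a root of unity of `K₀`, as an element of `A ∩ K₀` -/
def wmgZeta {ζ : Qb} {n : ℕ} (hn : n ≠ 0) (hζ : ζ ^ n = 1) (hζK : ζ ∈ K₀) : ↥(beta0Ring A K₀) :=
  ⟨⟨ζ, hζK⟩, Fermat.Agent.S31.rootOfUnity_mem A hn hζ⟩

@[simp]
theorem wmgZeta_coe {ζ : Qb} {n : ℕ} (hn : n ≠ 0) (hζ : ζ ^ n = 1) (hζK : ζ ∈ K₀) :
    (((wmgZeta (A := A) hn hζ hζK : ↥(beta0Ring A K₀)) : ↥K₀) : Qb) = ζ := rfl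

theorem wmg_coe_injective :
    Function.Injective (fun x : ↥(beta0Ring A K₀) => (((x : ↥K₀)) : Qb)) := by
  intro x y hxy
  exact Subtype.ext (Subtype.ext hxy)

theorem wmg_zeta_prim {ζ : Qb} {p : ℕ} (hp : p.Prime) (hζ : IsPrimitiveRoot ζ p)
    (hζK : ζ ∈ K₀) :
    IsPrimitiveRoot (wmgZeta (A := A) hp.ne_zero hζ.pow_eq_one hζK) p := by
  have hinj : Function.Injective
      ((algebraMap ↥K₀ Qb).comp (beta0Ring A K₀).subtype) := by
    intro x y hxy
    exact wmg_coe_injective hxy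
  exact IsPrimitiveRoot.of_map_of_injective (f := (algebraMap ↥K₀ Qb).comp
    (beta0Ring A K₀).subtype) hζ hinj

/-- `ζ − 1` lies in the maximal ideal of `A` (`ζ ^ p = 1`, `A` over `p`). -/
theorem wmg_zeta_sub_one_mem {ζ : Qb} {p : ℕ} (hp : p.Prime) (hA : A.LiesOverPrime p)
    (hζ : ζ ^ p = 1) : ζ - 1 ∈ A.nonunits := by
  haveI : Fact p.Prime := ⟨hp⟩
  haveI : CharP (IsLocalRing.ResidueField A) p := Fermat.Agent.RED.charP_residueField A hp hA
  have hζA : ζ ∈ A := Fermat.Agent.S31.rootOfUnity_mem A hp.ne_zero hζ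
  have h1 : (IsLocalRing.residue A ⟨ζ, hζA⟩ - 1) ^ p = 0 := by
    rw [sub_pow_char, one_pow, ← map_pow, sub_eq_zero]
    have : (⟨ζ, hζA⟩ : A) ^ p = 1 := Subtype.ext (by simpa using hζ)
    rw [this, map_one]
  have h2 : IsLocalRing.residue A (⟨ζ, hζA⟩ - 1) = 0 := by
    rw [map_sub, map_one]
    exact pow_eq_zero_iff (hp.ne_zero) |>.1 h1
  have h3 := (IsLocalRing.residue_eq_zero_iff _).1 h2
  have h4 := ValuationSubring.coe_mem_nonunits_iff.2 h3
  simpa using h4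

variable [IsDiscreteValuationRing ↥(beta0Ring A K₀)] {π : ↥(beta0Ring A K₀)}

theorem wmg_dvd_of_mem_nonunits (hπ : Irreducible π) (x : ↥(beta0Ring A K₀))
    (hx : (((x : ↥K₀)) : Qb) ∈ A.nonunits) : π ∣ x := by
  have h1 : x ∈ IsLocalRing.maximalIdeal ↥(beta0Ring A K₀) :=
    beta0Ring_mem_maximalIdeal_iff x |>.2 hx
  rw [hπ.maximalIdeal_eq] at h1
  exact Ideal.mem_span_singleton.1 h1

theorem wmg_dvd_zeta_sub_one (hπ : Irreducible π) {ζ : Qb} {p : ℕ} (hp : p.Prime)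
    (hA : A.LiesOverPrime p) (hζ : ζ ^ p = 1) (hζK : ζ ∈ K₀) :
    π ∣ wmgZeta (A := A) hp.ne_zero hζ hζK - 1 := by
  apply wmg_dvd_of_mem_nonunits hπ
  have : ((((wmgZeta (A := A) hp.ne_zero hζ hζK - 1 : ↥(beta0Ring A K₀)) : ↥K₀)) : Qb)
      = ζ - 1 := by
    push_cast
    rfl
  rw [this]
  exact wmg_zeta_sub_one_mem hp hA hζ

theorem wmg_dvd_p (hπ : Irreducible π) {p : ℕ} (hA : A.LiesOverPrime p) :
    π ∣ ((p : ℕ) : ↥(beta0Ring A K₀)) := by
  apply wmg_dvd_of_mem_nonunits hπ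
  have : (((((p : ℕ) : ↥(beta0Ring A K₀)) : ↥K₀)) : Qb) = (p : Qb) := by
    push_cast
    rfl
  rw [this]
  exact hA

end Zeta

end Fermat.Agent.S33
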