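import Fermat.Agent.S33.PlanGeo
import Fermat.Agent.S33.PlanKey

/-!
# S33 v2, C4 (WILD), piece T5 "WildMG": the Kummer form of (T)

`N = M p`, `p ∤ M`, `p` prime, `A ⊂ ℚ̄` a valuation ring over `p`, `σ` in the inertia group of `A`
acting on `μ_p` through `ζ ↦ ζ ^ a`.

* `StmtWildKummerAt hp hpM` : **(T) in Kummer form at level `M p`**: for every `u ∈ F_{Mp}^×` with
  `p ∣ div u` which is split at `A` (`IsSplitFn`, = output of C3) the function `σ u / u ^ a` is a
  `p`-th power in `F_{Mp}`.
* `StmtWildKummer` : the same at all levels, `p` odd.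
* `StmtWildKummerAux` : the same at the levels where the special-fibre data of UNIP exist
  (`p = 3 → 2 ∣ M`).

Glue (other files): `StmtWildKummerAux → StmtWildKummer` (cube descent, `S33/WildCube.lean`),
`StmtWildKummer → StmtWildT` (`S33/NewSplitFinal.lean` + Kummer classes).
-/

set_option autoImplicit false

noncomputable section

namespace Fermat.Agent.S33

open ModularCurve AlgebraicCurve Fermat.Agent.ES Fermat.Agent.ES.G2

/-- **(T) in Kummer form at level `M p`.** -/
def StmtWildKummerAt {p M : ℕ} [NeZero p] [NeZero M] [NeZero (M * p)] (hp : p.Prime)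
    (hpM : ¬ p ∣ M) : Prop :=
  ∀ A : ValuationSubring Qb, A.LiesOverPrime p →
    ∀ σ ∈ A.inertiaSubgroupIn ℚ, ∀ a : ℕ, (∀ ζ : Qb, ζ ^ p = 1 → σ ζ = ζ ^ a) →
      ∀ u : modularFunctionFieldBar (M * p), u ≠ 0 →
        (∀ P : Place Qb (modularFunctionFieldBar (M * p)), (p : ℤ) ∣ P.ord u) →
          IsSplitFn hp hpM A u →
            ∃ h : modularFunctionFieldBar (M * p),
              h ^ p = (arithmeticGalois (modularFunctionFieldFull (M * p)) σ • u) / u ^ a

/-- **(T) in Kummer form**, all levels, `p` odd. -/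
def StmtWildKummer : Prop :=
  ∀ (p M : ℕ) [NeZero p] [NeZero M] [NeZero (M * p)] (hp : p.Prime) (hpM : ¬ p ∣ M),
    p ≠ 2 → StmtWildKummerAt hp hpM

/-- **(T) in Kummer form** at the levels where the special-fibre data exist. -/
def StmtWildKummerAux : Prop :=
  ∀ (p M : ℕ) [NeZero p] [NeZero M] [NeZero (M * p)] (hp : p.Prime) (hpM : ¬ p ∣ M),
    p ≠ 2 → (p = 3 → 2 ∣ M) → StmtWildKummerAt hp hpM

end Fermat.Agent.S33
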