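import Fermat.Agent.S33.WildMG
import Fermat.Agent.S33.WildMGStmt
import Fermat.Agent.S33.WildDeep

/-!
# S33 v2, C4 (WILD), piece T5i "descent": from the `E′`-level statement to `StmtWildKummerAt`

* `StmtWildFieldAt hp hpM` : **(T) at `E′`-level**, the conclusion of `wab_main_two` in the
  concrete setting `(A′, E′, F′) = (mgcA A K₁, mgcE A K₁, mgcF A K₁ (M p))`, `K₁` a number field,
  Galois over `ℚ`; hypotheses on `u₀ ∈ F′`: `p ∣ div u₀`, rational support (`MgcRat`), and the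
  split hypothesis (H1) at `V = mgvV`.
* `stmtWildKummerAt_of_field` : `StmtWildFieldAt hp hpM → StmtWildKummerAt hp hpM` (`p ≥ 3`):
  field of definition of `u` (`mg_exists_descent`), `ζ_p ∈ K₁`, the bridge
  `wdb_hsplit_of_isSplitFn`, rational support (`rat_exists_field_rational`, D8), and the constant
  `c ∈ E′^×` is a `p`-th power in `ℚ̄`.
-/

set_option autoImplicit false
set_option linter.style.haveILetI false
set_option linter.unusedSectionVars false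
set_option linter.unusedVariables false

noncomputable section

namespace Fermat.Agent.S33

open ModularCurve AlgebraicCurve Fermat.Agent.ES Fermat.Agent.ES.G2 Fermat.Agent.INJ
open Fermat.Agent.UNIP IntermediateField

section

variable {p M : ℕ} [NeZero p] [NeZero M] [NeZero (M * p)]

/-- **(T) at `E′`-level.** -/
def StmtWildFieldAt (hp : p.Prime) (hpM : ¬ p ∣ M) : Prop :=
  ∀ (A : ValuationSubring Qb) (hA : A.LiesOverPrime p) (K₁ : IntermediateField ℚ Qb)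
    [NumberField K₁] [IsGalois ℚ K₁] [IsDiscreteValuationRing ↥(mgcA A K₁)]
    (ζ : ↥(mgcA A K₁)) (hζ : IsPrimitiveRoot ζ p)
    (π : ↥(mgcA A K₁)) (hπ : Irreducible π)
    (σ : Qb ≃ₐ[ℚ] Qb) (hσI : σ ∈ A.inertiaSubgroupIn ℚ)
    (hσ : ∀ x ∈ mgcE A K₁, σ x ∈ mgcE A K₁)
    (a : ℕ) (hσζ : σ (((ζ : ↥(mgcE A K₁)) : Qb)) = (((ζ : ↥(mgcE A K₁)) : Qb)) ^ a)
    (u₀ : ↥(mgcF A K₁ (M * p))), u₀ ≠ 0 →
    (∀ P : Place Qb (modularFunctionFieldBar (M * p)),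
      (p : ℤ) ∣ P.ord (nfEmb (mgcE A K₁) (M * p) u₀)) →
    MgcRat A K₁ (M * p) u₀ →
    (∀ c : Bool, ∃ h : ↥(mgcF A K₁ (M * p)), h ≠ 0 ∧
      (mgvV hπ (mgdIota (mgcE A K₁)) hp hpM c).valuation (u₀ / h ^ p - 1) ≤
        (mgvV hπ (mgdIota (mgcE A K₁)) hp hpM c).valuation
          ((algebraMap ↥(mgcA A K₁) ↥(mgcF A K₁ (M * p)) ζ - 1) ^ p *
            algebraMap ↥(mgcA A K₁) ↥(mgcF A K₁ (M * p)) π)) →
    ∃ c : ↥(mgcE A K₁), c ≠ 0 ∧ ∃ h : ↥(mgcF A K₁ (M * p)),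
      mgcGal (M * p) σ hσ • u₀ / u₀ ^ a =
        algebraMap ↥(mgcE A K₁) ↥(mgcF A K₁ (M * p)) c * h ^ p

set_option synthInstance.maxHeartbeats 400000 in
set_option maxHeartbeats 1600000 in
/-- **T5i, descent.**  The `E′`-level statement gives (T) in Kummer form over `ℚ̄`. -/
theorem stmtWildKummerAt_of_field (hp : p.Prime) (hpM : ¬ p ∣ M) (hp3 : 3 ≤ p)
    (h : StmtWildFieldAt hp hpM) : StmtWildKummerAt hp hpM := by
  intro A hA σ hσI a hσa u hu hdiv hsplit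
  -- a primitive `p`-th root of unity
  haveI : NeZero ((p : ℕ) : Qb) := ⟨by exact_mod_cast hp.ne_zero⟩
  obtain ⟨ζ₀, hζ₀⟩ := HasEnoughRootsOfUnity.exists_primitiveRoot Qb p
  -- the bridge
  obtain ⟨Kb, hKbfin, hbridge⟩ := wdb_hsplit_of_isSplitFn hp hpM hp3 A hsplit
  -- a number field of definition of `u`, containing `ζ₀`
  obtain ⟨K', hK'fin, hK'S, hK'⟩ := mg_exists_descent (N := M * p) {ζ₀} u.2
  have hζ₀K' : ζ₀ ∈ K' := hK'S ζ₀ (Finset.mem_singleton_self ζ₀)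
  -- rationality of the support (D8)
  haveI := hK'fin
  haveI := hKbfin
  have hE₁fin : FiniteDimensional ℚ ↥(K' ⊔ Kb) := IntermediateField.finiteDimensional_sup K' Kb
  obtain ⟨K₁, hE₁K₁, hK₁fin, hK₁gal, hrat⟩ :=
    rat_exists_field_rational (N := M * p) u hu (K' ⊔ Kb) hE₁fin
  haveI : NumberField K₁ := @NumberField.mk _ _ inferInstance hK₁fin
  haveI : IsGalois ℚ K₁ := hK₁gal
  haveI : Normal ℚ K₁ := hK₁gal.to_normal
  haveI : IsDiscreteValuationRing ↥(mgcA A K₁) := beta0Ring_isDVR_sup K₁ hp hA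
  have hK₁E : K₁ ≤ mgcE A K₁ := le_sup_right
  have hK'E : K' ≤ mgcE A K₁ := (le_sup_left.trans hE₁K₁).trans hK₁E
  have hKbE : Kb ≤ mgcE A K₁ := (le_sup_right.trans hE₁K₁).trans hK₁E
  obtain ⟨u₀, hu₀⟩ := hK' (mgcE A K₁) hK'E
  have hu₀' : nfEmb (mgcE A K₁) (M * p) u₀ = u := hu₀
  have hσ : ∀ x ∈ mgcE A K₁, σ x ∈ mgcE A K₁ := mga_stable_beta0_sup hσI K₁
  have hu₀0 : u₀ ≠ 0 := by
    rintro rfl
    apply hu
    rw [← hu₀', map_zero]
  obtain ⟨π, hπ⟩ := IsDiscreteValuationRing.exists_irreducible ↥(mgcA A K₁)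
  -- `ζ` in `A′`
  set ζ : ↥(mgcA A K₁) := wmgZeta (A := A) hp.ne_zero hζ₀.pow_eq_one (hK'E hζ₀K') with hζdef
  have hζ : IsPrimitiveRoot ζ p := wmg_zeta_prim hp hζ₀ (hK'E hζ₀K')
  have hlam : π ∣ ζ - 1 := wmg_dvd_zeta_sub_one hπ hp hA hζ₀.pow_eq_one (hK'E hζ₀K')
  have hR : MgcRat A K₁ (M * p) u₀ := fun Q s σ' hs hQ f hf =>
    hrat (mgcE A K₁) hK₁E u₀ hu₀' Q s σ' hs hQ f hf
  have hsp := hbridge (mgcE A K₁) hKbE hπ (mgdIota (mgcE A K₁)) hζ hlam u₀ hu₀'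
  obtain ⟨c, hc0, h₀, hch⟩ := h A hA K₁ ζ hζ π hπ σ hσI hσ a (hσa ζ₀ hζ₀.pow_eq_one) u₀ hu₀0
    (by rw [hu₀']; exact hdiv) hR hsp
  -- a `p`-th root of the constant
  obtain ⟨d, hd⟩ := IsAlgClosed.exists_pow_nat_eq ((c : Qb)) hp.pos
  refine ⟨algebraMap Qb (modularFunctionFieldBar (M * p)) d * nfEmb (mgcE A K₁) (M * p) h₀, ?_⟩
  have e1 := congrArg (nfEmb (mgcE A K₁) (M * p)) hch
  rw [map_div₀, map_pow, map_mul, map_pow, nfEmb_algebraMap, mgcGal_smul, nfEmb_mgAct, hu₀'] at e1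
  rw [e1, mul_pow, ← map_pow, hd]
  rfl

end

end Fermat.Agent.S33
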