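import Fermat.Agent.S33.WildNormal
import Fermat.Agent.S33.WildThickChart

/-!
# S33 v2, C4 (WILD), T5g wiring: `WnPtData` from the output of T5f (helper90)

* `wn_ptData_of_thick` : the conclusion of `wthc_of_nodes` (smooth point or crossing of finite
  thickness) at a closed point `𝔫 : AtPt π u` gives the datum `WnPtData V 𝔫` of `wn_hN`.
* `wn_ptData_of_nodes` : `WnPtData V 𝔫` directly from the hypotheses of `wthc_of_nodes`.
-/

set_option autoImplicit false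
set_option linter.style.haveILetI false
set_option linter.unusedSectionVars false
set_option linter.unusedVariables false

namespace Fermat.Agent.S33

open Polynomial IntermediateField Fermat.Agent.INJ AlgebraicCurve Fermat.Agent.UNIP
  Fermat.Agent.STB

section Wiring

variable {A₀ E F : Type*} [CommRing A₀] [IsDomain A₀] [IsDiscreteValuationRing A₀]
  [Field E] [Algebra A₀ E] [IsFractionRing A₀ E] [CharZero E]
  [Field F] [Algebra E F] [Algebra A₀ F] [IsScalarTower A₀ E F]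
  {π : A₀} {κ : Type*}

/-- `WnPtData` from the conclusion of `wthc_of_nodes`. -/
theorem wn_ptData_of_thick {u : F} (V : κ → ValuationSubring F) (𝔫 : AtPt (F := F) π u)
    (q : A₀) (c₁ c₂ : κ) (hκ : ∀ c, c = c₁ ∨ c = c₂)
    (h : (∃ s : ↥(zchClosure (A₀ := A₀) ({u} : Set F)), s ∈ 𝔫.1 ∧
        NodesLocGen 𝔫.1 {algebraMap A₀ ↥(zchClosure (A₀ := A₀) ({u} : Set F)) π, s}) ∨
      ((∀ b : ↥(zchClosure (A₀ := A₀) ({u} : Set F)), (b : F) ∈ (V c₁).nonunits → b ∈ 𝔫.1) ∧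
       (∀ b : ↥(zchClosure (A₀ := A₀) ({u} : Set F)), (b : F) ∈ (V c₂).nonunits → b ∈ 𝔫.1) ∧
       ∃ (n' : ℕ) (X Y G : ↥(zchClosure (A₀ := A₀) ({u} : Set F))),
        (X : F) ∈ (V c₁).nonunits ∧ (Y : F) ∈ (V c₂).nonunits ∧
        (X : F) ∉ (V c₂).nonunits ∧ (Y : F) ∉ (V c₁).nonunits ∧
        X * Y = algebraMap A₀ ↥(zchClosure (A₀ := A₀) ({u} : Set F)) (q ^ n') * G ∧
        NodesLocGen 𝔫.1 {algebraMap A₀ ↥(zchClosure (A₀ := A₀) ({u} : Set F)) π, X, Y} ∧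
        G ∉ 𝔫.1)) :
    WnPtData V 𝔫 := by
  rcases h with ⟨s, hs, hgen⟩ | ⟨hthr₁, hthr₂, n', X, Y, G, hX₁, hY₂, -, -, -, hgen, -⟩
  · exact Or.inl ⟨s, hs, hgen⟩
  · exact Or.inr ⟨c₁, c₂, X, Y, fun c _ => hκ c, hthr₁ X hX₁, hthr₂ Y hY₂, hX₁, hY₂, hgen⟩

/-- `WnPtData` from the output of U5 at `𝔫.comap j` on the unramified chart and the tube-unit
(the hypotheses of `wthc_of_nodes`). -/
theorem wn_ptData_of_nodes (hπ : Irreducible π) {u : F} (hu : Transcendental E u)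
    [FiniteDimensional E⟮u⟯ F] [Finite κ]
    [IsNoetherianRing ↥(zchClosure (A₀ := A₀) ({u} : Set F))]
    (V : κ → ValuationSubring F)
    (hBV : ∀ c (b : F), IsIntegral ↥(Algebra.adjoin A₀ {u}) b → b ∈ V c)
    (hπV : ∀ c, algebraMap A₀ F π ∈ (V c).nonunits)
    (hSS1 : ∀ b : F, IsIntegral ↥(Algebra.adjoin A₀ {u}) b → (∀ c, b ∈ (V c).nonunits) →
      ∃ b' : F, IsIntegral ↥(Algebra.adjoin A₀ {u}) b' ∧ b = algebraMap A₀ F π * b')
    (hVloc : ∀ c (x : F), x ∈ V c → ∃ b s : F, IsIntegral ↥(Algebra.adjoin A₀ {u}) b ∧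
      IsIntegral ↥(Algebra.adjoin A₀ {u}) s ∧ s ∉ (V c).nonunits ∧ s * x = b)
    (𝔫 : AtPt (F := F) π u)
    (q : A₀) (hq0 : q ≠ 0) (hqπ : π ∣ q)
    {R : Type*} [CommRing R] (j : R →+* ↥(zchClosure (A₀ := A₀) ({u} : Set F))) (p : R)
    (hram : MgcRamified j (algebraMap A₀ ↥(zchClosure (A₀ := A₀) ({u} : Set F)) π) p)
    (hjp : j p = algebraMap A₀ ↥(zchClosure (A₀ := A₀) ({u} : Set F)) q)
    (c₁ c₂ : κ) (hκ : ∀ c, c = c₁ ∨ c = c₂)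
    {U V' : F} {N : ℕ}
    (hUO : (∀ x : R, ((j x : ↥(zchClosure (A₀ := A₀) ({u} : Set F))) : F) ∈ (V c₁).nonunits →
          j x ∈ 𝔫.1) →
       (∀ x : R, ((j x : ↥(zchClosure (A₀ := A₀) ({u} : Set F))) : F) ∈ (V c₂).nonunits →
          j x ∈ 𝔫.1) →
       U ∈ ls_localSubring (F := F) (h𝔫 := 𝔫.2.1.isPrime) 𝔫.1 ∧
         V' ∈ ls_localSubring (F := F) (h𝔫 := 𝔫.2.1.isPrime) 𝔫.1)
    (hUV : U * V' = algebraMap A₀ F q ^ N)
    (hU₁ : U ∈ (V c₁).nonunits) (hU₂ : U ∉ (V c₂).nonunits)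
    (hnode : (∃ s : R, j s ∈ 𝔫.1 ∧ NodesLocGen (𝔫.1.comap j) {p, s}) ∨
      ((∀ x : R, ((j x : ↥(zchClosure (A₀ := A₀) ({u} : Set F))) : F) ∈ (V c₁).nonunits →
          j x ∈ 𝔫.1) ∧
       (∀ x : R, ((j x : ↥(zchClosure (A₀ := A₀) ({u} : Set F))) : F) ∈ (V c₂).nonunits →
          j x ∈ 𝔫.1) ∧
       ∃ X Y : R, ((j X : ↥(zchClosure (A₀ := A₀) ({u} : Set F))) : F) ∈ (V c₁).nonunits ∧
         ((j Y : ↥(zchClosure (A₀ := A₀) ({u} : Set F))) : F) ∈ (V c₂).nonunits ∧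
         NodesLocGen (𝔫.1.comap j) {p, X, Y})) :
    WnPtData V 𝔫 := by
  haveI := 𝔫.2.1.isPrime
  exact wn_ptData_of_thick V 𝔫 q c₁ c₂ hκ
    (wthc_of_nodes hπ hu V hBV hπV hSS1 hVloc 𝔫.1 𝔫.2.2 q hq0 hqπ j p hram hjp c₁ c₂ hκ
      hUO hUV hU₁ hU₂ hnode)

end Wiring

end Fermat.Agent.S33
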