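import Fermat.Agent.S33.WildCuspPt
import Fermat.Agent.STB.MGNodeFinal
import Fermat.Agent.UNIP.MGChartsBeta0All
import Fermat.Agent.UNIP.MGVertLocMain

/-!
# S33 v2, C4 (WILD), T5f-mod: the POINT DATA `hdat₁`, `hdat₂` of `wht_main` in the `mgc` setting

Setting of `STB/MGData.lean` with `q := p` (the residue characteristic is the Kummer exponent):
`A` a valuation subring of `ℚ̄` over `p`, `K₁ / ℚ` finite Galois, `E′ = mgcE A K₁`,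
`A′ = mgcA A K₁` (a discrete valuation ring, uniformizer `π`), `F′ = mgcF A K₁ (M p)`,
`t = mgcT A K₁ (M p) = j`, `V = mgvV hπ ιC hp hpM` (`true ↦ V_∞`, `false ↦ V_0`).

* `WptUnit`  : the modular tube-unit: `U V' = p ^ N`, `U`, `V'` integral over `A′[j]`,
  `U ∈ 𝔪(V_∞)`, `U ∉ 𝔪(V_0)`  (`U = p¹² Δ(pz)/Δ(z)`; T5f-U).
* `WptFrobE` : `e` integral over `A′[1/j]`, `e ≡ 1` on `V_∞`, `e ^ k ≡ (1/j) ^ m` on `V_0`,
  `m ≠ 0`  (`e = j_p / j ^ p`; T5f-Φ + Frobenius).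
* `wpt_hdat₁` : `WptUnit → ∀ 𝔫, WhtPtData V true false 𝔫` on the chart `j`.
* `wpt_hdat₂` : `WptUnit → WptFrobE → ∀ 𝔫, WhtPtData V true false 𝔫` on the chart `1 / j`.

Inputs: `STB.stbmn_hnode₁`, `STB.stbmn_hnode₂` (the dichotomy of U5, unconditional),
`UNIP.mgcb_all_SS1`, `UNIP.mgv_*`, `wcp_ptData`, `wcp_ptData_inv`.
-/

set_option autoImplicit false
set_option linter.style.haveILetI false
set_option linter.unusedSectionVars false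
set_option linter.unusedVariables false

noncomputable section

namespace Fermat.Agent.S33

open ModularCurve AlgebraicCurve Fermat.Agent.ES Fermat.Agent.ES.G2 Fermat.Agent.INJ
  Fermat.Agent.UNIP Fermat.Agent.STB Fermat.Agent.AL
open IntermediateField Polynomial

section Pts

variable {A : ValuationSubring Qb} (K₁ : IntermediateField ℚ Qb)
  {M p : ℕ} [NeZero M] [NeZero p] [NeZero (M * p)]
  [IsDiscreteValuationRing ↥(mgcA A K₁)]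

/-- `π ∣ p` in `A′` -/
theorem wpt_dvd_natCast {π : ↥(mgcA A K₁)} (hπ : Irreducible π) (hA : A.LiesOverPrime p) :
    π ∣ ((p : ℕ) : ↥(mgcA A K₁)) := by
  have h1 : ((p : ℕ) : ↥(mgcA A K₁)) ∈ IsLocalRing.maximalIdeal ↥(mgcA A K₁) := by
    rw [beta0Ring_mem_maximalIdeal_iff]
    have e : ((((p : ℕ) : ↥(mgcA A K₁)) : ↥(mgcE A K₁)) : Qb) = ((p : ℕ) : Qb) := by
      push_cast
      rfl
    rw [e]
    exact hA
  rw [hπ.maximalIdeal_eq] at h1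
  exact Ideal.mem_span_singleton.mp h1

/-- `p ≠ 0` in `A′` -/
theorem wpt_natCast_ne_zero (hp : p.Prime) : ((p : ℕ) : ↥(mgcA A K₁)) ≠ 0 := by
  intro h
  have e : ((((p : ℕ) : ↥(mgcA A K₁)) : ↥(mgcE A K₁)) : Qb) = ((p : ℕ) : Qb) := by
    push_cast
    rfl
  rw [h] at e
  have h0 : ((p : ℕ) : Qb) = 0 := by
    rw [← e]
    rfl
  exact hp.ne_zero (Nat.cast_eq_zero.mp h0)

variable {K₁}

/-- **The modular tube-unit** (T5f-U). -/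
def WptUnit {π : ↥(mgcA A K₁)} (hπ : Irreducible π) (ιC : ↥(mgcE A K₁) →+* ℂ)
    (hp : p.Prime) (hpM : ¬ p ∣ M) : Prop :=
  ∃ (U V' : ↥(mgcF A K₁ (M * p))) (N : ℕ),
    IsIntegral ↥(Algebra.adjoin ↥(mgcA A K₁)
      ({mgcT A K₁ (M * p)} : Set ↥(mgcF A K₁ (M * p)))) U ∧
    IsIntegral ↥(Algebra.adjoin ↥(mgcA A K₁)
      ({mgcT A K₁ (M * p)} : Set ↥(mgcF A K₁ (M * p)))) V' ∧
    U * V' = algebraMap ↥(mgcA A K₁) ↥(mgcF A K₁ (M * p)) ((p : ℕ) : ↥(mgcA A K₁)) ^ N ∧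
    U ∈ (mgvV hπ ιC hp hpM true).nonunits ∧ U ∉ (mgvV hπ ιC hp hpM false).nonunits

/-- **The separating function at the cusps** (T5f-Φ + Frobenius). -/
def WptFrobE {π : ↥(mgcA A K₁)} (hπ : Irreducible π) (ιC : ↥(mgcE A K₁) →+* ℂ)
    (hp : p.Prime) (hpM : ¬ p ∣ M) : Prop :=
  ∃ (e : ↥(mgcF A K₁ (M * p))) (k m : ℕ), m ≠ 0 ∧
    IsIntegral ↥(Algebra.adjoin ↥(mgcA A K₁)
      ({(mgcT A K₁ (M * p))⁻¹} : Set ↥(mgcF A K₁ (M * p)))) e ∧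
    e - 1 ∈ (mgvV hπ ιC hp hpM true).nonunits ∧
    e ^ k - (mgcT A K₁ (M * p))⁻¹ ^ m ∈ (mgvV hπ ιC hp hpM false).nonunits

variable (K₁) [NumberField K₁] [IsGalois ℚ K₁]

set_option synthInstance.maxHeartbeats 400000 in
set_option maxHeartbeats 1600000 in
/-- **`hdat₁` of `wht_main`**: the point data on the chart `j`. -/
theorem wpt_hdat₁ (hp : p.Prime) (hpM : ¬ p ∣ M) (hA : A.LiesOverPrime p)
    (h2 : p = 2 → 3 ∣ M) (h3 : p = 3 → 2 ∣ M)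
    {π : ↥(mgcA A K₁)} (hπ : Irreducible π) (ιC : ↥(mgcE A K₁) →+* ℂ)
    (hU : WptUnit hπ ιC hp hpM) :
    ∀ 𝔫 : AtPt (F := ↥(mgcF A K₁ (M * p))) π (mgcT A K₁ (M * p)),
      WhtPtData (mgvV hπ ιC hp hpM) true false 𝔫 := by
  haveI := mgc_finiteDimensional A K₁ (M * p)
  have ht := mgc_transcendental A K₁ (M * p)
  haveI : IsNoetherianRing ↥(zchClosure (A₀ := ↥(mgcA A K₁))
      ({mgcT A K₁ (M * p)} : Set ↥(mgcF A K₁ (M * p)))) :=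
    chart_closure_isNoetherianRing (A₀ := ↥(mgcA A K₁)) (E := ↥(mgcE A K₁)) ht
  have hSS1 := mgcb_all_SS1 K₁ hp hpM hA h2 h3 hπ ιC
  obtain ⟨R₁, _, j₁, p₁, hram₁, hjp₁, hnode₁⟩ := stbmn_hnode₁ K₁ hp hpM hA h2 h3 hπ ιC
  obtain ⟨U, V', N, hUi, hVi, hUV, hU₁, hU₂⟩ := hU
  intro 𝔫
  exact wcp_ptData hπ ht (mgvV hπ ιC hp hpM) (mgv_hBV₁ hπ ιC hp hpM) (mgv_hπV hπ ιC hp hpM)
    hSS1 (mgv_hVloc₁ hπ ιC hp hpM hA hSS1) 𝔫 ((p : ℕ) : ↥(mgcA A K₁))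
    (wpt_natCast_ne_zero K₁ hp) (wpt_dvd_natCast K₁ hπ hA) j₁ p₁ hram₁ hjp₁ true false
    (fun c => by cases c <;> simp) hUi hVi hUV hU₁ hU₂ (hnode₁ 𝔫)

set_option synthInstance.maxHeartbeats 400000 in
set_option maxHeartbeats 1600000 in
/-- **`hdat₂` of `wht_main`**: the point data on the chart `1 / j`. -/
theorem wpt_hdat₂ (hp : p.Prime) (hpM : ¬ p ∣ M) (hA : A.LiesOverPrime p)
    (h2 : p = 2 → 3 ∣ M) (h3 : p = 3 → 2 ∣ M)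
    {π : ↥(mgcA A K₁)} (hπ : Irreducible π) (ιC : ↥(mgcE A K₁) →+* ℂ)
    (hU : WptUnit hπ ιC hp hpM) (hE : WptFrobE hπ ιC hp hpM) :
    ∀ 𝔫 : AtPt (F := ↥(mgcF A K₁ (M * p))) π (mgcT A K₁ (M * p))⁻¹,
      WhtPtData (mgvV hπ ιC hp hpM) true false 𝔫 := by
  haveI := mgc_finiteDimensional A K₁ (M * p)
  have ht := mgc_transcendental A K₁ (M * p)
  have ht' : Transcendental ↥(mgcE A K₁) (mgcT A K₁ (M * p))⁻¹ := zch_transcendental_inv ht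
  haveI : FiniteDimensional (↥(mgcE A K₁))⟮(mgcT A K₁ (M * p))⁻¹⟯ ↥(mgcF A K₁ (M * p)) :=
    at_finiteDimensional_inv (mgcT A K₁ (M * p))
  haveI : IsNoetherianRing ↥(zchClosure (A₀ := ↥(mgcA A K₁))
      ({(mgcT A K₁ (M * p))⁻¹} : Set ↥(mgcF A K₁ (M * p)))) :=
    chart_closure_isNoetherianRing (A₀ := ↥(mgcA A K₁)) (E := ↥(mgcE A K₁)) ht'
  have hSS1 := mgcb_all_SS1 K₁ hp hpM hA h2 h3 hπ ιC
  have hSS1' := ats_SS1_inv ht hπ (mgvV hπ ιC hp hpM) (mgv_hBV₁ hπ ιC hp hpM) hSS1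
  obtain ⟨R₂, _, j₂, p₂, hram₂, hjp₂, hnode₂⟩ := stbmn_hnode₂ K₁ hp hpM hA h2 h3 hπ ιC
  obtain ⟨U, V', N, hUi, hVi, hUV, hU₁, hU₂⟩ := hU
  obtain ⟨e, k, m, hm, hei, he₁, he₂⟩ := hE
  intro 𝔫
  exact wcp_ptData_inv hπ ht' (mgvV hπ ιC hp hpM) (mgv_hBV₂ hπ ιC hp hpM)
    (mgv_hπV hπ ιC hp hpM) hSS1' (mgv_hVloc₂ hπ ιC hp hpM hA hSS1) 𝔫
    ((p : ℕ) : ↥(mgcA A K₁)) (wpt_natCast_ne_zero K₁ hp) (wpt_dvd_natCast K₁ hπ hA) j₂ p₂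
    hram₂ hjp₂ true false (fun c => by cases c <;> simp) hUi hVi hUV hU₁ hU₂ hei he₁ hm he₂
    (hnode₂ 𝔫)

end Pts

end Fermat.Agent.S33
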