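import Fermat.Agent.S33.WildHor

/-!
# S33 v2, C4 (WILD), piece T5f: the nodes have FINITE THICKNESS

Abstract setting of `S33/WildHor.lean`: `O = B_𝔫 ⊆ F` the local ring of a crossing point, `V₁`,
`V₂` the two vertical valuation rings through it, `ord : ι → F → ℤ` the horizontal places of the
tube, `hN` normality of `O`.

A *stage datum* is `X, Y, G ∈ O`, `X · Y = q ^ n' · G`, with `X` a uniformizer of the branch
`O/𝔭₂` (`WhWinding O V₂ X`) and `Y` a unit of `V₁`.  (UNIP's Morse iteration gives stage data with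
`n' ≥ n` or `G ∉ 𝔫`, for every `n`.)

* `wth_bound` : if `U ∈ O` is a tube-unit with `U · V' = q ^ N`, `V' ∈ O` (the modular unit
  `q¹² Δ(qz)/Δ(z)`, `N = 12`: `S36/ThinUnit.lean`), of branch order `k` on the branch `O/𝔭₂`, then
  `n' · k ≤ N` for every stage datum.
* `wth_branch_pos` : `k ≥ 1` if `U` is not a unit of `V₁`.
* `wth_final_stage` : hence the stage data with `n = N + 1` are final: `G` is a unit of `O`.

Proof of the bound: `T := X ^ k / U` has no horizontal pole, is a unit at `V₂`, and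
`T · Y ^ k = q ^ (n' k − N) · G ^ k · V'`; if `n' k > N` then `T ∈ 𝔪(V₁)`, so `T ∈ O` is not a
unit; but `T ≡ η⁻¹` on the branch `O/𝔭₂`, so `T` is a unit (`rad`).
-/

set_option autoImplicit false

namespace Fermat.Agent.S33

section Thick

variable {F : Type*} [Field F] {ι : Type*}

/-- **The thickness bound.** -/
theorem wth_bound (ord : ι → F → ℤ)
    (hmul : ∀ i x y, x ≠ 0 → y ≠ 0 → ord i (x * y) = ord i x + ord i y)
    (O : Subring F) (V₁ V₂ : ValuationSubring F) (hOV₁ : ∀ x ∈ O, x ∈ V₁)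
    (hN : ∀ z : F, z ≠ 0 → (∀ j, 0 ≤ ord j z) → z ∈ V₁ → z ∈ V₂ → z ∈ O)
    (hordO : ∀ z ∈ O, z ≠ 0 → ∀ j, 0 ≤ ord j z)
    {X : F} (hW : WhWinding O V₂ X)
    {q : F} (hq0 : q ≠ 0) (hq₁ : V₁.valuation q < 1)
    {Y G : F} {n' : ℕ} (hYV₁ : V₁.valuation Y = 1) (hG : G ∈ O) (hXY : X * Y = q ^ n' * G)
    {U V' : F} {N : ℕ} (hV' : V' ∈ O) (hUV : U * V' = q ^ N)
    (hUtube : ∀ j, ord j U = 0)
    {k : ℕ} (hk : WhBranch O V₂ X U (k : ℤ)) :
    n' * k ≤ N := by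
  by_contra hcon
  rw [not_le] at hcon
  have hU2 : V₂.valuation U = 1 := hk.val_eq hW
  have hU0 : U ≠ 0 := wh_val_ne_zero V₂ hU2
  have hX0 : X ≠ 0 := wh_val_ne_zero V₂ hW.val
  have hY0 : Y ≠ 0 := wh_val_ne_zero V₁ hYV₁
  have hXk0 : X ^ k ≠ 0 := pow_ne_zero k hX0
  have hT0 : X ^ k / U ≠ 0 := div_ne_zero hXk0 hU0
  -- horizontal orders
  have hTord : ∀ j, 0 ≤ ord j (X ^ k / U) := by
    intro j
    have h1 := hmul j (X ^ k / U) U hT0 hU0
    rw [div_mul_cancel₀ _ hU0, hUtube j, add_zero] at h1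
    rw [← h1]
    exact hordO _ (O.pow_mem hW.mem k) hXk0 j
  -- `V₂`
  have hTV₂ : V₂.valuation (X ^ k / U) = 1 :=
    wh_val_div V₂ (wh_val_pow V₂ hW.val k) hU2
  -- `V₁`
  have hkey : X ^ k / U * Y ^ k = q ^ (n' * k - N) * (G ^ k * V') := by
    have h1 : X ^ k * Y ^ k = q ^ (n' * k) * G ^ k := by
      rw [← mul_pow, hXY, mul_pow, ← pow_mul]
    have h2 : q ^ (n' * k) = q ^ N * q ^ (n' * k - N) := by
      rw [← pow_add, Nat.add_sub_cancel' hcon.le]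
    have hqN : q ^ N ≠ 0 := pow_ne_zero N hq0
    have hV0 : V' ≠ 0 := by
      rintro rfl
      rw [mul_zero] at hUV
      exact hqN hUV.symm
    have h3 : U = q ^ N / V' := by
      rw [eq_div_iff hV0, hUV]
    rw [h3, div_div_eq_mul_div, div_mul_eq_mul_div, div_eq_iff hqN]
    calc X ^ k * V' * Y ^ k = (X ^ k * Y ^ k) * V' := by ring
      _ = q ^ N * q ^ (n' * k - N) * G ^ k * V' := by rw [h1, h2]
      _ = q ^ (n' * k - N) * (G ^ k * V') * q ^ N := by ring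
  have hTV₁ : V₁.valuation (X ^ k / U) < 1 := by
    have h1 : V₁.valuation (X ^ k / U * Y ^ k) = V₁.valuation (X ^ k / U) := by
      rw [map_mul, map_pow, hYV₁, one_pow, mul_one]
    rw [← h1, hkey, map_mul]
    have h2 : V₁.valuation (q ^ (n' * k - N)) < 1 := by
      rw [map_pow]
      exact pow_lt_one₀ zero_le hq₁ (by omega)
    refine mul_lt_one_of_lt_of_le h2 ((V₁.valuation_le_one_iff _).2 ?_)
    exact hOV₁ _ (O.mul_mem (O.pow_mem hG k) hV')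
  have hTO : X ^ k / U ∈ O :=
    hN _ hT0 hTord ((V₁.valuation_le_one_iff _).1 hTV₁.le) ((V₂.valuation_le_one_iff _).1 hTV₂.le)
  -- the branch
  obtain ⟨η, hη0, hη, hη', hUη⟩ := hk
  rw [zpow_natCast] at hUη
  have hηV₂ : V₂.valuation η = 1 := hW.val_unit hη0 hη hη'
  have h1 : V₂.valuation (X ^ k / U * η - 1) < 1 := by
    have e : X ^ k / U * η - 1 = -((U - X ^ k * η) / U) := by
      field_simp
      ring
    rw [e, Valuation.map_neg, map_div₀, hU2, div_one]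
    exact hUη
  have hinv : (X ^ k / U * η)⁻¹ ∈ O := hW.rad _ (O.mul_mem hTO hη) h1
  have h2 : V₁.valuation (X ^ k / U * η)⁻¹ ≤ 1 := (V₁.valuation_le_one_iff _).2 (hOV₁ _ hinv)
  have h3 : V₁.valuation (X ^ k / U * η) < 1 := by
    rw [map_mul]
    exact mul_lt_one_of_lt_of_le hTV₁ ((V₁.valuation_le_one_iff _).2 (hOV₁ _ hη))
  have h4 : V₁.valuation (X ^ k / U * η) ≠ 0 :=
    (Valuation.ne_zero_iff _).2 (mul_ne_zero hT0 hη0)
  rw [map_inv₀] at h2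
  have h5 : 1 ≤ V₁.valuation (X ^ k / U * η) := by
    have := (inv_le_one₀ (zero_lt_iff.mpr h4)).1 h2
    exact this
  exact absurd h3 (not_lt.2 h5)

/-- the branch order of a non-unit of `V₁` in `O` (which is a unit of `V₂`) is positive -/
theorem wth_branch_pos (O : Subring F) (V₁ V₂ : ValuationSubring F) (hOV₁ : ∀ x ∈ O, x ∈ V₁)
    {X : F} (hW : WhWinding O V₂ X) {U : F} (hU : U ∈ O) (hU₁ : V₁.valuation U < 1)
    (hU₂ : V₂.valuation U = 1) :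
    ∃ k : ℕ, 1 ≤ k ∧ WhBranch O V₂ X U (k : ℤ) := by
  have h := whOrd_spec hW hU₂
  have hnn := whOrd_nonneg hW hU hU₂
  obtain ⟨k, hk⟩ := Int.eq_ofNat_of_zero_le hnn
  rw [hk] at h
  refine ⟨k, ?_, h⟩
  rcases Nat.eq_zero_or_pos k with h0 | h0
  · exfalso
    rw [h0] at hk
    have hinv : U⁻¹ ∈ O := whOrd_unit hW hU hU₂ (by rw [hk]; rfl)
    have h1 : V₁.valuation U⁻¹ ≤ 1 := (V₁.valuation_le_one_iff _).2 (hOV₁ _ hinv)
    have hU0 : U ≠ 0 := wh_val_ne_zero V₂ hU₂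
    rw [map_inv₀] at h1
    have h2 : 1 ≤ V₁.valuation U :=
      (inv_le_one₀ (zero_lt_iff.mpr ((Valuation.ne_zero_iff _).2 hU0))).1 h1
    exact absurd hU₁ (not_lt.2 h2)
  · exact h0

/-- **Finite thickness.**  If stage data exist for every `n` (with `n ≤ n'` or `G` a unit of `O`)
and `U` is a tube-unit of `O` with `U · V' = q ^ N`, unit at `V₂` and non-unit at `V₁`, then there
is a FINAL stage datum: `X · Y = q ^ n' · G` with `G ∈ O^×`. -/
theorem wth_final_stage (ord : ι → F → ℤ)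
    (hmul : ∀ i x y, x ≠ 0 → y ≠ 0 → ord i (x * y) = ord i x + ord i y)
    (O : Subring F) (V₁ V₂ : ValuationSubring F) (hOV₁ : ∀ x ∈ O, x ∈ V₁)
    (hN : ∀ z : F, z ≠ 0 → (∀ j, 0 ≤ ord j z) → z ∈ V₁ → z ∈ V₂ → z ∈ O)
    (hordO : ∀ z ∈ O, z ≠ 0 → ∀ j, 0 ≤ ord j z)
    {q : F} (hq0 : q ≠ 0) (hq₁ : V₁.valuation q < 1)
    {U V' : F} {N : ℕ} (hU : U ∈ O) (hV' : V' ∈ O) (hUV : U * V' = q ^ N)
    (hUtube : ∀ j, ord j U = 0) (hU₁ : V₁.valuation U < 1) (hU₂ : V₂.valuation U = 1)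
    (P : F → F → F → ℕ → Prop)
    (hstage : ∀ n : ℕ, 1 ≤ n → ∃ (n' : ℕ) (X Y G : F), P X Y G n' ∧ WhWinding O V₂ X ∧
      V₁.valuation Y = 1 ∧ G ∈ O ∧ X * Y = q ^ n' * G ∧ (n ≤ n' ∨ G⁻¹ ∈ O)) :
    ∃ (n' : ℕ) (X Y G : F), P X Y G n' ∧ WhWinding O V₂ X ∧
      V₁.valuation Y = 1 ∧ G ∈ O ∧ G⁻¹ ∈ O ∧ X * Y = q ^ n' * G := by
  obtain ⟨n', X, Y, G, hP, hW, hY, hG, hXY, h⟩ := hstage (N + 1) (by omega)
  rcases h with h | h
  · exfalso
    obtain ⟨k, hk1, hk⟩ := wth_branch_pos O V₁ V₂ hOV₁ hW hU hU₁ hU₂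
    have hb := wth_bound ord hmul O V₁ V₂ hOV₁ hN hordO hW hq0 hq₁ hY hG hXY hV' hUV hUtube hk
    have : n' ≤ n' * k := Nat.le_mul_of_pos_right n' hk1
    omega
  · exact ⟨n', X, Y, G, hP, hW, hY, hG, h, hXY⟩

end Thick

end Fermat.Agent.S33
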