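import Fermat.Agent.S33.WildHT4
import Fermat.Agent.UNIP.MGChartsBeta0Reg
import Fermat.Agent.UNIP.MGChartsBeta0Data
import Fermat.Agent.UNIP.U5Concrete
import Fermat.Agent.UNIP.MGVertLocMain
import Fermat.Agent.UNIP.MGVloc
import Fermat.Agent.UNIP.MGFinal

/-!
# S33 v2, C4 (WILD), T5 top, part 1: the `E′`-level instance of `wht_main` (helper90)

Setting of `UNIP/MGConcrete.lean` + `UNIP/MGVertInertia.lean` at the level `M * p` with the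
residue characteristic `q := p` (twin of `STB.stbData_of_inputs`):
`E′ = mgcE A K₁ = ℚ̄^I · K₁`, `A′ = mgcA A K₁` (a discrete valuation ring, uniformizer `π`),
`F′ = mgcF A K₁ (M * p)`, `j = mgcT …`, `V = mgvV hπ ιC hp hpM` (`true ↦ V_∞`, `false ↦ V_0`),
`σ` in the inertia group of `A`, acting on `F′` through `mgcGal (M * p) σ hσ`.

* `wtop_hσζ` : `σ̂ ζ = ζ ^ a` on constants.
* `wtop_field` : **(T)-wild over `E′`**: for `u₀ ∈ F′^×` with `p ∣ div u₀`, rational support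
  (`MgcRat`) and split (`hsplit`, the output of C3 through the deep bridge `wdb_*`):
  `σ̂ u₀ / u₀ ^ a = c · h ^ p`, `c ∈ E′^×`.  The only hypotheses which are not discharged here are
  the point data `WhtPtData` at the closed points of the two charts (T5f-mod).
-/

set_option autoImplicit false
set_option linter.style.haveILetI false
set_option linter.unusedSectionVars false
set_option linter.unusedVariables false

noncomputable section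

namespace Fermat.Agent.S33

open ModularCurve AlgebraicCurve Fermat.Agent.ES Fermat.Agent.ES.G2 Fermat.Agent.INJ
open Fermat.Agent.UNIP Fermat.Agent.STB IntermediateField

section Field

variable {A : ValuationSubring Qb} {K₁ : IntermediateField ℚ Qb} {M p : ℕ} [NeZero M] [NeZero p]
  [IsDiscreteValuationRing ↥(mgcA A K₁)] {π : ↥(mgcA A K₁)} (hπ : Irreducible π)
  (ιC : ↥(mgcE A K₁) →+* ℂ) (hp : p.Prime) (hpM : ¬ p ∣ M)

/-- `π ∣ p` in `A′` -/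
theorem wtop_dvd_natCast (hπ : Irreducible π) (hA : A.LiesOverPrime p) :
    π ∣ ((p : ℕ) : ↥(mgcA A K₁)) := by
  have h1 : ((p : ℕ) : ↥(mgcA A K₁)) ∈ IsLocalRing.maximalIdeal ↥(mgcA A K₁) := by
    rw [beta0Ring_mem_maximalIdeal_iff]
    have e : ((((p : ℕ) : ↥(mgcA A K₁)) : ↥(mgcE A K₁)) : Qb) = ((p : ℕ) : Qb) := by
      push_cast
      rfl
    rw [e]
    exact hA
  rw [hπ.maximalIdeal_eq] at h1
  exact Ideal.mem_span_singleton.mp h1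

/-- `σ̂ ζ = ζ ^ a` on the constants of `F′` -/
theorem wtop_hσζ (N : ℕ) {ζ : ↥(mgcA A K₁)} {σ : Qb ≃ₐ[ℚ] Qb}
    (hσ : ∀ x ∈ mgcE A K₁, σ x ∈ mgcE A K₁) {a : ℕ}
    (hσζ : σ (((ζ : ↥(mgcE A K₁)) : Qb)) = (((ζ : ↥(mgcE A K₁)) : Qb)) ^ a) :
    mgcGal N σ hσ • algebraMap ↥(mgcA A K₁) ↥(mgcF A K₁ N) ζ =
      algebraMap ↥(mgcA A K₁) ↥(mgcF A K₁ N) ζ ^ a := by
  rw [mgcGal_smul, mgcAlgAGen_algebraMap, mgAct_algebraMap, ← map_pow]
  congr 1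
  apply Subtype.ext
  rw [mgRestrict_coe, hσζ]
  rfl

variable [NumberField K₁] [IsGalois ℚ K₁]

set_option synthInstance.maxHeartbeats 400000 in
set_option maxHeartbeats 1600000 in
/-- **(T)-wild over `E′`** from the point data at the closed points of the two charts. -/
theorem wtop_field (hA : A.LiesOverPrime p) (h2 : p = 2 → 3 ∣ M) (h3 : p = 3 → 2 ∣ M)
    (hdat₁ : ∀ 𝔫 : AtPt (F := ↥(mgcF A K₁ (M * p))) π (mgcT A K₁ (M * p)),
      WhtPtData (mgvV hπ ιC hp hpM) true false 𝔫)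
    (hdat₂ : ∀ 𝔫 : AtPt (F := ↥(mgcF A K₁ (M * p))) π (mgcT A K₁ (M * p))⁻¹,
      WhtPtData (mgvV hπ ιC hp hpM) true false 𝔫)
    {ζ : ↥(mgcA A K₁)} (hζ : IsPrimitiveRoot ζ p) (hlam : π ∣ ζ - 1)
    {σ : Qb ≃ₐ[ℚ] Qb} (hσI : σ ∈ A.inertiaSubgroupIn ℚ)
    (hσ : ∀ x ∈ mgcE A K₁, σ x ∈ mgcE A K₁) {a : ℕ}
    (hσζ : σ (((ζ : ↥(mgcE A K₁)) : Qb)) = (((ζ : ↥(mgcE A K₁)) : Qb)) ^ a)
    {u₀ : ↥(mgcF A K₁ (M * p))} (hu₀ : u₀ ≠ 0)
    (hdiv : ∀ P : Place Qb (modularFunctionFieldBar (M * p)),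
      ((p : ℕ) : ℤ) ∣ P.ord (nfEmb (mgcE A K₁) (M * p) u₀))
    (hR : MgcRat A K₁ (M * p) u₀)
    (hsplit : ∀ c, ∃ h : ↥(mgcF A K₁ (M * p)), h ≠ 0 ∧
      (mgvV hπ ιC hp hpM c).valuation (u₀ / h ^ p - 1) ≤
        (mgvV hπ ιC hp hpM c).valuation
          ((algebraMap ↥(mgcA A K₁) ↥(mgcF A K₁ (M * p)) ζ - 1) ^ p *
            algebraMap ↥(mgcA A K₁) ↥(mgcF A K₁ (M * p)) π)) :
    ∃ c : ↥(mgcE A K₁), c ≠ 0 ∧ ∃ h : ↥(mgcF A K₁ (M * p)),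
      mgcGal (M * p) σ hσ • u₀ / u₀ ^ a =
        algebraMap ↥(mgcE A K₁) ↥(mgcF A K₁ (M * p)) c * h ^ p := by
  haveI := mgc_finiteDimensional A K₁ (M * p)
  have ht := mgc_transcendental A K₁ (M * p)
  have hSS1 := mgcb_reg_SS1_J (K₀ := mgcE A K₁) hπ ιC hp hpM hA
    (stb_regChart_conc_J M hp hA le_sup_left hπ hpM h2 h3)
  obtain ⟨hσB₁, -, hσB₂, -, -, -⟩ := mgcb_G3 K₁ (M * p) hp hA (u5c_hπu₁ hp hA hpM h2 h3)
    (u5c_hred₁ hp hA hpM h2 h3) (u5c_hπu₂ hp hA hpM h2 h3) (u5c_hred₂ hp hA hpM h2 h3) hπ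
    hσI hσI hσ hσ
  have hrat' : ∀ P : Place ↥(mgcE A K₁) ↥(mgcF A K₁ (M * p)), P.ord u₀ ≠ 0 →
      ∀ f ∈ P.toValuationSubring, ∃ c : ↥(mgcE A K₁),
        f - algebraMap ↥(mgcE A K₁) ↥(mgcF A K₁ (M * p)) c ∈
          P.toValuationSubring.nonunits := by
    intro P hP f hf
    refine hR P 1 1 (fun a => rfl) ?_ f hf
    rw [map_one, one_smul]
    exact hP
  exact wht_main hπ ht (mgc_hcl A K₁ (M * p)) hp (wtop_dvd_natCast hπ hA) hζ hlam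
    (mgvV hπ ιC hp hpM) true false (fun c => by cases c <;> simp) (mgvl_hne hπ ιC hp hpM hA)
    (mgv_hBV₁ hπ ιC hp hpM) (mgv_hBV₂ hπ ιC hp hpM) (mgv_hπV hπ ιC hp hpM) hSS1
    (mgv_harch hπ ιC hp hpM) (mgv_hVloc₁ hπ ιC hp hpM hA hSS1)
    (mgv_hVloc₂ hπ ιC hp hpM hA hSS1) (mgcGal (M * p) σ hσ) hσB₁ hσB₂
    (fun c f hf => mgv_hσV hπ ιC hp hpM hσI hσ c f hf) (wtop_hσζ (M * p) hσ hσζ) hu₀ hsplit
    (mg_hfin (mgcE A K₁) (M * p) u₀ hu₀) (mg_dvd_ord (mgcE A K₁) (M * p) _ u₀ hdiv) hrat'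
    hdat₁ hdat₂

end Field

end Fermat.Agent.S33
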