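import Mathlib

/-!
# S33 v2, C4 (WILD), piece T3 "TWIST", part 1: valuation algebra  (helper61)

`F` a field, `V` a valuation subring, `ζ ∈ F` a primitive `p`-th root of unity (`p` prime),
`λ = ζ - 1`, `π` a non-unit of `V`.  "`x ∈ d V`" is written `V.valuation x ≤ V.valuation d`
(`wt_le_iff`).

* `wt_exists_small` : elements `s i` with unit differences and small product: one of them is
  small;
* `wt_val_root_sub` : `v(μ - μ') = v(λ)` for two distinct `p`-th roots of unity;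
* `wt_mem_mu` (W4a) : `t ^ p ∈ 1 + λ^p π V` ⇒ `t ∈ μ (1 + λ π V)` for a `p`-th root of unity `μ`;
* `wt_twist` (W4b) : then `σ t / t ^ a ∈ 1 + λ π V` for every automorphism `σ` with `σ V ⊆ V`,
  `σ ζ = ζ ^ a`, `σ π ∈ π V`  (THE point: `σ - a` kills `μ_p`);
* `wt_val_p` : `v(p) = v(λ)^(p-1)`;  `wt_pow_p` : `x ∈ 1 + λ π V` ⇒ `x ^ p ∈ 1 + λ^p π V`;
* `wt_deep_mul`, `wt_deep_div`, `wt_deep_pow`, … : the groups `1 + d V`.
-/

set_option autoImplicit false

namespace Fermat.Agent.S33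

variable {F : Type*} [Field F]

section Basic

variable (V : ValuationSubring F)

/-- `x ∈ d V` in terms of the valuation -/
theorem wt_le_iff {x d : F} : V.valuation x ≤ V.valuation d ↔ ∃ z ∈ V, x = d * z := by
  constructor
  · intro h
    by_cases hd : d = 0
    · subst hd
      rw [map_zero, le_zero_iff, map_eq_zero] at h
      exact ⟨0, V.zero_mem, by rw [h, mul_zero]⟩
    · refine ⟨x / d, ?_, by field_simp⟩
      rw [← V.valuation_le_one_iff, map_div₀]
      exact div_le_one_of_le₀ h zero_le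
  · rintro ⟨z, hz, rfl⟩
    rw [map_mul]
    exact mul_le_of_le_one_right zero_le ((V.valuation_le_one_iff z).2 hz)

/-- `1 + d V` consists of units when `d` is a non-unit -/
theorem wt_val_eq_one {x d : F} (hd : V.valuation d < 1)
    (hx : V.valuation (x - 1) ≤ V.valuation d) : V.valuation x = 1 := by
  have h1 : V.valuation (x - 1) < V.valuation (1 : F) := by
    rw [map_one]; exact lt_of_le_of_lt hx hd
  have := Valuation.map_add_eq_of_lt_right V.valuation h1
  rwa [sub_add_cancel, map_one] at this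

theorem wt_deep_mul {x y d : F} (hd : V.valuation d < 1)
    (hx : V.valuation (x - 1) ≤ V.valuation d) (hy : V.valuation (y - 1) ≤ V.valuation d) :
    V.valuation (x * y - 1) ≤ V.valuation d := by
  have e : x * y - 1 = (x - 1) * y + (y - 1) := by ring
  rw [e]
  refine Valuation.map_add_le _ ?_ hy
  rw [map_mul, wt_val_eq_one V hd hy, mul_one]
  exact hx

theorem wt_deep_inv {x d : F} (hd : V.valuation d < 1)
    (hx : V.valuation (x - 1) ≤ V.valuation d) : V.valuation (x⁻¹ - 1) ≤ V.valuation d := by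
  have hx1 := wt_val_eq_one V hd hx
  have hx0 : x ≠ 0 := by
    rintro rfl
    rw [map_zero] at hx1
    exact zero_ne_one hx1
  have e : x⁻¹ - 1 = -(x - 1) * x⁻¹ := by field_simp; ring
  rw [e, map_mul, map_inv₀, hx1, inv_one, mul_one, Valuation.map_neg]
  exact hx

theorem wt_deep_div {x y d : F} (hd : V.valuation d < 1)
    (hx : V.valuation (x - 1) ≤ V.valuation d) (hy : V.valuation (y - 1) ≤ V.valuation d) :
    V.valuation (x / y - 1) ≤ V.valuation d := by
  rw [div_eq_mul_inv]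
  exact wt_deep_mul V hd hx (wt_deep_inv V hd hy)

theorem wt_deep_one (d : F) : V.valuation ((1 : F) - 1) ≤ V.valuation d := by
  rw [sub_self, map_zero]
  exact zero_le

theorem wt_deep_pow {x d : F} (hd : V.valuation d < 1)
    (hx : V.valuation (x - 1) ≤ V.valuation d) (n : ℕ) :
    V.valuation (x ^ n - 1) ≤ V.valuation d := by
  induction n with
  | zero => rw [pow_zero]; exact wt_deep_one V d
  | succ n ih => rw [pow_succ]; exact wt_deep_mul V hd ih hx

/-- `x ≡ y mod d V`, `x, y ∈ V` ⇒ `x ^ n ≡ y ^ n mod d V` -/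
theorem wt_pow_sub_pow {x y d : F} (hx : V.valuation x ≤ 1) (hy : V.valuation y ≤ 1)
    (h : V.valuation (x - y) ≤ V.valuation d) (n : ℕ) :
    V.valuation (x ^ n - y ^ n) ≤ V.valuation d := by
  induction n with
  | zero => rw [pow_zero, pow_zero, sub_self, map_zero]; exact zero_le
  | succ n ih =>
    have e : x ^ (n + 1) - y ^ (n + 1) = (x ^ n - y ^ n) * x + y ^ n * (x - y) := by ring
    rw [e]
    refine Valuation.map_add_le _ ?_ ?_
    · rw [map_mul]
      exact (mul_le_of_le_one_right zero_le hx).trans ih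
    · rw [map_mul, map_pow]
      exact (mul_le_of_le_one_left zero_le (pow_le_one₀ zero_le hy)).trans h

/-- elements with unit differences and a small product: one of them is small -/
theorem wt_exists_small {ι : Type*} (S : Finset ι) (s : ι → F)
    (hdiff : ∀ i ∈ S, ∀ j ∈ S, i ≠ j → V.valuation (s i - s j) = 1) {r : F}
    (hr : V.valuation r < 1) (hprod : V.valuation (∏ i ∈ S, s i) ≤ V.valuation r) :
    ∃ i ∈ S, V.valuation (s i) ≤ V.valuation r := by
  classical
  have h1 : ∃ i ∈ S, V.valuation (s i) < 1 := by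
    by_contra hcon
    simp only [not_exists, not_and, not_lt] at hcon
    have : (1 : V.ValueGroup) ≤ V.valuation (∏ i ∈ S, s i) := by
      rw [map_prod]
      exact Finset.one_le_prod' (fun i hi => hcon i hi) |>.trans_eq rfl
    exact absurd (this.trans hprod) (not_le.2 hr)
  obtain ⟨i₀, hi₀, hlt⟩ := h1
  refine ⟨i₀, hi₀, ?_⟩
  have h2 : ∀ j ∈ S, j ≠ i₀ → V.valuation (s j) = 1 := by
    intro j hj hne
    have hd := hdiff j hj i₀ hi₀ hne
    have h3 : V.valuation (s i₀) < V.valuation (s j - s i₀) := by rw [hd]; exact hlt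
    have := Valuation.map_add_eq_of_lt_left V.valuation h3
    rwa [sub_add_cancel, hd] at this
  have h4 : V.valuation (∏ i ∈ S, s i) = V.valuation (s i₀) := by
    rw [map_prod, ← Finset.mul_prod_erase S _ hi₀]
    rw [Finset.prod_eq_one (fun j hj => h2 j (Finset.mem_of_mem_erase hj)
      (Finset.ne_of_mem_erase hj)), mul_one]
  rw [← h4]
  exact hprod

end Basic

/-! ## roots of unity -/

section Cyclo

variable (V : ValuationSubring F) {p : ℕ} {ζ : F}

theorem wt_val_root {n : ℕ} (hn : n ≠ 0) {μ : F} (hμ : μ ^ n = 1) : V.valuation μ = 1 := by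
  have h1 : V.valuation μ ^ n = 1 := by rw [← map_pow, hμ, map_one]
  exact (pow_eq_one_iff.1 h1).resolve_right hn

theorem wt_val_pow_sub_one_le {x : F} (hx : V.valuation x ≤ 1) (k : ℕ) :
    V.valuation (x ^ k - 1) ≤ V.valuation (x - 1) := by
  have := wt_pow_sub_pow V hx (le_of_eq (map_one V.valuation)) (le_refl (V.valuation (x - 1))) k
  rwa [one_pow] at this

/-- `v(η - 1) = v(ζ - 1)` for two primitive `p`-th roots of unity -/
theorem wt_val_prim_sub_one (hp : p.Prime) (hζ : IsPrimitiveRoot ζ p) {η : F}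
    (hη : IsPrimitiveRoot η p) : V.valuation (η - 1) = V.valuation (ζ - 1) := by
  have : NeZero p := ⟨hp.ne_zero⟩
  obtain ⟨i, -, hi⟩ := hζ.eq_pow_of_pow_eq_one hη.pow_eq_one
  obtain ⟨j, -, hj⟩ := hη.eq_pow_of_pow_eq_one hζ.pow_eq_one
  apply le_antisymm
  · rw [← hi]
    exact wt_val_pow_sub_one_le V (wt_val_root V hp.ne_zero hζ.pow_eq_one).le i
  · rw [← hj]
    exact wt_val_pow_sub_one_le V (wt_val_root V hp.ne_zero hη.pow_eq_one).le j

/-- `v(μ - μ') = v(ζ - 1)` for two distinct `p`-th roots of unity -/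
theorem wt_val_root_sub (hp : p.Prime) (hζ : IsPrimitiveRoot ζ p) {μ μ' : F} (hμ : μ ^ p = 1)
    (hμ' : μ' ^ p = 1) (hne : μ ≠ μ') : V.valuation (μ - μ') = V.valuation (ζ - 1) := by
  have hμ'0 : μ' ≠ 0 := by
    rintro rfl
    rw [zero_pow hp.ne_zero] at hμ'
    exact zero_ne_one hμ'
  have hη : IsPrimitiveRoot (μ / μ') p := by
    have h1 : μ / μ' ∈ Polynomial.nthRootsFinset p (1 : F) := by
      rw [Polynomial.mem_nthRootsFinset hp.pos, div_pow, hμ, hμ', div_one]
    exact isPrimitiveRoot_of_mem_nthRootsFinset hp h1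
      (fun h => hne ((div_eq_one_iff_eq hμ'0).1 h))
  have e : μ - μ' = μ' * (μ / μ' - 1) := by field_simp
  rw [e, map_mul, wt_val_root V hp.ne_zero hμ', one_mul, wt_val_prim_sub_one V hp hζ hη]

theorem wt_lam_ne_zero (hp : p.Prime) (hζ : IsPrimitiveRoot ζ p) : ζ - 1 ≠ 0 :=
  sub_ne_zero.2 (hζ.ne_one hp.one_lt)

theorem wt_val_lam_le (hp : p.Prime) (hζ : IsPrimitiveRoot ζ p) : V.valuation (ζ - 1) ≤ 1 :=
  Valuation.map_sub_le _ (wt_val_root V hp.ne_zero hζ.pow_eq_one).le (map_one V.valuation).le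

/-- **W4a.**  `t ^ p ∈ 1 + λ^p π V` ⇒ `t ∈ μ + λ π V` for a `p`-th root of unity `μ`. -/
theorem wt_mem_mu (hp : p.Prime) (hζ : IsPrimitiveRoot ζ p) {π : F} (hπ : V.valuation π < 1)
    {t : F} (ht : V.valuation (t ^ p - 1) ≤ V.valuation ((ζ - 1) ^ p * π)) :
    ∃ μ : F, μ ^ p = 1 ∧ V.valuation (t - μ) ≤ V.valuation ((ζ - 1) * π) := by
  classical
  have hl := wt_lam_ne_zero hp hζ
  have hprod : t ^ p - 1 = ∏ μ ∈ Polynomial.nthRootsFinset p (1 : F), (t - μ) := by
    have := hζ.pow_sub_pow_eq_prod_sub_mul t 1 hp.pos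
    rw [one_pow] at this
    rw [this]
    exact Finset.prod_congr rfl fun μ _ => by rw [mul_one]
  have hprod' : ∏ μ ∈ Polynomial.nthRootsFinset p (1 : F), (t - μ) / (ζ - 1)
      = (t ^ p - 1) / (ζ - 1) ^ p := by
    rw [Finset.prod_div_distrib, Finset.prod_const, hζ.card_nthRootsFinset, hprod]
  obtain ⟨μ, hμ, hs⟩ := wt_exists_small V (Polynomial.nthRootsFinset p (1 : F))
    (fun μ => (t - μ) / (ζ - 1)) (r := π)
    (fun μ hμ μ' hμ' hne => by
      have e : (t - μ) / (ζ - 1) - (t - μ') / (ζ - 1) = (μ' - μ) / (ζ - 1) := by ring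
      rw [e, map_div₀, wt_val_root_sub V hp hζ
        ((Polynomial.mem_nthRootsFinset hp.pos 1).1 hμ')
        ((Polynomial.mem_nthRootsFinset hp.pos 1).1 hμ) (Ne.symm hne)]
      exact div_self ((Valuation.ne_zero_iff _).2 hl))
    hπ
    (by
      rw [hprod', map_div₀]
      rw [map_mul] at ht
      exact div_le_of_le_mul₀ zero_le zero_le (by rwa [mul_comm] at ht))
  refine ⟨μ, (Polynomial.mem_nthRootsFinset hp.pos 1).1 hμ, ?_⟩
  rw [map_div₀] at hs
  rw [map_mul, mul_comm]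
  exact (div_le_iff₀ (zero_lt_iff.2 ((Valuation.ne_zero_iff _).2 hl))).1 hs

/-- `σ x ∈ σ d V` for `x ∈ d V` -/
theorem wt_map_le (σ : F →+* F) (hσV : ∀ x : F, V.valuation x ≤ 1 → V.valuation (σ x) ≤ 1)
    {x d : F} (h : V.valuation x ≤ V.valuation d) : V.valuation (σ x) ≤ V.valuation (σ d) := by
  obtain ⟨z, hz, rfl⟩ := (wt_le_iff V).1 h
  rw [map_mul, map_mul]
  exact mul_le_of_le_one_right zero_le (hσV z ((V.valuation_le_one_iff z).2 hz))

/-- **W4b (TWIST).**  `t ^ p ∈ 1 + λ^p π V`, `σ ζ = ζ ^ a` ⇒ `σ t / t ^ a ∈ 1 + λ π V`. -/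
theorem wt_twist (hp : p.Prime) (hζ : IsPrimitiveRoot ζ p) {π : F} (hπ : V.valuation π < 1)
    (σ : F →+* F) (hσV : ∀ x : F, V.valuation x ≤ 1 → V.valuation (σ x) ≤ 1)
    {a : ℕ} (hσζ : σ ζ = ζ ^ a) (hσπ : V.valuation (σ π) ≤ V.valuation π)
    {t : F} (ht : V.valuation (t ^ p - 1) ≤ V.valuation ((ζ - 1) ^ p * π)) :
    V.valuation (σ t / t ^ a - 1) ≤ V.valuation ((ζ - 1) * π) := by
  have : NeZero p := ⟨hp.ne_zero⟩
  obtain ⟨μ, hμ, htμ⟩ := wt_mem_mu V hp hζ hπ ht
  have hμ1 := wt_val_root V hp.ne_zero hμ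
  have hd : V.valuation ((ζ - 1) * π) < 1 := by
    rw [map_mul]
    exact lt_of_le_of_lt (mul_le_of_le_one_left zero_le (wt_val_lam_le V hp hζ)) hπ
  have ht1 : V.valuation t = 1 := by
    have h3 : V.valuation (t - μ) < V.valuation μ := by rw [hμ1]; exact lt_of_le_of_lt htμ hd
    have := Valuation.map_add_eq_of_lt_right V.valuation h3
    rwa [sub_add_cancel, hμ1] at this
  have hσμ : σ μ = μ ^ a := by
    obtain ⟨i, -, rfl⟩ := hζ.eq_pow_of_pow_eq_one hμ
    rw [map_pow, hσζ, ← pow_mul, ← pow_mul, mul_comm]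
  have h1 : V.valuation (σ t - μ ^ a) ≤ V.valuation ((ζ - 1) * π) := by
    have h2 := wt_map_le V σ hσV htμ
    rw [map_sub, hσμ] at h2
    refine h2.trans ?_
    rw [map_mul, map_mul, map_mul, map_sub, hσζ, map_one]
    exact mul_le_mul' (wt_val_pow_sub_one_le V (wt_val_root V hp.ne_zero hζ.pow_eq_one).le a) hσπ
  have h2 : V.valuation (t ^ a - μ ^ a) ≤ V.valuation ((ζ - 1) * π) :=
    wt_pow_sub_pow V ht1.le hμ1.le htμ a
  have hta0 : t ^ a ≠ 0 := by
    apply pow_ne_zero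
    rintro rfl
    rw [map_zero] at ht1
    exact zero_ne_one ht1
  have e : σ t / t ^ a - 1 = ((σ t - μ ^ a) - (t ^ a - μ ^ a)) / t ^ a := by
    field_simp
    ring
  rw [e, map_div₀, map_pow, ht1, one_pow, div_one]
  exact Valuation.map_sub_le _ h1 h2

/-- `p ∈ λ^(p-1) V` -/
theorem wt_val_p_le (hp : p.Prime) (hζ : IsPrimitiveRoot ζ p) :
    V.valuation (p : F) ≤ V.valuation (ζ - 1) ^ (p - 1) := by
  obtain ⟨n, rfl⟩ : ∃ n, p = n + 1 := ⟨p - 1, (Nat.succ_pred_eq_of_pos hp.pos).symm⟩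
  have h := hζ.prod_one_sub_pow_eq_order
  have h' : ((n + 1 : ℕ) : F) = ∏ k ∈ Finset.range n, (1 - ζ ^ (k + 1)) := by
    rw [h]; push_cast; ring
  rw [h', map_prod, Nat.add_sub_cancel]
  calc ∏ k ∈ Finset.range n, V.valuation (1 - ζ ^ (k + 1))
      ≤ ∏ _k ∈ Finset.range n, V.valuation (ζ - 1) := by
        refine Finset.prod_le_prod' fun k _ => ?_
        rw [Valuation.map_sub_swap]
        exact wt_val_pow_sub_one_le V (wt_val_root V hp.ne_zero hζ.pow_eq_one).le (k + 1)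
    _ = V.valuation (ζ - 1) ^ n := by rw [Finset.prod_const, Finset.card_range]

/-- `x ∈ 1 + λ π V` ⇒ `x ^ p ∈ 1 + λ^p π V` -/
theorem wt_pow_p (hp : p.Prime) (hζ : IsPrimitiveRoot ζ p) {π : F} (hπ : V.valuation π ≤ 1)
    {x : F} (hx : V.valuation (x - 1) ≤ V.valuation ((ζ - 1) * π)) :
    V.valuation (x ^ p - 1) ≤ V.valuation ((ζ - 1) ^ p * π) := by
  have hl1 := wt_val_lam_le V hp hζ
  have hy1 : V.valuation (x - 1) ≤ 1 := by
    refine hx.trans ?_
    rw [map_mul]
    exact mul_le_one' hl1 hπ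
  have e := add_pow_prime_eq hp (x - 1) 1
  rw [sub_add_cancel, one_pow] at e
  have e' : x ^ p - 1 = (x - 1) ^ p + (p : F) * (x - 1) * 1 *
      ∑ k ∈ Finset.Ioo 0 p, (x - 1) ^ (k - 1) * 1 ^ (p - k - 1) * ((p.choose k / p : ℕ) : F) := by
    rw [e]; ring
  rw [e']
  have hpp : p = (p - 1) + 1 := (Nat.succ_pred_eq_of_pos hp.pos).symm
  refine Valuation.map_add_le _ ?_ ?_
  · rw [map_pow, map_mul, map_pow]
    calc V.valuation (x - 1) ^ p ≤ (V.valuation (ζ - 1) * V.valuation π) ^ p := by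
          rw [← map_mul]; exact pow_le_pow_left' hx p
      _ = V.valuation (ζ - 1) ^ p * V.valuation π ^ p := mul_pow _ _ _
      _ ≤ V.valuation (ζ - 1) ^ p * V.valuation π := by
          refine mul_le_mul' le_rfl ?_
          conv_lhs => rw [hpp, pow_succ]
          exact mul_le_of_le_one_left zero_le (pow_le_one₀ zero_le hπ)
  · rw [map_mul, map_mul, map_mul, map_one, mul_one]
    have hsum : V.valuation (∑ k ∈ Finset.Ioo 0 p,
        (x - 1) ^ (k - 1) * 1 ^ (p - k - 1) * ((p.choose k / p : ℕ) : F)) ≤ 1 := by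
      refine Valuation.map_sum_le _ fun k _ => ?_
      rw [map_mul, map_mul, map_pow, map_pow, map_one, one_pow, mul_one]
      refine mul_le_one' (pow_le_one₀ zero_le hy1) ?_
      exact (V.valuation_le_one_iff _).2 (natCast_mem V _)
    calc V.valuation (p : F) * V.valuation (x - 1) * V.valuation (∑ k ∈ Finset.Ioo 0 p,
          (x - 1) ^ (k - 1) * 1 ^ (p - k - 1) * ((p.choose k / p : ℕ) : F))
        ≤ V.valuation (p : F) * V.valuation (x - 1) := mul_le_of_le_one_right zero_le hsum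
      _ ≤ V.valuation (ζ - 1) ^ (p - 1) * (V.valuation (ζ - 1) * V.valuation π) := by
          rw [← map_mul (V.valuation) (ζ - 1) π]
          exact mul_le_mul' (wt_val_p_le V hp hζ) hx
      _ = V.valuation ((ζ - 1) ^ p * π) := by
          rw [map_mul, map_pow, ← mul_assoc, ← pow_succ, ← hpp]

end Cyclo

/-! ## The wild shape and the twist -/

section Shape

variable {κ ι : Type*}

/-- **The wild shape** (`lam = ζ - 1`): `w ≡ 1 mod lam^p π` at every vertical valuation, and at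
every closed point `w = ε · γ ^ p` with `ε ∈ 1 + lam^p π (O i)` and `γ ≡ 1 mod lam π` at the
vertical valuations through the point. -/
def WildShape (V : κ → ValuationSubring F) (O : ι → Subring F) (inc : ι → κ → Prop)
    (lam π : F) (p : ℕ) (w : F) : Prop :=
  (∀ c, (V c).valuation (w - 1) ≤ (V c).valuation (lam ^ p * π)) ∧
    ∀ i, ∃ ε γ : F, (∃ y ∈ O i, ε - 1 = lam ^ p * π * y) ∧
      (∀ c, inc i c → (V c).valuation (γ - 1) ≤ (V c).valuation (lam * π)) ∧ w = ε * γ ^ p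

/-- **T3 (TWIST).**  `u` split at all vertical valuations (`hsplit`, = C3) and of the improved
local shape at all closed points (`hloc`, = T2 + T4); `σ` an automorphism with `σ ζ = ζ ^ a`
preserving the valuations `V c` and the local rings `O i`.  Then `σ u / u ^ a` has the wild
shape up to a `p`-th power `γ ^ p` (weak approximation `hWA`). -/
theorem wt_main (V : κ → ValuationSubring F) (O : ι → Subring F) (inc : ι → κ → Prop)
    (hOV : ∀ i c, inc i c → ∀ x ∈ O i, x ∈ V c)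
    {p : ℕ} (hp : p.Prime) {ζ : F} (hζ : IsPrimitiveRoot ζ p) (hζO : ∀ i, ζ ∈ O i)
    {π : F} (hπV : ∀ c, (V c).valuation π < 1) (hπO : ∀ i, π ∈ O i)
    (hunit : ∀ i, ∀ y ∈ O i, (1 + π * y)⁻¹ ∈ O i)
    (σ : F →+* F) {a : ℕ} (hσζ : σ ζ = ζ ^ a)
    (hσV : ∀ c (f : F), (V c).valuation (σ f) = (V c).valuation f)
    (hσO : ∀ i, ∀ x ∈ O i, σ x ∈ O i)
    (hσπ : ∀ i, ∃ v ∈ O i, σ π = π * v)
    (hWA : ∀ T : κ → F, (∀ c, T c ≠ 0) → ∃ H : F, H ≠ 0 ∧
      ∀ c, (V c).valuation (H / T c - 1) ≤ (V c).valuation ((ζ - 1) * π))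
    {u : F} (hu : u ≠ 0)
    (hsplit : ∀ c, ∃ h : F, h ≠ 0 ∧
      (V c).valuation (u / h ^ p - 1) ≤ (V c).valuation ((ζ - 1) ^ p * π))
    (hloc : ∀ i, ∃ g : F, g ≠ 0 ∧ ∃ y ∈ O i, u / g ^ p - 1 = (ζ - 1) ^ p * π * y) :
    ∃ γ : F, γ ≠ 0 ∧ WildShape V O inc (ζ - 1) π p (σ u / u ^ a / γ ^ p) := by
  classical
  choose h hh0 hh using hsplit
  have hσ0 : ∀ {x : F}, x ≠ 0 → σ x ≠ 0 := fun hx => (map_ne_zero σ).2 hx
  have hγc0 : ∀ c, σ (h c) / h c ^ a ≠ 0 := fun c =>
    div_ne_zero (hσ0 (hh0 c)) (pow_ne_zero a (hh0 c))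
  obtain ⟨γ, hγ0, hγ⟩ := hWA (fun c => σ (h c) / h c ^ a) hγc0
  -- depths
  have hd1 : ∀ c, (V c).valuation ((ζ - 1) * π) < 1 := fun c => by
    rw [map_mul]
    exact lt_of_le_of_lt (mul_le_of_le_one_left zero_le (wt_val_lam_le (V c) hp hζ)) (hπV c)
  have hdp : ∀ c, (V c).valuation ((ζ - 1) ^ p * π) < 1 := fun c => by
    rw [map_mul, map_pow]
    exact lt_of_le_of_lt (mul_le_of_le_one_left zero_le
      (pow_le_one₀ zero_le (wt_val_lam_le (V c) hp hζ))) (hπV c)
  -- `σ` preserves `1 + d V c`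
  have hσdeep : ∀ c {x d : F}, (V c).valuation (x - 1) ≤ (V c).valuation d →
      (V c).valuation (σ x - 1) ≤ (V c).valuation d := by
    intro c x d hx
    have : σ x - 1 = σ (x - 1) := by rw [map_sub, map_one]
    rw [this, hσV]
    exact hx
  -- the twist of a function `≡ 1` is `≡ 1`
  have htw : ∀ c {x d : F}, (V c).valuation d < 1 →
      (V c).valuation (x - 1) ≤ (V c).valuation d →
      (V c).valuation (σ x / x ^ a - 1) ≤ (V c).valuation d := fun c x d hd hx =>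
    wt_deep_div (V c) hd (hσdeep c hx) (wt_deep_pow (V c) hd hx a)
  -- `w / γ_c ^ p ≡ 1`
  have hwc : ∀ c, (V c).valuation (σ u / u ^ a / (σ (h c) / h c ^ a) ^ p - 1)
      ≤ (V c).valuation ((ζ - 1) ^ p * π) := by
    intro c
    have e : σ u / u ^ a / (σ (h c) / h c ^ a) ^ p
        = σ (u / h c ^ p) / (u / h c ^ p) ^ a := by
      have h1 := hh0 c
      have h2 := hσ0 (hh0 c)
      simp only [map_div₀, map_pow, div_pow, ← pow_mul, mul_comm p a]
      field_simp
    rw [e]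
    exact htw c (hdp c) (hh c)
  -- `(γ_c / γ) ^ p ≡ 1`
  have hγp : ∀ c, (V c).valuation ((σ (h c) / h c ^ a / γ) ^ p - 1)
      ≤ (V c).valuation ((ζ - 1) ^ p * π) := by
    intro c
    refine wt_pow_p (V c) hp hζ (hπV c).le ?_
    have := wt_deep_inv (V c) (hd1 c) (hγ c)
    rwa [inv_div] at this
  refine ⟨γ, hγ0, fun c => ?_, fun i => ?_⟩
  · have e : σ u / u ^ a / γ ^ p
        = (σ u / u ^ a / (σ (h c) / h c ^ a) ^ p) * (σ (h c) / h c ^ a / γ) ^ p := by
      have hB := hγc0 c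
      generalize σ (h c) / h c ^ a = B at hB
      rw [div_pow B γ]
      field_simp
    rw [e]
    exact wt_deep_mul (V c) (hdp c) (hwc c) (hγp c)
  · obtain ⟨g, hg0, y, hy, hgy⟩ := hloc i
    obtain ⟨v, hv, hσπv⟩ := hσπ i
    have hσg0 := hσ0 hg0
    -- `ε₀ = u / g ^ p = 1 + lam^p π y`
    set ε₀ := u / g ^ p with hε₀
    have hε₀1 : ε₀ = 1 + π * ((ζ - 1) ^ p * y) := by
      rw [← sub_eq_iff_eq_add'] ; rw [hgy]; ring
    have hlamO : (ζ - 1) ∈ O i := (O i).sub_mem (hζO i) (O i).one_mem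
    have hε₀inv : ε₀⁻¹ ∈ O i := by
      rw [hε₀1]
      exact hunit i _ ((O i).mul_mem ((O i).pow_mem hlamO p) hy)
    have hε₀ne : ε₀ ≠ 0 := div_ne_zero hu (pow_ne_zero p hg0)
    -- `σ lam = lam · η`
    have hση : ∃ η ∈ O i, σ (ζ - 1) = (ζ - 1) * η := by
      refine ⟨∑ k ∈ Finset.range a, ζ ^ k, (O i).sum_mem fun k _ => (O i).pow_mem (hζO i) k, ?_⟩
      rw [map_sub, map_one, hσζ, mul_comm, geom_sum_mul]
    obtain ⟨η, hη, hσlam⟩ := hση
    -- `ε := σ ε₀ / ε₀ ^ a ∈ 1 + lam^p π O i`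
    have hε : ∃ y' ∈ O i, σ ε₀ / ε₀ ^ a - 1 = (ζ - 1) ^ p * π * y' := by
      -- `σ ε₀ = 1 + lam^p π y₁`
      have h1 : σ ε₀ = 1 + (ζ - 1) ^ p * π * (η ^ p * v * σ y) := by
        rw [hε₀1, map_add, map_one, map_mul, map_mul, map_pow, hσπv, hσlam, mul_pow]
        ring
      -- `ε₀ ^ a = 1 + lam^p π y₂`
      have h2 : ∀ n : ℕ, ∃ y₂ ∈ O i, ε₀ ^ n = 1 + (ζ - 1) ^ p * π * y₂ := by
        intro n
        induction n with
        | zero => exact ⟨0, (O i).zero_mem, by rw [pow_zero, mul_zero, add_zero]⟩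
        | succ n ih =>
          obtain ⟨y₂, hy₂, e₂⟩ := ih
          refine ⟨y₂ + y + (ζ - 1) ^ p * π * y₂ * y, ?_, ?_⟩
          · exact (O i).add_mem ((O i).add_mem hy₂ hy)
              ((O i).mul_mem ((O i).mul_mem ((O i).mul_mem ((O i).pow_mem hlamO p) (hπO i)) hy₂)
                hy)
          · rw [pow_succ, e₂]
            have : ε₀ = 1 + (ζ - 1) ^ p * π * y := by rw [hε₀1]; ring
            rw [this]
            ring
      obtain ⟨y₂, hy₂, e₂⟩ := h2 a
      refine ⟨(η ^ p * v * σ y - y₂) * (ε₀⁻¹) ^ a, ?_, ?_⟩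
      · exact (O i).mul_mem ((O i).sub_mem ((O i).mul_mem ((O i).mul_mem ((O i).pow_mem hη p) hv)
          (hσO i y hy)) hy₂) ((O i).pow_mem hε₀inv a)
      · have hεa : ε₀ ^ a ≠ 0 := pow_ne_zero a hε₀ne
        rw [div_sub_one hεa, h1, inv_pow]
        rw [eq_comm, mul_comm _ ((ε₀ ^ a)⁻¹), ← mul_assoc, ← mul_assoc, mul_comm _ ((ε₀ ^ a)⁻¹),
          mul_assoc, mul_assoc, ← div_eq_inv_mul]
        congr 1
        rw [e₂]
        ring
    obtain ⟨y', hy', hεy'⟩ := hε
    refine ⟨σ ε₀ / ε₀ ^ a, σ g / g ^ a / γ, ⟨y', hy', hεy'⟩, fun c hc => ?_, ?_⟩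
    · -- `γ_i / γ = (γ_i / γ_c) (γ_c / γ)`
      have e : σ g / g ^ a / γ
          = (σ (g / h c) / (g / h c) ^ a) * (σ (h c) / h c ^ a / γ) := by
        have h1 := hh0 c
        have h2 := hσ0 (hh0 c)
        rw [map_div₀, div_pow]
        field_simp
      rw [e]
      refine wt_deep_mul (V c) (hd1 c) ?_ ?_
      · -- the twist of `t = g / h c`, `t ^ p ≡ 1`
        refine wt_twist (V c) hp hζ (hπV c) σ (fun x hx => by rw [hσV]; exact hx) hσζ
          (by rw [hσV]) ?_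
        have e' : (g / h c) ^ p = (u / h c ^ p) / ε₀ := by
          rw [hε₀, div_pow]
          have h1 := hh0 c
          field_simp
        rw [e']
        refine wt_deep_div (V c) (hdp c) (hh c) ?_
        rw [hgy]
        rw [map_mul]
        exact mul_le_of_le_one_right zero_le ((V c).valuation_le_one_iff _ |>.2 (hOV i c hc y hy))
      · have := wt_deep_inv (V c) (hd1 c) (hγ c)
        rwa [inv_div] at this
    · simp only [hε₀, map_div₀, map_pow, div_pow, ← pow_mul, mul_comm p a]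
      field_simp

end Shape

end Fermat.Agent.S33
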